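import Fermat.Agent.S24.DegLe
import Fermat.Agent.S24.FICore
import Fermat.Agent.S24.FIWrap
import Fermat.Agent.S24.DiffPlace
import Fermat.Prelude.Def_ModularCurve_HeckeOperatorTotal

/-!
# P-RED, module HK-MOD: the modular half of `HeckeInputsAlong`

For `K = ℚ̄`, `F_N = K(X₀(N)) ⊆ K((q))` and the two degeneracy maps
`α, β : F_N → F_{Nℓ}` (`α` = inclusion, `β` = `q ↦ q^ℓ`):

* `finiteAlong_heckeAlphaBar`, `finiteAlong_heckeBetaBar` : `F_{Nℓ}` is finite over `α(F_N)` and
  over `β(F_N)`;
* `heckeAlphaBarIntegral`, `heckeBetaBarIntegral` : integrality of `α` and `β`;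
* `hasPrincipalDivisors_FF` : principal divisors of `F_M` have finite support and degree `0`;
* `heckeInputsAlong_of` : `HeckeInputsAlong ℚ̄ N ℓ` from the two general function-field inputs
  (fundamental identity along `β`, norm formula along `α`).
-/

set_option autoImplicit false

open AlgebraicCurve ModularCurve IntermediateField

noncomputable section

namespace Fermat.Agent.Red.HKMod

open Fermat.Agent.S24

/-! ## General lemmas on `FiniteAlong` -/

section General

variable {K F F' : Type*} [Field K] [Field F] [Field F'] [Algebra K F] [Algebra K F']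

/-- If `F'` is finite over `K(φ x)` then it is finite along `φ`. -/
theorem finiteAlong_of_finiteDimensional_adjoin (φ : F →ₐ[K] F') (x : F)
    [h : FiniteDimensional K⟮φ x⟯ F'] : FiniteAlong K φ := by
  letI := algebraAlong φ
  show Module.Finite F F'
  obtain ⟨s, hs⟩ := Module.finite_def.mp h
  refine ⟨⟨s, ?_⟩⟩
  have hE : ∀ e : K⟮φ x⟯, ∃ f : F, φ f = (e : F') := by
    intro e
    have hle : K⟮φ x⟯ ≤ φ.fieldRange := by
      rw [IntermediateField.adjoin_simple_le_iff]
      exact ⟨x, rfl⟩
    exact hle e.2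
  have key : ∀ y : F', y ∈ Submodule.span K⟮φ x⟯ (s : Set F') →
      y ∈ Submodule.span F (s : Set F') := by
    intro y hy
    induction hy using Submodule.span_induction with
    | mem z hz => exact Submodule.subset_span hz
    | zero => exact zero_mem _
    | add a b _ _ ha hb => exact add_mem ha hb
    | smul e a _ ha =>
      obtain ⟨f, hf⟩ := hE e
      have : e • a = f • a := by
        show (e : F') * a = φ f * a
        rw [hf]
      rw [this]
      exact Submodule.smul_mem _ f ha
  rw [eq_top_iff]
  intro y _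
  exact key y (by rw [hs]; trivial)

/-- A finite homomorphism of fields is integral. -/
theorem isIntegral_of_finiteAlong (φ : F →ₐ[K] F') (h : FiniteAlong K φ) :
    φ.toRingHom.IsIntegral := by
  letI := algebraAlong φ
  haveI : Module.Finite F F' := h
  have hint : Algebra.IsIntegral F F' := Algebra.IsIntegral.of_finite F F'
  exact fun y => hint.isIntegral y

/-- Transcendence is preserved by homomorphisms of fields. -/
theorem transcendental_map (φ : F →ₐ[K] F') {x : F} (hx : Transcendental K x) :
    Transcendental K (φ x) := fun h =>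
  hx ((isAlgebraic_algHom_iff φ φ.toRingHom.injective).mp h)

end General

/-! ## The modular function fields -/

section Modular

/-- `F_M` is finite over `K(j)`. -/
theorem finiteDimensional_jBar (M : ℕ) [NeZero M] : FiniteDimensional Kbar⟮jBar M⟯ (FF M) :=
  (finrank_le_index M).1

/-- Principal divisors of `F_M`. -/
theorem hasPrincipalDivisors_FF (M : ℕ) [NeZero M] : HasPrincipalDivisors Kbar (FF M) := by
  haveI := finiteDimensional_jBar M
  have halg : Algebra.IsAlgebraic Kbar⟮jBar M⟯ (FF M) := Algebra.IsAlgebraic.of_finite _ _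
  exact hasPrincipalDivisors_of_zeros
    (fun y hy hfin => @FICore.fi_zeros Kbar (FF M) _ _ _ _ _ y hy hfin)
    (fun v => DiffPlace.place_deg_eq_one (jBar M) halg v) (jBar M)

/-- Every place of `F_M` has degree one. -/
theorem place_deg_FF (M : ℕ) [NeZero M] (v : Place Kbar (FF M)) : v.deg = 1 :=
  haveI := finiteDimensional_jBar M
  DiffPlace.place_deg_eq_one (jBar M) (Algebra.IsAlgebraic.of_finite _ _) v

/-- `F_M` is finite over `K(f)` for every transcendental `f`. -/
theorem finiteDimensional_adjoin_FF (M : ℕ) [NeZero M] (f : FF M)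
    (hf : Transcendental Kbar f) : FiniteDimensional Kbar⟮f⟯ (FF M) :=
  haveI := finiteDimensional_jBar M
  pd_finiteDimensional_adjoin_of_transcendental (jBar M) f hf

variable (N ℓ : ℕ) [NeZero N] [NeZero ℓ]

theorem heckeAlphaBar_jBar : heckeAlphaBar Kbar N ℓ (jBar N) = jBar (N * ℓ) :=
  Subtype.ext (coe_heckeAlphaBar N ℓ (jBar N))

/-- `F_{Nℓ}` is finite along `α`. -/
theorem finiteAlong_heckeAlphaBar : FiniteAlong Kbar (heckeAlphaBar Kbar N ℓ) := by
  haveI : FiniteDimensional Kbar⟮heckeAlphaBar Kbar N ℓ (jBar N)⟯ (FF (N * ℓ)) := by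
    rw [heckeAlphaBar_jBar]
    exact finiteDimensional_jBar (N * ℓ)
  exact finiteAlong_of_finiteDimensional_adjoin (heckeAlphaBar Kbar N ℓ) (jBar N)

/-- `F_{Nℓ}` is finite along `β`. -/
theorem finiteAlong_heckeBetaBar : FiniteAlong Kbar (heckeBetaBar Kbar N ℓ) := by
  haveI : FiniteDimensional Kbar⟮heckeBetaBar Kbar N ℓ (jBar N)⟯ (FF (N * ℓ)) :=
    finiteDimensional_adjoin_FF (N * ℓ) _
      (transcendental_map (heckeBetaBar Kbar N ℓ) (transcendental_jBar N))
  exact finiteAlong_of_finiteDimensional_adjoin (heckeBetaBar Kbar N ℓ) (jBar N)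

/-- `α` is integral. -/
theorem heckeAlphaBarIntegral : HeckeAlphaBarIntegral Kbar N ℓ :=
  isIntegral_of_finiteAlong _ (finiteAlong_heckeAlphaBar N ℓ)

/-- `β` is integral. -/
theorem heckeBetaBarIntegral : HeckeBetaBarIntegral Kbar N ℓ :=
  isIntegral_of_finiteAlong _ (finiteAlong_heckeBetaBar N ℓ)

/-- **HK-MOD.**  The Hecke inputs at `(ℚ̄, N, ℓ)` from the two general function-field inputs:
the fundamental identity along `β` and the norm formula along `α`. -/
theorem heckeInputsAlong_of
    (hFI : haveI := hasPrincipalDivisors_FF (N * ℓ)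
      FundamentalIdentityAlong Kbar (heckeBetaBar Kbar N ℓ) (heckeBetaBarIntegral N ℓ))
    (hN : NormFormulaAlong Kbar (heckeAlphaBar Kbar N ℓ) (finiteAlong_heckeAlphaBar N ℓ)) :
    HeckeInputsAlong Kbar N ℓ :=
  ⟨heckeAlphaBarIntegral N ℓ, heckeBetaBarIntegral N ℓ, hasPrincipalDivisors_FF (N * ℓ),
    finiteAlong_heckeAlphaBar N ℓ, hFI, hN⟩

end Modular

end Fermat.Agent.Red.HKMod
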