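import Fermat.Agent.Red.HKMod
import Fermat.Prelude.Def_ModularCurve_HeckeModule

/-!
# P-RED, module HK-GAL: Galois equivariance of the Hecke correspondences

General part: a correspondence `ψ_* ∘ φ^*` between function fields commutes with semilinear
automorphisms which intertwine `φ` and `ψ`.

Modular part: `heckeOperatorBar N ℓ (σ • x) = σ • heckeOperatorBar N ℓ x` on `J₀(N)`.
-/

set_option autoImplicit false

open AlgebraicCurve ModularCurve IntermediateField

noncomputable section

namespace Fermat.Agent.Red.HKGal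

open scoped Pointwise

section General

variable {K F F' : Type*} [Field K] [Field F] [Field F'] [Algebra K F] [Algebra K F']

theorem mem_restrictAlong_iff (φ : F →ₐ[K] F') (hφ : φ.toRingHom.IsIntegral) (w : Place K F')
    (f : F) : f ∈ (w.restrictAlong φ hφ).toValuationSubring ↔ φ f ∈ w.toValuationSubring :=
  Iff.rfl

theorem mem_smul_place_iff (g : SemilinearAut K F) (v : Place K F) (f : F) :
    f ∈ (g • v).toValuationSubring ↔ g⁻¹ • f ∈ v.toValuationSubring := by
  rw [SemilinearAut.smul_toValuationSubring]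
  exact ValuationSubring.mem_pointwise_smul_iff_inv_smul_mem

variable (φ : F →ₐ[K] F') (hφ : φ.toRingHom.IsIntegral)
  (g : SemilinearAut K F) (g' : SemilinearAut K F')

/-- restriction of places commutes with intertwined automorphisms -/
theorem restrictAlong_smul (h : SemilinearAut.IntertwinesAlong (φ : F →+* F') g g')
    (w : Place K F') :
    (g' • w).restrictAlong φ hφ = g • w.restrictAlong φ hφ := by
  apply Place.ext
  ext f
  have hinv := h.inv
  rw [mem_smul_place_iff, mem_restrictAlong_iff, mem_restrictAlong_iff, mem_smul_place_iff]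
  have : g'⁻¹ • φ f = φ (g⁻¹ • f) := hinv f
  rw [this]

theorem exists_ord_eq_one (v : Place K F) : ∃ π : F, π ≠ 0 ∧ v.ord π = 1 := by
  obtain ⟨π, hπ⟩ := IsDiscreteValuationRing.exists_irreducible v.toValuationSubring
  exact ⟨π, by simpa using hπ.ne_zero, v.ord_coe_irreducible hπ⟩

theorem ramificationIndexAlong_eq_ord (w : Place K F') {π : F}
    (hπ : (w.restrictAlong φ hφ).ord π = 1) :
    (Place.ramificationIndexAlong φ w : ℤ) = w.ord (φ π) := by
  rw [Place.ord_restrictAlong φ hφ w π, hπ, mul_one]

include hφ in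
/-- ramification indices are invariant under intertwined automorphisms -/
theorem ramificationIndexAlong_smul (h : SemilinearAut.IntertwinesAlong (φ : F →+* F') g g')
    (w : Place K F') :
    Place.ramificationIndexAlong φ (g' • w) = Place.ramificationIndexAlong φ w := by
  obtain ⟨π, -, hπ⟩ := exists_ord_eq_one (w.restrictAlong φ hφ)
  have h1 : ((g' • w).restrictAlong φ hφ).ord (g • π) = 1 := by
    rw [restrictAlong_smul φ hφ g g' h, SemilinearAut.ord_smul, hπ]
  have h2 := ramificationIndexAlong_eq_ord φ hφ (g' • w) h1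
  have h3 := ramificationIndexAlong_eq_ord φ hφ w hπ
  have h4 : (g' • w).ord (φ (g • π)) = w.ord (φ π) := by
    have h5 : g' • φ π = φ (g • π) := h π
    rw [← h5]
    exact SemilinearAut.ord_smul g' w (φ π)
  exact_mod_cast h2.trans (h4.trans h3.symm)

theorem deg_restrictAlong_mul_inertiaDegAlong (w : Place K F') :
    (w.restrictAlong φ hφ).deg * w.inertiaDegAlong φ hφ = w.deg := by
  letI := algebraAlong φ
  haveI := isScalarTower_along φ
  haveI := isIntegral_along φ hφ
  exact w.deg_restrict_mul_inertiaDeg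

/-- inertia degrees are invariant under intertwined automorphisms (finite residue degrees) -/
theorem inertiaDegAlong_smul (h : SemilinearAut.IntertwinesAlong (φ : F →+* F') g g')
    (hdeg : ∀ v : Place K F, v.deg ≠ 0) (w : Place K F') :
    (g' • w).inertiaDegAlong φ hφ = w.inertiaDegAlong φ hφ := by
  have h1 := deg_restrictAlong_mul_inertiaDegAlong φ hφ (g' • w)
  have h2 := deg_restrictAlong_mul_inertiaDegAlong φ hφ w
  rw [restrictAlong_smul φ hφ g g' h, SemilinearAut.deg_smul, SemilinearAut.deg_smul, ← h2] at h1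
  exact Nat.eq_of_mul_eq_mul_left (Nat.pos_of_ne_zero (hdeg _)) h1

/-- pullback of divisors commutes with intertwined automorphisms -/
theorem pullbackAlong_smul [HasPrincipalDivisors K F']
    (h : SemilinearAut.IntertwinesAlong (φ : F →+* F') g g') (D : Divisor K F) :
    Divisor.pullbackAlong φ hφ (g • D) = g' • Divisor.pullbackAlong φ hφ D := by
  ext w
  rw [Divisor.pullbackAlong_apply, SemilinearAut.divisor_smul_apply,
    SemilinearAut.divisor_smul_apply, Divisor.pullbackAlong_apply,
    restrictAlong_smul φ hφ g⁻¹ g'⁻¹ h.inv, ramificationIndexAlong_smul φ hφ g⁻¹ g'⁻¹ h.inv]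

/-- pushforward of divisors commutes with intertwined automorphisms -/
theorem pushforwardAlong_smul (h : SemilinearAut.IntertwinesAlong (φ : F →+* F') g g')
    (hdeg : ∀ v : Place K F, v.deg ≠ 0) (D' : Divisor K F') :
    Divisor.pushforwardAlong φ hφ (g' • D') = g • Divisor.pushforwardAlong φ hφ D' := by
  induction D' using Finsupp.induction with
  | zero => simp
  | single_add w n D _ _ ih =>
    rw [smul_add, map_add, map_add, smul_add, ih, SemilinearAut.smul_single,
      Divisor.pushforwardAlong_single, Divisor.pushforwardAlong_single,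
      SemilinearAut.smul_single, restrictAlong_smul φ hφ g g' h,
      inertiaDegAlong_smul φ hφ g g' h hdeg]

variable (ψ : F →ₐ[K] F') (hψ : ψ.toRingHom.IsIntegral)

/-- correspondences commute with automorphisms intertwining both maps -/
theorem correspondence_smul [HasPrincipalDivisors K F']
    (h : SemilinearAut.IntertwinesAlong (φ : F →+* F') g g')
    (h' : SemilinearAut.IntertwinesAlong (ψ : F →+* F') g g')
    (hdeg : ∀ v : Place K F, v.deg ≠ 0) (D : Divisor K F) :
    Divisor.correspondence φ ψ hφ hψ (g • D) = g • Divisor.correspondence φ ψ hφ hψ D := by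
  rw [Divisor.correspondence_apply, Divisor.correspondence_apply,
    pullbackAlong_smul φ hφ g g' h, pushforwardAlong_smul ψ hψ g g' h' hdeg]

/-- correspondences on `Pic⁰` commute with automorphisms intertwining both maps -/
theorem pic0_correspondence_smul [HasPrincipalDivisors K F']
    (hFI : FundamentalIdentityAlong K φ hφ)
    (hfin : FiniteAlong K ψ) (hN : NormFormulaAlong K ψ hfin)
    (h : SemilinearAut.IntertwinesAlong (φ : F →+* F') g g')
    (h' : SemilinearAut.IntertwinesAlong (ψ : F →+* F') g g')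
    (hdeg : ∀ v : Place K F, v.deg ≠ 0) (x : Pic0 K F) :
    Pic0.correspondence φ ψ hφ hψ hFI hfin hN (g • x)
      = g • Pic0.correspondence φ ψ hφ hψ hFI hfin hN x := by
  obtain ⟨D, rfl⟩ := Pic0.mk_surjective x
  rw [SemilinearAut.pic0_smul_mk, Pic0.correspondence_mk, Pic0.correspondence_mk,
    SemilinearAut.pic0_smul_mk]
  refine congrArg Pic0.mk (Subtype.ext ?_)
  show Divisor.correspondence φ ψ hφ hψ (g • (D : Divisor K F))
    = g • Divisor.correspondence φ ψ hφ hψ (D : Divisor K F)
  exact correspondence_smul φ hφ g g' ψ hψ h h' hdeg D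

end General

/-! ## The modular case -/

section Modular

open Fermat.Agent.S24

theorem coeffMap_qExpand_comm {R S : Type*} [CommRing R] [CommRing S] (f : R →+* S) (n : ℕ)
    [NeZero n] (x : LaurentSeries R) :
    coeffMap f (qExpand R n x) = qExpand S n (coeffMap f x) := by
  ext k
  by_cases hk : (n : ℤ) ∣ k
  · obtain ⟨m, rfl⟩ := hk
    rw [coeffMap_coeff, qExpand_coeff_mul, qExpand_coeff_mul, coeffMap_coeff]
  · rw [coeffMap_coeff, qExpand_coeff_of_not_dvd n _ hk, qExpand_coeff_of_not_dvd n _ hk,
      map_zero]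

variable (N ℓ : ℕ) [NeZero N] [NeZero ℓ]

set_option linter.unusedSectionVars false

/-- the arithmetic Galois action intertwines `α` -/
theorem intertwines_heckeAlphaBar (σ : Kbar ≃ₐ[ℚ] Kbar) :
    SemilinearAut.IntertwinesAlong ((heckeAlphaBar Kbar N ℓ : FF N →ₐ[Kbar] FF (N * ℓ)) :
        FF N →+* FF (N * ℓ))
      (arithmeticGalois (modularFunctionFieldFull N) σ)
      (arithmeticGalois (modularFunctionFieldFull (N * ℓ)) σ) := by
  intro x
  apply Subtype.ext
  have h1 : (((arithmeticGalois (modularFunctionFieldFull (N * ℓ)) σ) •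
      (heckeAlphaBar Kbar N ℓ x) : FF (N * ℓ)) : LaurentSeries Kbar)
      = coeffMap (σ : Kbar →+* Kbar) ((heckeAlphaBar Kbar N ℓ x : FF (N * ℓ)) :
          LaurentSeries Kbar) :=
    coe_arithmeticGalois_smul (modularFunctionFieldFull (N * ℓ)) σ (heckeAlphaBar Kbar N ℓ x)
  have h2 : ((heckeAlphaBar Kbar N ℓ ((arithmeticGalois (modularFunctionFieldFull N) σ) • x) :
      FF (N * ℓ)) : LaurentSeries Kbar)
      = coeffMap (σ : Kbar →+* Kbar) (x : LaurentSeries Kbar) := by
    rw [coe_heckeAlphaBar]
    exact coe_arithmeticGalois_smul (modularFunctionFieldFull N) σ x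
  rw [coe_heckeAlphaBar] at h1
  exact h1.trans h2.symm

/-- the arithmetic Galois action intertwines `β` -/
theorem intertwines_heckeBetaBar (σ : Kbar ≃ₐ[ℚ] Kbar) :
    SemilinearAut.IntertwinesAlong ((heckeBetaBar Kbar N ℓ : FF N →ₐ[Kbar] FF (N * ℓ)) :
        FF N →+* FF (N * ℓ))
      (arithmeticGalois (modularFunctionFieldFull N) σ)
      (arithmeticGalois (modularFunctionFieldFull (N * ℓ)) σ) := by
  intro x
  apply Subtype.ext
  have h1 : (((arithmeticGalois (modularFunctionFieldFull (N * ℓ)) σ) •
      (heckeBetaBar Kbar N ℓ x) : FF (N * ℓ)) : LaurentSeries Kbar)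
      = coeffMap (σ : Kbar →+* Kbar) ((heckeBetaBar Kbar N ℓ x : FF (N * ℓ)) :
          LaurentSeries Kbar) :=
    coe_arithmeticGalois_smul (modularFunctionFieldFull (N * ℓ)) σ (heckeBetaBar Kbar N ℓ x)
  have h2 : ((heckeBetaBar Kbar N ℓ ((arithmeticGalois (modularFunctionFieldFull N) σ) • x) :
      FF (N * ℓ)) : LaurentSeries Kbar)
      = qExpand Kbar ℓ (coeffMap (σ : Kbar →+* Kbar) (x : LaurentSeries Kbar)) := by
    rw [coe_heckeBetaBar]
    exact congrArg _ (coe_arithmeticGalois_smul (modularFunctionFieldFull N) σ x)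
  rw [coe_heckeBetaBar, coeffMap_qExpand_comm] at h1
  exact h1.trans h2.symm

end Modular

/-- **HK-GAL.**  The Hecke operators on `J₀(N)` commute with the Galois action. -/
theorem heckeOperatorBar_galois (N : ℕ) [NeZero N] (ℓ : Nat.Primes)
    (σ : AlgebraicClosure ℚ ≃ₐ[ℚ] AlgebraicClosure ℚ) (x : JZero N) :
    heckeOperatorBar N ℓ (σ • x) = σ • heckeOperatorBar N ℓ x := by
  haveI : NeZero (ℓ : ℕ) := ⟨ℓ.2.ne_zero⟩
  rw [heckeOperatorBar_apply, heckeOperatorBar_apply]
  by_cases h : HeckeInputsAlong (AlgebraicClosure ℚ) N ℓ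
  · obtain ⟨hα, hβ, hP, hfin, hFI, hN⟩ := h
    haveI := hP
    rw [heckeOperatorAlong_eq hα hβ hFI hfin hN]
    exact pic0_correspondence_smul (heckeBetaBar (AlgebraicClosure ℚ) N ℓ) hβ
      (arithmeticGalois (modularFunctionFieldFull N) σ)
      (arithmeticGalois (modularFunctionFieldFull (N * ℓ)) σ)
      (heckeAlphaBar (AlgebraicClosure ℚ) N ℓ) hα hFI hfin hN
      (intertwines_heckeBetaBar N ℓ σ) (intertwines_heckeAlphaBar N ℓ σ)
      (fun v => by rw [Fermat.Agent.Red.HKMod.place_deg_FF N v]; exact one_ne_zero) x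
  · rw [heckeOperatorAlong_of_not h]
    simp

end Fermat.Agent.Red.HKGal
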