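import Mathlib
import Fermat.Agent.S24.FICore
import Fermat.Prelude.Def_AlgebraicCurve_DivisorPushPull
import Fermat.Prelude.Def_AlgebraicCurve_Correspondence

/-!
# HK-GFF: fundamental identity and norm formula for finite extensions of function fields

`K` algebraically closed of characteristic zero, `F'/F` a finite extension of fields over `K`,
`x : F'` with `F'` finite over `K(x)`, `HasPrincipalDivisors K F'`.

* `sum_ramificationIndex_eq_finrank` : `∑_{w ∣ v} e(w) = [F' : F]`;
* `sum_fiber_ord_eq_ord_norm` : `∑_{w ∣ v} ord_w f = ord_v (N f)`;
* `fundamentalIdentity`, `sumRamificationInertia`, `pushforwardNormFormula` (Prelude classes);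
* `fundamentalIdentityAlong`, `normFormulaAlong` (the `Along` forms used by `HeckeInputsAlong`).
-/

set_option autoImplicit false
set_option linter.unusedSectionVars false

noncomputable section

namespace Fermat.Agent.Red.GFF

open IsDedekindDomain AlgebraicCurve WithZero IntermediateField
open Fermat.Agent.S24

section Abstract

variable {K F : Type*} [Field K] [Field F] [Algebra K F]
variable {A : Type*} [CommRing A] [IsDomain A] [Algebra A F]
variable {B : Type*} [CommRing B] [IsDedekindDomain B] [Algebra K B] [Algebra B F]
  [IsScalarTower K B F] [IsFractionRing B F]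
  [Algebra A B] [IsScalarTower A B F] [Module.Finite A B] [Module.Flat A B]
  [Module.IsTorsionFree A B]

/-- **Fundamental identity**, abstract relative form: the places of `F` whose valuation ring
contains `A` and at which `t` has positive order form a finite set, and the orders of `t` add up
to the rank of `B` over `A`. -/
theorem exists_finset_sum_ord_rel (t : A) (ht : t ≠ 0)
    [hmax : (Ideal.span {t} : Ideal A).IsMaximal]
    (hf : ∀ q : (Ideal.span {t} : Ideal A).primesOver B, q.1.inertiaDeg A = 1)
    (hB : ∀ v : Place K F, (∀ a : A, algebraMap A F a ∈ v.toValuationSubring) →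
      ∀ b : B, algebraMap B F b ∈ v.toValuationSubring) :
    ∃ s : Finset (Place K F),
      (∀ v, v ∈ s ↔ ((∀ a : A, algebraMap A F a ∈ v.toValuationSubring) ∧
        0 < v.ord (algebraMap A F t))) ∧
      ∑ v ∈ s, v.ord (algebraMap A F t) = (Module.finrank A B : ℤ) := by
  classical
  have hp : (Ideal.span {t} : Ideal A) ≠ ⊥ := Ideal.span_singleton_eq_bot.not.mpr ht
  have hint : Algebra.IsIntegral A B := Algebra.IsIntegral.of_finite A B
  have hfinite : Finite ((Ideal.span {t} : Ideal A).primesOver B) :=
    (IsDedekindDomain.primesOver_finite (Ideal.span {t} : Ideal A) B).to_subtype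
  let _ : Fintype ((Ideal.span {t} : Ideal A).primesOver B) := Fintype.ofFinite _
  let g : (Ideal.span {t} : Ideal A).primesOver B → Place K F := fun q =>
    Place.ofHeightOneSpectrum (K := K) (F := F) (FICore.primeOfOver hp q)
  have hg : Function.Injective g :=
    (ofHeightOneSpectrum_injective (K := K) (F := F) (R := B)).comp
      (FICore.primeOfOver_injective hp)
  refine ⟨Finset.univ.image g, ?_, ?_⟩
  · intro v
    rw [Finset.mem_image]
    constructor
    · rintro ⟨q, -, rfl⟩
      refine ⟨fun a => ?_, ?_⟩
      · show algebraMap A F a ∈ (Place.ofHeightOneSpectrum (K := K) (F := F)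
          (FICore.primeOfOver hp q)).toValuationSubring
        rw [Place.ofHeightOneSpectrum_toValuationSubring, Valuation.mem_valuationSubring_iff,
          IsScalarTower.algebraMap_apply A B F]
        exact HeightOneSpectrum.valuation_le_one _ _
      · show 0 < (Place.ofHeightOneSpectrum (K := K) (F := F) (FICore.primeOfOver hp q)).ord _
        rw [FICore.ord_eq_ramificationIdx t ht q]
        have : q.1.IsPrime := q.2.1
        exact_mod_cast Ideal.ramificationIdx_pos q.1 A
    · rintro ⟨hvA, hv⟩
      obtain ⟨P, hP⟩ := exists_ofHeightOneSpectrum_eq (R := B) v (hB v hvA)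
      have hval : P.valuation F (algebraMap A F t) < 1 := by
        rw [← hP, ord_ofHeightOneSpectrum] at hv
        have hne : P.valuation F (algebraMap A F t) ≠ 0 := by
          intro h0
          rw [h0] at hv
          simp at hv
        have hlog : log (P.valuation F (algebraMap A F t)) < 0 := by omega
        rwa [log_lt_iff_lt_exp hne, exp_zero] at hlog
      have htP : algebraMap A B t ∈ P.asIdeal := by
        rw [IsScalarTower.algebraMap_apply A B F] at hval
        exact (P.valuation_lt_one_iff_mem _).mp hval
      have hunder : (Ideal.span {t} : Ideal A) = P.asIdeal.under A := by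
        have hle : (Ideal.span {t} : Ideal A) ≤ P.asIdeal.under A := by
          rw [Ideal.span_le, Set.singleton_subset_iff]
          exact htP
        have hprime : (P.asIdeal.under A).IsPrime := Ideal.IsPrime.under A P.asIdeal
        exact hmax.eq_of_le hprime.ne_top hle
      refine ⟨⟨P.asIdeal, P.isPrime, ⟨hunder⟩⟩, Finset.mem_univ _, ?_⟩
      rw [← hP]
      rfl
  · rw [Finset.sum_image (fun a _ b _ h => hg h)]
    have hsum := Ideal.sum_ramification_inertia_eq_finrank (Ideal.span {t} : Ideal A) B
    have : ∑ q : (Ideal.span {t} : Ideal A).primesOver B, (g q).ord (algebraMap A F t)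
        = ∑ q : (Ideal.span {t} : Ideal A).primesOver B,
            ((q.1.ramificationIdx A * q.1.inertiaDeg A : ℕ) : ℤ) := by
      refine Finset.sum_congr rfl fun q _ => ?_
      rw [hf q, mul_one]
      exact FICore.ord_eq_ramificationIdx t ht q
    rw [this, ← Nat.cast_sum, hsum]

end Abstract

section AbstractNorm

attribute [local instance] FractionRing.liftAlgebra

theorem exp_neg_sum {ι : Type*} (s : Finset ι) (f : ι → ℕ) :
    exp (-((∑ i ∈ s, f i : ℕ) : ℤ)) = ∏ i ∈ s, exp (-(f i : ℤ)) := by
  classical
  induction s using Finset.induction_on with
  | empty => simp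
  | insert a s ha ih =>
    rw [Finset.sum_insert ha, Finset.prod_insert ha, ← ih, ← exp_add]
    congr 1
    push_cast
    ring

variable {A : Type*} [CommRing A] [IsDomain A] [IsDiscreteValuationRing A]
variable {B : Type*} [CommRing B] [IsDedekindDomain B] [Algebra A B] [Module.Finite A B]
  [Module.IsTorsionFree A B]

theorem liesOver_maximalIdeal (P : HeightOneSpectrum B) :
    P.asIdeal.LiesOver (IsLocalRing.maximalIdeal A) := by
  have hint : Algebra.IsIntegral A B := Algebra.IsIntegral.of_finite A B
  constructor
  have hprime : (P.asIdeal.under A).IsPrime := Ideal.IsPrime.under A P.asIdeal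
  have hne : P.asIdeal.under A ≠ ⊥ := by
    intro h
    exact P.ne_bot (Ideal.eq_bot_of_comap_eq_bot h)
  have hmax : (P.asIdeal.under A).IsMaximal := hprime.isMaximal hne
  exact (IsLocalRing.eq_maximalIdeal hmax).symm

theorem intValuation_intNorm [PerfectField (FractionRing A)] [Fintype (HeightOneSpectrum B)]
    (hf : ∀ P : HeightOneSpectrum B, P.asIdeal.inertiaDeg A = 1) (b : B) (hb : b ≠ 0) :
    (IsDiscreteValuationRing.maximalIdeal A).intValuation (Algebra.intNorm A B b)
      = ∏ P : HeightOneSpectrum B, P.intValuation b := by
  classical
  have hint : Algebra.IsIntegral A B := Algebra.IsIntegral.of_finite A B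
  have hspan : (Ideal.span {b} : Ideal B) ≠ 0 := by
    rw [Ideal.zero_eq_bot]
    exact Ideal.span_singleton_eq_bot.not.mpr hb
  have hfd : FiniteDimensional (FractionRing A) (FractionRing B) :=
    .of_isLocalization A B (nonZeroDivisors A)
  have hN : Algebra.intNorm A B b ≠ 0 := Algebra.intNorm_ne_zero.mpr hb
  have hrel : Ideal.span {Algebra.intNorm A B b}
      = (IsLocalRing.maximalIdeal A) ^
        (∑ P : HeightOneSpectrum B,
          (Associates.mk P.asIdeal).count (Associates.mk (Ideal.span {b} : Ideal B)).factors) := by
    have h1 : Ideal.relNorm A (Ideal.span {b})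
        = ∏ P : HeightOneSpectrum B, Ideal.relNorm A (P.maxPowDividing (Ideal.span {b})) := by
      conv_lhs => rw [← Ideal.finprod_heightOneSpectrum_factorization hspan,
        finprod_eq_prod_of_fintype, map_prod]
    rw [← Ideal.relNorm_singleton, h1, ← Finset.prod_pow_eq_pow_sum]
    refine Finset.prod_congr rfl fun P _ => ?_
    unfold HeightOneSpectrum.maxPowDividing
    rw [map_pow]
    have := liesOver_maximalIdeal (A := A) P
    have hPmax : P.asIdeal.IsMaximal := P.isMaximal
    rw [Ideal.relNorm_eq_pow_of_isMaximal P.asIdeal (IsLocalRing.maximalIdeal A), hf P, pow_one]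
  rw [HeightOneSpectrum.intValuation_eq_exp_neg_multiplicity _ hN, hrel]
  have hmult : multiplicity (IsDiscreteValuationRing.maximalIdeal A).asIdeal
      ((IsLocalRing.maximalIdeal A) ^ (∑ P : HeightOneSpectrum B,
          (Associates.mk P.asIdeal).count (Associates.mk (Ideal.span {b} : Ideal B)).factors))
      = ∑ P : HeightOneSpectrum B,
          (Associates.mk P.asIdeal).count (Associates.mk (Ideal.span {b} : Ideal B)).factors := by
    show multiplicity (IsLocalRing.maximalIdeal A) _ = _
    apply multiplicity_pow_self
    · exact (IsDiscreteValuationRing.maximalIdeal A).ne_bot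
    · rw [Ideal.isUnit_iff]
      exact Ideal.IsPrime.ne_top'
  rw [hmult]
  simp_rw [HeightOneSpectrum.intValuation_if_neg _ hb]
  exact exp_neg_sum _ _

end AbstractNorm

section Relative

variable {K F F' : Type*} [Field K] [Field F] [Field F'] [Algebra K F] [Algebra K F']
  [Algebra F F'] [IsScalarTower K F F']

/-- the scalar tower `K → O_v → F'`. -/
theorem isScalarTower_place (v : Place K F) : IsScalarTower K v.toValuationSubring F' :=
  IsScalarTower.of_algebraMap_eq fun k => by
    rw [IsScalarTower.algebraMap_apply K F F']
    rfl

/-- a valuation ring of `F'` containing the image of `A` contains every element integral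
over `A`. -/
theorem mem_of_isIntegral_of_forall_mem {A : Type*} [CommRing A] [Algebra A F']
    (w : Place K F') (hA : ∀ a : A, algebraMap A F' a ∈ w.toValuationSubring)
    {b : F'} (hb : IsIntegral A b) : b ∈ w.toValuationSubring := by
  let φ : A →+* w.toValuationSubring :=
    (algebraMap A F').codRestrict w.toValuationSubring.toSubring hA
  let _ : Algebra A w.toValuationSubring := φ.toAlgebra
  have : IsScalarTower A w.toValuationSubring F' :=
    IsScalarTower.of_algebraMap_eq fun _ => rfl
  have hb' : IsIntegral w.toValuationSubring b := hb.tower_top
  obtain ⟨z, hz⟩ :=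
    (IsIntegrallyClosed.isIntegral_iff (R := w.toValuationSubring) (K := F')).mp hb'
  rw [← hz]
  exact z.2

variable [IsAlgClosed K] [CharZero K] [FiniteDimensional F F'] [HasPrincipalDivisors K F']

set_option synthInstance.maxHeartbeats 400000 in
set_option maxHeartbeats 1600000 in
/-- **Fundamental identity** for a finite extension `F'/F` of function fields over an
algebraically closed field of characteristic zero: the ramification indices of the places over
`v` add up to `[F' : F]`. -/
theorem sum_ramificationIndex_eq_finrank (x : F') [FiniteDimensional K⟮x⟯ F']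
    (v : Place K F) :
    ∑ w ∈ v.fiber F', (w.ramificationIndex F : ℤ) = (Module.finrank F F' : ℤ) := by
  classical
  have hchar : CharZero F := charZero_of_injective_algebraMap (algebraMap K F).injective
  have htower : IsScalarTower K v.toValuationSubring F' := isScalarTower_place v
  have hDed : IsDedekindDomain (integralClosure v.toValuationSubring F') :=
    integralClosure.isDedekindDomain v.toValuationSubring F F'
  have hFrac : IsFractionRing (integralClosure v.toValuationSubring F') F' :=
    integralClosure.isFractionRing_of_finite_extension F F'
  have hfin : Module.Finite v.toValuationSubring (integralClosure v.toValuationSubring F') :=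
    IsIntegralClosure.finite v.toValuationSubring F F' _
  have htf0 : Module.IsTorsionFree v.toValuationSubring F' := by
    rw [Module.isTorsionFree_iff_algebraMap_injective]
    intro a b hab
    apply Subtype.ext
    exact (algebraMap F F').injective hab
  have htf : Module.IsTorsionFree v.toValuationSubring
      (integralClosure v.toValuationSubring F') := Subalgebra.instIsTorsionFree _
  have hflat : Module.Flat v.toValuationSubring (integralClosure v.toValuationSubring F') :=
    inferInstance
  obtain ⟨π, hπ⟩ := IsDiscreteValuationRing.exists_irreducible v.toValuationSubring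
  have hmax : (Ideal.span {π}).IsMaximal := by
    rw [← (IsDiscreteValuationRing.irreducible_iff_uniformizer π).mp hπ]
    infer_instance
  have hpne : (Ideal.span {π}) ≠ ⊥ := Ideal.span_singleton_eq_bot.not.mpr hπ.ne_zero
  have hf : ∀ q : (Ideal.span {π}).primesOver (integralClosure v.toValuationSubring F'),
      q.1.inertiaDeg v.toValuationSubring = 1 :=
    fun q => FICore.inertiaDeg_eq_one_aux (K := K) (F := F') x v.toValuationSubring
      (integralClosure v.toValuationSubring F') (Ideal.span {π}) hpne q
  have hB : ∀ w : Place K F',
      (∀ a : v.toValuationSubring, algebraMap v.toValuationSubring F' a ∈ w.toValuationSubring) →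
      ∀ b : integralClosure v.toValuationSubring F',
        algebraMap (integralClosure v.toValuationSubring F') F' b ∈ w.toValuationSubring :=
    fun w hw b => mem_of_isIntegral_of_forall_mem w hw b.2
  obtain ⟨s, hs, hsum⟩ := exists_finset_sum_ord_rel (K := K) (F := F')
    (A := v.toValuationSubring) (B := integralClosure v.toValuationSubring F')
    π hπ.ne_zero hf hB
  have hπF : (π : F) ≠ 0 := by
    simpa [ne_eq, ZeroMemClass.coe_eq_zero] using hπ.ne_zero
  have hordπ : v.ord (π : F) = 1 := v.ord_coe_irreducible hπ
  have hfib : ∀ w : Place K F', w ∈ v.fiber F' ↔ w ∈ s := by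
    intro w
    rw [hs, Place.mem_fiber]
    constructor
    · intro hw
      refine ⟨fun a => ?_, ?_⟩
      · have ha : (a : F) ∈ (w.restrict F).toValuationSubring := by rw [hw]; exact a.2
        exact (Place.mem_restrict_iff w).mp ha
      · show 0 < w.ord (algebraMap F F' (π : F))
        rw [w.ord_restrict (π : F), hw, hordπ, mul_one]
        exact_mod_cast w.ramificationIndex_pos (F := F)
    · rintro ⟨hA, -⟩
      apply Place.ext
      have hle : v.toValuationSubring ≤ (w.restrict F).toValuationSubring := by
        intro a ha
        exact (Place.mem_restrict_iff w).mpr (hA ⟨a, ha⟩)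
      exact (ValuationSubring.eq_of_le_of_ne_top _ hle (w.restrict F).ne_top').symm
  have hseq : v.fiber F' = s := Finset.ext hfib
  rw [hseq]
  have hterm : ∀ w ∈ s, (w.ramificationIndex F : ℤ)
      = w.ord (algebraMap v.toValuationSubring F' π) := by
    intro w hw
    have hw' : w.restrict F = v := Place.mem_fiber.mp ((hfib w).mpr hw)
    show _ = w.ord (algebraMap F F' (π : F))
    rw [w.ord_restrict (π : F), hw', hordπ, mul_one]
  rw [Finset.sum_congr rfl hterm, hsum]
  congr 1
  exact (IsFractionRing.finrank_eq v.toValuationSubring F
    (integralClosure v.toValuationSubring F') F').symm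

set_option synthInstance.maxHeartbeats 400000 in
set_option maxHeartbeats 1600000 in
/-- **Norm formula** for a finite extension `F'/F` of function fields over an algebraically
closed field of characteristic zero: `ord_v (N f) = ∑_{w ∣ v} ord_w f`. -/
theorem sum_fiber_ord_eq_ord_norm (x : F') [FiniteDimensional K⟮x⟯ F']
    (v : Place K F) (f : F') (hf0 : f ≠ 0) :
    ∑ w ∈ v.fiber F', w.ord f = v.ord (Algebra.norm F f) := by
  classical
  have hchar : CharZero F := charZero_of_injective_algebraMap (algebraMap K F).injective
  have htower : IsScalarTower K v.toValuationSubring F' := isScalarTower_place v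
  have hDed : IsDedekindDomain (integralClosure v.toValuationSubring F') :=
    integralClosure.isDedekindDomain v.toValuationSubring F F'
  have hFrac : IsFractionRing (integralClosure v.toValuationSubring F') F' :=
    integralClosure.isFractionRing_of_finite_extension F F'
  have hfin : Module.Finite v.toValuationSubring (integralClosure v.toValuationSubring F') :=
    IsIntegralClosure.finite v.toValuationSubring F F' _
  have htf0 : Module.IsTorsionFree v.toValuationSubring F' := by
    rw [Module.isTorsionFree_iff_algebraMap_injective]
    intro a b hab
    apply Subtype.ext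
    exact (algebraMap F F').injective hab
  have htf : Module.IsTorsionFree v.toValuationSubring
      (integralClosure v.toValuationSubring F') := Subalgebra.instIsTorsionFree _
  have hpne : IsLocalRing.maximalIdeal v.toValuationSubring ≠ ⊥ :=
    IsDiscreteValuationRing.not_a_field _
  -- every prime of `B` gives a place over `v`
  have hrestrict : ∀ P : HeightOneSpectrum (integralClosure v.toValuationSubring F'),
      (Place.ofHeightOneSpectrum (K := K) (F := F') P).restrict F = v := by
    intro P
    apply Place.ext
    have hle : v.toValuationSubring ≤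
        ((Place.ofHeightOneSpectrum (K := K) (F := F') P).restrict F).toValuationSubring := by
      intro a ha
      rw [Place.mem_restrict_iff, Place.ofHeightOneSpectrum_toValuationSubring,
        Valuation.mem_valuationSubring_iff]
      have : algebraMap F F' a = algebraMap (integralClosure v.toValuationSubring F') F'
          (algebraMap v.toValuationSubring (integralClosure v.toValuationSubring F') ⟨a, ha⟩) :=
        rfl
      rw [this]
      exact HeightOneSpectrum.valuation_le_one _ _
    exact (ValuationSubring.eq_of_le_of_ne_top _ hle (Place.ne_top' _)).symm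
  have hsurj : ∀ w ∈ v.fiber F',
      ∃ P : HeightOneSpectrum (integralClosure v.toValuationSubring F'),
        Place.ofHeightOneSpectrum (K := K) (F := F') P = w := by
    intro w hw
    have hw' : w.restrict F = v := Place.mem_fiber.mp hw
    apply exists_ofHeightOneSpectrum_eq (R := integralClosure v.toValuationSubring F') w
    intro b
    refine mem_of_isIntegral_of_forall_mem (A := v.toValuationSubring) w (fun a => ?_) b.2
    have ha : (a : F) ∈ (w.restrict F).toValuationSubring := by rw [hw']; exact a.2
    exact (Place.mem_restrict_iff w).mp ha
  have hinj := ofHeightOneSpectrum_injective (K := K) (F := F')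
    (R := integralClosure v.toValuationSubring F')
  have hfinite : Finite (HeightOneSpectrum (integralClosure v.toValuationSubring F')) := by
    let φ : HeightOneSpectrum (integralClosure v.toValuationSubring F') →
        {w : Place K F' // w ∈ v.fiber F'} := fun P =>
      ⟨Place.ofHeightOneSpectrum (K := K) (F := F') P, Place.mem_fiber.mpr (hrestrict P)⟩
    exact Finite.of_injective φ (fun P Q h => hinj (congrArg Subtype.val h))
  let _ : Fintype (HeightOneSpectrum (integralClosure v.toValuationSubring F')) :=
    Fintype.ofFinite _
  have hfibeq : v.fiber F' = Finset.univ.image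
      (fun P : HeightOneSpectrum (integralClosure v.toValuationSubring F') =>
        Place.ofHeightOneSpectrum (K := K) (F := F') P) := by
    ext w
    rw [Finset.mem_image]
    constructor
    · intro hw
      obtain ⟨P, hP⟩ := hsurj w hw
      exact ⟨P, Finset.mem_univ _, hP⟩
    · rintro ⟨P, -, rfl⟩
      exact Place.mem_fiber.mpr (hrestrict P)
  have hsumfib : ∀ g : F', ∑ w ∈ v.fiber F', w.ord g
      = ∑ P : HeightOneSpectrum (integralClosure v.toValuationSubring F'),
          -log (P.valuation F' g) := by
    intro g
    rw [hfibeq, Finset.sum_image (fun a _ b _ h => hinj h)]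
    exact Finset.sum_congr rfl fun P _ => ord_ofHeightOneSpectrum P g
  have hfdeg : ∀ P : HeightOneSpectrum (integralClosure v.toValuationSubring F'),
      P.asIdeal.inertiaDeg v.toValuationSubring = 1 := by
    intro P
    have hl := liesOver_maximalIdeal (A := v.toValuationSubring) P
    exact FICore.inertiaDeg_eq_one_aux (K := K) (F := F') x v.toValuationSubring
      (integralClosure v.toValuationSubring F') (IsLocalRing.maximalIdeal v.toValuationSubring)
      hpne ⟨P.asIdeal, P.isPrime, hl⟩
  have hperf : PerfectField (FractionRing v.toValuationSubring) := by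
    have : CharZero (FractionRing v.toValuationSubring) :=
      charZero_of_injective_algebraMap
        (FaithfulSMul.algebraMap_injective v.toValuationSubring _)
    infer_instance
  -- the formula for elements of `B`
  have hB : ∀ b : integralClosure v.toValuationSubring F', b ≠ 0 →
      ∑ w ∈ v.fiber F', w.ord (b : F') = v.ord (Algebra.norm F (b : F')) := by
    intro b hb
    have hnorm : Algebra.norm F (b : F') = algebraMap v.toValuationSubring F
        (Algebra.intNorm v.toValuationSubring (integralClosure v.toValuationSubring F') b) :=
      (Algebra.algebraMap_intNorm (A := v.toValuationSubring) (K := F) (L := F')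
        (B := integralClosure v.toValuationSubring F') b).symm
    rw [hnorm, hsumfib]
    show _ = -log (v.adicValuation _)
    rw [show algebraMap v.toValuationSubring F
        (Algebra.intNorm v.toValuationSubring (integralClosure v.toValuationSubring F') b)
        = ((Algebra.intNorm v.toValuationSubring (integralClosure v.toValuationSubring F') b :
            v.toValuationSubring) : F) from rfl, v.adicValuation_coe]
    have key := intValuation_intNorm (A := v.toValuationSubring)
      (B := integralClosure v.toValuationSubring F') hfdeg b hb
    show _ = -log ((IsDiscreteValuationRing.maximalIdeal v.toValuationSubring).intValuation _)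
    rw [key]
    have hne : ∀ P : HeightOneSpectrum (integralClosure v.toValuationSubring F'),
        P.intValuation b ≠ 0 := fun P => P.intValuation_ne_zero b hb
    have hlogprod : ∀ s : Finset (HeightOneSpectrum (integralClosure v.toValuationSubring F')),
        log (∏ P ∈ s, P.intValuation b) = ∑ P ∈ s, log (P.intValuation b) := by
      intro s
      induction s using Finset.induction_on with
      | empty => simp
      | insert a s ha ih =>
        rw [Finset.prod_insert ha, Finset.sum_insert ha,
          log_mul (hne a) (Finset.prod_ne_zero_iff.mpr fun P _ => hne P), ih]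
    rw [hlogprod, ← Finset.sum_neg_distrib]
    refine Finset.sum_congr rfl fun P _ => ?_
    rw [show ((b : F')) = algebraMap (integralClosure v.toValuationSubring F') F' b from rfl,
      HeightOneSpectrum.valuation_of_algebraMap]
  -- general `f`
  obtain ⟨b₁, b₂, hb₂, rfl⟩ :=
    IsFractionRing.div_surjective (A := integralClosure v.toValuationSubring F') f
  have hb₂0 : b₂ ≠ 0 := nonZeroDivisors.ne_zero hb₂
  have hb₁0 : b₁ ≠ 0 := by
    rintro rfl
    simp at hf0
  have hb₁F : ((b₁ : integralClosure v.toValuationSubring F') : F') ≠ 0 := by
    simpa [ne_eq, ZeroMemClass.coe_eq_zero] using hb₁0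
  have hb₂F : ((b₂ : integralClosure v.toValuationSubring F') : F') ≠ 0 := by
    simpa [ne_eq, ZeroMemClass.coe_eq_zero] using hb₂0
  have h1 := hB b₁ hb₁0
  have h2 := hB b₂ hb₂0
  have hdiv : algebraMap (integralClosure v.toValuationSubring F') F' b₁ /
      algebraMap (integralClosure v.toValuationSubring F') F' b₂
      = (b₁ : F') * (b₂ : F')⁻¹ := div_eq_mul_inv _ _
  rw [hdiv]
  have hterm : ∀ w : Place K F', w.ord ((b₁ : F') * (b₂ : F')⁻¹)
      = w.ord (b₁ : F') - w.ord (b₂ : F') := by
    intro w
    rw [w.ord_mul hb₁F (inv_ne_zero hb₂F), w.ord_inv]
    ring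
  have hinv : Algebra.norm F ((b₂ : F')⁻¹) = (Algebra.norm F (b₂ : F'))⁻¹ := by
    apply eq_inv_of_mul_eq_one_left
    rw [← map_mul, inv_mul_cancel₀ hb₂F, map_one]
  simp_rw [hterm]
  rw [Finset.sum_sub_distrib, h1, h2, map_mul, hinv,
    v.ord_mul (Algebra.norm_ne_zero_iff.mpr hb₁F)
      (inv_ne_zero (Algebra.norm_ne_zero_iff.mpr hb₂F)), v.ord_inv]
  ring

/-- places of `F'` have degree one. -/
theorem deg_eq_one_top (x : F') [FiniteDimensional K⟮x⟯ F'] (w : Place K F') : w.deg = 1 :=
  DiffPlace.place_deg_eq_one x (Algebra.IsAlgebraic.of_finite _ _) w

/-- the (Prelude) inertia degree of a place of `F'` over `F` is one. -/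
theorem inertiaDeg_eq_one (x : F') [FiniteDimensional K⟮x⟯ F'] (w : Place K F') :
    w.inertiaDeg F = 1 := by
  have h := w.deg_restrict_mul_inertiaDeg (F := F)
  rw [deg_eq_one_top x w] at h
  exact Nat.eq_one_of_mul_eq_one_left h

/-- the restriction to `F` of a place of `F'` has degree one. -/
theorem deg_restrict_eq_one (x : F') [FiniteDimensional K⟮x⟯ F'] (w : Place K F') :
    (w.restrict F).deg = 1 := by
  have h := w.deg_restrict_mul_inertiaDeg (F := F)
  rw [deg_eq_one_top x w] at h
  exact Nat.eq_one_of_mul_eq_one_right h

/-- the fibre over a place of `F` is nonempty. -/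
theorem fiber_nonempty (x : F') [FiniteDimensional K⟮x⟯ F'] (v : Place K F) :
    (v.fiber F').Nonempty := by
  by_contra h
  rw [Finset.not_nonempty_iff_eq_empty] at h
  have hsum := sum_ramificationIndex_eq_finrank (F := F) x v
  rw [h, Finset.sum_empty] at hsum
  have hpos : 0 < Module.finrank F F' := Module.finrank_pos
  omega

/-- places of `F` have degree one. -/
theorem deg_eq_one_bot (x : F') [FiniteDimensional K⟮x⟯ F'] (v : Place K F) : v.deg = 1 := by
  obtain ⟨w, hw⟩ := fiber_nonempty (F := F) x v
  rw [← Place.mem_fiber.mp hw]
  exact deg_restrict_eq_one x w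

/-- **G1**: the fundamental identity (Prelude class) for a finite extension of function fields
over an algebraically closed field of characteristic zero. -/
theorem fundamentalIdentity (x : F') [FiniteDimensional K⟮x⟯ F'] :
    FundamentalIdentity K F F' where
  sum_ramificationIndex_mul_deg v := by
    rw [deg_eq_one_bot (F := F) x v]
    have h := sum_ramificationIndex_eq_finrank (F := F) x v
    simp only [Nat.cast_one, mul_one]
    rw [← h]
    refine Finset.sum_congr rfl fun w _ => ?_
    rw [deg_eq_one_top x w]
    simp

/-- the (Prelude) class `SumRamificationInertia`. -/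
theorem sumRamificationInertia (x : F') [FiniteDimensional K⟮x⟯ F'] :
    SumRamificationInertia K F F' where
  sum_ramificationIndex_mul_inertiaDeg v := by
    have h := sum_ramificationIndex_eq_finrank (F := F) x v
    rw [← h]
    refine Finset.sum_congr rfl fun w _ => ?_
    rw [inertiaDeg_eq_one x w]
    simp

/-- **G2**: the norm formula (Prelude `PushforwardNormFormula`) for a finite extension of
function fields over an algebraically closed field of characteristic zero. -/
theorem pushforwardNormFormula (x : F') [FiniteDimensional K⟮x⟯ F'] :
    Divisor.PushforwardNormFormula K F F' := by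
  classical
  intro f hf D hD v
  rw [Divisor.pushforward_apply, ← sum_fiber_ord_eq_ord_norm (F := F) x v f hf,
    ← Finset.sum_filter]
  have hsub : D.support.filter (fun w => w.restrict F = v) ⊆ v.fiber F' := by
    intro w hw
    exact Place.mem_fiber.mpr (Finset.mem_filter.mp hw).2
  rw [← Finset.sum_subset hsub]
  · refine Finset.sum_congr rfl fun w _ => ?_
    rw [inertiaDeg_eq_one x w, hD w]
    simp
  · intro w hw hnot
    have hw' : w.restrict F = v := Place.mem_fiber.mp hw
    have : w ∉ D.support := fun hmem => hnot (Finset.mem_filter.mpr ⟨hmem, hw'⟩)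
    rw [Finsupp.notMem_support_iff] at this
    rw [← hD w, this]

end Relative

section Along

variable {K F F' : Type*} [Field K] [Field F] [Field F'] [Algebra K F] [Algebra K F']
  [IsAlgClosed K] [CharZero K] [HasPrincipalDivisors K F']

/-- **G3a**: `FundamentalIdentityAlong` for a finite embedding of function fields. -/
theorem fundamentalIdentityAlong (φ : F →ₐ[K] F') (hφ : φ.toRingHom.IsIntegral)
    (hfin : FiniteAlong K φ) (x : F') [FiniteDimensional K⟮x⟯ F'] :
    FundamentalIdentityAlong K φ hφ := by
  let _ := algebraAlong φ
  have := isScalarTower_along φ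
  have : Module.Finite F F' := hfin
  exact fundamentalIdentity (K := K) (F := F) (F' := F') x

/-- **G3b**: `NormFormulaAlong` for a finite embedding of function fields. -/
theorem normFormulaAlong (φ : F →ₐ[K] F') (hfin : FiniteAlong K φ) (x : F')
    [FiniteDimensional K⟮x⟯ F'] :
    NormFormulaAlong K φ hfin := by
  let _ := algebraAlong φ
  have := isScalarTower_along φ
  have : Module.Finite F F' := hfin
  exact pushforwardNormFormula (K := K) (F := F) (F' := F') x

end Along

end Fermat.Agent.Red.GFF
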