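import Fermat.Agent.Red.HKMod
import Fermat.Agent.Red.GFF
import Fermat.Prelude.Def_ModularCurve_HeckeModule

/-!
# P-RED, module HK: `HeckeInputsAlong ℚ̄ N ℓ` holds unconditionally

Consequently the Hecke operator `heckeOperatorBar N ℓ` on `J₀(N)` is the honest correspondence
`(α_ℓ)_* ∘ (β_ℓ)^*`.
-/

set_option autoImplicit false

open AlgebraicCurve ModularCurve IntermediateField

noncomputable section

namespace Fermat.Agent.Red.HKMod

open Fermat.Agent.S24

variable (N ℓ : ℕ) [NeZero N] [NeZero ℓ]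

/-- the fundamental identity along `β` -/
theorem fundamentalIdentityAlong_heckeBetaBar :
    haveI := hasPrincipalDivisors_FF (N * ℓ)
    FundamentalIdentityAlong Kbar (heckeBetaBar Kbar N ℓ) (heckeBetaBarIntegral N ℓ) :=
  haveI := hasPrincipalDivisors_FF (N * ℓ)
  haveI := finiteDimensional_jBar (N * ℓ)
  Fermat.Agent.Red.GFF.fundamentalIdentityAlong (heckeBetaBar Kbar N ℓ)
    (heckeBetaBarIntegral N ℓ) (finiteAlong_heckeBetaBar N ℓ) (jBar (N * ℓ))

/-- the fundamental identity along `α` -/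
theorem fundamentalIdentityAlong_heckeAlphaBar :
    haveI := hasPrincipalDivisors_FF (N * ℓ)
    FundamentalIdentityAlong Kbar (heckeAlphaBar Kbar N ℓ) (heckeAlphaBarIntegral N ℓ) :=
  haveI := hasPrincipalDivisors_FF (N * ℓ)
  haveI := finiteDimensional_jBar (N * ℓ)
  Fermat.Agent.Red.GFF.fundamentalIdentityAlong (heckeAlphaBar Kbar N ℓ)
    (heckeAlphaBarIntegral N ℓ) (finiteAlong_heckeAlphaBar N ℓ) (jBar (N * ℓ))

/-- the norm formula along `α` -/
theorem normFormulaAlong_heckeAlphaBar :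
    NormFormulaAlong Kbar (heckeAlphaBar Kbar N ℓ) (finiteAlong_heckeAlphaBar N ℓ) :=
  haveI := hasPrincipalDivisors_FF (N * ℓ)
  haveI := finiteDimensional_jBar (N * ℓ)
  Fermat.Agent.Red.GFF.normFormulaAlong (heckeAlphaBar Kbar N ℓ)
    (finiteAlong_heckeAlphaBar N ℓ) (jBar (N * ℓ))

/-- the norm formula along `β` -/
theorem normFormulaAlong_heckeBetaBar :
    NormFormulaAlong Kbar (heckeBetaBar Kbar N ℓ) (finiteAlong_heckeBetaBar N ℓ) :=
  haveI := hasPrincipalDivisors_FF (N * ℓ)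
  haveI := finiteDimensional_jBar (N * ℓ)
  Fermat.Agent.Red.GFF.normFormulaAlong (heckeBetaBar Kbar N ℓ)
    (finiteAlong_heckeBetaBar N ℓ) (jBar (N * ℓ))

/-- **HK.**  The Hecke inputs hold at `(ℚ̄, N, ℓ)`. -/
theorem heckeInputsAlong : HeckeInputsAlong Kbar N ℓ :=
  heckeInputsAlong_of N ℓ (fundamentalIdentityAlong_heckeBetaBar N ℓ)
    (normFormulaAlong_heckeAlphaBar N ℓ)

/-- The Hecke operator along `(ℚ̄, N, ℓ)` is the correspondence `(α_ℓ)_* ∘ (β_ℓ)^*`. -/
theorem heckeOperatorAlong_eq_heckePic0Bar :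
    haveI := hasPrincipalDivisors_FF (N * ℓ)
    heckeOperatorAlong Kbar N ℓ
      = heckePic0Bar (heckeAlphaBarIntegral N ℓ) (heckeBetaBarIntegral N ℓ)
          (fundamentalIdentityAlong_heckeBetaBar N ℓ) (finiteAlong_heckeAlphaBar N ℓ)
          (normFormulaAlong_heckeAlphaBar N ℓ) :=
  haveI := hasPrincipalDivisors_FF (N * ℓ)
  heckeOperatorAlong_eq (heckeAlphaBarIntegral N ℓ) (heckeBetaBarIntegral N ℓ)
    (fundamentalIdentityAlong_heckeBetaBar N ℓ) (finiteAlong_heckeAlphaBar N ℓ)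
    (normFormulaAlong_heckeAlphaBar N ℓ)

/-- The Hecke operator `T_ℓ` on `J₀(N)`, evaluated on the class of a degree-zero divisor. -/
theorem heckeOperatorBar_mk (N : ℕ) [NeZero N] (ℓ : Nat.Primes)
    (D : Divisor.degZero (K := Kbar) (F := FF N)) :
    haveI : NeZero (ℓ : ℕ) := ⟨ℓ.2.ne_zero⟩
    haveI := hasPrincipalDivisors_FF (N * ℓ)
    heckeOperatorBar N ℓ (Pic0.mk D)
      = Pic0.mk (Pic0.degZeroCorrespondence (heckeBetaBar Kbar N ℓ) (heckeAlphaBar Kbar N ℓ)
          (heckeBetaBarIntegral N ℓ) (heckeAlphaBarIntegral N ℓ)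
          (fundamentalIdentityAlong_heckeBetaBar N ℓ) D) := by
  haveI : NeZero (ℓ : ℕ) := ⟨ℓ.2.ne_zero⟩
  haveI := hasPrincipalDivisors_FF (N * ℓ)
  rw [heckeOperatorBar_apply, heckeOperatorAlong_eq_heckePic0Bar]
  rfl

end Fermat.Agent.Red.HKMod
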