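import Fermat.Agent.Red.GGDefs

/-!
# P-RED, R-GATEGOOD (helper26): instance shortcut `Algebra A (FF M)`

For `A : ValuationSubring Kbar` the instance `Algebra A (FF M)` is found by unification
(`Algebra.ofSubsemiring`), but the search is slow and often times out.  Import this file to get
a high-priority shortcut (definitionally the same instance).
-/

set_option autoImplicit false

open AlgebraicCurve

noncomputable section

namespace Fermat.Agent.Red.GG

open Fermat.Agent.S37

set_option synthInstance.maxHeartbeats 400000 in
/-- shortcut instance (the instance found by unification is `Algebra.ofSubsemiring`, but the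
search is slow). -/
instance (priority := 10000) instAlgebraAFF (M : ℕ) (A : ValuationSubring Kbar) :
    Algebra A (FF M) := inferInstance

theorem algebraMap_apply_FF (M : ℕ) (A : ValuationSubring Kbar) (a : A) :
    algebraMap A (FF M) a = cst M (a : Kbar) := rfl

theorem smul_def_FF (M : ℕ) (A : ValuationSubring Kbar) (a : A) (x : FF M) :
    a • x = cst M (a : Kbar) * x := rfl

theorem mem_maximalIdeal_iff (A : ValuationSubring Kbar) (a : A) :
    a ∈ IsLocalRing.maximalIdeal A ↔ (a : Kbar) ∈ A.nonunits := by
  rw [ValuationSubring.coe_mem_nonunits_iff]

end Fermat.Agent.Red.GG
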