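import Fermat.Agent.Red.GGDefs
import Fermat.Agent.Red.GGInst
import Fermat.Agent.Red.HKMod
import Fermat.Agent.Red.Desc.Val
import Fermat.Agent.S24.Assembly

/-!
# P-RED, R-GATEGOOD leaf (L1), helper97: the fields of `GG.IfaceChart`

For the charts `chart M A t` (`t = jB M`, `(jB M)⁻¹`) of the normal model of `X₀(M)` over a
valuation subring `A` of `ℚ̄` over `ℓ ∤ M`:
* `GGC97_hB`, `GGC97_hfin` (any `t`), `GGC97_hBV_fin/_inf`, `GGC97_hVunit`, `GGC97_hQEP_fin/_inf`;
* `GGC97_clear` : clearing denominators (integral over `Kbar[t]` ⇒ a nonzero `A`-multiple is in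
  the chart);
* `GGC97_hunif` (any transcendental `t`), `GGC97_hunif_fin/_inf`.
The fields `hint`, `hinj` and the assembly of the structure are in other files.
-/

set_option autoImplicit false
set_option synthInstance.maxHeartbeats 400000
set_option linter.unusedSectionVars false
set_option linter.style.haveILetI false

open AlgebraicCurve WithZero IsLocalRing

noncomputable section

namespace Fermat.Agent.Red.GG

open Fermat.Agent.S37 Fermat.Agent.Red.GV

variable {M : ℕ} [NeZero M] {A : ValuationSubring Kbar} {t : FF M}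

/-- the scalar action of `A` on `FF M` is multiplication by the constant. -/
theorem GGC97_smul_eq (a : A) (x : FF M) : a • x = cst M (a : Kbar) * x := by
  rw [Algebra.smul_def]
  rfl

theorem GGC97_algebraMap_eq (a : A) : algebraMap A (FF M) a = cst M (a : Kbar) := rfl

theorem GGC97_coe_ne_zero {a : A} (ha : algebraMap A (FF M) a ≠ 0) : (a : Kbar) ≠ 0 := by
  intro h
  apply ha
  rw [GGC97_algebraMap_eq, h]
  exact map_zero _

/-- a place regular at `t` : membership and valuation. -/
theorem GGC97_le_one_iff (v : Place Kbar (FF M)) (f : FF M) :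
    v.adicValuation f ≤ 1 ↔ f ∈ v.toValuationSubring := by
  rw [v.adicValuation_le_one_iff]
  exact Desc.ge_zero_iff_mem

/-- the underlying place -/
def GGC97_pl (i : ChartPlace M t) : Place Kbar (FF M) := i.1

theorem GGC97_pl_injective : Function.Injective (GGC97_pl (M := M) (t := t)) := by
  intro i k h
  exact Subtype.ext h

theorem GGC97_chartVal (i : ChartPlace M t) (f : FF M) :
    chartVal M t i f = (GGC97_pl i).adicValuation f := rfl

theorem GGC97_t_mem (i : ChartPlace M t) : t ∈ (GGC97_pl i).toValuationSubring := i.2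

/-- **hB** -/
theorem GGC97_hB (M : ℕ) [NeZero M] (A : ValuationSubring Kbar) (t : FF M) :
    ∀ b ∈ chart M A t, ∀ i : ChartPlace M t, chartVal M t i b ≤ 1 := by
  intro b hb i
  rw [GGC97_chartVal, GGC97_le_one_iff]
  exact (ModelO.h85_mem_modelAt_iff_forall M A t b).1 hb (GGC97_pl i).toValuationSubring
    (fun a _ => (GGC97_pl i).algebraMap_mem' a) (GGC97_t_mem i)

/-- **hfin** -/
theorem GGC97_hfin (M : ℕ) [NeZero M] (t : FF M) :
    ∀ f : FF M, f ≠ 0 → {i : ChartPlace M t | 1 < chartVal M t i f}.Finite := by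
  intro f hf
  haveI := HKMod.hasPrincipalDivisors_FF M
  obtain ⟨D, hD, -⟩ := HasPrincipalDivisors.exists_divisor (K := Kbar) f hf
  have hsub : {i : ChartPlace M t | 1 < chartVal M t i f} ⊆
      (GGC97_pl (M := M) (t := t)) ⁻¹' (D.support : Set _) := by
    intro i hi
    simp only [Set.mem_preimage, Finset.mem_coe, Finsupp.mem_support_iff]
    have h1 : ¬ (GGC97_pl i).adicValuation f ≤ 1 := not_le.mpr hi
    rw [(GGC97_pl i).not_adicValuation_le_one_iff] at h1
    rw [hD]
    omega
  exact (Set.Finite.preimage (GGC97_pl_injective.injOn) D.support.finite_toSet).subset hsub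


section Gauss

variable {ℓ : ℕ}

/-- constants of `𝔪_A` reduce to zero. -/
theorem GGC97_gaussR_cst_eq_zero (hℓ : ℓ.Prime) (hN : ¬ ℓ ∣ M) (hA : A.LiesOverPrime ℓ)
    (m : Kbar) (hm : m ∈ A.nonunits) (h : cst M m ∈ gaussV A M) :
    gaussR A M ⟨cst M m, h⟩ = 0 := by
  rw [gaussR_eq_zero_iff A M hℓ hN hA]
  by_cases hm0 : m = 0
  · left
    show cst M m = 0
    rw [hm0]; exact map_zero _
  · right
    intro hinv
    have h1 : (cst M m)⁻¹ = cst M m⁻¹ := (map_inv₀ (algebraMap Kbar (FF M)) m).symm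
    have h2 : cst M m⁻¹ ∈ gaussV A M := by rw [← h1]; exact hinv
    rw [cst_mem_gaussV_iff A M hA] at h2
    have hmA : m ∈ A := A.nonunits_le hm
    have hu : IsUnit (⟨m, hmA⟩ : A) := by
      refine IsUnit.of_mul_eq_one (⟨m⁻¹, h2⟩ : A) ?_
      apply Subtype.ext
      show m * m⁻¹ = 1
      exact mul_inv_cancel₀ hm0
    exact (A.mem_nonunits_iff_exists_mem_maximalIdeal.mp hm).choose_spec hu |>.elim

end Gauss


section Gauss2

variable {ℓ : ℕ}

/-- **hVunit** -/
theorem GGC97_hVunit (hℓ : ℓ.Prime) (hN : ¬ ℓ ∣ M) (hA : A.LiesOverPrime ℓ) :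
    ∀ m ∈ maximalIdeal A, ∀ x ∈ gaussV A M,
      (1 + algebraMap A (FF M) m * x)⁻¹ ∈ gaussV A M := by
  intro m hm x hx
  have hmnu : (m : Kbar) ∈ A.nonunits := by
    rw [A.mem_nonunits_iff_exists_mem_maximalIdeal]
    exact ⟨m.2, hm⟩
  have hc : cst M (m : Kbar) ∈ gaussV A M := (cst_mem_gaussV_iff A M hA _).2 m.2
  have hy : 1 + cst M (m : Kbar) * x ∈ gaussV A M :=
    add_mem (one_mem _) (mul_mem hc hx)
  have hred : gaussR A M ⟨1 + cst M (m : Kbar) * x, hy⟩ = 1 := by
    have h1 : (⟨1 + cst M (m : Kbar) * x, hy⟩ : gaussV A M) =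
        1 + ⟨cst M (m : Kbar), hc⟩ * ⟨x, hx⟩ := rfl
    rw [h1, map_add, map_one, map_mul, GGC97_gaussR_cst_eq_zero hℓ hN hA _ hmnu hc, zero_mul,
      add_zero]
  have hne : gaussR A M ⟨1 + cst M (m : Kbar) * x, hy⟩ ≠ 0 := by
    rw [hred]; exact one_ne_zero
  rw [Ne, gaussR_eq_zero_iff A M hℓ hN hA, not_or, not_not] at hne
  exact hne.2

/-- **hBV**, finite chart -/
theorem GGC97_hBV_fin (hℓ : ℓ.Prime) (hN : ¬ ℓ ∣ M) (hA : A.LiesOverPrime ℓ) :
    ∀ x ∈ chart M A (jB M), x ∈ gaussV A M :=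
  fun _ hx => modelFin_le_gaussV A M hℓ hN hA hx

/-- **hBV**, chart at infinity -/
theorem GGC97_hBV_inf (hℓ : ℓ.Prime) (hN : ¬ ℓ ∣ M) (hA : A.LiesOverPrime ℓ) :
    ∀ x ∈ chart M A (jB M)⁻¹, x ∈ gaussV A M :=
  fun _ hx => modelInf_le_gaussV A M hℓ hN hA hx

/-- **hQEP**, finite chart -/
theorem GGC97_hQEP_fin (hℓ : ℓ.Prime) (hN : ¬ ℓ ∣ M) (hA : A.LiesOverPrime ℓ) :
    ∀ a : A, algebraMap A (FF M) a ≠ 0 → ∀ x ∈ gaussV A M,
      a • x ∈ chart M A (jB M) → x ∈ chart M A (jB M) := by
  intro a ha x hx h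
  rw [GGC97_smul_eq] at h
  exact mem_modelFin_of_cst_mul A M hℓ hN hA x hx (a : Kbar) a.2 (GGC97_coe_ne_zero ha) h

/-- **hQEP**, chart at infinity -/
theorem GGC97_hQEP_inf (hℓ : ℓ.Prime) (hN : ¬ ℓ ∣ M) (hA : A.LiesOverPrime ℓ) :
    ∀ a : A, algebraMap A (FF M) a ≠ 0 → ∀ x ∈ gaussV A M,
      a • x ∈ chart M A (jB M)⁻¹ → x ∈ chart M A (jB M)⁻¹ := by
  intro a ha x hx h
  rw [GGC97_smul_eq] at h
  exact mem_modelInf_of_cst_mul A M hℓ hN hA x hx (a : Kbar) a.2 (GGC97_coe_ne_zero ha) h

end Gauss2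


section Clear

open Polynomial

attribute [local instance] Polynomial.algebra

/-- integrality over a subalgebra implies integrality over a larger subring. -/
theorem GGC97_isIntegral_subring {K F : Type*} [Field K] [Field F] [Algebra K F]
    (S : Subalgebra K F) (T : Subring F) (h : ∀ x ∈ S, x ∈ T) {y : F}
    (hy : IsIntegral S y) : IsIntegral T y := by
  obtain ⟨p, hp, hroot⟩ := hy
  let g : S →+* T := (S.val : S →+* F).codRestrict T (fun x => h x x.2)
  refine ⟨p.map g, hp.map _, ?_⟩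
  rw [eval₂_map]
  exact hroot

/-- **clearing denominators**: an element integral over `Kbar[t]` becomes integral over `A[t]`
after multiplication by a nonzero constant of `A`. -/
theorem GGC97_clear (A : ValuationSubring Kbar) (t y : FF M)
    (hy : IsIntegral (Algebra.adjoin Kbar {t}) y) :
    ∃ a : A, (a : Kbar) ≠ 0 ∧ cst M (a : Kbar) * y ∈ modelAt M A t := by
  -- the evaluation maps
  let fK : Polynomial Kbar →+* FF M := (Polynomial.aeval t : Polynomial Kbar →ₐ[Kbar] FF M)
  let fA : Polynomial A →+* FF M := fK.comp (Polynomial.mapRingHom (algebraMap A Kbar))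
  have hfA : fA = ModelO.h85ev M A t := by
    apply Polynomial.ringHom_ext
    · intro a
      simp [fA, fK, ModelO.h85ev, ModelO.h85cstHom]
    · simp [fA, fK, ModelO.h85ev]
  -- `y` is integral over `Kbar[X]`
  have hyK : fK.IsIntegralElem y := by
    rw [← ModelO.h85_isIntegral_range_iff]
    refine GGC97_isIntegral_subring (Algebra.adjoin Kbar {t}) fK.range ?_ hy
    intro x hx
    rw [Algebra.adjoin_singleton_eq_range_aeval] at hx
    obtain ⟨q, hq⟩ := hx
    exact ⟨q, hq⟩
  letI algK : Algebra (Polynomial Kbar) (FF M) := fK.toAlgebra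
  letI algA : Algebra (Polynomial A) (FF M) := fA.toAlgebra
  haveI : IsScalarTower (Polynomial A) (Polynomial Kbar) (FF M) :=
    IsScalarTower.of_algebraMap_eq (fun x => rfl)
  haveI : IsLocalization ((nonZeroDivisors A).map (C : A →+* Polynomial A)) (Polynomial Kbar) :=
    Polynomial.isLocalization (nonZeroDivisors A) Kbar
  have hyK' : IsIntegral (Polynomial Kbar) y := hyK
  obtain ⟨⟨m, a, ha, rfl⟩, hm⟩ := IsIntegral.exists_multiple_integral_of_isLocalization
    ((nonZeroDivisors A).map (C : A →+* Polynomial A)) y hyK'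
  refine ⟨a, ?_, ?_⟩
  · intro h0
    exact nonZeroDivisors.ne_zero ha (Subtype.ext h0)
  · rw [ModelO.h85_mem_modelAt_iff_isIntegralElem, ← hfA]
    have h1 : (⟨C a, a, ha, rfl⟩ : (nonZeroDivisors A).map (C : A →+* Polynomial A)) • y =
        cst M (a : Kbar) * y := by
      rw [Submonoid.smul_def, Algebra.smul_def]
      congr 1
      show fA (C a) = _
      rw [hfA, ModelO.h85ev_C]
    rw [← h1]
    exact hm

end Clear


section Ded

open scoped IntermediateField.algebraAdjoinAdjoin
open IsDedekindDomain IntermediateField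

/-- the valuation of the place of a height-one prime is the adic valuation of the prime. -/
theorem GGC97_adicValuation_ofHeightOneSpectrum {K F : Type*} [Field K] [Field F] [Algebra K F]
    {R : Type*} [CommRing R] [IsDedekindDomain R] [Algebra R F] [IsFractionRing R F]
    [Algebra K R] [IsScalarTower K R F] (P : HeightOneSpectrum R) (f : F) :
    (Place.ofHeightOneSpectrum (K := K) (F := F) P).adicValuation f = P.valuation F f := by
  rcases eq_or_ne f 0 with rfl | hf
  · simp
  · rw [Place.adicValuation_eq_exp_neg_ord _ hf, Fermat.Agent.S24.ord_ofHeightOneSpectrum,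
      neg_neg, exp_log ((Valuation.ne_zero_iff _).mpr hf)]

/-- a uniformizer at a place regular at `t`, integral over `Kbar[t]`. -/
theorem GGC97_exists_unif_integral (t : FF M) (ht : Transcendental Kbar t)
    (v : Place Kbar (FF M)) (hv : t ∈ v.toValuationSubring) :
    ∃ π : FF M, IsIntegral (Algebra.adjoin Kbar {t}) π ∧ v.adicValuation π = exp (-1 : ℤ) := by
  haveI hfd : FiniteDimensional Kbar⟮t⟯ (FF M) := HKMod.finiteDimensional_adjoin_FF M t ht
  haveI hPID := Fermat.Agent.S24.FICore.isPrincipalIdealRing_adjoin (K := Kbar) t ht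
  haveI hDed : IsDedekindDomain (integralClosure (Algebra.adjoin Kbar {t}) (FF M)) :=
    integralClosure.isDedekindDomain (Algebra.adjoin Kbar {t}) Kbar⟮t⟯ (FF M)
  haveI hFrac : IsFractionRing (integralClosure (Algebra.adjoin Kbar {t}) (FF M)) (FF M) :=
    integralClosure.isFractionRing_of_finite_extension Kbar⟮t⟯ (FF M)
  obtain ⟨P, hP⟩ := Fermat.Agent.S24.exists_ofHeightOneSpectrum_eq
    (R := integralClosure (Algebra.adjoin Kbar {t}) (FF M)) v
    (fun r => Fermat.Agent.S24.FICore.mem_of_isIntegral_adjoin t v hv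
      (b := (r : FF M)) r.2)
  obtain ⟨π, hπ⟩ := P.intValuation_exists_uniformizer
  refine ⟨(π : FF M), π.2, ?_⟩
  rw [← hP, GGC97_adicValuation_ofHeightOneSpectrum, ← hπ]
  exact P.valuation_of_algebraMap π

/-- **hunif** for a transcendental chart coordinate. -/
theorem GGC97_hunif (A : ValuationSubring Kbar) (t : FF M) (ht : Transcendental Kbar t) :
    ∀ i : ChartPlace M t, ∃ b : chart M A t, chartVal M t i (b : FF M) = exp (-1 : ℤ) := by
  intro i
  obtain ⟨π, hπint, hπ⟩ := GGC97_exists_unif_integral t ht (GGC97_pl i) (GGC97_t_mem i)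
  obtain ⟨a, ha, hmem⟩ := GGC97_clear A t π hπint
  refine ⟨⟨cst M (a : Kbar) * π, hmem⟩, ?_⟩
  rw [GGC97_chartVal]
  show (GGC97_pl i).adicValuation (cst M (a : Kbar) * π) = _
  rw [map_mul, Fermat.Agent.S24.asm_adicValuation_algebraMap _ ha, one_mul, hπ]

/-- `j` is transcendental over `Kbar`. -/
theorem GGC97_transcendental_jB (M : ℕ) [NeZero M] : Transcendental Kbar (jB M) :=
  Fermat.Agent.S24.transcendental_jBar M

/-- `1/j` is transcendental over `Kbar`. -/
theorem GGC97_transcendental_jB_inv (M : ℕ) [NeZero M] : Transcendental Kbar (jB M)⁻¹ :=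
  fun h => GGC97_transcendental_jB M (IsAlgebraic.inv_iff.mp h)

/-- **hunif**, finite chart -/
theorem GGC97_hunif_fin (M : ℕ) [NeZero M] (A : ValuationSubring Kbar) :
    ∀ i : ChartPlace M (jB M), ∃ b : chart M A (jB M),
      chartVal M (jB M) i (b : FF M) = exp (-1 : ℤ) :=
  GGC97_hunif A (jB M) (GGC97_transcendental_jB M)

/-- **hunif**, chart at infinity -/
theorem GGC97_hunif_inf (M : ℕ) [NeZero M] (A : ValuationSubring Kbar) :
    ∀ i : ChartPlace M (jB M)⁻¹, ∃ b : chart M A (jB M)⁻¹,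
      chartVal M (jB M)⁻¹ i (b : FF M) = exp (-1 : ℤ) :=
  GGC97_hunif A (jB M)⁻¹ (GGC97_transcendental_jB_inv M)

end Ded

end Fermat.Agent.Red.GG

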