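import Fermat.Agent.Red.MatchLoc

/-!
# P-RED, local dictionary: the kernel of an evaluation homomorphism is finitely generated

* `h71_ker_eq_span` (abstract): if the ring `B` is generated by the image of `ι : A → B` and a
  set `T`, and `φ : B → A` is a retraction of `ι`, then `ker φ` is generated by the elements
  `t - ι (φ t)`, `t ∈ T`.
* `ker_valHom_eq_span`, `ker_valHom_fg` : the same for the evaluation `valHom A R v` on a subring
  `R` of `F_M` generated by the constants of `A` and a (finite) set `T`.
* `valHom_cst`, `evFin_cst`, `evInf_cst` : the evaluation homomorphisms are the identity on `A`.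
-/

set_option autoImplicit false

open AlgebraicCurve ModularCurve

noncomputable section

namespace Fermat.Agent.Red.Match

open Fermat.Agent.S37

section Abstract

variable {A B : Type*} [CommRing A] [CommRing B]

/-- the kernel of a retraction is generated by the `t - ι (φ t)`, `t` running over ring
generators of `B` over `ι A`. -/
theorem h71_ker_eq_span (ι : A →+* B) (φ : B →+* A) (hφ : ∀ a, φ (ι a) = a) (T : Set B)
    (hT : Subring.closure (Set.range ι ∪ T) = ⊤) :
    RingHom.ker φ = Ideal.span ((fun t => t - ι (φ t)) '' T) := by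
  set I : Ideal B := Ideal.span ((fun t => t - ι (φ t)) '' T) with hI
  have hsub : ∀ b : B, b - ι (φ b) ∈ I := by
    intro b
    have hb : b ∈ Subring.closure (Set.range ι ∪ T) := by rw [hT]; trivial
    induction hb using Subring.closure_induction with
    | mem y hy =>
      rcases hy with ⟨a, rfl⟩ | hy
      · rw [hφ, sub_self]; exact I.zero_mem
      · exact Ideal.subset_span ⟨y, hy, rfl⟩
    | zero => simp
    | one => simp
    | add x y _ _ hx hy =>
      have h : x + y - ι (φ (x + y)) = (x - ι (φ x)) + (y - ι (φ y)) := by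
        rw [map_add, map_add]; ring
      rw [h]; exact I.add_mem hx hy
    | neg x _ hx =>
      have h : -x - ι (φ (-x)) = -(x - ι (φ x)) := by
        rw [map_neg, map_neg]; ring
      rw [h]; exact I.neg_mem hx
    | mul x y _ _ hx hy =>
      have h : x * y - ι (φ (x * y)) = (x - ι (φ x)) * y + ι (φ x) * (y - ι (φ y)) := by
        rw [map_mul, map_mul]; ring
      rw [h]
      exact I.add_mem (I.mul_mem_right _ hx) (I.mul_mem_left _ hy)
  apply le_antisymm
  · intro b hb
    have h := hsub b
    rw [RingHom.mem_ker] at hb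
    rwa [hb, map_zero, sub_zero] at h
  · rw [hI, Ideal.span_le]
    rintro _ ⟨t, -, rfl⟩
    rw [SetLike.mem_coe, RingHom.mem_ker, map_sub, hφ, sub_self]

theorem h71_ker_fg (ι : A →+* B) (φ : B →+* A) (hφ : ∀ a, φ (ι a) = a) (T : Finset B)
    (hT : Subring.closure (Set.range ι ∪ (T : Set B)) = ⊤) : (RingHom.ker φ).FG := by
  classical
  rw [h71_ker_eq_span ι φ hφ (T : Set B) hT]
  refine ⟨T.image (fun t => t - ι (φ t)), ?_⟩
  rw [Finset.coe_image]

/-- generation inside the ambient ring implies generation inside the subring. -/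
theorem h71_closure_preimage_eq_top {F : Type*} [CommRing F] (R : Subring F) (X : Set F)
    (hX : X ⊆ R) (h : R ≤ Subring.closure X) :
    Subring.closure ((fun r : R => (r : F)) ⁻¹' X) = ⊤ := by
  rw [eq_top_iff]
  rintro ⟨x, hx⟩ -
  have key : ∀ y (_ : y ∈ Subring.closure X), ∃ hyR : y ∈ R,
      (⟨y, hyR⟩ : R) ∈ Subring.closure ((fun r : R => (r : F)) ⁻¹' X) := by
    intro y hy
    induction hy using Subring.closure_induction with
    | mem z hz => exact ⟨hX hz, Subring.subset_closure hz⟩
    | zero => exact ⟨R.zero_mem, Subring.zero_mem _⟩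
    | one => exact ⟨R.one_mem, Subring.one_mem _⟩
    | add x y _ _ hx hy =>
      obtain ⟨hx1, hx2⟩ := hx
      obtain ⟨hy1, hy2⟩ := hy
      exact ⟨R.add_mem hx1 hy1, Subring.add_mem _ hx2 hy2⟩
    | neg x _ hx =>
      obtain ⟨hx1, hx2⟩ := hx
      exact ⟨R.neg_mem hx1, Subring.neg_mem _ hx2⟩
    | mul x y _ _ hx hy =>
      obtain ⟨hx1, hx2⟩ := hx
      obtain ⟨hy1, hy2⟩ := hy
      exact ⟨R.mul_mem hx1 hy1, Subring.mul_mem _ hx2 hy2⟩
  obtain ⟨_, h2⟩ := key x (h hx)
  exact h2

end Abstract

section Concrete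

variable {M : ℕ}

/-- the constants of `A`, as a ring homomorphism into a subring containing them. -/
def cstHom (A : ValuationSubring Kbar) (R : Subring (FF M))
    (hR : ∀ a : Kbar, a ∈ A → cst M a ∈ R) : A →+* R where
  toFun a := ⟨cst M (a : Kbar), hR _ a.2⟩
  map_one' := Subtype.ext (by simp only [cst, OneMemClass.coe_one, map_one])
  map_zero' := Subtype.ext (by simp only [cst, ZeroMemClass.coe_zero, map_zero])
  map_add' a b := Subtype.ext (by
    simp only [cst, map_add, AddMemClass.coe_add])
  map_mul' a b := Subtype.ext (by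
    simp only [cst, map_mul, MulMemClass.coe_mul])

@[simp]
theorem coe_cstHom (A : ValuationSubring Kbar) (R : Subring (FF M))
    (hR : ∀ a : Kbar, a ∈ A → cst M a ∈ R) (a : A) :
    ((cstHom A R hR a : R) : FF M) = cst M (a : Kbar) := rfl

/-- the evaluation is the identity on the constants of `A`. -/
theorem valHom_cst (A : ValuationSubring Kbar) (R : Subring (FF M)) (v : Place Kbar (FF M))
    (hval : ∀ f : R, ∃ a : A, ValueAt v (f : FF M) (a : Kbar))
    (hR : ∀ a : Kbar, a ∈ A → cst M a ∈ R) (a : A) :
    valHom A R v hval (cstHom A R hR a) = a :=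
  Subtype.ext (valHom_eq A R v hval _ (valueAt_cst v _))

/-- the kernel of the evaluation at `v` on a subring `R` generated by the constants of `A` and
a set `T` is generated by the `t - t(v)`, `t ∈ T`. -/
theorem ker_valHom_eq_span (A : ValuationSubring Kbar) (R : Subring (FF M))
    (v : Place Kbar (FF M)) (hval : ∀ f : R, ∃ a : A, ValueAt v (f : FF M) (a : Kbar))
    (hR : ∀ a : Kbar, a ∈ A → cst M a ∈ R) (T : Set R)
    (hT : Subring.closure (Set.range (cstHom A R hR) ∪ T) = ⊤) :
    RingHom.ker (valHom A R v hval) =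
      Ideal.span ((fun t => t - cstHom A R hR (valHom A R v hval t)) '' T) :=
  h71_ker_eq_span (cstHom A R hR) (valHom A R v hval) (valHom_cst A R v hval hR) T hT

/-- finite generation of the kernel of the evaluation. -/
theorem ker_valHom_fg (A : ValuationSubring Kbar) (R : Subring (FF M))
    (v : Place Kbar (FF M)) (hval : ∀ f : R, ∃ a : A, ValueAt v (f : FF M) (a : Kbar))
    (hR : ∀ a : Kbar, a ∈ A → cst M a ∈ R) (T : Finset R)
    (hT : Subring.closure (Set.range (cstHom A R hR) ∪ (T : Set R)) = ⊤) :
    (RingHom.ker (valHom A R v hval)).FG :=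
  h71_ker_fg (cstHom A R hR) (valHom A R v hval) (valHom_cst A R v hval hR) T hT

/-- generation inside `F_M` implies generation inside the subring. -/
theorem closure_eq_top_of_le (A : ValuationSubring Kbar) (R : Subring (FF M))
    (hR : ∀ a : Kbar, a ∈ A → cst M a ∈ R) (T : Set R)
    (h : R ≤ Subring.closure ((fun a : Kbar => cst M a) '' (A : Set Kbar) ∪
      ((fun t : R => (t : FF M)) '' T))) :
    Subring.closure (Set.range (cstHom A R hR) ∪ T) = ⊤ := by
  have hX : ((fun a : Kbar => cst M a) '' (A : Set Kbar) ∪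
      ((fun t : R => (t : FF M)) '' T)) ⊆ R := by
    rintro x (⟨a, ha, rfl⟩ | ⟨t, -, rfl⟩)
    · exact hR a ha
    · exact t.2
  have h1 := h71_closure_preimage_eq_top R _ hX h
  rw [eq_top_iff, ← h1]
  refine Subring.closure_mono ?_
  rintro r (⟨a, ha, hr⟩ | ⟨t, ht, hr⟩)
  · exact Or.inl ⟨⟨a, ha⟩, Subtype.ext hr⟩
  · have : t = r := Subtype.ext hr
    exact Or.inr (this ▸ ht)

variable [NeZero M]

theorem evFin_cst {A : ValuationSubring Kbar} {v : Place Kbar (FF M)} (hv : IsFinAt A v)
    (a : A) :
    evFin hv (cstHom A (modelFin M A) (fun _ ha => cst_mem_modelAt M A _ ha) a) = a :=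
  valHom_cst A _ v _ _ a

theorem evInf_cst {A : ValuationSubring Kbar} {v : Place Kbar (FF M)} (hv : ¬ IsFinAt A v)
    (a : A) :
    evInf hv (cstHom A (modelInf M A) (fun _ ha => cst_mem_modelAt M A _ ha) a) = a :=
  valHom_cst A _ v _ _ a

/-- the value of `j` at a finite place. -/
theorem evFin_jB {A : ValuationSubring Kbar} {v : Place Kbar (FF M)} (hv : IsFinAt A v)
    (hj : jB M ∈ modelFin M A) : ValueAt v (jB M) ((evFin hv ⟨jB M, hj⟩ : A) : Kbar) :=
  evFin_spec hv ⟨jB M, hj⟩

end Concrete

end Fermat.Agent.Red.Match
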