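import Fermat.Agent.Red.GGDefs
import Fermat.Agent.Red.MatchKer
import Fermat.Prelude.Def_AlgebraicCurve_Repartitions

/-!
# P-RED, R-GATEGOOD, leaf (L3) (helper71): SECTION from FINITE

`ifaceSection_of : GG.IfaceFinite M A t → GG.IfaceSection M A t`.

Let `v` be a place of `F_M` at which `t` is regular, centered at a maximal ideal `𝔫` of the
chart `B = modelAt M A t` which contains `𝔪_A B`.

* `h71_value_mem_of_centered` : the value `t(v)` lies in `A` (otherwise `c = t(v)⁻¹ ∈ 𝔪_A`,
  `c t - 1` vanishes at `v`, hence lies in `𝔫`, and `c t ∈ 𝔪_A B ⊆ 𝔫`);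
* `chartEv` : the evaluation `B →ₐ[A] A` at `v` (all values of `B` lie in `A` by
  `Match.exists_valueAt_modelAt`);
* `chartEv_eq_zero_iff` : `φ b = 0 ↔ v(b) < 1`;
* `ker_chartEv_fg` : under FINITE the kernel is generated by `t - t(v)` and the `s - s(v)`,
  `s ∈ S`.

Nothing is assumed: the only hypothesis of the final theorem is `IfaceFinite M A t`.
-/

set_option autoImplicit false

open AlgebraicCurve WithZero IsLocalRing

noncomputable section

namespace Fermat.Agent.Red.GG

open Fermat.Agent.S37 Fermat.Agent.Red.GV Fermat.Agent.Red.Match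

/-! ### Abstract generation lemma -/

section Abstract

variable {A F : Type*} [CommRing A] [CommRing F] [Algebra A F]

omit [Algebra A F] in
/-- the values of a ring homomorphism `A[X] → F` lie in every subring of `F` containing the
images of the constants and of `X`. -/
theorem h71_ev_mem (ev : Polynomial A →+* F) (C : Subring F)
    (hC : ∀ a : A, ev (Polynomial.C a) ∈ C) (hX : ev Polynomial.X ∈ C) (p : Polynomial A) :
    ev p ∈ C := by
  induction p using Polynomial.induction_on' with
  | add p q hp hq =>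
    rw [map_add]
    exact add_mem hp hq
  | monomial n a =>
    rw [← Polynomial.C_mul_X_pow_eq_monomial, map_mul, map_pow]
    exact mul_mem (hC a) (pow_mem hX n)

/-- a subalgebra `B` which is the `A[t]`-span of a finite set `S` is generated, as a ring, by
the constants, `t` and `S`. -/
theorem h71_closure_eq_top_of_span (B : Subalgebra A F) (T : Set B)
    (ev : Polynomial A →+* F) (S : Finset F)
    (hC : ∀ a : A, ev (Polynomial.C a) = algebraMap A F a)
    (hX : ∃ b ∈ T, (b : F) = ev Polynomial.X)
    (hS : ∀ s ∈ S, ∃ b ∈ T, (b : F) = s)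
    (hgen : ∀ x ∈ B, ∃ c : F → Polynomial A, x = ∑ s ∈ S, ev (c s) * s) :
    Subring.closure (Set.range (algebraMap A B) ∪ T) = ⊤ := by
  rw [eq_top_iff]
  rintro b -
  have hC' : ∀ a : A, ev (Polynomial.C a) ∈
      (Subring.closure (Set.range (algebraMap A B) ∪ T)).map (B.val : B →+* F) := by
    intro a
    rw [hC]
    exact ⟨algebraMap A B a, Subring.subset_closure (Or.inl ⟨a, rfl⟩), rfl⟩
  have hX' : ev Polynomial.X ∈
      (Subring.closure (Set.range (algebraMap A B) ∪ T)).map (B.val : B →+* F) := by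
    obtain ⟨b, hbT, hb⟩ := hX
    exact ⟨b, Subring.subset_closure (Or.inr hbT), hb⟩
  have hS' : ∀ s ∈ S, s ∈
      (Subring.closure (Set.range (algebraMap A B) ∪ T)).map (B.val : B →+* F) := by
    intro s hs
    obtain ⟨b, hbT, hb⟩ := hS s hs
    exact ⟨b, Subring.subset_closure (Or.inr hbT), hb⟩
  obtain ⟨c, hc⟩ := hgen b b.2
  have hb : (b : F) ∈
      (Subring.closure (Set.range (algebraMap A B) ∪ T)).map (B.val : B →+* F) := by
    rw [hc]
    exact sum_mem fun s hs => mul_mem (h71_ev_mem ev _ hC' hX' (c s)) (hS' s hs)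
  obtain ⟨b', hb'C, hb'⟩ := hb
  have hbb : b' = b := Subtype.ext hb'
  rw [← hbb]
  exact hb'C

end Abstract

/-! ### Valuation `< 1` and the maximal ideal of the place -/

theorem h71_adicValuation_lt_one_iff {K F : Type*} [Field K] [Field F] [Algebra K F]
    (v : Place K F) (x : F) :
    v.adicValuation x < 1 ↔ x ∈ v.toValuationSubring.nonunits := by
  constructor
  · intro h
    have hx : x ∈ v.toValuationSubring := by
      rcases (v.adicValuation_le_one_iff).mp h.le with h0 | h0
      · rw [h0]; exact zero_mem _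
      · exact Fermat.Agent.S24.DiffPlace.mem_of_ord_nonneg v h0
    have h1 : ¬ IsUnit (⟨x, hx⟩ : v.toValuationSubring) := by
      intro hu
      have := (v.adicValuation_coe_eq_one_iff ⟨x, hx⟩).mpr hu
      exact h.ne this
    have h2 : (⟨x, hx⟩ : v.toValuationSubring) ∈ maximalIdeal v.toValuationSubring := h1
    exact ValuationSubring.coe_mem_nonunits_iff.mpr h2
  · intro h
    have hx : x ∈ v.toValuationSubring := ValuationSubring.nonunits_subset h
    have h2 : (⟨x, hx⟩ : v.toValuationSubring) ∈ maximalIdeal v.toValuationSubring :=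
      ValuationSubring.coe_mem_nonunits_iff.mp h
    refine lt_of_le_of_ne (v.adicValuation_le_one_of_mem hx) ?_
    intro h1
    exact h2 ((v.adicValuation_coe_eq_one_iff ⟨x, hx⟩).mp h1)

theorem h71_adicValuation_lt_one_iff_valueAt {M : ℕ} (v : Place Kbar (FF M)) (x : FF M) :
    v.adicValuation x < 1 ↔ ValueAt v x 0 := by
  rw [h71_adicValuation_lt_one_iff]
  unfold ValueAt
  simp only [cst, map_zero, sub_zero]

/-! ### The value of `t` at a place centered on the special fibre -/

variable {M : ℕ} [NeZero M]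

/-- the element `t` of the chart. -/
def chartT (M : ℕ) (A : ValuationSubring Kbar) (t : FF M) : chart M A t :=
  ⟨t, ModelO.h85_self_mem_modelAt M A t⟩

omit [NeZero M] in
@[simp]
theorem coe_chartT (A : ValuationSubring Kbar) (t : FF M) :
    ((chartT M A t : chart M A t) : FF M) = t :=
  rfl

omit [NeZero M] in
@[simp]
theorem coe_algebraMap_chart (A : ValuationSubring Kbar) (t : FF M) (a : A) :
    ((algebraMap A (chart M A t) a : chart M A t) : FF M) = cst M (a : Kbar) := rfl

/-- **the value of `t` at a place centered at a maximal ideal containing `𝔪_A` lies in `A`.** -/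
theorem h71_value_mem_of_centered (A : ValuationSubring Kbar) (t : FF M) (i : ChartPlace M t)
    (𝔫 : Ideal (chart M A t)) (hmax : 𝔫.IsMaximal)
    (hle : (maximalIdeal A).map (algebraMap A (chart M A t)) ≤ 𝔫)
    (hcen : h26Centered (chart M A t) (chartVal M t) 𝔫 i) :
    ∃ a : A, ValueAt i.1 t (a : Kbar) := by
  obtain ⟨v, htv⟩ := i
  obtain ⟨c, hc⟩ := exists_valueAt v htv
  suffices hcA : c ∈ A from ⟨⟨c, hcA⟩, hc⟩
  by_contra hcA
  have hc0 : c ≠ 0 := fun h => hcA (h ▸ A.zero_mem)
  have hinv : c⁻¹ ∈ A.nonunits := by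
    rw [ValuationSubring.mem_nonunits_iff_or]
    right
    rwa [inv_inv]
  have hinvA : c⁻¹ ∈ A := ValuationSubring.nonunits_subset hinv
  have ha : (⟨c⁻¹, hinvA⟩ : A) ∈ maximalIdeal A := ValuationSubring.coe_mem_nonunits_iff.mp hinv
  have h1 : algebraMap A (chart M A t) ⟨c⁻¹, hinvA⟩ ∈ 𝔫 := hle (Ideal.mem_map_of_mem _ ha)
  have h2 : algebraMap A (chart M A t) ⟨c⁻¹, hinvA⟩ * chartT M A t - 1 ∈ 𝔫 := by
    apply hcen
    show v.adicValuation (cst M c⁻¹ * t - 1) < 1
    rw [h71_adicValuation_lt_one_iff_valueAt]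
    have h3 := valueAt_sub (valueAt_mul (valueAt_cst v c⁻¹) hc) (valueAt_one v)
    rwa [inv_mul_cancel₀ hc0, sub_self] at h3
  have h3 : (1 : chart M A t) ∈ 𝔫 := by
    have h4 := 𝔫.sub_mem (𝔫.mul_mem_right (chartT M A t) h1) h2
    rwa [sub_sub_cancel] at h4
  exact hmax.ne_top ((Ideal.eq_top_iff_one _).mpr h3)

/-! ### The evaluation at a place as an `A`-algebra homomorphism -/

omit [NeZero M] in
/-- the identification of the chart (a subalgebra) with `modelAt` (a subring). -/
def chartToModel (M : ℕ) (A : ValuationSubring Kbar) (t : FF M) :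
    chart M A t →+* modelAt M A t where
  toFun b := ⟨b.1, b.2⟩
  map_one' := rfl
  map_mul' _ _ := rfl
  map_zero' := rfl
  map_add' _ _ := rfl

omit [NeZero M] in
@[simp]
theorem coe_chartToModel (A : ValuationSubring Kbar) (t : FF M) (b : chart M A t) :
    ((chartToModel M A t b : modelAt M A t) : FF M) = (b : FF M) := rfl

/-- the values of the chart at a place `v` with `t(v) ∈ A`. -/
theorem h71_chart_hval (A : ValuationSubring Kbar) (t : FF M) (v : Place Kbar (FF M))
    (hx : ∃ a : A, ValueAt v t (a : Kbar)) (f : modelAt M A t) :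
    ∃ a : A, ValueAt v (f : FF M) (a : Kbar) :=
  exists_valueAt_modelAt A v t hx f f.2

/-- **the evaluation `chart → A` at a place `v` with `t(v) ∈ A`.** -/
def chartEv (A : ValuationSubring Kbar) (t : FF M) (v : Place Kbar (FF M))
    (hx : ∃ a : A, ValueAt v t (a : Kbar)) : chart M A t →ₐ[A] A :=
  { (valHom A (modelAt M A t) v (h71_chart_hval A t v hx)).comp (chartToModel M A t) with
    commutes' := fun _ =>
      Subtype.ext (valHom_eq A (modelAt M A t) v (h71_chart_hval A t v hx) _ (valueAt_cst v _)) }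

theorem chartEv_spec (A : ValuationSubring Kbar) (t : FF M) (v : Place Kbar (FF M))
    (hx : ∃ a : A, ValueAt v t (a : Kbar)) (b : chart M A t) :
    ValueAt v (b : FF M) ((chartEv A t v hx b : A) : Kbar) :=
  valHom_spec A (modelAt M A t) v (h71_chart_hval A t v hx) (chartToModel M A t b)

theorem chartEv_eq (A : ValuationSubring Kbar) (t : FF M) (v : Place Kbar (FF M))
    (hx : ∃ a : A, ValueAt v t (a : Kbar)) (b : chart M A t) {a : Kbar}
    (h : ValueAt v (b : FF M) a) : ((chartEv A t v hx b : A) : Kbar) = a :=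
  valueAt_unique (chartEv_spec A t v hx b) h

/-- the kernel of the evaluation consists of the functions vanishing at the place. -/
theorem chartEv_eq_zero_iff (A : ValuationSubring Kbar) (t : FF M) (v : Place Kbar (FF M))
    (hx : ∃ a : A, ValueAt v t (a : Kbar)) (b : chart M A t) :
    chartEv A t v hx b = 0 ↔ v.adicValuation (b : FF M) < 1 := by
  rw [h71_adicValuation_lt_one_iff_valueAt]
  constructor
  · intro h
    have h1 := chartEv_spec A t v hx b
    rwa [h, ZeroMemClass.coe_zero] at h1
  · intro h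
    exact Subtype.ext (chartEv_eq A t v hx b h)

/-- **finite generation of the kernel of the evaluation**, under FINITE. -/
theorem ker_chartEv_fg (A : ValuationSubring Kbar) (t : FF M) (v : Place Kbar (FF M))
    (hx : ∃ a : A, ValueAt v t (a : Kbar)) (hfin : IfaceFinite M A t) :
    (RingHom.ker (chartEv A t v hx : chart M A t →+* A)).FG := by
  classical
  obtain ⟨S, hS, hgen⟩ := hfin
  refine h71_ker_fg (algebraMap A (chart M A t)) (chartEv A t v hx : chart M A t →+* A)
    (fun a => (chartEv A t v hx).commutes a)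
    (insert (chartT M A t) (S.attach.image fun s => (⟨s.1, hS s.1 s.2⟩ : chart M A t))) ?_
  refine h71_closure_eq_top_of_span (chart M A t) _ (ModelO.h85ev M A t) S
    (fun a => ModelO.h85ev_C M A t a) ?_ ?_ (fun x hx' => hgen x hx')
  · refine ⟨chartT M A t, ?_, ?_⟩
    · rw [Finset.coe_insert]
      exact Set.mem_insert _ _
    · rw [ModelO.h85ev_X]
      rfl
  · intro s hs
    refine ⟨⟨s, hS s hs⟩, ?_, rfl⟩
    rw [Finset.coe_insert]
    refine Set.mem_insert_of_mem _ ?_
    rw [Finset.mem_coe, Finset.mem_image]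
    exact ⟨⟨s, hs⟩, Finset.mem_attach _ _, rfl⟩

/-! ### The leaf (L3) -/

/-- **(L3) SECTION from FINITE.** -/
theorem ifaceSection_of (M : ℕ) [NeZero M] (A : ValuationSubring Kbar) (t : FF M)
    (hfin : IfaceFinite M A t) : IfaceSection M A t := by
  intro i 𝔫 hmax hle hcen
  have hx := h71_value_mem_of_centered A t i 𝔫 hmax hle hcen
  exact ⟨chartEv A t i.1 hx, fun b => chartEv_eq_zero_iff A t i.1 hx b,
    ker_chartEv_fg A t i.1 hx hfin⟩

end Fermat.Agent.Red.GG
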