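import Fermat.Agent.Red.GGDefs
import Fermat.Agent.S18.H18Places
import Fermat.Agent.S18.H18Adapter
import Fermat.Agent.Red.HKMod
import Fermat.Prelude.Def_AlgebraicCurve_Repartitions

/-!
# P-RED, gate integration (L1): fields `hint`, `hinj` of `GG.IfaceChart` and `GG.IfaceGeneric`
(helper18, in parallel with helper97)

* `h18c_place_of` : every valuation subring `≠ ⊤` of `FF M` containing the constants is (the
  valuation ring of) a place;
* `h18c_mem_modelTop` : a function regular at all places at which `t` is regular is integral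
  over `Kbar[t]`;
* `h18c_hint` : field `hint` of `H26Chart` for the chart `modelAt M A t`.
-/

set_option autoImplicit false
set_option synthInstance.maxHeartbeats 400000

open AlgebraicCurve WithZero IsLocalRing Polynomial

noncomputable section

namespace Fermat.Agent.Red.GG

open Fermat.Agent.S37 Fermat.Agent.Red.GV

/-- every valuation subring `≠ ⊤` of `FF M` containing the constants is a place. -/
theorem h18c_place_of (M : ℕ) [NeZero M] (W : ValuationSubring (FF M))
    (hK : ∀ a : Kbar, cst M a ∈ W) (hW : W ≠ ⊤) :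
    ∃ v : Place Kbar (FF M), v.toValuationSubring = W :=
  ⟨⟨W, hK, hW, Fermat.Agent.S18.h18_isPrincipalIdealRing
    (fun x hx => Fermat.Agent.S18.h18_mem_range_of_isAlgebraic x hx)
    (fun x hx => Fermat.Agent.Red.HKMod.finiteDimensional_adjoin_FF M x hx) W hK⟩, rfl⟩

/-- regularity at a place in terms of the valuation. -/
theorem h18c_mem_of_le_one {M : ℕ} (v : Place Kbar (FF M)) {f : FF M}
    (h : v.adicValuation f ≤ 1) : f ∈ v.toValuationSubring := by
  rcases v.adicValuation_le_one_iff.1 h with rfl | h0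
  · exact v.toValuationSubring.zero_mem
  · exact Fermat.Agent.S24.DiffPlace.mem_of_ord_nonneg v h0

/-- a function which is regular at all places at which `t` is regular is integral over
`Kbar[t]` (the chart over the trivial valuation ring `⊤` of `Kbar`). -/
theorem h18c_mem_modelTop (M : ℕ) [NeZero M] (t f : FF M)
    (hf : ∀ i : ChartPlace M t, chartVal M t i f ≤ 1) :
    f ∈ modelAt M (⊤ : ValuationSubring Kbar) t := by
  rw [ModelO.h85_mem_modelAt_iff_forall]
  intro W hA ht
  by_cases hW : W = ⊤
  · rw [hW]; exact ValuationSubring.mem_top _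
  · obtain ⟨v, hv⟩ := h18c_place_of M W (fun a => hA a (ValuationSubring.mem_top a)) hW
    have h1 := hf ⟨v, by rw [hv]; exact ht⟩
    have h2 := h18c_mem_of_le_one v h1
    rw [hv] at h2
    exact h2

/-- common denominators: for a polynomial with coefficients in `Kbar[X]` there is `a ≠ 0` in `A`
multiplying all coefficients of all coefficients into `A`. -/
theorem h18c_exists_denominator (A : ValuationSubring Kbar)
    (p : Polynomial (Polynomial (⊤ : ValuationSubring Kbar))) :
    ∃ a : A, a ≠ 0 ∧ ∀ k j : ℕ, (a : Kbar) * (((p.coeff k).coeff j : (⊤ : ValuationSubring Kbar)) : Kbar) ∈ A := by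
  classical
  set X : Finset Kbar := p.support.biUnion (fun k => (p.coeff k).support.image
    (fun j => (((p.coeff k).coeff j : (⊤ : ValuationSubring Kbar)) : Kbar))) with hX
  obtain ⟨b, hb⟩ := IsLocalization.exist_integer_multiples_of_finset (nonZeroDivisors A) X
  refine ⟨b, nonZeroDivisors.coe_ne_zero b, ?_⟩
  intro k j
  by_cases hk : p.coeff k = 0
  · rw [hk]
    simp only [coeff_zero, ZeroMemClass.coe_zero, mul_zero]
    exact A.zero_mem
  by_cases hj : (p.coeff k).coeff j = 0
  · rw [hj]
    simp only [ZeroMemClass.coe_zero, mul_zero]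
    exact A.zero_mem
  have hx : (((p.coeff k).coeff j : (⊤ : ValuationSubring Kbar)) : Kbar) ∈ X := by
    rw [hX, Finset.mem_biUnion]
    exact ⟨k, mem_support_iff.2 hk, Finset.mem_image.2 ⟨j, mem_support_iff.2 hj, rfl⟩⟩
  obtain ⟨y, hy⟩ := hb _ hx
  have h1 : (b : Kbar) * (((p.coeff k).coeff j : (⊤ : ValuationSubring Kbar)) : Kbar)
      = (y : Kbar) := by
    have h2 : ((b : A) • (((p.coeff k).coeff j : (⊤ : ValuationSubring Kbar)) : Kbar))
        = (b : Kbar) * (((p.coeff k).coeff j : (⊤ : ValuationSubring Kbar)) : Kbar) := by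
      rw [Algebra.smul_def]; rfl
    rw [← h2]
    exact hy.symm
  rw [h1]
  exact y.2

/-- clearing the denominators of one coefficient. -/
theorem h18c_mul_ev_mem (M : ℕ) (A : ValuationSubring Kbar) (t : FF M)
    (W : ValuationSubring (FF M)) (hA : ∀ a ∈ A, cst M a ∈ W) (ht : t ∈ W)
    (r : Polynomial (⊤ : ValuationSubring Kbar)) (a : Kbar)
    (ha : ∀ j : ℕ, a * ((r.coeff j : (⊤ : ValuationSubring Kbar)) : Kbar) ∈ A) :
    cst M a * ModelO.h85ev M ⊤ t r ∈ W := by
  unfold ModelO.h85ev
  rw [coe_eval₂RingHom, eval₂_eq_sum_range, Finset.mul_sum]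
  refine sum_mem fun j _ => ?_
  have h1 : cst M a * (ModelO.h85cstHom M ⊤ (r.coeff j) * t ^ j)
      = cst M (a * ((r.coeff j : (⊤ : ValuationSubring Kbar)) : Kbar)) * t ^ j := by
    rw [← mul_assoc, ModelO.h85cstHom_apply, ← map_mul]
  rw [h1]
  exact W.mul_mem _ _ (hA _ (ha j)) (pow_mem ht j)

/-- **field `hint` of `H26Chart`** for the chart `modelAt M A t`: a function which is regular
at all places at which `t` is regular lies in the chart after multiplication by a nonzero
constant of `A`. -/
theorem h18c_hint (M : ℕ) [NeZero M] (A : ValuationSubring Kbar) (t f : FF M)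
    (hf : ∀ i : ChartPlace M t, chartVal M t i f ≤ 1) :
    ∃ a : A, algebraMap A (FF M) a ≠ 0 ∧ a • f ∈ chart M A t := by
  have h1 := h18c_mem_modelTop M t f hf
  rw [ModelO.h85_mem_modelAt_iff_isIntegralElem] at h1
  obtain ⟨p, hp, hroot⟩ := h1
  obtain ⟨a, ha0, ha⟩ := h18c_exists_denominator A p
  refine ⟨a, ?_, ?_⟩
  · show cst M (a : Kbar) ≠ 0
    intro h
    apply ha0
    have h2 : (a : Kbar) = 0 := (map_eq_zero (algebraMap Kbar (FF M))).1 h
    exact Subtype.ext h2
  · rw [mem_chart, ModelO.h85_mem_modelAt_iff_forall]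
    intro W hA ht
    show cst M (a : Kbar) * f ∈ W
    set P : Polynomial (FF M) := p.map (ModelO.h85ev M ⊤ t) with hP
    have hPm : P.Monic := hp.map _
    have hPr : eval₂ (RingHom.id (FF M)) f P = 0 := by
      rw [hP, eval₂_map, RingHom.id_comp]
      exact hroot
    set Q : Polynomial (FF M) := P.scaleRoots (cst M (a : Kbar)) with hQ
    have hQm : Q.Monic := (monic_scaleRoots_iff _).2 hPm
    have hQr : eval₂ (RingHom.id (FF M)) (cst M (a : Kbar) * f) Q = 0 := by
      have h3 := scaleRoots_eval₂_mul (p := P) (RingHom.id (FF M)) f (cst M (a : Kbar))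
      simp only [RingHom.id_apply] at h3
      rw [hQ, h3, hPr, mul_zero]
    have haW : cst M (a : Kbar) ∈ W := hA _ a.2
    have hQc : (↑Q.coeffs : Set (FF M)) ⊆ W.toSubring := by
      intro c hc
      obtain ⟨k, -, rfl⟩ := (mem_coeffs_iff).1 hc
      show Q.coeff k ∈ W
      rw [hQ, coeff_scaleRoots]
      rcases lt_trichotomy k P.natDegree with hk | hk | hk
      · have h4 : P.natDegree - k = (P.natDegree - k - 1) + 1 := by omega
        have h6 : P.coeff k * cst M (a : Kbar) ^ (P.natDegree - k - 1 + 1)
            = (cst M (a : Kbar) * P.coeff k) * cst M (a : Kbar) ^ (P.natDegree - k - 1) := by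
          ring
        rw [h4, h6]
        refine W.mul_mem _ _ ?_ (pow_mem haW _)
        rw [hP, coeff_map]
        exact h18c_mul_ev_mem M A t W hA ht (p.coeff k) a (fun j => ha k j)
      · rw [hk, Nat.sub_self, pow_zero, mul_one, coeff_natDegree, hPm.leadingCoeff]
        exact W.one_mem
      · rw [coeff_eq_zero_of_natDegree_lt hk, zero_mul]
        exact W.zero_mem
    have hint : IsIntegral W (cst M (a : Kbar) * f) := by
      refine ⟨Q.toSubring W.toSubring hQc, (monic_toSubring _ _ _).2 hQm, ?_⟩
      have h5 : eval₂ (algebraMap W (FF M)) (cst M (a : Kbar) * f)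
          (Q.toSubring W.toSubring hQc) = eval₂ (RingHom.id (FF M)) (cst M (a : Kbar) * f) Q := by
        conv_rhs => rw [← map_toSubring Q W.toSubring hQc]
        rw [eval₂_map]
        rfl
      rw [h5, hQr]
    obtain ⟨y, hy⟩ := IsIntegrallyClosed.isIntegral_iff.1 hint
    rw [← hy]
    exact y.2

end Fermat.Agent.Red.GG
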