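import Fermat.Agent.Red.GGChart
import Fermat.Agent.Red.GGChart18

/-!
# P-RED, R-GATEGOOD leaf (L1), helper97: `GG.IfaceChart` for the two charts

* `GGC97_exists_coprime_integral` : two distinct places regular at `t` are separated by a
  partition of unity `r + s = 1` integral over `Kbar[t]`;
* `GGC97_hinj` : the field `hinj` (any transcendental `t`);
* `ifaceChart_fin`, `ifaceChart_inf` : the structure `IfaceChart M A t` for `t = jB M`,
  `t = (jB M)⁻¹` (field `hint` is helper18's `h18c_hint`).
-/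

set_option autoImplicit false
set_option synthInstance.maxHeartbeats 400000
set_option linter.unusedSectionVars false
set_option linter.style.haveILetI false

open AlgebraicCurve WithZero IsLocalRing

noncomputable section

namespace Fermat.Agent.Red.GG

open Fermat.Agent.S37 Fermat.Agent.Red.GV

variable {M : ℕ} [NeZero M] {A : ValuationSubring Kbar} {t : FF M}

section Sep

open scoped IntermediateField.algebraAdjoinAdjoin
open IsDedekindDomain IntermediateField

/-- two distinct height-one primes of a Dedekind domain are separated by a partition of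
unity. -/
theorem GGC97_coprime_aux {K F : Type*} [Field K] [Field F] [Algebra K F]
    {R : Type*} [CommRing R] [IsDedekindDomain R] [Algebra R F] [IsFractionRing R F]
    [Algebra K R] [IsScalarTower K R F] (P Q : HeightOneSpectrum R) (hPQ : P ≠ Q) :
    ∃ r s : R, r + s = 1 ∧
      (Place.ofHeightOneSpectrum (K := K) (F := F) P).adicValuation (algebraMap R F r) < 1 ∧
      (Place.ofHeightOneSpectrum (K := K) (F := F) Q).adicValuation (algebraMap R F s) < 1 := by
  have hPQ' : P.asIdeal ≠ Q.asIdeal := fun h => hPQ (HeightOneSpectrum.ext h)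
  have hcop : P.asIdeal ⊔ Q.asIdeal = ⊤ :=
    Ideal.IsMaximal.coprime_of_ne P.isMaximal Q.isMaximal hPQ'
  have h1 : (1 : R) ∈ P.asIdeal ⊔ Q.asIdeal := by
    rw [hcop]; exact Submodule.mem_top
  obtain ⟨r, hr, s, hs, hrs⟩ := Submodule.mem_sup.mp h1
  refine ⟨r, s, hrs, ?_, ?_⟩
  · rw [GGC97_adicValuation_ofHeightOneSpectrum]
    exact (P.valuation_lt_one_iff_mem r).mpr hr
  · rw [GGC97_adicValuation_ofHeightOneSpectrum]
    exact (Q.valuation_lt_one_iff_mem s).mpr hs

set_option maxHeartbeats 1600000 in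
/-- two distinct places regular at `t` are separated by a partition of unity integral over
`Kbar[t]`. -/
theorem GGC97_exists_coprime_integral (t : FF M) (ht : Transcendental Kbar t)
    (v w : Place Kbar (FF M)) (hv : t ∈ v.toValuationSubring) (hw : t ∈ w.toValuationSubring)
    (hvw : v ≠ w) :
    ∃ r s : FF M, IsIntegral (Algebra.adjoin Kbar {t}) r ∧
      IsIntegral (Algebra.adjoin Kbar {t}) s ∧ r + s = 1 ∧
      v.adicValuation r < 1 ∧ w.adicValuation s < 1 := by
  haveI hfd : FiniteDimensional Kbar⟮t⟯ (FF M) := HKMod.finiteDimensional_adjoin_FF M t ht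
  haveI hPID := Fermat.Agent.S24.FICore.isPrincipalIdealRing_adjoin (K := Kbar) t ht
  haveI hDed : IsDedekindDomain (integralClosure (Algebra.adjoin Kbar {t}) (FF M)) :=
    integralClosure.isDedekindDomain (Algebra.adjoin Kbar {t}) Kbar⟮t⟯ (FF M)
  haveI hFrac : IsFractionRing (integralClosure (Algebra.adjoin Kbar {t}) (FF M)) (FF M) :=
    integralClosure.isFractionRing_of_finite_extension Kbar⟮t⟯ (FF M)
  obtain ⟨P, hP⟩ := Fermat.Agent.S24.exists_ofHeightOneSpectrum_eq
    (R := integralClosure (Algebra.adjoin Kbar {t}) (FF M)) v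
    (fun r => Fermat.Agent.S24.FICore.mem_of_isIntegral_adjoin t v hv
      (b := (r : FF M)) r.2)
  obtain ⟨Q, hQ⟩ := Fermat.Agent.S24.exists_ofHeightOneSpectrum_eq
    (R := integralClosure (Algebra.adjoin Kbar {t}) (FF M)) w
    (fun r => Fermat.Agent.S24.FICore.mem_of_isIntegral_adjoin t w hw
      (b := (r : FF M)) r.2)
  have hPQ : P ≠ Q := by
    rintro rfl
    exact hvw (hP.symm.trans hQ)
  obtain ⟨r, s, hrs, hr, hs⟩ := GGC97_coprime_aux (K := Kbar) (F := FF M) P Q hPQ
  refine ⟨algebraMap (integralClosure (Algebra.adjoin Kbar {t}) (FF M)) (FF M) r,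
    algebraMap (integralClosure (Algebra.adjoin Kbar {t}) (FF M)) (FF M) s, r.2, s.2, ?_,
    hP ▸ hr, hQ ▸ hs⟩
  rw [← map_add, hrs, map_one]

end Sep

/-- the valuation at a place of `1 - s` with `v s < 1`. -/
theorem GGC97_val_eq_one_of_add {K F : Type*} [Field K] [Field F] [Algebra K F]
    (w : Place K F) {r s : F} (hrs : r + s = 1) (hs : w.adicValuation s < 1) :
    w.adicValuation r = 1 := by
  have h1 : w.adicValuation (r + s) = 1 := by rw [hrs, map_one]
  have h2 : w.adicValuation r ≤ 1 := by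
    by_contra h
    push Not at h
    have h3 : w.adicValuation (r + s) = w.adicValuation r :=
      Valuation.map_add_eq_of_lt_left _ (hs.trans h)
    rw [h3] at h1
    exact absurd h1 h.ne'
  rcases lt_or_eq_of_le h2 with h | h
  · exfalso
    have h3 : w.adicValuation (r + s) < 1 := Valuation.map_add_lt _ h hs
    rw [h1] at h3
    exact lt_irrefl _ h3
  · exact h

/-- **hinj** for a transcendental chart coordinate. -/
theorem GGC97_hinj (A : ValuationSubring Kbar) (t : FF M) (ht : Transcendental Kbar t) :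
    ∀ i k : ChartPlace M t,
      (∀ b : chart M A t, chartVal M t i (b : FF M) < 1 → chartVal M t k (b : FF M) < 1) →
      i = k := by
  intro i k h
  by_contra hik
  have hvw : GGC97_pl i ≠ GGC97_pl k := fun e => hik (GGC97_pl_injective e)
  obtain ⟨r, s, hr, -, hrs, hvr, hws⟩ := GGC97_exists_coprime_integral t ht
    (GGC97_pl i) (GGC97_pl k) (GGC97_t_mem i) (GGC97_t_mem k) hvw
  obtain ⟨a, ha, hmem⟩ := GGC97_clear A t r hr
  have hk1 : (GGC97_pl k).adicValuation r = 1 := GGC97_val_eq_one_of_add _ hrs hws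
  have h1 := h ⟨cst M (a : Kbar) * r, hmem⟩ (by
    show (GGC97_pl i).adicValuation (cst M (a : Kbar) * r) < 1
    rw [map_mul, Fermat.Agent.S24.asm_adicValuation_algebraMap _ ha, one_mul]
    exact hvr)
  have h2 : (GGC97_pl k).adicValuation (cst M (a : Kbar) * r) < 1 := h1
  rw [map_mul, Fermat.Agent.S24.asm_adicValuation_algebraMap _ ha, one_mul, hk1] at h2
  exact lt_irrefl _ h2

section Asm

variable {ℓ : ℕ}

/-- **(L1)** the chart interface, finite chart. -/
theorem ifaceChart_fin (hℓ : ℓ.Prime) (hN : ¬ ℓ ∣ M) (hA : A.LiesOverPrime ℓ) :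
    IfaceChart M A (jB M) where
  hfin := GGC97_hfin M (jB M)
  hint := fun f hf => h18c_hint M A (jB M) f hf
  hB := GGC97_hB M A (jB M)
  hunif := GGC97_hunif_fin M A
  hinj := GGC97_hinj A (jB M) (GGC97_transcendental_jB M)
  hBV := GGC97_hBV_fin hℓ hN hA
  hVunit := GGC97_hVunit hℓ hN hA
  hQEP := GGC97_hQEP_fin hℓ hN hA

/-- **(L1)** the chart interface, chart at infinity. -/
theorem ifaceChart_inf (hℓ : ℓ.Prime) (hN : ¬ ℓ ∣ M) (hA : A.LiesOverPrime ℓ) :
    IfaceChart M A (jB M)⁻¹ where
  hfin := GGC97_hfin M (jB M)⁻¹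
  hint := fun f hf => h18c_hint M A (jB M)⁻¹ f hf
  hB := GGC97_hB M A (jB M)⁻¹
  hunif := GGC97_hunif_inf M A
  hinj := GGC97_hinj A (jB M)⁻¹ (GGC97_transcendental_jB_inv M)
  hBV := GGC97_hBV_inf hℓ hN hA
  hVunit := GGC97_hVunit hℓ hN hA
  hQEP := GGC97_hQEP_inf hℓ hN hA

end Asm

end Fermat.Agent.Red.GG
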