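import Fermat.Agent.S37.Skeleton
import Fermat.Agent.Red.HKMod
import Fermat.Agent.Red.GFF

/-!
# P-RED, module CH0: characteristic zero facts about the degeneracy inclusions

For `N ∣ M` the degeneracy inclusion `degen h : F_N → F_M` is finite (hence integral), `F_M` has
principal divisors, and the fundamental identity holds along `degen h`.
-/

set_option autoImplicit false

open AlgebraicCurve ModularCurve IntermediateField

noncomputable section

namespace Fermat.Agent.Red.CH0

open Fermat.Agent.S37 Fermat.Agent.Red.HKMod

variable {N M : ℕ} [NeZero N] [NeZero M] (h : N ∣ M)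

/-- the degeneracy inclusion maps `j` to `j`. -/
theorem degen_jBar : degen h (Fermat.Agent.S24.jBar N) = Fermat.Agent.S24.jBar M :=
  Subtype.ext (coe_degen h (Fermat.Agent.S24.jBar N))

/-- `F_M` is finite along the degeneracy inclusion. -/
theorem finiteAlong_degen : FiniteAlong Kbar (degen h) := by
  have : FiniteDimensional Kbar⟮degen h (Fermat.Agent.S24.jBar N)⟯ (FF M) := by
    rw [degen_jBar]
    exact finiteDimensional_jBar M
  exact finiteAlong_of_finiteDimensional_adjoin (degen h) (Fermat.Agent.S24.jBar N)

/-- the degeneracy inclusion is integral. -/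
theorem isIntegral_degen : (degen h).toRingHom.IsIntegral :=
  isIntegral_of_finiteAlong _ (finiteAlong_degen h)

/-- the fundamental identity along the degeneracy inclusion. -/
theorem fundamentalIdentityAlong_degen :
    haveI := hasPrincipalDivisors_FF M
    FundamentalIdentityAlong Kbar (degen h) (isIntegral_degen h) :=
  haveI := hasPrincipalDivisors_FF M
  haveI := finiteDimensional_jBar M
  Fermat.Agent.Red.GFF.fundamentalIdentityAlong (degen h) (isIntegral_degen h)
    (finiteAlong_degen h) (Fermat.Agent.S24.jBar M)

/-- the norm formula along the degeneracy inclusion. -/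
theorem normFormulaAlong_degen :
    NormFormulaAlong Kbar (degen h) (finiteAlong_degen h) :=
  haveI := hasPrincipalDivisors_FF M
  haveI := finiteDimensional_jBar M
  Fermat.Agent.Red.GFF.normFormulaAlong (degen h) (finiteAlong_degen h)
    (Fermat.Agent.S24.jBar M)

/-- **CH0.** -/
theorem ifaceDegenInputs : IfaceDegenInputs := by
  intro N M _ _ h
  exact ⟨isIntegral_degen h, hasPrincipalDivisors_FF M, fundamentalIdentityAlong_degen h⟩

end Fermat.Agent.Red.CH0
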