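import Fermat.Agent.S37.Skeleton

/-!
# P-RED, task R-MATCH: `IfaceMatch` and the local dictionary (values at places)

* `h71_exists_sep`, `h71_multiset_eq` : CRT-type separation of finitely many ring homs `R → k`
  which agree on constants; two multisets of such homs with the same multiset of values at
  every `f` are equal.
* `h71_sum_mem` : equal multisets of reductions ⇒ the difference of the divisors lies in the
  subgroup generated by the differences of points with the same reduction.
* `valueAt_*` : the dictionary for `ValueAt` (uniqueness, ring operations, constants).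
* `valHom`, `redHom` : evaluation `R → A` and reduction `R → k = A/𝔪_A` at a place all of whose
  values on the subring `R` lie in `A`.
* `ifaceMatch : IfaceMatch M`.
-/

set_option autoImplicit false

open Polynomial AlgebraicCurve ModularCurve

noncomputable section

namespace Fermat.Agent.Red.Match

open Fermat.Agent.S37

section Core

variable {R k : Type*} [CommRing R] [Field k]

/-- **CRT separation.** Finitely many ring homs `R → k` which all restrict to the same
surjection on "constants" can be separated: for `φ ∈ Φ` there is `f` with `φ f = 1` and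
`ψ f = 0` for all other `ψ ∈ Φ`. -/
theorem h71_exists_sep (c : k → R) (Φ : Finset (R →+* k))
    (hc : ∀ φ ∈ Φ, ∀ x : k, φ (c x) = x) (φ : R →+* k) (hφ : φ ∈ Φ) :
    ∃ f : R, φ f = 1 ∧ ∀ ψ ∈ Φ, ψ ≠ φ → ψ f = 0 := by
  classical
  have hex : ∀ ψ : R →+* k, ∃ g : R, ψ ∈ Φ → ψ ≠ φ → φ g = 1 ∧ ψ g = 0 := by
    intro ψ
    by_cases h : ψ ∈ Φ ∧ ψ ≠ φ
    · obtain ⟨hψ, hne⟩ := h
      obtain ⟨f, hf⟩ : ∃ f, ψ f ≠ φ f := by
        by_contra hall
        simp only [not_exists, not_not] at hall
        exact hne (RingHom.ext hall)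
      refine ⟨(f - c (ψ f)) * c ((φ f - ψ f)⁻¹), fun _ _ => ⟨?_, ?_⟩⟩
      · rw [map_mul, map_sub, hc φ hφ, hc φ hφ]
        exact mul_inv_cancel₀ (sub_ne_zero.mpr (Ne.symm hf))
      · rw [map_mul, map_sub, hc ψ hψ, sub_self, zero_mul]
    · refine ⟨0, fun h1 h2 => (h ⟨h1, h2⟩).elim⟩
  choose g hg using hex
  refine ⟨∏ ψ ∈ Φ.erase φ, g ψ, ?_, ?_⟩
  · rw [map_prod]
    refine Finset.prod_eq_one fun ψ hψ => ?_
    exact (hg ψ (Finset.mem_of_mem_erase hψ) (Finset.ne_of_mem_erase hψ)).1
  · intro ψ hψ hne
    rw [map_prod]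
    exact Finset.prod_eq_zero (Finset.mem_erase.mpr ⟨hne, hψ⟩) (hg ψ hψ hne).2

/-- Two finite families (multisets) of ring homs `R → k`, all restricting to the same
surjection on constants, with the same multiset of values at every `f : R`, are equal. -/
theorem h71_multiset_eq (c : k → R) (X Y : Multiset (R →+* k))
    (hX : ∀ φ ∈ X, ∀ x, φ (c x) = x) (hY : ∀ φ ∈ Y, ∀ x, φ (c x) = x)
    (h : ∀ f : R, X.map (fun φ => φ f) = Y.map (fun φ => φ f)) : X = Y := by
  classical
  ext φ
  set Φ : Finset (R →+* k) := X.toFinset ∪ Y.toFinset with hΦ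
  by_cases hφ : φ ∈ Φ
  · have hcΦ : ∀ ψ ∈ Φ, ∀ x : k, ψ (c x) = x := by
      intro ψ hψ
      rcases Finset.mem_union.mp hψ with h1 | h1
      · exact hX ψ (Multiset.mem_toFinset.mp h1)
      · exact hY ψ (Multiset.mem_toFinset.mp h1)
    obtain ⟨f, hf1, hf0⟩ := h71_exists_sep c Φ hcΦ φ hφ
    have key : ∀ Z : Multiset (R →+* k), (∀ ψ ∈ Z, ψ ∈ Φ) →
        Multiset.count φ Z = Multiset.count (1 : k) (Z.map (fun ψ => ψ f)) := by
      intro Z hZ
      rw [Multiset.count_map, Multiset.count_eq_card_filter_eq]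
      congr 1
      refine Multiset.filter_congr fun ψ hψ => ?_
      constructor
      · intro h1
        rw [← h1, hf1]
      · intro h1
        by_contra hne
        rw [hf0 ψ (hZ ψ hψ) (fun h2 => hne h2.symm)] at h1
        exact one_ne_zero h1
    rw [key X (fun ψ hψ => Finset.mem_union_left _ (Multiset.mem_toFinset.mpr hψ)),
      key Y (fun ψ hψ => Finset.mem_union_right _ (Multiset.mem_toFinset.mpr hψ)), h f]
  · have h1 : φ ∉ X := fun h1 => hφ (Finset.mem_union_left _ (Multiset.mem_toFinset.mpr h1))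
    have h2 : φ ∉ Y := fun h2 => hφ (Finset.mem_union_right _ (Multiset.mem_toFinset.mpr h2))
    rw [Multiset.count_eq_zero_of_notMem h1, Multiset.count_eq_zero_of_notMem h2]

end Core

section Sum

variable {α β : Type*}

/-- If the "reductions" `r i` of the `v i` and `s i` of the `w i` agree as multisets, and `H`
contains `v i - w j` whenever `r i = s j`, then `∑ (v i - w i) ∈ H`. -/
theorem h71_sum_mem (H : AddSubgroup (α →₀ ℤ)) {n : ℕ} (v w : Fin n → α) (r s : Fin n → β)
    (hH : ∀ i j, r i = s j → Finsupp.single (v i) (1 : ℤ) - Finsupp.single (w j) (1 : ℤ) ∈ H)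
    (hrs : Multiset.map r Finset.univ.val = Multiset.map s Finset.univ.val) :
    (∑ i, (Finsupp.single (v i) (1 : ℤ) - Finsupp.single (w i) (1 : ℤ))) ∈ H := by
  classical
  -- every `r i` is some `s j`
  have hrs' : ∀ i, ∃ j, s j = r i := by
    intro i
    have h1 : r i ∈ Multiset.map s Finset.univ.val := by
      rw [← hrs]
      exact Multiset.mem_map_of_mem r (Finset.mem_univ_val i)
    obtain ⟨j, -, hj⟩ := Multiset.mem_map.mp h1
    exact ⟨j, hj⟩
  have hsr' : ∀ j, ∃ i, r i = s j := by
    intro j
    have h1 : s j ∈ Multiset.map r Finset.univ.val := by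
      rw [hrs]
      exact Multiset.mem_map_of_mem s (Finset.mem_univ_val j)
    obtain ⟨i, -, hi⟩ := Multiset.mem_map.mp h1
    exact ⟨i, hi⟩
  have hww : ∀ j j', s j = s j' →
      Finsupp.single (w j) (1 : ℤ) - Finsupp.single (w j') (1 : ℤ) ∈ H := by
    intro j j' hjj'
    obtain ⟨i, hi⟩ := hsr' j
    have h1 := hH i j hi
    have h2 := hH i j' (hi.trans hjj')
    have h3 := H.sub_mem h2 h1
    have h4 : Finsupp.single (v i) (1 : ℤ) - Finsupp.single (w j') (1 : ℤ) -
        (Finsupp.single (v i) (1 : ℤ) - Finsupp.single (w j) (1 : ℤ)) =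
        Finsupp.single (w j) (1 : ℤ) - Finsupp.single (w j') (1 : ℤ) := by abel
    rwa [h4] at h3
  -- the quotient trick
  let G : β → (α →₀ ℤ) ⧸ H := fun b =>
    if h : ∃ j, s j = b then QuotientAddGroup.mk (Finsupp.single (w h.choose) (1 : ℤ)) else 0
  have hGs : ∀ j, G (s j) = QuotientAddGroup.mk (Finsupp.single (w j) (1 : ℤ)) := by
    intro j
    have h : ∃ j', s j' = s j := ⟨j, rfl⟩
    simp only [G, dif_pos h]
    rw [QuotientAddGroup.eq_iff_sub_mem]
    exact hww _ _ h.choose_spec
  have hGr : ∀ i, G (r i) = QuotientAddGroup.mk (Finsupp.single (v i) (1 : ℤ)) := by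
    intro i
    have h : ∃ j', s j' = r i := hrs' i
    simp only [G, dif_pos h]
    rw [eq_comm, QuotientAddGroup.eq_iff_sub_mem]
    exact hH i _ h.choose_spec.symm
  have hsum : (∑ i, G (r i)) = ∑ i, G (s i) := by
    have h1 : (∑ i, G (r i)) = ((Multiset.map r Finset.univ.val).map G).sum := by
      rw [Multiset.map_map]; rfl
    have h2 : (∑ i, G (s i)) = ((Multiset.map s Finset.univ.val).map G).sum := by
      rw [Multiset.map_map]; rfl
    rw [h1, h2, hrs]
  rw [← QuotientAddGroup.eq_zero_iff, QuotientAddGroup.mk_sum]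
  simp only [QuotientAddGroup.mk_sub]
  rw [Finset.sum_sub_distrib, sub_eq_zero]
  simp only [← hGr, ← hGs]
  exact hsum

end Sum

section Valuation

variable {F : Type*} [Field F]

theorem h71_mul_mem_nonunits (O : ValuationSubring F) {x y : F} (hx : x ∈ O.nonunits)
    (hy : y ∈ O) : x * y ∈ O.nonunits := by
  rw [ValuationSubring.mem_nonunits_iff] at hx ⊢
  rw [map_mul]
  have hy' := (O.valuation_le_one_iff y).mpr hy
  calc O.valuation x * O.valuation y ≤ O.valuation x * 1 := mul_le_mul' le_rfl hy'
    _ = O.valuation x := mul_one _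
    _ < 1 := hx

/-- congruent roots ⇒ equal multisets of residues. -/
theorem h71_roots_cong (A : ValuationSubring F) {n : ℕ} (a b : Fin n → A)
    (h : ∀ m : ℕ, ((∏ i, (X - C ((a i : A) : F))).coeff m -
      (∏ i, (X - C ((b i : A) : F))).coeff m) ∈ A.nonunits) :
    Multiset.map (fun i => IsLocalRing.residue A (a i)) Finset.univ.val =
      Multiset.map (fun i => IsLocalRing.residue A (b i)) Finset.univ.val := by
  classical
  set P : A[X] := ∏ i, (X - C (a i)) with hP
  set Q : A[X] := ∏ i, (X - C (b i)) with hQ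
  have hPm : P.map A.subtype = ∏ i, (X - C ((a i : A) : F)) := by
    rw [hP, Polynomial.map_prod]
    refine Finset.prod_congr rfl fun i _ => ?_
    rw [Polynomial.map_sub, Polynomial.map_X, Polynomial.map_C]
    rfl
  have hQm : Q.map A.subtype = ∏ i, (X - C ((b i : A) : F)) := by
    rw [hQ, Polynomial.map_prod]
    refine Finset.prod_congr rfl fun i _ => ?_
    rw [Polynomial.map_sub, Polynomial.map_X, Polynomial.map_C]
    rfl
  have hres : P.map (IsLocalRing.residue A) = Q.map (IsLocalRing.residue A) := by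
    ext m
    rw [Polynomial.coeff_map, Polynomial.coeff_map, ← sub_eq_zero, ← map_sub,
      IsLocalRing.residue_eq_zero_iff, ← ValuationSubring.coe_mem_nonunits_iff]
    have h1 := h m
    rw [← hPm, ← hQm, Polynomial.coeff_map, Polynomial.coeff_map] at h1
    exact h1
  have hroots : ∀ c : Fin n → A,
      ((∏ i, (X - C (c i)) : A[X]).map (IsLocalRing.residue A)).roots =
        Multiset.map (fun i => IsLocalRing.residue A (c i)) Finset.univ.val := by
    intro c
    have h1 : (∏ i, (X - C (c i)) : A[X]).map (IsLocalRing.residue A) =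
        (Multiset.map (fun x => X - C x)
          (Multiset.map (fun i => IsLocalRing.residue A (c i)) Finset.univ.val)).prod := by
      rw [Polynomial.map_prod, Multiset.map_map]
      refine Finset.prod_congr rfl fun i _ => ?_
      rw [Polynomial.map_sub, Polynomial.map_X, Polynomial.map_C]
      rfl
    rw [h1, Polynomial.roots_multiset_prod_X_sub_C]
  rw [← hroots a, ← hroots b]
  exact congrArg Polynomial.roots hres

end Valuation

/-! ## The dictionary for `ValueAt` -/

section Dictionary

variable {M : ℕ} (v : Place Kbar (FF M))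

theorem valueAt_cst (c : Kbar) : ValueAt v (cst M c) c := by
  unfold ValueAt
  rw [sub_self]
  exact zero_mem _

theorem valueAt_zero : ValueAt v (0 : FF M) 0 := by
  have h := valueAt_cst v 0
  simpa only [cst, map_zero] using h

theorem valueAt_one : ValueAt v (1 : FF M) 1 := by
  have h := valueAt_cst v 1
  simpa only [cst, map_one] using h

variable {v}

theorem cst_mem (v : Place Kbar (FF M)) (c : Kbar) : cst M c ∈ v.toValuationSubring :=
  v.algebraMap_mem' c

theorem valueAt_mem {f : FF M} {a : Kbar} (h : ValueAt v f a) : f ∈ v.toValuationSubring := by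
  have h1 : f - cst M a ∈ v.toValuationSubring := ValuationSubring.nonunits_subset h
  have h2 := add_mem h1 (cst_mem v a)
  rwa [sub_add_cancel] at h2

theorem valueAt_unique {f : FF M} {a a' : Kbar} (h : ValueAt v f a) (h' : ValueAt v f a') :
    a = a' := by
  by_contra hne
  have h1 : cst M (a - a') ∈ v.toValuationSubring.nonunits := by
    have h2 := sub_mem h' h
    have h3 : f - cst M a' - (f - cst M a) = cst M (a - a') := by
      simp only [cst, map_sub]; ring
    rwa [h3] at h2
  rw [ValuationSubring.mem_nonunits_iff_or] at h1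
  rcases h1 with h1 | h1
  · rw [map_eq_zero] at h1
    exact hne (sub_eq_zero.mp h1)
  · apply h1
    rw [← map_inv₀]
    exact cst_mem v _

theorem valueAt_add {f g : FF M} {a b : Kbar} (hf : ValueAt v f a) (hg : ValueAt v g b) :
    ValueAt v (f + g) (a + b) := by
  unfold ValueAt at *
  have h := add_mem hf hg
  have h3 : f - cst M a + (g - cst M b) = f + g - cst M (a + b) := by
    simp only [cst, map_add]; ring
  rwa [h3] at h

theorem valueAt_neg {f : FF M} {a : Kbar} (hf : ValueAt v f a) : ValueAt v (-f) (-a) := by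
  unfold ValueAt at *
  have h := neg_mem hf
  have h3 : -(f - cst M a) = -f - cst M (-a) := by
    simp only [cst, map_neg]; ring
  rwa [h3] at h

theorem valueAt_sub {f g : FF M} {a b : Kbar} (hf : ValueAt v f a) (hg : ValueAt v g b) :
    ValueAt v (f - g) (a - b) := by
  rw [sub_eq_add_neg, sub_eq_add_neg]
  exact valueAt_add hf (valueAt_neg hg)

theorem valueAt_mul {f g : FF M} {a b : Kbar} (hf : ValueAt v f a) (hg : ValueAt v g b) :
    ValueAt v (f * g) (a * b) := by
  have hgm := valueAt_mem hg
  unfold ValueAt at *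
  have h1 := h71_mul_mem_nonunits _ hf hgm
  have h2 := h71_mul_mem_nonunits _ hg (cst_mem v a)
  have h := add_mem h1 h2
  have h3 : (f - cst M a) * g + (g - cst M b) * cst M a = f * g - cst M (a * b) := by
    simp only [cst, map_mul]; ring
  rwa [h3] at h

/-- the evaluation homomorphism `R → A` at a place all of whose values on `R` lie in `A`. -/
def valHom (A : ValuationSubring Kbar) (R : Subring (FF M)) (v : Place Kbar (FF M))
    (hval : ∀ f : R, ∃ a : A, ValueAt v (f : FF M) (a : Kbar)) : R →+* A where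
  toFun f := (hval f).choose
  map_one' := Subtype.ext (valueAt_unique (hval 1).choose_spec (valueAt_one v))
  map_zero' := Subtype.ext (valueAt_unique (hval 0).choose_spec (valueAt_zero v))
  map_add' f g := Subtype.ext (valueAt_unique (hval (f + g)).choose_spec
    (valueAt_add (hval f).choose_spec (hval g).choose_spec))
  map_mul' f g := Subtype.ext (valueAt_unique (hval (f * g)).choose_spec
    (valueAt_mul (hval f).choose_spec (hval g).choose_spec))

theorem valHom_spec (A : ValuationSubring Kbar) (R : Subring (FF M)) (v : Place Kbar (FF M))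
    (hval : ∀ f : R, ∃ a : A, ValueAt v (f : FF M) (a : Kbar)) (f : R) :
    ValueAt v (f : FF M) ((valHom A R v hval f : A) : Kbar) :=
  (hval f).choose_spec

theorem valHom_eq (A : ValuationSubring Kbar) (R : Subring (FF M)) (v : Place Kbar (FF M))
    (hval : ∀ f : R, ∃ a : A, ValueAt v (f : FF M) (a : Kbar)) (f : R) {a : Kbar}
    (h : ValueAt v (f : FF M) a) : ((valHom A R v hval f : A) : Kbar) = a :=
  valueAt_unique (valHom_spec A R v hval f) h

/-- the reduction homomorphism `R → k = A/𝔪_A` at a place. -/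
def redHom (A : ValuationSubring Kbar) (R : Subring (FF M)) (v : Place Kbar (FF M))
    (hval : ∀ f : R, ∃ a : A, ValueAt v (f : FF M) (a : Kbar)) :
    R →+* IsLocalRing.ResidueField A :=
  (IsLocalRing.residue A).comp (valHom A R v hval)

theorem redHom_cst (A : ValuationSubring Kbar) (R : Subring (FF M)) (v : Place Kbar (FF M))
    (hval : ∀ f : R, ∃ a : A, ValueAt v (f : FF M) (a : Kbar)) (a : A)
    (ha : cst M (a : Kbar) ∈ R) :
    redHom A R v hval ⟨cst M (a : Kbar), ha⟩ = IsLocalRing.residue A a := by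
  unfold redHom
  rw [RingHom.comp_apply]
  congr 1
  exact Subtype.ext (valHom_eq A R v hval _ (valueAt_cst v _))

/-- equal reductions ⇒ congruent values. -/
theorem congAt_of_redHom_eq (A : ValuationSubring Kbar) (R : Subring (FF M))
    (v w : Place Kbar (FF M))
    (hv : ∀ f : R, ∃ a : A, ValueAt v (f : FF M) (a : Kbar))
    (hw : ∀ f : R, ∃ a : A, ValueAt w (f : FF M) (a : Kbar))
    (h : redHom A R v hv = redHom A R w hw) (f : FF M) (hf : f ∈ R) : CongAt A v w f := by
  refine ⟨(valHom A R v hv ⟨f, hf⟩ : A), (valHom A R w hw ⟨f, hf⟩ : A), Subtype.mem _,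
    Subtype.mem _, valHom_spec A R v hv ⟨f, hf⟩, valHom_spec A R w hw ⟨f, hf⟩, ?_⟩
  have h1 := congrArg (fun φ => φ ⟨f, hf⟩) h
  simp only [redHom, RingHom.comp_apply] at h1
  rw [← sub_eq_zero, ← map_sub, IsLocalRing.residue_eq_zero_iff,
    ← ValuationSubring.coe_mem_nonunits_iff] at h1
  exact h1

/-- congruent values ⇒ equal reductions. -/
theorem redHom_eq_of_congAt (A : ValuationSubring Kbar) (R : Subring (FF M))
    (v w : Place Kbar (FF M))
    (hv : ∀ f : R, ∃ a : A, ValueAt v (f : FF M) (a : Kbar))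
    (hw : ∀ f : R, ∃ a : A, ValueAt w (f : FF M) (a : Kbar))
    (h : ∀ f ∈ R, CongAt A v w f) : redHom A R v hv = redHom A R w hw := by
  ext f
  obtain ⟨a, b, -, -, hva, hwb, hab⟩ := h f f.2
  have h1 := valHom_eq A R v hv f hva
  have h2 := valHom_eq A R w hw f hwb
  simp only [redHom, RingHom.comp_apply]
  rw [← sub_eq_zero, ← map_sub, IsLocalRing.residue_eq_zero_iff,
    ← ValuationSubring.coe_mem_nonunits_iff]
  have h3 : ((valHom A R v hv f - valHom A R w hw f : A) : Kbar) = a - b := by
    rw [← h1, ← h2]; rfl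
  rw [h3]
  exact hab

end Dictionary

/-! ## The chart rings contain the constants of `A` -/

theorem cst_mem_ringAdj (M : ℕ) (A : ValuationSubring Kbar) (x : FF M) {a : Kbar} (ha : a ∈ A) :
    cst M a ∈ ringAdj M A x :=
  Subring.subset_closure (Or.inl ⟨a, ha, rfl⟩)

theorem self_mem_ringAdj (M : ℕ) (A : ValuationSubring Kbar) (x : FF M) : x ∈ ringAdj M A x :=
  Subring.subset_closure (Or.inr rfl)

theorem ringAdj_le_modelAt (M : ℕ) (A : ValuationSubring Kbar) (x : FF M) :
    ringAdj M A x ≤ modelAt M A x := by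
  intro y hy
  exact (integralClosure (ringAdj M A x) (FF M)).algebraMap_mem ⟨y, hy⟩

theorem cst_mem_modelAt (M : ℕ) (A : ValuationSubring Kbar) (x : FF M) {a : Kbar} (ha : a ∈ A) :
    cst M a ∈ modelAt M A x :=
  ringAdj_le_modelAt M A x (cst_mem_ringAdj M A x ha)

/-! ## MATCH -/

/-- The common core of the two cases of `IfaceMatch`. -/
theorem h71_match_core (M : ℕ) [NeZero M] (A : ValuationSubring Kbar) (R : Subring (FF M))
    (hR : ∀ a : Kbar, a ∈ A → cst M a ∈ R) (n : ℕ) (v w : Fin n → Place Kbar (FF M))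
    (hvc : ∀ f ∈ R, ValuesCong A v w f)
    (hsame : ∀ i j, (∀ f ∈ R, CongAt A (v i) (w j) f) → SameRed A (v i) (w j)) :
    (∑ i, (Finsupp.single (v i) (1 : ℤ) - Finsupp.single (w i) (1 : ℤ))) ∈ redKer M A := by
  classical
  have hv : ∀ i (f : R), ∃ a : A, ValueAt (v i) (f : FF M) (a : Kbar) := by
    intro i f
    obtain ⟨a, b, ha, hb, -⟩ := hvc f f.2
    exact ⟨⟨a i, (ha i).1⟩, (ha i).2⟩
  have hw : ∀ i (f : R), ∃ a : A, ValueAt (w i) (f : FF M) (a : Kbar) := by
    intro i f
    obtain ⟨a, b, ha, hb, -⟩ := hvc f f.2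
    exact ⟨⟨b i, (hb i).1⟩, (hb i).2⟩
  set ρ : Fin n → (R →+* IsLocalRing.ResidueField A) := fun i => redHom A R (v i) (hv i) with hρ
  set σ : Fin n → (R →+* IsLocalRing.ResidueField A) := fun i => redHom A R (w i) (hw i) with hσ
  have hsurj := IsLocalRing.residue_surjective (R := A)
  set c : IsLocalRing.ResidueField A → R := fun x =>
    ⟨cst M (((hsurj x).choose : A) : Kbar), hR _ (hsurj x).choose.2⟩ with hc
  have hcρ : ∀ i x, ρ i (c x) = x := by
    intro i x
    simp only [hρ, hc]
    rw [redHom_cst]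
    exact (hsurj x).choose_spec
  have hcσ : ∀ i x, σ i (c x) = x := by
    intro i x
    simp only [hσ, hc]
    rw [redHom_cst]
    exact (hsurj x).choose_spec
  have hf : ∀ f : R, Multiset.map (fun i => ρ i f) Finset.univ.val =
      Multiset.map (fun i => σ i f) Finset.univ.val := by
    intro f
    obtain ⟨a, b, ha, hb, hab⟩ := hvc f f.2
    have h1 := h71_roots_cong A (fun i => valHom A R (v i) (hv i) f)
      (fun i => valHom A R (w i) (hw i) f) (by
        intro m
        have h2 : ∀ i, ((valHom A R (v i) (hv i) f : A) : Kbar) = a i := fun i =>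
          valHom_eq A R (v i) (hv i) f (ha i).2
        have h3 : ∀ i, ((valHom A R (w i) (hw i) f : A) : Kbar) = b i := fun i =>
          valHom_eq A R (w i) (hw i) f (hb i).2
        simp only [h2, h3]
        exact hab m)
    exact h1
  have hXY : Multiset.map ρ Finset.univ.val = Multiset.map σ Finset.univ.val := by
    apply h71_multiset_eq c
    · intro φ hφ x
      obtain ⟨i, -, rfl⟩ := Multiset.mem_map.mp hφ
      exact hcρ i x
    · intro φ hφ x
      obtain ⟨i, -, rfl⟩ := Multiset.mem_map.mp hφ
      exact hcσ i x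
    · intro f
      rw [Multiset.map_map, Multiset.map_map]
      exact hf f
  refine h71_sum_mem (redKer M A) v w ρ σ ?_ hXY
  intro i j hij
  exact single_sub_single_mem_redKer
    (hsame i j (congAt_of_redHom_eq A R (v i) (w j) (hv i) (hw j) hij))

/-- **MATCH** (task R-MATCH). -/
theorem ifaceMatch (M : ℕ) [NeZero M] : IfaceMatch M := by
  intro A n v w h
  rcases h with ⟨hv, hw, hvc⟩ | ⟨hv, hw, hvc⟩
  · exact h71_match_core M A (modelFin M A) (fun a ha => cst_mem_modelAt M A _ ha) n v w hvc
      (fun i j h => Or.inl ⟨hv i, hw j, h⟩)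
  · exact h71_match_core M A (modelInf M A) (fun a ha => cst_mem_modelAt M A _ ha) n v w hvc
      (fun i j h => Or.inr ⟨hv i, hw j, h⟩)

end Fermat.Agent.Red.Match
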