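import Fermat.Agent.S37.Inertia
import Fermat.Agent.Red.Match
import Fermat.Agent.Red.CH0

/-!
# P-RED, module TRK-a (helper87): conservation of number

`IfaceTransferRed`: pull-back of divisors along `F_N ⊆ F_M` maps `redKer` into `redKer`.

Inputs: MATCH (`Fermat.Agent.Red.Match.ifaceMatch`, landed) and NORMLOC (the local
characteristic polynomial formula, `NormLocStatement` below).

For a chart function `f` of level `M` the characteristic polynomial of `f` over `F_N` has
coefficients in the chart of level `N`; if `v`, `w` have the same reduction these coefficients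
take congruent values at `v` and `w`; by NORMLOC the values are the coefficients of
`∏ (T - f(u))` over the places `u` above `v` (resp. `w`), counted with ramification; MATCH
concludes.
-/

set_option autoImplicit false

open AlgebraicCurve ModularCurve IntermediateField Polynomial

noncomputable section

namespace Fermat.Agent.Red.TRK

open Fermat.Agent.S37 Fermat.Agent.S37.GalI

/-! ### Linear algebra: the characteristic polynomial of an integral element -/

/-- a product of `X - C r` over a multiset of roots of `q` divides a power of `q`. -/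
theorem h87_prod_dvd_pow {L : Type*} [Field L] (q : Polynomial L) (s : Multiset L)
    (hs : ∀ r ∈ s, q.IsRoot r) :
    (s.map fun r => X - C r).prod ∣ q ^ Multiset.card s := by
  induction s using Multiset.induction_on with
  | empty => simp
  | cons a s ih =>
    rw [Multiset.map_cons, Multiset.prod_cons, Multiset.card_cons, pow_succ']
    exact mul_dvd_mul (dvd_iff_isRoot.mpr (hs a (Multiset.mem_cons_self a s)))
      (ih fun r hr => hs r (Multiset.mem_cons_of_mem hr))

/-- the characteristic polynomial of an endomorphism divides a power of every polynomial which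
kills the endomorphism. -/
theorem h87_charpoly_dvd_pow {K V : Type*} [Field K] [AddCommGroup V] [Module K V]
    [Module.Finite K V] (T : Module.End K V) (q : Polynomial K) (hq : aeval T q = 0) :
    T.charpoly ∣ q ^ T.charpoly.natDegree := by
  let L := AlgebraicClosure K
  rw [← Polynomial.map_dvd_map' (algebraMap K L)]
  have hsplit : (T.charpoly.map (algebraMap K L)).Splits := IsAlgClosed.splits _
  have hmonic : (T.charpoly.map (algebraMap K L)).Monic := (LinearMap.charpoly_monic T).map _
  have hprod := hsplit.eq_prod_roots_of_monic hmonic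
  have hcard : Multiset.card (T.charpoly.map (algebraMap K L)).roots = T.charpoly.natDegree := by
    rw [← hsplit.natDegree_eq_card_roots, (LinearMap.charpoly_monic T).natDegree_map]
  have hkill : aeval (T.baseChange L) (q.map (algebraMap K L)) = 0 := by
    rw [aeval_map_algebraMap]
    have h1 : aeval (T.baseChange L) q = (Module.End.baseChangeHom K L V) (aeval T q) := by
      rw [← Polynomial.aeval_algHom_apply]
      rfl
    rw [h1, hq, map_zero]
  have hroot : ∀ r ∈ (T.charpoly.map (algebraMap K L)).roots,
      (q.map (algebraMap K L)).IsRoot r := by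
    intro r hr
    have h1 : (T.baseChange L).charpoly.IsRoot r := by
      rw [LinearMap.charpoly_baseChange]
      exact (Polynomial.mem_roots'.mp hr).2
    have h2 : Module.End.HasEigenvalue (T.baseChange L) r :=
      (Module.End.hasEigenvalue_iff_isRoot_charpoly _ _).mpr h1
    obtain ⟨x, hx⟩ := h2.exists_hasEigenvector
    have h3 := Module.End.aeval_apply_of_hasEigenvector (p := q.map (algebraMap K L)) hx
    rw [hkill] at h3
    have h4 : (q.map (algebraMap K L)).eval r • x = 0 := by
      rw [← h3]; rfl
    rcases smul_eq_zero.mp h4 with h5 | h5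
    · exact h5
    · exact absurd h5 hx.2
  have := h87_prod_dvd_pow (q.map (algebraMap K L)) _ hroot
  rw [hcard] at this
  rw [Polynomial.map_pow]
  rw [hprod]
  exact this

/-- the coefficients of the characteristic polynomial of (multiplication by) an integral element
are integral. -/
theorem h87_isIntegral_coeff_charpoly {R F F' : Type*} [CommRing R] [Field F] [Field F']
    [Algebra R F] [Algebra F F'] [Algebra R F'] [IsScalarTower R F F'] [Module.Finite F F']
    (g : F') (hg : IsIntegral R g) (m : ℕ) :
    IsIntegral R ((LinearMap.mulLeft F g).charpoly.coeff m) := by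
  obtain ⟨Q, hQ, hQg⟩ := hg
  have hkill : aeval (LinearMap.mulLeft F g) (Q.map (algebraMap R F)) = 0 := by
    have h1 : LinearMap.mulLeft F g = Algebra.lmul F F' g := rfl
    rw [h1, Polynomial.aeval_algHom_apply, aeval_map_algebraMap]
    have h2 : aeval g Q = 0 := hQg
    rw [h2, map_zero]
  have hdvd := h87_charpoly_dvd_pow (LinearMap.mulLeft F g) _ hkill
  rw [← Polynomial.map_pow] at hdvd
  have hmem := integralClosure.mem_lifts_of_monic_of_dvd_map F
    (hQ.pow (LinearMap.mulLeft F g).charpoly.natDegree)
    (LinearMap.charpoly_monic (LinearMap.mulLeft F g)) hdvd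
  rw [lifts_iff_coeff_lifts] at hmem
  obtain ⟨y, hy⟩ := hmem m
  rw [← hy]
  exact y.2

/-! ### The statement of NORMLOC -/

/-- the characteristic polynomial of (multiplication by) `g` over `F_N`, along `φ`. -/
def charpolyAlong {K F F' : Type*} [Field K] [Field F] [Field F'] [Algebra K F] [Algebra K F']
    (φ : F →ₐ[K] F') (hfin : FiniteAlong K φ) (g : F') : Polynomial F :=
  letI := algebraAlong φ
  haveI : Module.Finite F F' := hfin
  (LinearMap.mulLeft F g).charpoly

theorem charpolyAlong_monic {K F F' : Type*} [Field K] [Field F] [Field F'] [Algebra K F]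
    [Algebra K F'] (φ : F →ₐ[K] F') (hfin : FiniteAlong K φ) (g : F') :
    (charpolyAlong φ hfin g).Monic := by
  letI := algebraAlong φ
  haveI : Module.Finite F F' := hfin
  exact LinearMap.charpoly_monic _

/-- **NORMLOC** (local characteristic polynomial formula): the places above `v`, counted with
ramification, are `u 0, …, u (n-1)`, and for `g` integral at all of them the characteristic
polynomial of `g` has coefficients integral at `v`, with values the coefficients of
`∏ (T - g(u i))`. -/
def NormLocStatement : Prop :=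
  ∀ (N M : ℕ) [NeZero N] [NeZero M] (φ : FF N →ₐ[Kbar] FF M) (hφ : φ.toRingHom.IsIntegral)
    (hfin : FiniteAlong Kbar φ) [HasPrincipalDivisors Kbar (FF M)] (v : Place Kbar (FF N)),
    ∃ (n : ℕ) (u : Fin n → Place Kbar (FF M)),
      Divisor.pullbackAlong φ hφ (Finsupp.single v (1 : ℤ)) =
        ∑ i, Finsupp.single (u i) (1 : ℤ) ∧
      ∀ g : FF M, (∀ i, g ∈ (u i).toValuationSubring) →
        ∃ a : Fin n → Kbar, (∀ i, ValueAt (u i) g (a i)) ∧
          ∀ m : ℕ, ValueAt v ((charpolyAlong φ hfin g).coeff m)
            ((∏ i, (X - C (a i))).coeff m)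

/-! ### Values and restriction of places -/

section Restrict

variable {N M : ℕ} (φ : FF N →ₐ[Kbar] FF M) (hφ : φ.toRingHom.IsIntegral)

theorem h87_map_cst (a : Kbar) : φ (cst N a) = cst M a := φ.commutes a

theorem h87_restrictAlong_toValuationSubring (u : Place Kbar (FF M)) :
    (u.restrictAlong φ hφ).toValuationSubring = u.toValuationSubring.comap φ.toRingHom :=
  rfl

theorem h87_mem_nonunits_comap {F F' : Type*} [Field F] [Field F'] (ψ : F →+* F')
    (S : ValuationSubring F') (x : F) : x ∈ (S.comap ψ).nonunits ↔ ψ x ∈ S.nonunits := by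
  rcases eq_or_ne x 0 with rfl | hx
  · rw [map_zero]
    exact ⟨fun _ => zero_mem_nonunits _, fun _ => zero_mem_nonunits _⟩
  · have hx' : ψ x ≠ 0 := (map_ne_zero ψ).mpr hx
    rw [mem_nonunits_iff_inv _ hx, mem_nonunits_iff_inv _ hx', ValuationSubring.mem_comap,
      map_inv₀]

theorem h87_valueAt_restrict (u : Place Kbar (FF M)) (f : FF N) (a : Kbar) :
    ValueAt (u.restrictAlong φ hφ) f a ↔ ValueAt u (φ f) a := by
  unfold ValueAt
  rw [h87_restrictAlong_toValuationSubring, h87_mem_nonunits_comap]
  have e : φ.toRingHom (f - cst N a) = φ f - cst M a := by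
    rw [map_sub]
    congr 1
    exact h87_map_cst φ a
  rw [e]

end Restrict

/-! ### The coefficients of the characteristic polynomial of a chart function -/

/-- integrality over a subring of `F'` contained in the image of a subring `R` of `F` implies
integrality over `R`. -/
theorem h87_isIntegral_of_le_map {F F' : Type*} [Field F] [Field F'] [Algebra F F']
    (R : Subring F) (R' : Subring F') (hle : R' ≤ R.map (algebraMap F F')) {f : F'}
    (hf : IsIntegral R' f) : IsIntegral R f := by
  obtain ⟨p, hp, hpf⟩ := hf
  have hlift : p.map (algebraMap R' F') ∈ lifts (algebraMap R F') := by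
    rw [lifts_iff_coeff_lifts]
    intro n
    rw [coeff_map]
    obtain ⟨r, hr, hrn⟩ := hle (p.coeff n).2
    exact ⟨⟨r, hr⟩, hrn⟩
  obtain ⟨q, hq, -, hqm⟩ := lifts_and_degree_eq_and_monic hlift (hp.map _)
  refine ⟨q, hqm, ?_⟩
  rw [← eval_map, hq, eval_map]
  exact hpf

/-- generic form: the coefficients of the characteristic polynomial of an element integral over
the image of `R`. -/
theorem h87_isIntegral_coeff_of_le_map {F F' : Type*} [Field F] [Field F'] [Algebra F F']
    [Module.Finite F F']
    (R : Subring F) (R' : Subring F') (hle : R' ≤ R.map (algebraMap F F')) {f : F'}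
    (hf : IsIntegral R' f) (m : ℕ) :
    IsIntegral R ((LinearMap.mulLeft F f).charpoly.coeff m) :=
  h87_isIntegral_coeff_charpoly f (h87_isIntegral_of_le_map R R' hle hf) m

section Coeff

variable {N M : ℕ} (φ : FF N →ₐ[Kbar] FF M)

theorem h87_ringAdj_le_map (A : ValuationSubring Kbar) (x : FF N) :
    ringAdj M A (φ x) ≤ (ringAdj N A x).map φ.toRingHom := by
  unfold ringAdj
  rw [Subring.closure_le]
  rintro y (⟨a, ha, rfl⟩ | hy)
  · refine ⟨cst N a, Subring.subset_closure (Or.inl ⟨a, ha, rfl⟩), ?_⟩
    exact h87_map_cst φ a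
  · rw [Set.mem_singleton_iff] at hy
    subst hy
    exact ⟨x, Subring.subset_closure (Or.inr rfl), rfl⟩

set_option synthInstance.maxHeartbeats 400000 in
/-- the coefficients of the characteristic polynomial of a chart function of level `M` are
chart functions of level `N`. -/
theorem h87_coeff_mem_modelAt (hfin : FiniteAlong Kbar φ) (A : ValuationSubring Kbar)
    (x : FF N) {f : FF M} (hf : f ∈ modelAt M A (φ x)) (m : ℕ) :
    (charpolyAlong φ hfin f).coeff m ∈ modelAt N A x := by
  letI := algebraAlong φ
  haveI : Module.Finite (FF N) (FF M) := hfin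
  exact h87_isIntegral_coeff_of_le_map (F := FF N) (F' := FF M) (ringAdj N A x)
    (ringAdj M A (φ x)) (h87_ringAdj_le_map φ A x) hf m

end Coeff

/-! ### Consequences of NORMLOC at one place -/

section Main

variable {N M : ℕ} [NeZero N] [NeZero M] (φ : FF N →ₐ[Kbar] FF M)
  (hφ : φ.toRingHom.IsIntegral) (hfin : FiniteAlong Kbar φ)

/-- the data which NORMLOC provides at the place `v`. -/
def NormLocAt [HasPrincipalDivisors Kbar (FF M)] (v : Place Kbar (FF N)) (n : ℕ)
    (u : Fin n → Place Kbar (FF M)) : Prop :=
  Divisor.pullbackAlong φ hφ (Finsupp.single v (1 : ℤ)) =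
      ∑ i, Finsupp.single (u i) (1 : ℤ) ∧
    ∀ g : FF M, (∀ i, g ∈ (u i).toValuationSubring) →
      ∃ a : Fin n → Kbar, (∀ i, ValueAt (u i) g (a i)) ∧
        ∀ m : ℕ, ValueAt v ((charpolyAlong φ hfin g).coeff m)
          ((∏ i, (X - C (a i))).coeff m)

variable [HasPrincipalDivisors Kbar (FF M)]

variable {φ hφ hfin}

/-- the places which occur in the pull-back of `v` lie above `v`. -/
theorem h87_restrict_eq {v : Place Kbar (FF N)} {n : ℕ} {u : Fin n → Place Kbar (FF M)}
    (hu : NormLocAt φ hφ hfin v n u) (i : Fin n) : (u i).restrictAlong φ hφ = v := by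
  classical
  by_contra hne
  have h1 := DFunLike.congr_fun hu.1 (u i)
  rw [Divisor.pullbackAlong_apply, Finsupp.single_apply, if_neg (Ne.symm hne), mul_zero,
    Finsupp.finsetSum_apply] at h1
  have h2 : (1 : ℤ) ≤ ∑ j, (Finsupp.single (u j) (1 : ℤ)) (u i) := by
    have h3 : (Finsupp.single (u i) (1 : ℤ)) (u i) ≤
        ∑ j, (Finsupp.single (u j) (1 : ℤ)) (u i) :=
      Finset.single_le_sum (f := fun j => (Finsupp.single (u j) (1 : ℤ)) (u i))
        (fun j _ => by
          simp only [Finsupp.single_apply]
          split_ifs <;> norm_num) (Finset.mem_univ i)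
    rwa [Finsupp.single_eq_same] at h3
  omega

/-- the number of places above `v`, counted with ramification, is the degree. -/
theorem h87_card_eq {v : Place Kbar (FF N)} {n : ℕ} {u : Fin n → Place Kbar (FF M)}
    (hu : NormLocAt φ hφ hfin v n u) : n = (charpolyAlong φ hfin 0).natDegree := by
  obtain ⟨a, -, hc⟩ := hu.2 0 (fun i => zero_mem _)
  have hP : (charpolyAlong φ hfin (0 : FF M)).Monic := charpolyAlong_monic φ hfin 0
  have hQ : (∏ i, (X - C (a i))).Monic := monic_prod_of_monic _ _ fun i _ => monic_X_sub_C (a i)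
  have hQd : (∏ i, (X - C (a i))).natDegree = n := by
    rw [natDegree_finsetProd_X_sub_C_eq_card, Finset.card_univ, Fintype.card_fin]
  apply le_antisymm
  · by_contra hlt
    rw [not_le] at hlt
    have h1 := hc n
    rw [coeff_eq_zero_of_natDegree_lt hlt] at h1
    have h2 : (∏ i, (X - C (a i))).coeff n = 1 := by
      have := hQ.coeff_natDegree
      rwa [hQd] at this
    rw [h2] at h1
    exact zero_ne_one (valueAt_unique (valueAt_zero v) h1)
  · by_contra hlt
    rw [not_le] at hlt
    have h1 := hc (charpolyAlong φ hfin (0 : FF M)).natDegree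
    rw [hP.coeff_natDegree, coeff_eq_zero_of_natDegree_lt (by rw [hQd]; exact hlt)] at h1
    exact one_ne_zero (valueAt_unique (valueAt_one v) h1)

/-- **the key congruence**: if all chart functions of level `N` take congruent values at `v`
and `w`, then for every chart function `f` of level `M` the families of values of `f` at the
places above `v`, resp. above `w`, are congruent. -/
theorem h87_valuesCong (A : ValuationSubring Kbar) (x : FF N) {v w : Place Kbar (FF N)}
    (hxv : ∃ a ∈ A, ValueAt v x a) (hxw : ∃ a ∈ A, ValueAt w x a)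
    (hcong : ∀ f ∈ modelAt N A x, CongAt A v w f)
    {n : ℕ} {u u' : Fin n → Place Kbar (FF M)}
    (hu : NormLocAt φ hφ hfin v n u) (hu' : NormLocAt φ hφ hfin w n u')
    {f : FF M} (hf : f ∈ modelAt M A (φ x)) : ValuesCong A u u' f := by
  obtain ⟨a₀, ha₀, hva₀⟩ := hxv
  obtain ⟨b₀, hb₀, hvb₀⟩ := hxw
  have hval : ∀ i, ∃ c ∈ A, ValueAt (u i) f c := fun i =>
    chart_value A (u i) ha₀
      ((h87_valueAt_restrict φ hφ (u i) x a₀).mp (by rw [h87_restrict_eq hu i]; exact hva₀)) hf
  have hval' : ∀ i, ∃ c ∈ A, ValueAt (u' i) f c := fun i =>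
    chart_value A (u' i) hb₀
      ((h87_valueAt_restrict φ hφ (u' i) x b₀).mp (by rw [h87_restrict_eq hu' i]; exact hvb₀)) hf
  obtain ⟨a, ha, hca⟩ := hu.2 f fun i => by
    obtain ⟨c, -, hc⟩ := hval i
    exact valueAt_mem hc
  obtain ⟨b, hb, hcb⟩ := hu'.2 f fun i => by
    obtain ⟨c, -, hc⟩ := hval' i
    exact valueAt_mem hc
  refine ⟨a, b, fun i => ⟨?_, ha i⟩, fun i => ⟨?_, hb i⟩, ?_⟩
  · obtain ⟨c, hc, hvc⟩ := hval i
    rw [valueAt_unique (ha i) hvc]
    exact hc
  · obtain ⟨c, hc, hvc⟩ := hval' i
    rw [valueAt_unique (hb i) hvc]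
    exact hc
  · intro m
    obtain ⟨a', b', -, -, hva, hvb, hab⟩ := hcong _ (h87_coeff_mem_modelAt φ hfin A x hf m)
    rw [valueAt_unique (hca m) hva, valueAt_unique (hcb m) hvb]
    exact hab

end Main

/-! ### TRK-a -/

section Transfer

variable {N M : ℕ} [NeZero N] [NeZero M]

/-- finiteness of a place of level `M` is that of its restriction to level `N`. -/
theorem h87_isFinAt_restrict {φ : FF N →ₐ[Kbar] FF M} (hφ : φ.toRingHom.IsIntegral)
    (hj : φ (jB N) = jB M) (A : ValuationSubring Kbar) (u : Place Kbar (FF M)) :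
    IsFinAt A (u.restrictAlong φ hφ) ↔ IsFinAt A u := by
  unfold IsFinAt
  constructor
  · rintro ⟨a, ha, hv⟩
    refine ⟨a, ha, ?_⟩
    rw [← hj]
    exact (h87_valueAt_restrict φ hφ u (jB N) a).mp hv
  · rintro ⟨a, ha, hv⟩
    refine ⟨a, ha, ?_⟩
    rw [← hj] at hv
    exact (h87_valueAt_restrict φ hφ u (jB N) a).mpr hv

/-- the pull-back of `v - w`, for `v`, `w` with the same reduction, is in `redKer`. -/
theorem h87_pullback_sameRed (hNL : NormLocStatement) (h : N ∣ M) (A : ValuationSubring Kbar)
    (hint : (degen h).toRingHom.IsIntegral) [HasPrincipalDivisors Kbar (FF M)]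
    {v w : Place Kbar (FF N)} (hvw : SameRed A v w) :
    Divisor.pullbackAlong (degen h) hint
      (Finsupp.single v (1 : ℤ) - Finsupp.single w (1 : ℤ)) ∈ redKer M A := by
  have hfin : FiniteAlong Kbar (degen h) := Fermat.Agent.Red.CH0.finiteAlong_degen h
  have hj : degen h (jB N) = jB M := Fermat.Agent.Red.CH0.degen_jBar h
  obtain ⟨n, u, hu⟩ : ∃ (n : ℕ) (u : Fin n → Place Kbar (FF M)),
      NormLocAt (degen h) hint hfin v n u := hNL N M (degen h) hint hfin v
  obtain ⟨n', u', hu'⟩ : ∃ (n : ℕ) (u : Fin n → Place Kbar (FF M)),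
      NormLocAt (degen h) hint hfin w n u := hNL N M (degen h) hint hfin w
  obtain rfl : n = n' := (h87_card_eq hu).trans (h87_card_eq hu').symm
  rw [map_sub, hu.1, hu'.1, ← Finset.sum_sub_distrib]
  apply Fermat.Agent.Red.Match.ifaceMatch M A n u u'
  rcases hvw with ⟨hv, hw, hc⟩ | ⟨hv, hw, hc⟩
  · refine Or.inl ⟨fun i => ?_, fun i => ?_, fun f hf => ?_⟩
    · rw [← h87_isFinAt_restrict hint hj A (u i), h87_restrict_eq hu i]
      exact hv
    · rw [← h87_isFinAt_restrict hint hj A (u' i), h87_restrict_eq hu' i]
      exact hw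
    · have hf' : f ∈ modelAt M A (degen h (jB N)) := by
        rw [hj]
        exact hf
      exact h87_valuesCong A (jB N) hv hw hc hu hu' hf'
  · have hj' : degen h (jB N)⁻¹ = (jB M)⁻¹ := by
      rw [map_inv₀, hj]
    refine Or.inr ⟨fun i => ?_, fun i => ?_, fun f hf => ?_⟩
    · rw [← h87_isFinAt_restrict hint hj A (u i), h87_restrict_eq hu i]
      exact hv
    · rw [← h87_isFinAt_restrict hint hj A (u' i), h87_restrict_eq hu' i]
      exact hw
    · have hf' : f ∈ modelAt M A (degen h (jB N)⁻¹) := by
        rw [hj']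
        exact hf
      exact h87_valuesCong A (jB N)⁻¹ (exists_valueAt_inv A hv) (exists_valueAt_inv A hw) hc
        hu hu' hf'

end Transfer

/-- **TRK-a** from NORMLOC (and MATCH, CH0, which are landed). -/
theorem ifaceTransferRed_of (hNL : NormLocStatement) : IfaceTransferRed := by
  intro N M _ _ h A hint _ D hD
  unfold redKer at hD
  induction hD using AddSubgroup.closure_induction with
  | mem D hD =>
    obtain ⟨v, w, hvw, rfl⟩ := hD
    exact h87_pullback_sameRed hNL h A hint hvw
  | zero =>
    rw [map_zero]
    exact zero_mem _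
  | add x y _ _ hx hy =>
    rw [map_add]
    exact add_mem hx hy
  | neg x _ hx =>
    rw [map_neg]
    exact neg_mem hx

end Fermat.Agent.Red.TRK
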