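import Mathlib.RingTheory.DedekindDomain.Ideal.Lemmas

set_option autoImplicit false

namespace Fermat.Agent.Red

/-- hedge of (L2), step 1: local uniformizer modulo `I` at a maximal ideal `n ⊇ I` when `R ⧸ I`
is a Dedekind domain which is not a field. -/
theorem h67_exists_local_uniformizer {R : Type*} [CommRing R] (I : Ideal R)
    [IsDedekindDomain (R ⧸ I)] (hnf : ¬ IsField (R ⧸ I)) (n : Ideal R) [hn : n.IsMaximal]
    (hI : I ≤ n) :
    ∃ t ∈ n, t ∉ I ∧ ∃ s, s ∉ n ∧ ∀ y ∈ n, s * y ∈ Ideal.span {t} ⊔ I := by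
  classical
  set π := Ideal.Quotient.mk I with hπ
  have hπs : Function.Surjective π := Ideal.Quotient.mk_surjective
  set nb : Ideal (R ⧸ I) := n.map π with hnb
  have hker : RingHom.ker π ≤ n := by
    rw [Ideal.mk_ker]; exact hI
  have hnbmax : nb.IsMaximal := Ideal.map_eq_top_or_isMaximal_of_surjective π hπs hn |>.resolve_left
    (by
      intro htop
      have : n = ⊤ := by
        have h1 := Ideal.comap_map_of_surjective π hπs n
        rw [htop, Ideal.comap_top] at h1
        have h2 : n ⊔ Ideal.comap π ⊥ = n := by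
          apply sup_eq_left.mpr
          rw [← RingHom.ker_eq_comap_bot]; exact hker
        rw [← h2, ← h1]
      exact hn.ne_top this)
  have hmem_iff : ∀ x : R, π x ∈ nb ↔ x ∈ n := by
    intro x
    rw [hnb, Ideal.mem_map_iff_of_surjective π hπs]
    constructor
    · rintro ⟨y, hy, hxy⟩
      have : x - y ∈ I := by
        rw [← Ideal.Quotient.eq_zero_iff_mem, map_sub, ← hπ, hxy, sub_self]
      have := n.add_mem (hI this) hy
      simpa using this
    · intro hx; exact ⟨x, hx, rfl⟩
  have hnb0 : nb ≠ ⊥ := by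
    intro h0
    apply hnf
    rw [h0] at hnbmax
    exact Ring.isField_iff_maximal_bot.mpr hnbmax
  -- nb ≠ nb^2
  have hne : nb ^ 2 < nb := by
    have := Ideal.pow_right_strictAnti nb hnb0 hnbmax.ne_top
    have h12 := this (show (1 : ℕ) < 2 by norm_num)
    simpa using h12
  obtain ⟨tb, htb, htb2⟩ := SetLike.exists_of_lt hne
  -- (tb) = nb * a
  have hle : Ideal.span {tb} ≤ nb := by
    rw [Ideal.span_singleton_le_iff_mem]; exact htb
  obtain ⟨a, ha⟩ := Ideal.dvd_iff_le.mpr hle
  have hanb : ¬ a ≤ nb := by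
    intro hle'
    apply htb2
    have : Ideal.span {tb} ≤ nb ^ 2 := by
      rw [ha, pow_two]
      exact Ideal.mul_mono_right hle'
    exact this (Ideal.mem_span_singleton_self tb)
  obtain ⟨sb, hsba, hsbn⟩ := SetLike.not_le_iff_exists.mp hanb
  obtain ⟨t, rfl⟩ := hπs tb
  obtain ⟨s, rfl⟩ := hπs sb
  refine ⟨t, (hmem_iff t).mp htb, ?_, s, fun hs => hsbn ((hmem_iff s).mpr hs), ?_⟩
  · intro htI
    have : π t = 0 := Ideal.Quotient.eq_zero_iff_mem.mpr htI
    apply htb2
    rw [this]; exact Ideal.zero_mem _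
  · intro y hy
    have hy' : π y ∈ nb := (hmem_iff y).mpr hy
    have hprod : π s * π y ∈ Ideal.span {π t} := by
      rw [ha, mul_comm (π s)]
      exact Ideal.mul_mem_mul hy' hsba
    obtain ⟨rb, hrb⟩ := Ideal.mem_span_singleton'.mp hprod
    obtain ⟨r, rfl⟩ := hπs rb
    have hdiff : s * y - r * t ∈ I := by
      rw [← Ideal.Quotient.eq_zero_iff_mem, map_sub, map_mul, map_mul, ← hπ, hrb, sub_self]
    have : s * y = r * t + (s * y - r * t) := by ring
    rw [this]
    exact Ideal.add_mem _ (Ideal.mem_sup_left (Ideal.mem_span_singleton'.mpr ⟨r, rfl⟩))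
      (Ideal.mem_sup_right hdiff)

end Fermat.Agent.Red
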