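import Fermat.Agent.Red.GGDefs
import Fermat.Agent.Red.GV.BarGalois
import Fermat.Agent.Red.H67LocalUnif

/-!
# P-RED, gate integration (L2, step 2; helper67): `GG.IfaceLocalUnif` from `S37.IfaceSmooth`

For `t = j` and `t = 1/j`: at every maximal ideal `𝔫` of the chart containing `𝔪_A` there is a
Gauss unit `t' ∈ 𝔫` generating `𝔫` modulo `𝔪_A` locally.
-/

set_option autoImplicit false

open AlgebraicCurve ModularCurve WithZero IsLocalRing Polynomial

noncomputable section

namespace Fermat.Agent.Red.GG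

open Fermat.Agent.S37 Fermat.Agent.Red.GV Fermat.Agent.S28

/-! ### An abstract non-integrality lemma -/

/-- If `u` is transcendental over `k` (in the form: `evalC u` is injective) then `u⁻¹` is not
integral over `k[u]`. -/
theorem h67_not_integral_inv {k : Type} [Field k] (u u' : LaurentSeries k) (huu' : u * u' = 1)
    (hinj : Function.Injective (evalC u))
    (p : Polynomial (Polynomial k)) (hp : p.Monic)
    (h0 : Polynomial.eval₂ (evalC u) u' p = 0) : False := by
  classical
  set n := p.natDegree with hn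
  rw [Polynomial.eval₂_eq_sum_range] at h0
  -- multiply by `u ^ n`
  have h1 : ∑ i ∈ Finset.range (n + 1), evalC u (p.coeff i) * u ^ (n - i) = 0 := by
    have h2 : u ^ n * ∑ i ∈ Finset.range (n + 1), evalC u (p.coeff i) * u' ^ i = 0 := by
      rw [h0, mul_zero]
    rw [Finset.mul_sum] at h2
    rw [← h2]
    apply Finset.sum_congr rfl
    intro i hi
    have hi' : i ≤ n := Nat.lt_succ_iff.mp (Finset.mem_range.mp hi)
    have h3 : u ^ n = u ^ (n - i) * u ^ i := by rw [← pow_add, Nat.sub_add_cancel hi']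
    have h4 : u ^ i * u' ^ i = 1 := by rw [← mul_pow, huu', one_pow]
    calc evalC u (p.coeff i) * u ^ (n - i)
        = evalC u (p.coeff i) * u ^ (n - i) * (u ^ i * u' ^ i) := by rw [h4, mul_one]
      _ = u ^ n * (evalC u (p.coeff i) * u' ^ i) := by rw [h3]; ring
  set P : Polynomial k := ∑ i ∈ Finset.range (n + 1), p.coeff i * Polynomial.X ^ (n - i) with hP
  have h5 : evalC u P = 0 := by
    rw [hP, map_sum, ← h1]
    apply Finset.sum_congr rfl
    intro i _
    rw [map_mul, map_pow]
    congr 2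
    simp [evalC]
  have h6 : P = 0 := hinj (by rw [h5, map_zero])
  have h7 : P.coeff 0 = 1 := by
    rw [hP, Polynomial.finsetSum_coeff]
    rw [Finset.sum_eq_single n]
    · rw [Nat.sub_self, pow_zero, mul_one]
      have : p.coeff n = 1 := hp
      rw [this]
      simp
    · intro i hi hne
      have hi' : i < n := lt_of_le_of_ne (Nat.lt_succ_iff.mp (Finset.mem_range.mp hi)) hne
      have : n - i = (n - i - 1) + 1 := by omega
      rw [this, pow_succ, ← mul_assoc, Polynomial.coeff_mul_X_zero]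
    · intro h
      exact absurd (Finset.mem_range.mpr (Nat.lt_succ_self n)) h
  rw [h6] at h7
  simp at h7


/-! ### The reduction map on a chart -/

section Chart

variable (M : ℕ) (A : ValuationSubring Kbar) (t : FF M)

/-- the reduction map on a chart contained in the Gauss ring. -/
def h67red (hV : modelAt M A t ≤ gaussV A M) :
    modelAt M A t →+* LaurentSeries (IsLocalRing.ResidueField A) :=
  (gaussR A M).comp (Subring.inclusion hV)

theorem h67red_apply (hV : modelAt M A t ≤ gaussV A M) (x : modelAt M A t) :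
    h67red M A t hV x = gaussR A M ⟨x.1, hV x.2⟩ := rfl

variable {ℓ : ℕ}

/-- `𝔪_A B` is killed by the reduction. -/
theorem h67_maxExt_le_ker (hA : A.LiesOverPrime ℓ) (hV : modelAt M A t ≤ gaussV A M) :
    maxExt A (modelAt M A t) ≤ RingHom.ker (h67red M A t hV) := by
  rw [maxExt, Ideal.span_le]
  rintro x ⟨a, ha, hxa⟩
  rw [SetLike.mem_coe, RingHom.mem_ker, h67red_apply]
  have hcst : cst M a ∈ gaussV A M := by rw [← hxa]; exact hV x.2
  have h1 := gaussR_cst_of_nonunit A M hA a ha hcst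
  have h2 : (⟨x.1, hV x.2⟩ : gaussV A M) = ⟨cst M a, hcst⟩ := Subtype.ext hxa
  rw [h2]; exact h1

/-- the lift of `evalF` to the Gauss ring. -/
def h67evalV (hV : modelAt M A t ≤ gaussV A M) : Polynomial A →+* gaussV A M :=
  (evalF M A t).codRestrict (gaussV A M)
    (fun Q => hV ((integralClosure (ringAdj M A t) (FF M)).algebraMap_mem
      ⟨_, evalF_mem_ringAdj M A t Q⟩))

theorem h67_gaussR_comp_evalV (hV : modelAt M A t ≤ gaussV A M) :
    (gaussR A M).comp (h67evalV M A t hV) =
      (evalC (gaussR A M ⟨t, hV (ModelO.h85_self_mem_modelAt M A t)⟩)).comp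
        (Polynomial.mapRingHom (IsLocalRing.residue A)) := by
  apply Polynomial.ringHom_ext
  · intro a
    have h1 : h67evalV M A t hV (Polynomial.C a) =
        ⟨algebraMap Kbar (FF M) (a : Kbar), algebraMap_mem_gaussSubring A _ M a⟩ := by
      apply Subtype.ext
      show evalF M A t (Polynomial.C a) = _
      rw [evalF_C]
    rw [RingHom.comp_apply, h1, RingHom.comp_apply]
    have h2 := gaussRed_algebraMap A (IsLocalRing.residue A) M a
    rw [h2]
    simp [evalC]
  · have h1 : h67evalV M A t hV Polynomial.X =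
        ⟨t, hV (ModelO.h85_self_mem_modelAt M A t)⟩ := by
      apply Subtype.ext
      show evalF M A t Polynomial.X = _
      rw [evalF_X]
    rw [RingHom.comp_apply, h1, RingHom.comp_apply]
    simp [evalC]

/-- the reduction of an element of the chart is integral over `k[red t]`. -/
theorem h67_red_integral (hV : modelAt M A t ≤ gaussV A M)
    (y : modelAt M A t) :
    ∃ p : Polynomial (Polynomial (IsLocalRing.ResidueField A)), p.Monic ∧
      Polynomial.eval₂ (evalC (gaussR A M ⟨t, hV (ModelO.h85_self_mem_modelAt M A t)⟩))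
        (h67red M A t hV y) p = 0 := by
  have hy : (ringAdj M A t).subtype.IsIntegralElem (y : FF M) := y.2
  obtain ⟨p, hp, hpy⟩ := (isIntegralElem_subtype_iff M A t _).1 hy
  refine ⟨p.map (Polynomial.mapRingHom (IsLocalRing.residue A)), hp.map _, ?_⟩
  rw [Polynomial.eval₂_map, ← h67_gaussR_comp_evalV M A t hV]
  have h1 : Polynomial.eval₂ (h67evalV M A t hV) (⟨y.1, hV y.2⟩ : gaussV A M) p = 0 := by
    apply Subtype.ext
    have h2 := Polynomial.hom_eval₂ p (h67evalV M A t hV) (gaussV A M).subtype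
      (⟨y.1, hV y.2⟩ : gaussV A M)
    have h3 : (gaussV A M).subtype.comp (h67evalV M A t hV) = evalF M A t := rfl
    rw [h3] at h2
    show (gaussV A M).subtype _ = _
    rw [h2]
    exact hpy
  rw [h67red_apply, ← Polynomial.hom_eval₂, h1, map_zero]


/-- the special fibre of a chart is not a field. -/
theorem h67_not_isField (hA : A.LiesOverPrime ℓ) (hV : modelAt M A t ≤ gaussV A M)
    (u' : LaurentSeries (IsLocalRing.ResidueField A))
    (hu : gaussR A M ⟨t, hV (ModelO.h85_self_mem_modelAt M A t)⟩ * u' = 1)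
    (hinj : Function.Injective
      (evalC (gaussR A M ⟨t, hV (ModelO.h85_self_mem_modelAt M A t)⟩))) :
    ¬ IsField (modelAt M A t ⧸ maxExt A (modelAt M A t)) := by
  intro hF
  set u := gaussR A M ⟨t, hV (ModelO.h85_self_mem_modelAt M A t)⟩ with hudef
  set tR : modelAt M A t := ⟨t, ModelO.h85_self_mem_modelAt M A t⟩ with htR
  have hρt : h67red M A t hV tR = u := rfl
  have hle := h67_maxExt_le_ker M A t hA hV
  have htI : tR ∉ maxExt A (modelAt M A t) := by
    intro h
    have h1 := hle h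
    rw [RingHom.mem_ker, hρt] at h1
    rw [h1, zero_mul] at hu
    exact zero_ne_one hu
  have hne : Ideal.Quotient.mk (maxExt A (modelAt M A t)) tR ≠ 0 := by
    rwa [Ne, Ideal.Quotient.eq_zero_iff_mem]
  obtain ⟨yb, hyb⟩ := hF.mul_inv_cancel hne
  obtain ⟨y, rfl⟩ := Ideal.Quotient.mk_surjective yb
  have h1 : tR * y - 1 ∈ maxExt A (modelAt M A t) := by
    rw [← Ideal.Quotient.eq_zero_iff_mem, map_sub, map_mul, hyb, map_one, sub_self]
  have h2 : u * h67red M A t hV y = 1 := by
    have h3 := hle h1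
    rw [RingHom.mem_ker, map_sub, map_mul, map_one, sub_eq_zero, hρt] at h3
    exact h3
  have h3 : h67red M A t hV y = u' := by
    calc h67red M A t hV y = (u' * u) * h67red M A t hV y := by rw [mul_comm u', hu, one_mul]
      _ = u' * (u * h67red M A t hV y) := by ring
      _ = u' := by rw [h2, mul_one]
  obtain ⟨p, hp, hp0⟩ := h67_red_integral M A t hV y
  rw [h3] at hp0
  exact h67_not_integral_inv u u' hu hinj p hp hp0

/-- the identity map from the chart as a subring to the chart as an `A`-subalgebra. -/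
def h67toChart : modelAt M A t →+* chart M A t where
  toFun x := ⟨x.1, x.2⟩
  map_one' := rfl
  map_mul' _ _ := rfl
  map_zero' := rfl
  map_add' _ _ := rfl

theorem h67toChart_surjective : Function.Surjective (h67toChart M A t) :=
  fun x => ⟨⟨x.1, x.2⟩, rfl⟩

theorem h67_maxExt_le_comap :
    maxExt A (modelAt M A t) ≤
      ((maximalIdeal A).map (algebraMap A (chart M A t))).comap (h67toChart M A t) := by
  rw [maxExt, Ideal.span_le]
  rintro x ⟨a, ha, hxa⟩
  rw [SetLike.mem_coe, Ideal.mem_comap]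
  have haA : a ∈ A := ValuationSubring.nonunits_subset ha
  have h1 : h67toChart M A t x = algebraMap A (chart M A t) ⟨a, haA⟩ :=
    Subtype.ext hxa
  rw [h1]
  apply Ideal.mem_map_of_mem
  exact (ValuationSubring.coe_mem_nonunits_iff (A := A) (a := ⟨a, haA⟩)).1 ha

/-- **L2, abstract form**: `IfaceLocalUnif` for a chart contained in the Gauss ring whose special
fibre is a Dedekind domain. -/
theorem h67_localUnif_of [NeZero M] (hA : A.LiesOverPrime ℓ)
    (hV : modelAt M A t ≤ gaussV A M)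
    (hker : ∀ x : gaussV A M, (x : FF M) ∈ modelAt M A t → gaussR A M x = 0 →
      ∃ (c : Kbar) (x' : FF M), c ≠ 0 ∧ c ∈ A.nonunits ∧ x' ∈ modelAt M A t ∧
        (x : FF M) = cst M c * x')
    (hzero : ∀ x : gaussV A M,
      gaussR A M x = 0 ↔ (x : FF M) = 0 ∨ (x : FF M)⁻¹ ∉ gaussV A M)
    (u' : LaurentSeries (IsLocalRing.ResidueField A))
    (hu : gaussR A M ⟨t, hV (ModelO.h85_self_mem_modelAt M A t)⟩ * u' = 1)
    (hinj : Function.Injective
      (evalC (gaussR A M ⟨t, hV (ModelO.h85_self_mem_modelAt M A t)⟩)))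
    (hD : IsDedekindDomain (modelAt M A t ⧸ maxExt A (modelAt M A t))) :
    IfaceLocalUnif M A t := by
  intro 𝔫 h𝔫 hle
  set φ := h67toChart M A t with hφ
  have hφs := h67toChart_surjective M A t
  have : (𝔫.comap φ).IsMaximal := Ideal.comap_isMaximal_of_surjective φ hφs
  have hcomap := h67_maxExt_le_comap M A t
  have hI : maxExt A (modelAt M A t) ≤ 𝔫.comap φ :=
    hcomap.trans (Ideal.comap_mono hle)
  obtain ⟨t', ht'n, ht'I, s, hs, hall⟩ :=
    h67_exists_local_uniformizer (maxExt A (modelAt M A t))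
      (h67_not_isField M A t hA hV u' hu hinj) (𝔫.comap φ) hI
  -- `t'` is a Gauss unit
  have hred : gaussR A M ⟨t'.1, hV t'.2⟩ ≠ 0 := by
    intro h0
    obtain ⟨c, x', -, hc, hx', hcx⟩ := hker ⟨t'.1, hV t'.2⟩ t'.2 h0
    apply ht'I
    have hcA : c ∈ A := ValuationSubring.nonunits_subset hc
    have h1 : t' = (⟨cst M c, ModelO.h85_cst_mem_modelAt M A t hcA⟩ : modelAt M A t) *
        ⟨x', hx'⟩ := Subtype.ext hcx
    rw [h1]
    apply Ideal.mul_mem_right
    exact Ideal.subset_span ⟨c, hc, rfl⟩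
  have hunit := (not_congr (hzero ⟨t'.1, hV t'.2⟩)).1 hred
  rw [not_or, not_not] at hunit
  refine ⟨φ t', ht'n, hunit.1, hunit.2, fun y hy => ⟨φ s, hs, ?_⟩⟩
  have hy0 : (⟨y.1, y.2⟩ : modelAt M A t) ∈ 𝔫.comap φ := hy
  have h1 := Ideal.mem_map_of_mem φ (hall _ hy0)
  rw [Ideal.map_sup, Ideal.map_span, Set.image_singleton] at h1
  have h2 : Ideal.map φ (maxExt A (modelAt M A t)) ≤
      (maximalIdeal A).map (algebraMap A (chart M A t)) :=
    Ideal.map_le_iff_le_comap.2 hcomap
  have h3 := (sup_le_sup_left h2 (Ideal.span {φ t'})) h1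
  rw [map_mul] at h3
  exact h3

end Chart


/-! ### The two charts -/

section Instances

variable {ℓ : ℕ} (M : ℕ) [NeZero M] (A : ValuationSubring Kbar)

theorem h67_gaussR_jB_inv (hV : (jB M)⁻¹ ∈ gaussV A M) :
    gaussR A M ⟨(jB M)⁻¹, hV⟩ = (jK (IsLocalRing.ResidueField A))⁻¹ := by
  have hj0 : jB M ≠ 0 := by
    intro h0
    have h1 := gaussR_jB A M
    have h2 : (⟨jB M, jB_mem_gaussV A M⟩ : gaussV A M) = 0 := Subtype.ext h0
    rw [h2, map_zero] at h1
    exact jqModC_ne_zero_of_nontrivial _ h1.symm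
  have h1 : (⟨(jB M)⁻¹, hV⟩ : gaussV A M) * ⟨jB M, jB_mem_gaussV A M⟩ = 1 :=
    Subtype.ext (inv_mul_cancel₀ hj0)
  have h2 := congrArg (gaussR A M) h1
  rw [map_mul, map_one, gaussR_jB] at h2
  exact eq_inv_of_mul_eq_one_left h2

/-- **L2 for the finite chart.** -/
theorem h67_ifaceLocalUnif_fin (hSM : IfaceSmooth) (hℓ : ℓ.Prime) (hM : ¬ ℓ ∣ M)
    (haux : auxLevel ℓ ∣ M) (hA : A.LiesOverPrime ℓ) : IfaceLocalUnif M A (jB M) := by
  have hV : modelAt M A (jB M) ≤ gaussV A M := modelFin_le_gaussV A M hℓ hM hA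
  have hred : gaussR A M ⟨jB M, hV (ModelO.h85_self_mem_modelAt M A (jB M))⟩ =
      jK (IsLocalRing.ResidueField A) := gaussR_jB A M
  refine h67_localUnif_of M A (jB M) hA hV
    (fun x hx h0 => exists_eq_cst_mul_of_gaussR_eq_zero_fin A M hℓ hM hA x hx h0)
    (fun x => gaussR_eq_zero_iff A M hℓ hM hA x)
    (jK (IsLocalRing.ResidueField A))⁻¹ ?_ ?_ (hSM ℓ hℓ M hM haux A hA).1
  · rw [hred]
    exact mul_inv_cancel₀ (jqModC_ne_zero_of_nontrivial _)
  · rw [hred]
    exact evalC_jK_injective _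

/-- **L2 for the chart at infinity.** -/
theorem h67_ifaceLocalUnif_inf (hSM : IfaceSmooth) (hℓ : ℓ.Prime) (hM : ¬ ℓ ∣ M)
    (haux : auxLevel ℓ ∣ M) (hA : A.LiesOverPrime ℓ) : IfaceLocalUnif M A (jB M)⁻¹ := by
  have hV : modelAt M A (jB M)⁻¹ ≤ gaussV A M := modelInf_le_gaussV A M hℓ hM hA
  have hred : gaussR A M ⟨(jB M)⁻¹, hV (ModelO.h85_self_mem_modelAt M A (jB M)⁻¹)⟩ =
      (jK (IsLocalRing.ResidueField A))⁻¹ := h67_gaussR_jB_inv M A _
  refine h67_localUnif_of M A (jB M)⁻¹ hA hV
    (fun x hx h0 => exists_eq_cst_mul_of_gaussR_eq_zero_inf A M hℓ hM hA x hx h0)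
    (fun x => gaussR_eq_zero_iff A M hℓ hM hA x)
    (jK (IsLocalRing.ResidueField A)) ?_ ?_ (hSM ℓ hℓ M hM haux A hA).2
  · rw [hred]
    exact inv_mul_cancel₀ (jqModC_ne_zero_of_nontrivial _)
  · rw [hred]
    exact evalC_jK_inv_injective _

end Instances

end Fermat.Agent.Red.GG
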