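import Mathlib

/-!
# P-RED, R-LOCAL (helper26): Step A — local principality of the kernel of a section

`B` an `A`-algebra, `𝔫` a prime of `B`, `t ∈ 𝔫` with `𝔫 = (t) + 𝔪 B` locally at `𝔫`.
For an `A`-algebra hom `φ : B → A` with `φ(𝔫) ⊆ 𝔪`, `ker φ ⊆ 𝔫`, `ker φ` finitely generated:
`ker φ` is generated, locally at `𝔫`, by `t - φ(t)`.

The proof is Nakayama's lemma "in `s`-form" (no localisation): `h26Sat 𝔫 G` is the
`𝔫`-saturation `{x | ∃ s ∉ 𝔫, s x ∈ G}` of the ideal `G`.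
-/

set_option autoImplicit false

namespace Fermat.Agent.Red

section Sat

variable {B : Type*} [CommRing B]

/-- the `𝔫`-saturation of an ideal: `{x | ∃ s ∉ 𝔫, s * x ∈ G}`. -/
def h26Sat (𝔫 : Ideal B) [h𝔫 : 𝔫.IsPrime] (G : Ideal B) : Ideal B where
  carrier := {x | ∃ s, s ∉ 𝔫 ∧ s * x ∈ G}
  zero_mem' := ⟨1, (Ideal.ne_top_iff_one 𝔫).mp h𝔫.ne_top, by simp⟩
  add_mem' := by
    rintro x y ⟨s, hs, hsx⟩ ⟨u, hu, huy⟩
    refine ⟨s * u, fun h => (h𝔫.mem_or_mem h).elim hs hu, ?_⟩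
    have h1 : s * u * (x + y) = u * (s * x) + s * (u * y) := by ring
    rw [h1]
    exact G.add_mem (G.mul_mem_left _ hsx) (G.mul_mem_left _ huy)
  smul_mem' := by
    rintro c x ⟨s, hs, hsx⟩
    refine ⟨s, hs, ?_⟩
    have h1 : s * (c • x) = c * (s * x) := by
      rw [smul_eq_mul]; ring
    rw [h1]
    exact G.mul_mem_left _ hsx

theorem h26_mem_sat {𝔫 : Ideal B} [𝔫.IsPrime] {G : Ideal B} {x : B} :
    x ∈ h26Sat 𝔫 G ↔ ∃ s, s ∉ 𝔫 ∧ s * x ∈ G := Iff.rfl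

theorem h26_le_sat (𝔫 : Ideal B) [h𝔫 : 𝔫.IsPrime] (G : Ideal B) : G ≤ h26Sat 𝔫 G := by
  intro x hx
  exact ⟨1, (Ideal.ne_top_iff_one 𝔫).mp h𝔫.ne_top, by simpa using hx⟩

theorem h26_sat_mono (𝔫 : Ideal B) [𝔫.IsPrime] {G G' : Ideal B} (h : G ≤ G') :
    h26Sat 𝔫 G ≤ h26Sat 𝔫 G' := by
  rintro x ⟨s, hs, hsx⟩
  exact ⟨s, hs, h hsx⟩

theorem h26_sat_sat (𝔫 : Ideal B) [h𝔫 : 𝔫.IsPrime] (G : Ideal B) :
    h26Sat 𝔫 (h26Sat 𝔫 G) = h26Sat 𝔫 G := by
  refine le_antisymm ?_ (h26_le_sat 𝔫 _)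
  rintro x ⟨s, hs, u, hu, hux⟩
  refine ⟨u * s, fun h => (h𝔫.mem_or_mem h).elim hu hs, ?_⟩
  rwa [mul_assoc]

theorem h26_sat_sup_le (𝔫 : Ideal B) [𝔫.IsPrime] (G H : Ideal B) :
    h26Sat 𝔫 G ⊔ H ≤ h26Sat 𝔫 (G ⊔ H) :=
  sup_le (h26_sat_mono 𝔫 le_sup_left) (le_sup_right.trans (h26_le_sat 𝔫 _))

/-- **Nakayama in `s`-form**: if the finitely generated ideal `I` is contained in the
saturation of `G + J I` with `J ⊆ 𝔫`, then it is contained in the saturation of `G`. -/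
theorem h26_nak_finset (𝔫 : Ideal B) [h𝔫 : 𝔫.IsPrime] (J : Ideal B) (hJ : J ≤ 𝔫) :
    ∀ (Y : Finset B) (G : Ideal B),
      Ideal.span (Y : Set B) ≤ h26Sat 𝔫 (G ⊔ J * Ideal.span (Y : Set B)) →
      Ideal.span (Y : Set B) ≤ h26Sat 𝔫 G := by
  classical
  intro Y
  induction Y using Finset.induction_on with
  | empty =>
    intro G _
    simp
  | insert z Y hz ih =>
    intro G h
    have hspan : Ideal.span ((insert z Y : Finset B) : Set B) =
        Ideal.span {z} ⊔ Ideal.span (Y : Set B) := by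
      rw [Finset.coe_insert, Ideal.span_insert]
    rw [hspan] at h ⊢
    rw [Ideal.mul_sup, ← sup_assoc] at h
    -- `z` lies in the saturation of `G + J I'`
    have hz1 : z ∈ h26Sat 𝔫 (G ⊔ J * Ideal.span (Y : Set B)) := by
      have hz0 : z ∈ Ideal.span {z} ⊔ Ideal.span (Y : Set B) :=
        Ideal.mem_sup_left (Ideal.mem_span_singleton_self z)
      obtain ⟨s, hs, hsz⟩ := h hz0
      obtain ⟨u, hu, v, hv, huv⟩ := Submodule.mem_sup.mp hsz
      obtain ⟨g, hg, m, hm, hgm⟩ := Submodule.mem_sup.mp hu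
      obtain ⟨μ, hμ, hμz⟩ := Ideal.mem_mul_span_singleton.mp hm
      refine ⟨s - μ, fun hmem => hs ?_, ?_⟩
      · have := 𝔫.add_mem hmem (hJ hμ)
        simpa using this
      · have h1 : (s - μ) * z = g + v := by
          rw [sub_mul, ← huv, ← hgm, hμz]; ring
        rw [h1]
        exact Ideal.add_mem _ (Ideal.mem_sup_left hg) (Ideal.mem_sup_right hv)
    have hJz : J * Ideal.span {z} ≤ h26Sat 𝔫 (G ⊔ J * Ideal.span (Y : Set B)) := by
      intro x hx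
      obtain ⟨μ, -, rfl⟩ := Ideal.mem_mul_span_singleton.mp hx
      exact Ideal.mul_mem_left _ _ hz1
    -- the induction hypothesis applies to `Y`
    have h2 : Ideal.span (Y : Set B) ≤ h26Sat 𝔫 (G ⊔ J * Ideal.span (Y : Set B)) := by
      refine (le_sup_right.trans h).trans ?_
      have h3 : G ⊔ J * Ideal.span {z} ⊔ J * Ideal.span (Y : Set B) ≤
          h26Sat 𝔫 (G ⊔ J * Ideal.span (Y : Set B)) :=
        sup_le (sup_le (le_sup_left.trans (h26_le_sat 𝔫 _)) hJz)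
          (le_sup_right.trans (h26_le_sat 𝔫 _))
      calc h26Sat 𝔫 (G ⊔ J * Ideal.span {z} ⊔ J * Ideal.span (Y : Set B))
          ≤ h26Sat 𝔫 (h26Sat 𝔫 (G ⊔ J * Ideal.span (Y : Set B))) := h26_sat_mono 𝔫 h3
        _ = h26Sat 𝔫 (G ⊔ J * Ideal.span (Y : Set B)) := h26_sat_sat 𝔫 _
    have h4 : Ideal.span (Y : Set B) ≤ h26Sat 𝔫 G := ih G h2
    have h5 : G ⊔ J * Ideal.span (Y : Set B) ≤ h26Sat 𝔫 G :=
      sup_le (h26_le_sat 𝔫 G) (Ideal.mul_le_right.trans h4)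
    have h6 : z ∈ h26Sat 𝔫 G := by
      have := h26_sat_mono 𝔫 h5 hz1
      rwa [h26_sat_sat] at this
    exact sup_le ((Ideal.span_singleton_le_iff_mem _).mpr h6) h4

/-- Nakayama in `s`-form for a finitely generated ideal. -/
theorem h26_nak_fg (𝔫 : Ideal B) [𝔫.IsPrime] (J : Ideal B) (hJ : J ≤ 𝔫) (I G : Ideal B)
    (hI : I.FG) (h : I ≤ h26Sat 𝔫 (G ⊔ J * I)) : I ≤ h26Sat 𝔫 G := by
  obtain ⟨Y, rfl⟩ := hI
  exact h26_nak_finset 𝔫 J hJ Y G h

end Sat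

section StepA

variable {A B : Type*} [CommRing A] [CommRing B] [Algebra A B]

/-- **Step A.** Let `𝔫` be a prime of the `A`-algebra `B` and `t ∈ 𝔫` such that
`𝔫 = (t) + 𝔪 B` locally at `𝔫`.  Let `φ : B → A` be an `A`-algebra hom with `φ(𝔫) ⊆ 𝔪`,
`ker φ ⊆ 𝔫` and `ker φ` finitely generated.  Then `ker φ` is generated by `t - φ(t)`, locally
at `𝔫`. -/
theorem h26_local_ker_principal (𝔪 : Ideal A) (𝔫 : Ideal B) [𝔫.IsPrime]
    (t : B) (ht : t ∈ 𝔫)
    (hprin : ∀ y ∈ 𝔫, ∃ s, s ∉ 𝔫 ∧ s * y ∈ Ideal.span {t} ⊔ 𝔪.map (algebraMap A B))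
    (h𝔪𝔫 : 𝔪.map (algebraMap A B) ≤ 𝔫)
    (φ : B →ₐ[A] A) (hφ : ∀ y ∈ 𝔫, φ y ∈ 𝔪) (hker : RingHom.ker (φ : B →+* A) ≤ 𝔫)
    (hfg : (RingHom.ker (φ : B →+* A)).FG) :
    ∀ y ∈ RingHom.ker (φ : B →+* A),
      ∃ s, s ∉ 𝔫 ∧ s * y ∈ Ideal.span {t - algebraMap A B (φ t)} := by
  set I : Ideal B := RingHom.ker (φ : B →+* A) with hI
  set J : Ideal B := 𝔪.map (algebraMap A B) with hJ
  set c : A := φ t with hc
  have hcm : c ∈ 𝔪 := hφ t ht
  have hφalg : ∀ a : A, φ (algebraMap A B a) = a := fun a => by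
    rw [AlgHom.commutes]; rfl
  -- the projection `ψ b = b - φ b` onto `I`
  have hψI : ∀ b : B, b - algebraMap A B (φ b) ∈ I := by
    intro b
    rw [hI, RingHom.mem_ker]
    simp [hφalg]
  have hψJ : ∀ x ∈ J, x - algebraMap A B (φ x) ∈ J * I := by
    intro x hx
    rw [hJ, Ideal.map] at hx
    refine Submodule.span_induction (p := fun x _ => x - algebraMap A B (φ x) ∈ J * I)
      ?_ ?_ ?_ ?_ hx
    · rintro _ ⟨a, -, rfl⟩
      rw [hφalg, sub_self]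
      exact zero_mem _
    · simp
    · intro x y _ _ hx hy
      have h1 : x + y - algebraMap A B (φ (x + y)) =
          (x - algebraMap A B (φ x)) + (y - algebraMap A B (φ y)) := by
        rw [map_add, map_add]; ring
      rw [h1]
      exact add_mem hx hy
    · intro b x hx' hx
      have hxJ : x ∈ J := hx'
      have hφx : φ x ∈ 𝔪 := hφ x (h𝔪𝔫 hxJ)
      have h1 : b • x - algebraMap A B (φ (b • x)) =
          b * (x - algebraMap A B (φ x)) +
            algebraMap A B (φ x) * (b - algebraMap A B (φ b)) := by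
        rw [smul_eq_mul, map_mul, map_mul]; ring
      rw [h1]
      refine add_mem (Ideal.mul_mem_left _ _ hx) ?_
      exact Ideal.mul_mem_mul (Ideal.mem_map_of_mem _ hφx) (hψI b)
  have key : I ≤ h26Sat 𝔫 (Ideal.span {t - algebraMap A B c} ⊔ J * I) := by
    intro y hy
    obtain ⟨s, hs, hsy⟩ := hprin y (hker hy)
    refine ⟨s, hs, ?_⟩
    obtain ⟨u, hu, x, hx, hux⟩ := Submodule.mem_sup.mp hsy
    obtain ⟨b, rfl⟩ := Ideal.mem_span_singleton'.mp hu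
    -- `s y = b t + x`, apply `φ`
    have hφsy : φ (s * y) = 0 := by
      have : φ y = 0 := hy
      rw [map_mul, this, mul_zero]
    have h0 : φ b * c + φ x = 0 := by
      rw [← hux, map_add, map_mul] at hφsy
      exact hφsy
    have h1 : s * y = b * (t - algebraMap A B c) +
        (algebraMap A B c * (b - algebraMap A B (φ b)) + (x - algebraMap A B (φ x))) := by
      have h2 : algebraMap A B (φ b * c + φ x) = 0 := by rw [h0, map_zero]
      rw [map_add, map_mul] at h2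
      rw [← hux]
      linear_combination h2
    rw [h1]
    refine add_mem (Ideal.mem_sup_left (Ideal.mul_mem_left _ _ (Ideal.mem_span_singleton_self _)))
      (Ideal.mem_sup_right (add_mem ?_ (hψJ x hx)))
    exact Ideal.mul_mem_mul (Ideal.mem_map_of_mem _ hcm) (hψI b)
  exact h26_nak_fg 𝔫 J h𝔪𝔫 I _ hfg key

end StepA

end Fermat.Agent.Red
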