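import Mathlib
import Fermat.Agent.Red.LocalNak

/-!
# P-RED, R-LOCAL (helper26): the local factorisation lemma (abstract form)

Setting: `A` a local ring, `F` a field, `B ⊆ F` an `A`-subalgebra (a chart of the model),
`V ⊆ F` a subring (the Gauss valuation ring), `v : ι → Valuation F ℤᵐ⁰` a family of discrete
valuations (the places of the generic fibre which are finite on the chart).

* `h26Centered B v 𝔫 i` : the place `i` is centered at the prime `𝔫` of `B`.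
* `H26Chart B V v` : the axioms on `(B, V, v)`.
* `h26_stepC` : an element of `F` which is regular at all places centered at `𝔫` lies in
  `B_𝔫[1/a]`.
* `h26_local_factor` : **local factorisation**.  If `𝔫 = (t) + 𝔪_A B` locally, `w` is a unit
  of `V`, and the places centered at `𝔫` at which `w` is not a unit are among the finitely many
  `i ∈ T`, with sections `φ i : B → A`, then
  `ε = w · ∏_{i ∈ T} (t - φ_i(t))^(- ord_i w)` is a unit of the local ring `B_𝔫`.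
-/

set_option autoImplicit false

open WithZero IsLocalRing

namespace Fermat.Agent.Red

theorem h26_exists_pow_mul_le_one (x y : ℤᵐ⁰) (hx : x < 1) : ∃ N : ℕ, x ^ N * y ≤ 1 := by
  rcases eq_or_ne x 0 with rfl | hx0
  · exact ⟨1, by simp⟩
  rcases eq_or_ne y 0 with rfl | hy0
  · exact ⟨0, by simp⟩
  refine ⟨(log y).toNat, ?_⟩
  have h1 : log x < 0 := by
    have h2 : exp (log x) < exp (0 : ℤ) := by
      rw [exp_log hx0, exp_zero]; exact hx
    exact exp_lt_exp.mp h2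
  have h3 : (log y).toNat • log x + log y ≤ 0 := by
    have h4 : log y ≤ ((log y).toNat : ℤ) := Int.self_le_toNat _
    have h5 : (0 : ℤ) ≤ ((log y).toNat : ℤ) := Int.natCast_nonneg _
    rw [nsmul_eq_mul]
    nlinarith
  calc x ^ (log y).toNat * y
      = exp ((log y).toNat • log x + log y) := by
        rw [exp_add, exp_nsmul, exp_log hx0, exp_log hy0]
    _ ≤ exp (0 : ℤ) := exp_le_exp.mpr h3
    _ = 1 := exp_zero

theorem h26_eq_exp_neg_one {x : ℤᵐ⁰} (h1 : exp (-1 : ℤ) ≤ x) (h2 : x < 1) :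
    x = exp (-1 : ℤ) := by
  have hx0 : x ≠ 0 := by
    rintro rfl
    exact absurd h1 (by simp)
  have h3 : exp (-1 : ℤ) ≤ exp (log x) := by rwa [exp_log hx0]
  have h4 : exp (log x) < exp (0 : ℤ) := by rwa [exp_log hx0, exp_zero]
  have h5 := exp_le_exp.mp h3
  have h6 := exp_lt_exp.mp h4
  have h7 : log x = -1 := by omega
  rw [← exp_log hx0, h7]

theorem h26_zpow_mem {F : Type*} [Field F] (V : Subring F) {x : F} (hx : x ∈ V)
    (hx' : x⁻¹ ∈ V) (z : ℤ) : x ^ z ∈ V := by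
  obtain ⟨n, rfl | rfl⟩ := z.eq_nat_or_neg
  · rw [zpow_natCast]; exact pow_mem hx n
  · rw [zpow_neg, zpow_natCast, ← inv_pow]; exact pow_mem hx' n

section Chart

variable {A : Type*} [CommRing A] {F : Type*} [Field F] [Algebra A F]
variable (B : Subalgebra A F) (V : Subring F) {ι : Type*} (v : ι → Valuation F ℤᵐ⁰)

/-- the place `i` is centered at the prime `𝔫` of `B`: `𝔭_i ∩ B ⊆ 𝔫`. -/
def h26Centered (𝔫 : Ideal B) (i : ι) : Prop := ∀ b : B, v i (b : F) < 1 → b ∈ 𝔫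

/-- the axioms on a chart `B`, the Gauss ring `V` and the family of places `v` of the generic
fibre which are finite on the chart. -/
structure H26Chart [IsLocalRing A] : Prop where
  /-- every function has finitely many poles -/
  hfin : ∀ f : F, f ≠ 0 → {i | 1 < v i f}.Finite
  /-- a function regular at all places is in `B[1/a]` -/
  hint : ∀ f : F, (∀ i, v i f ≤ 1) → ∃ a : A, algebraMap A F a ≠ 0 ∧ a • f ∈ B
  /-- elements of the chart are regular -/
  hB : ∀ b ∈ B, ∀ i, v i b ≤ 1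
  /-- uniformisers in the chart -/
  hunif : ∀ i, ∃ b : B, v i (b : F) = exp (-1 : ℤ)
  /-- distinct places have incomparable centres on the chart -/
  hinj : ∀ i k, (∀ b : B, v i (b : F) < 1 → v k (b : F) < 1) → i = k
  /-- the chart is Gauss-integral -/
  hBV : ∀ x ∈ B, x ∈ V
  /-- `1 + 𝔪_A V ⊆ V^×` -/
  hVunit : ∀ m ∈ maximalIdeal A, ∀ x ∈ V, (1 + algebraMap A F m * x)⁻¹ ∈ V
  /-- QEP: the special fibre is reduced and irreducible -/
  hQEP : ∀ a : A, algebraMap A F a ≠ 0 → ∀ x ∈ V, a • x ∈ B → x ∈ B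

variable {B V v}

/-- **Step C.**  A function which is regular at all places centered at `𝔫` lies in
`B_𝔫[1/a]`. -/
theorem h26_stepC
    (hfin : ∀ f : F, f ≠ 0 → {i | 1 < v i f}.Finite)
    (hint : ∀ f : F, (∀ i, v i f ≤ 1) → ∃ a : A, algebraMap A F a ≠ 0 ∧ a • f ∈ B)
    (hB : ∀ b ∈ B, ∀ i, v i b ≤ 1)
    (𝔫 : Ideal B) [h𝔫 : 𝔫.IsPrime] (f : F)
    (hf : ∀ i, h26Centered B v 𝔫 i → v i f ≤ 1) :
    ∃ a : A, algebraMap A F a ≠ 0 ∧ ∃ s : B, s ∉ 𝔫 ∧ a • ((s : F) * f) ∈ B := by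
  classical
  rcases eq_or_ne f 0 with rfl | hf0
  · obtain ⟨a, ha, -⟩ := hint 0 (fun i => by simp)
    exact ⟨a, ha, 1, (Ideal.ne_top_iff_one 𝔫).mp h𝔫.ne_top, by simp [zero_mem]⟩
  set Z : Finset ι := (hfin f hf0).toFinset with hZ
  have hZmem : ∀ i, i ∈ Z ↔ 1 < v i f := by intro i; simp [hZ]
  have hex : ∀ i : ι, ∃ b : B, ∃ N : ℕ,
      (i ∈ Z → b ∉ 𝔫 ∧ v i (b : F) ^ N * v i f ≤ 1) := by
    intro i
    by_cases hi : i ∈ Z
    · have hnc : ¬ h26Centered B v 𝔫 i := fun hc => not_le.mpr ((hZmem i).mp hi) (hf i hc)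
      unfold h26Centered at hnc
      obtain ⟨b, hb⟩ := not_forall.mp hnc
      obtain ⟨hb1, hb2⟩ := Classical.not_imp.mp hb
      obtain ⟨N, hN⟩ := h26_exists_pow_mul_le_one (v i (b : F)) (v i f) hb1
      exact ⟨b, N, fun _ => ⟨hb2, hN⟩⟩
    · exact ⟨1, 0, fun h => (hi h).elim⟩
  choose b N hbN using hex
  set s : B := ∏ i ∈ Z, b i ^ N i with hs
  have hs𝔫 : s ∉ 𝔫 := by
    have h1 : s ∈ 𝔫.primeCompl := by
      rw [hs]
      exact Submonoid.prod_mem _ (fun i hi => Submonoid.pow_mem _ (hbN i hi).1 _)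
    exact h1
  have hval : ∀ k, v k ((s : F) * f) ≤ 1 := by
    intro k
    have hsF : (s : F) = ∏ i ∈ Z, (b i : F) ^ N i := by
      rw [hs]; push_cast; rfl
    rw [map_mul, hsF, map_prod]
    simp only [map_pow]
    have hle : ∀ i, v k (b i : F) ^ N i ≤ 1 := fun i => pow_le_one' (hB _ (b i).2 k) _
    by_cases hk : k ∈ Z
    · rw [← Finset.mul_prod_erase Z _ hk, mul_assoc,
        mul_comm (∏ i ∈ Z.erase k, v k (b i : F) ^ N i), ← mul_assoc]
      exact mul_le_one' (hbN k hk).2 (Finset.prod_le_one' (fun i _ => hle i))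
    · have h1 : v k f ≤ 1 := not_lt.mp (fun h => hk ((hZmem k).mpr h))
      exact mul_le_one' (Finset.prod_le_one' (fun i _ => hle i)) h1
  obtain ⟨a, ha, hab⟩ := hint _ hval
  exact ⟨a, ha, s, hs𝔫, hab⟩

variable [IsLocalRing A]

/-- a section `φ : B → A` whose kernel is contained in the prime `𝔫` maps `𝔫` into `𝔪_A`. -/
theorem h26_section_local (𝔫 : Ideal B) [h𝔫 : 𝔫.IsPrime] (φ : B →ₐ[A] A)
    (hker : RingHom.ker (φ : B →+* A) ≤ 𝔫) : ∀ y ∈ 𝔫, φ y ∈ maximalIdeal A := by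
  intro y hy
  by_contra hne
  have hu : IsUnit (φ y) := IsLocalRing.notMem_maximalIdeal.mp hne
  have h1 : y - algebraMap A B (φ y) ∈ 𝔫 := by
    apply hker
    rw [RingHom.mem_ker]
    simp
  have h2 : algebraMap A B (φ y) ∈ 𝔫 := by
    have := 𝔫.sub_mem hy h1
    simpa using this
  exact h𝔫.ne_top (Ideal.eq_top_of_isUnit_mem _ h2 (hu.map _))

/-- **Local factorisation.** -/
theorem h26_local_factor (hC : H26Chart B V v)
    (𝔫 : Ideal B) [h𝔫 : 𝔫.IsPrime] (h𝔪𝔫 : (maximalIdeal A).map (algebraMap A B) ≤ 𝔫)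
    (t : B) (ht : t ∈ 𝔫) (ht0 : (t : F) ≠ 0) (htV : (t : F)⁻¹ ∈ V)
    (hprin : ∀ y ∈ 𝔫, ∃ s, s ∉ 𝔫 ∧
      s * y ∈ Ideal.span {t} ⊔ (maximalIdeal A).map (algebraMap A B))
    (T : Finset ι) (φ : ι → (B →ₐ[A] A))
    (hφker : ∀ i ∈ T, ∀ b : B, φ i b = 0 ↔ v i (b : F) < 1)
    (hφfg : ∀ i ∈ T, (RingHom.ker (φ i : B →+* A)).FG)
    (hcent : ∀ i ∈ T, h26Centered B v 𝔫 i)
    (w : F) (hwV : w ∈ V) (hwV' : w⁻¹ ∈ V)
    (n : ι → ℤ) (hn : ∀ i ∈ T, v i w = exp (-(n i)))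
    (hw1 : ∀ k, h26Centered B v 𝔫 k → k ∉ T → v k w = 1) :
    ∃ s : B, s ∉ 𝔫 ∧
      (s : F) * (w * ∏ i ∈ T, ((t : F) - algebraMap A F (φ i t)) ^ (-(n i))) ∈ B ∧
      (s : F) * (w * ∏ i ∈ T, ((t : F) - algebraMap A F (φ i t)) ^ (-(n i)))⁻¹ ∈ B := by
  classical
  -- notation
  set u : ι → B := fun i => t - algebraMap A B (φ i t) with hu
  have huF : ∀ i, ((u i : B) : F) = (t : F) - algebraMap A F (φ i t) := fun i => rfl
  have hkerle : ∀ i ∈ T, RingHom.ker (φ i : B →+* A) ≤ 𝔫 := by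
    intro i hi b hb
    exact hcent i hi b ((hφker i hi b).mp hb)
  have hφ𝔫 : ∀ i ∈ T, ∀ y ∈ 𝔫, φ i y ∈ maximalIdeal A := fun i hi =>
    h26_section_local 𝔫 (φ i) (hkerle i hi)
  have hA : ∀ i ∈ T, ∀ y ∈ RingHom.ker (φ i : B →+* A),
      ∃ s, s ∉ 𝔫 ∧ s * y ∈ Ideal.span {u i} := fun i hi =>
    h26_local_ker_principal (maximalIdeal A) 𝔫 t ht hprin h𝔪𝔫 (φ i) (hφ𝔫 i hi) (hkerle i hi)
      (hφfg i hi)
  -- a unit of `B_𝔫` has valuation one at centered places
  have hsval : ∀ k, h26Centered B v 𝔫 k → ∀ s : B, s ∉ 𝔫 → v k (s : F) = 1 := by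
    intro k hk s hs
    refine le_antisymm (hC.hB _ s.2 k) (not_lt.mp fun hlt => hs (hk s hlt))
  have hu_ker : ∀ i ∈ T, u i ∈ RingHom.ker (φ i : B →+* A) := by
    intro i _
    rw [RingHom.mem_ker]
    simp [hu]
  -- (a) `u i` is a uniformiser at `i`
  have hval_i : ∀ i ∈ T, v i ((u i : B) : F) = exp (-1 : ℤ) := by
    intro i hi
    have hlt : v i ((u i : B) : F) < 1 := (hφker i hi (u i)).mp (hu_ker i hi)
    refine h26_eq_exp_neg_one ?_ hlt
    obtain ⟨b₀, hb₀⟩ := hC.hunif i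
    have hb₀ker : b₀ ∈ RingHom.ker (φ i : B →+* A) := by
      rw [RingHom.mem_ker]
      refine (hφker i hi b₀).mpr ?_
      rw [hb₀]
      exact exp_lt_exp.mpr (by norm_num)
    obtain ⟨s, hs, hsb⟩ := hA i hi b₀ hb₀ker
    obtain ⟨c, hc⟩ := Ideal.mem_span_singleton'.mp hsb
    have h1 : v i ((s : F) * (b₀ : F)) = v i ((c : F) * ((u i : B) : F)) := by
      have : ((s * b₀ : B) : F) = ((c * u i : B) : F) := by rw [hc]
      simpa using congrArg (v i) this
    rw [map_mul, map_mul, hsval i (hcent i hi) s hs, one_mul, hb₀] at h1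
    rw [h1]
    exact mul_le_of_le_one_left' (hC.hB _ c.2 i)
  -- (b) `u i` is a unit at the other centered places
  have hval_k : ∀ i ∈ T, ∀ k, h26Centered B v 𝔫 k → k ≠ i → v k ((u i : B) : F) = 1 := by
    intro i hi k hk hki
    refine le_antisymm (hC.hB _ (u i).2 k) (not_lt.mp fun hlt => hki ?_)
    refine (hC.hinj i k ?_).symm
    intro b hb
    have hbker : b ∈ RingHom.ker (φ i : B →+* A) := (hφker i hi b).mpr hb
    obtain ⟨s, hs, hsb⟩ := hA i hi b hbker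
    obtain ⟨c, hc⟩ := Ideal.mem_span_singleton'.mp hsb
    have h1 : v k ((s : F) * (b : F)) = v k ((c : F) * ((u i : B) : F)) := by
      have : ((s * b : B) : F) = ((c * u i : B) : F) := by rw [hc]
      simpa using congrArg (v k) this
    rw [map_mul, map_mul, hsval k hk s hs, one_mul] at h1
    rw [h1]
    exact lt_of_le_of_lt (mul_le_of_le_one_left' (hC.hB _ c.2 k)) hlt
  -- (c) `u i` is a unit of `V`
  have huV : ∀ i ∈ T, ((u i : B) : F) ∈ V := fun i _ => hC.hBV _ (u i).2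
  have huV' : ∀ i ∈ T, ((u i : B) : F)⁻¹ ∈ V := by
    intro i hi
    have hci : φ i t ∈ maximalIdeal A := hφ𝔫 i hi t ht
    have h1 := hC.hVunit _ hci (-(t : F)⁻¹) (neg_mem htV)
    have h2 : ((u i : B) : F) =
        (t : F) * (1 + algebraMap A F (φ i t) * (-(t : F)⁻¹)) := by
      rw [huF]
      field_simp
      ring
    rw [h2, mul_inv]
    exact mul_mem htV h1
  -- the valuations of `ε`
  set ε : F := w * ∏ i ∈ T, ((t : F) - algebraMap A F (φ i t)) ^ (-(n i)) with hε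
  have hεval : ∀ k, h26Centered B v 𝔫 k → v k ε = 1 := by
    intro k hk
    rw [hε, map_mul, map_prod]
    simp only [map_zpow₀]
    by_cases hkT : k ∈ T
    · rw [← Finset.mul_prod_erase T _ hkT]
      have h1 : ∏ i ∈ T.erase k, v k ((t : F) - algebraMap A F (φ i t)) ^ (-(n i)) = 1 := by
        refine Finset.prod_eq_one fun i hi => ?_
        have h2 := hval_k i (Finset.mem_of_mem_erase hi) k hk (Finset.ne_of_mem_erase hi).symm
        rw [huF] at h2
        rw [h2, one_zpow]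
      have h3 := hval_i k hkT
      rw [huF] at h3
      rw [h1, mul_one, h3, hn k hkT, ← exp_zsmul, ← exp_add]
      rw [← exp_zero, exp_inj]
      simp
    · have h1 : ∏ i ∈ T, v k ((t : F) - algebraMap A F (φ i t)) ^ (-(n i)) = 1 := by
        refine Finset.prod_eq_one fun i hi => ?_
        have hki : k ≠ i := fun h => hkT (h ▸ hi)
        have h2 := hval_k i hi k hk hki
        rw [huF] at h2
        rw [h2, one_zpow]
      rw [h1, mul_one, hw1 k hk hkT]
  have hεV : ε ∈ V := by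
    rw [hε]
    refine mul_mem hwV (Subring.prod_mem _ fun i hi => ?_)
    have := h26_zpow_mem V (huV i hi) (huV' i hi) (-(n i))
    rwa [huF] at this
  have hεV' : ε⁻¹ ∈ V := by
    have h1 : ε⁻¹ = w⁻¹ * ∏ i ∈ T, ((t : F) - algebraMap A F (φ i t)) ^ (n i) := by
      rw [hε, mul_inv, ← Finset.prod_inv_distrib]
      congr 1
      refine Finset.prod_congr rfl fun i _ => ?_
      rw [zpow_neg, inv_inv]
    rw [h1]
    refine mul_mem hwV' (Subring.prod_mem _ fun i hi => ?_)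
    have := h26_zpow_mem V (huV i hi) (huV' i hi) (n i)
    rwa [huF] at this
  -- Step C for `ε` and `ε⁻¹`
  obtain ⟨a₁, ha₁, s₁, hs₁, h1⟩ := h26_stepC hC.hfin hC.hint hC.hB 𝔫 ε
    (fun k hk => (hεval k hk).le)
  obtain ⟨a₂, ha₂, s₂, hs₂, h2⟩ := h26_stepC hC.hfin hC.hint hC.hB 𝔫 ε⁻¹
    (fun k hk => by rw [map_inv₀, hεval k hk, inv_one])
  have h1' : (s₁ : F) * ε ∈ B :=
    hC.hQEP a₁ ha₁ _ (mul_mem (hC.hBV _ s₁.2) hεV) h1
  have h2' : (s₂ : F) * ε⁻¹ ∈ B :=
    hC.hQEP a₂ ha₂ _ (mul_mem (hC.hBV _ s₂.2) hεV') h2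
  refine ⟨s₁ * s₂, fun h => (h𝔫.mem_or_mem h).elim hs₁ hs₂, ?_, ?_⟩
  · have : ((s₁ * s₂ : B) : F) * ε = (s₂ : F) * ((s₁ : F) * ε) := by
      push_cast; ring
    rw [this]
    exact mul_mem s₂.2 h1'
  · have : ((s₁ * s₂ : B) : F) * ε⁻¹ = (s₁ : F) * ((s₂ : F) * ε⁻¹) := by
      push_cast; ring
    rw [this]
    exact mul_mem s₁.2 h2'

end Chart

end Fermat.Agent.Red
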