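import Fermat.Agent.S37.Gate
import Fermat.Agent.Red.GV.Bar
import Fermat.Agent.Red.ModelO.ValCrit
import Fermat.Agent.Red.LocalFact

/-!
# P-RED, R-GATEGOOD (helper26): concrete objects and interface statements of the integration

`K = Kbar`, `A` a valuation subring of `Kbar` over `ℓ`, `F = FF M`, `t = j` or `t = 1/j`.

* `chart M A t : Subalgebra A (FF M)` — the chart `modelAt M A t` as an `A`-subalgebra.
* `ChartPlace M t` — the places of `FF M` at which `t` is regular; `chartVal M t` their
  valuations.
* `IfaceChart` — the axioms `H26Chart` of `Red/LocalFact.lean` for the chart.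
* `IfaceFinite` — FINITE: the chart is a finitely generated `A[t]`-module.
* `IfaceSection` — the evaluation at a place as an `A`-algebra hom `chart → A`, with finitely
  generated kernel.
* `IfaceGeneric`, `IfaceLocalUnif` — local structure at closed points of the generic fibre,
  resp. of the special fibre.
Every `Iface…` is a `def … : Prop`; nothing is assumed.
-/

set_option autoImplicit false

open AlgebraicCurve WithZero IsLocalRing

noncomputable section

namespace Fermat.Agent.Red.GG

open Fermat.Agent.S37 Fermat.Agent.Red.GV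

/-- the chart `modelAt M A t` as an `A`-subalgebra of `FF M`. -/
def chart (M : ℕ) (A : ValuationSubring Kbar) (t : FF M) : Subalgebra A (FF M) :=
  { modelAt M A t with
    algebraMap_mem' := fun a => ModelO.h85_cst_mem_modelAt M A t a.2 }

theorem mem_chart {M : ℕ} {A : ValuationSubring Kbar} {t x : FF M} :
    x ∈ chart M A t ↔ x ∈ modelAt M A t := Iff.rfl

/-- the places of `FF M` at which `t` is regular. -/
def ChartPlace (M : ℕ) (t : FF M) : Type := {v : Place Kbar (FF M) // t ∈ v.toValuationSubring}

/-- the valuation of a place of the chart. -/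
def chartVal (M : ℕ) (t : FF M) (i : ChartPlace M t) : Valuation (FF M) ℤᵐ⁰ :=
  i.1.adicValuation

/-- **CHART**: the axioms of `Red/LocalFact.lean` for the chart `modelAt M A t`, the Gauss
ring and the places at which `t` is regular. -/
def IfaceChart (M : ℕ) [NeZero M] (A : ValuationSubring Kbar) (t : FF M) : Prop :=
  H26Chart (chart M A t) (gaussV A M) (chartVal M t)

/-- **FINITE**: the chart is generated as an `A[t]`-module by finitely many of its elements. -/
def IfaceFinite (M : ℕ) [NeZero M] (A : ValuationSubring Kbar) (t : FF M) : Prop :=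
  ∃ S : Finset (FF M), (∀ s ∈ S, s ∈ modelAt M A t) ∧
    ∀ x ∈ modelAt M A t, ∃ c : FF M → Polynomial A,
      x = ∑ s ∈ S, ModelO.h85ev M A t (c s) * s

/-- **SECTION**: a place centered at a maximal ideal containing `𝔪_A` gives an evaluation
`chart → A`, an `A`-algebra hom whose kernel consists of the functions vanishing at the place
and is finitely generated. -/
def IfaceSection (M : ℕ) [NeZero M] (A : ValuationSubring Kbar) (t : FF M) : Prop :=
  ∀ (i : ChartPlace M t) (𝔫 : Ideal (chart M A t)), 𝔫.IsMaximal →
    (maximalIdeal A).map (algebraMap A (chart M A t)) ≤ 𝔫 →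
    h26Centered (chart M A t) (chartVal M t) 𝔫 i →
    ∃ φ : chart M A t →ₐ[A] A,
      (∀ b : chart M A t, φ b = 0 ↔ chartVal M t i (b : FF M) < 1) ∧
      (RingHom.ker (φ : chart M A t →+* A)).FG

/-- **GENERIC**: at a maximal ideal of the chart which does not contain `𝔪_A`, at most one
place is centered. -/
def IfaceGeneric (M : ℕ) [NeZero M] (A : ValuationSubring Kbar) (t : FF M) : Prop :=
  ∀ 𝔫 : Ideal (chart M A t), 𝔫.IsMaximal →
    ¬ (maximalIdeal A).map (algebraMap A (chart M A t)) ≤ 𝔫 →
    ∀ i k : ChartPlace M t, h26Centered (chart M A t) (chartVal M t) 𝔫 i →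
      h26Centered (chart M A t) (chartVal M t) 𝔫 k → i = k

/-- **LOCAL UNIFORMISER** (what is consumed of smoothness): at every maximal ideal `𝔫` of the
chart containing `𝔪_A` there is `t' ∈ 𝔫`, a Gauss unit, with `𝔫 = (t') + 𝔪_A B` locally. -/
def IfaceLocalUnif (M : ℕ) [NeZero M] (A : ValuationSubring Kbar) (t : FF M) : Prop :=
  ∀ 𝔫 : Ideal (chart M A t), 𝔫.IsMaximal →
    (maximalIdeal A).map (algebraMap A (chart M A t)) ≤ 𝔫 →
    ∃ t' ∈ 𝔫, ((t' : chart M A t) : FF M) ≠ 0 ∧ ((t' : chart M A t) : FF M)⁻¹ ∈ gaussV A M ∧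
      ∀ y ∈ 𝔫, ∃ s, s ∉ 𝔫 ∧
        s * y ∈ Ideal.span {t'} ⊔ (maximalIdeal A).map (algebraMap A (chart M A t))

end Fermat.Agent.Red.GG
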