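import Mathlib

/-!
# P-RED: bounded torsion for finitely generated modules over a domain (helper26)

* `h26_torsion_bound_span` : `P ≤ M` a submodule, `g : Fin n → M`.  There is `a ≠ 0` in the
  domain `A` such that every `x ∈ span (range g)` with `b • x ∈ P` for some `b ≠ 0` satisfies
  `a • x ∈ P`.  (Induction on `n`; no noetherianity.)
* `h26_torsion_bound_sup` : the same for `x ∈ P ⊔ G`, `G` finitely generated.
* `h26_pow_torsion_bound` : if moreover every nonzero `a` divides a power of `c`
  (rank-one valuation rings, `c` in the maximal ideal), then a fixed power `c ^ k` kills the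
  `c`-power torsion of `(P ⊔ G) ⧸ P`.
-/

set_option autoImplicit false

namespace Fermat.Agent.Red

variable {A : Type*} [CommRing A] [IsDomain A] {M : Type*} [AddCommGroup M] [Module A M]

theorem h26_torsion_bound_span (n : ℕ) :
    ∀ (P : Submodule A M) (g : Fin n → M),
      ∃ a : A, a ≠ 0 ∧ ∀ x ∈ Submodule.span A (Set.range g),
        (∃ b : A, b ≠ 0 ∧ b • x ∈ P) → a • x ∈ P := by
  induction n with
  | zero =>
    intro P g
    refine ⟨1, one_ne_zero, fun x hx _ => ?_⟩
    have : Set.range g = ∅ := Set.range_eq_empty g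
    rw [this, Submodule.span_empty, Submodule.mem_bot] at hx
    rw [hx, smul_zero]
    exact P.zero_mem
  | succ n ih =>
    intro P g
    classical
    set g₀ : M := g (Fin.last n) with hg₀
    set g' : Fin n → M := fun i => g (Fin.castSucc i) with hg'
    set P' : Submodule A M := P ⊔ Submodule.span A {g₀} with hP'
    obtain ⟨a', ha', hbound⟩ := ih P' g'
    -- decomposition of the span
    have hspan : ∀ x ∈ Submodule.span A (Set.range g),
        ∃ x' ∈ Submodule.span A (Set.range g'), ∃ r : A, x = x' + r • g₀ := by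
      intro x hx
      have hle : Submodule.span A (Set.range g) ≤
          Submodule.span A (Set.range g') ⊔ Submodule.span A {g₀} := by
        rw [Submodule.span_le]
        rintro _ ⟨i, rfl⟩
        refine Fin.lastCases ?_ (fun i => ?_) i
        · exact Submodule.mem_sup_right (Submodule.subset_span rfl)
        · exact Submodule.mem_sup_left (Submodule.subset_span ⟨i, rfl⟩)
      obtain ⟨x', hx', y, hy, rfl⟩ := Submodule.mem_sup.mp (hle hx)
      obtain ⟨r, rfl⟩ := Submodule.mem_span_singleton.mp hy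
      exact ⟨x', hx', r, rfl⟩
    by_cases hcase : ∃ a₁ : A, a₁ ≠ 0 ∧ a₁ • g₀ ∈ P
    · obtain ⟨a₁, ha₁, ha₁P⟩ := hcase
      refine ⟨a₁ * a', mul_ne_zero ha₁ ha', ?_⟩
      rintro x hx ⟨b, hb, hbx⟩
      obtain ⟨x', hx', r, rfl⟩ := hspan x hx
      have h1 : b • x' ∈ P' := by
        have : b • x' = b • (x' + r • g₀) - (b * r) • g₀ := by
          rw [smul_add, mul_smul]; abel
        rw [this]
        exact P'.sub_mem (Submodule.mem_sup_left hbx)
          (Submodule.mem_sup_right (Submodule.smul_mem _ _ (Submodule.subset_span rfl)))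
      have h2 := hbound x' hx' ⟨b, hb, h1⟩
      obtain ⟨q, hq, y, hy, hsum⟩ := Submodule.mem_sup.mp h2
      obtain ⟨s, rfl⟩ := Submodule.mem_span_singleton.mp hy
      have : (a₁ * a') • (x' + r • g₀) = a₁ • q + (s + a' * r) • (a₁ • g₀) := by
        calc (a₁ * a') • (x' + r • g₀) = a₁ • (a' • x') + (a₁ * a' * r) • g₀ := by module
          _ = a₁ • (q + s • g₀) + (a₁ * a' * r) • g₀ := by rw [← hsum]
          _ = a₁ • q + (s + a' * r) • (a₁ • g₀) := by module
      rw [this]
      exact P.add_mem (P.smul_mem _ hq) (P.smul_mem _ ha₁P)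
    · refine ⟨a', ha', ?_⟩
      rintro x hx ⟨b, hb, hbx⟩
      obtain ⟨x', hx', r, rfl⟩ := hspan x hx
      have h1 : b • x' ∈ P' := by
        have : b • x' = b • (x' + r • g₀) - (b * r) • g₀ := by
          rw [smul_add, mul_smul]; abel
        rw [this]
        exact P'.sub_mem (Submodule.mem_sup_left hbx)
          (Submodule.mem_sup_right (Submodule.smul_mem _ _ (Submodule.subset_span rfl)))
      have h2 := hbound x' hx' ⟨b, hb, h1⟩
      obtain ⟨q, hq, y, hy, hsum⟩ := Submodule.mem_sup.mp h2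
      obtain ⟨s, rfl⟩ := Submodule.mem_span_singleton.mp hy
      have hax : a' • (x' + r • g₀) = q + (s + a' * r) • g₀ := by
        calc a' • (x' + r • g₀) = a' • x' + (a' * r) • g₀ := by module
          _ = (q + s • g₀) + (a' * r) • g₀ := by rw [← hsum]
          _ = q + (s + a' * r) • g₀ := by module
      -- `(b * (s + a' r)) • g₀ ∈ P`, hence `s + a' r = 0`
      have h3 : (b * (s + a' * r)) • g₀ ∈ P := by
        have : (b * (s + a' * r)) • g₀ = a' • (b • (x' + r • g₀)) - b • q := by
          calc (b * (s + a' * r)) • g₀ = b • (q + (s + a' * r) • g₀) - b • q := by module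
            _ = b • (a' • (x' + r • g₀)) - b • q := by rw [← hax]
            _ = a' • (b • (x' + r • g₀)) - b • q := by rw [smul_comm]
        rw [this]
        exact P.sub_mem (P.smul_mem _ hbx) (P.smul_mem _ hq)
      have h4 : b * (s + a' * r) = 0 := by
        by_contra hne
        exact hcase ⟨_, hne, h3⟩
      have h5 : s + a' * r = 0 := (mul_eq_zero.mp h4).resolve_left hb
      rw [hax, h5, zero_smul, add_zero]
      exact hq

theorem h26_torsion_bound_sup (P G : Submodule A M) (hG : G.FG) :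
    ∃ a : A, a ≠ 0 ∧ ∀ x ∈ P ⊔ G, (∃ b : A, b ≠ 0 ∧ b • x ∈ P) → a • x ∈ P := by
  obtain ⟨n, g, hg⟩ := Submodule.fg_iff_exists_fin_generating_family.mp hG
  obtain ⟨a, ha, hbound⟩ := h26_torsion_bound_span n P g
  refine ⟨a, ha, ?_⟩
  rintro x hx ⟨b, hb, hbx⟩
  obtain ⟨q, hq, y, hy, rfl⟩ := Submodule.mem_sup.mp hx
  rw [← hg] at hy
  have h1 : b • y ∈ P := by
    have : b • y = b • (q + y) - b • q := by rw [smul_add]; abel
    rw [this]
    exact P.sub_mem hbx (P.smul_mem _ hq)
  rw [smul_add]
  exact P.add_mem (P.smul_mem _ hq) (hbound y hy ⟨b, hb, h1⟩)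

/-- **Bounded `c`-power torsion** over a domain in which every nonzero element divides a
power of `c`. -/
theorem h26_pow_torsion_bound (c : A) (hc0 : c ≠ 0)
    (harch : ∀ a : A, a ≠ 0 → ∃ k : ℕ, a ∣ c ^ k)
    (P G : Submodule A M) (hG : G.FG) :
    ∃ k : ℕ, ∀ x ∈ P ⊔ G, (∃ n : ℕ, c ^ n • x ∈ P) → c ^ k • x ∈ P := by
  obtain ⟨a, ha, hbound⟩ := h26_torsion_bound_sup P G hG
  obtain ⟨k, d, hd⟩ := harch a ha
  refine ⟨k, ?_⟩
  rintro x hx ⟨n, hn⟩
  have := hbound x hx ⟨c ^ n, pow_ne_zero n hc0, hn⟩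
  rw [hd, mul_comm, mul_smul]
  exact P.smul_mem _ this

end Fermat.Agent.Red
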