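import Mathlib

/-!
# P-RED: the module `L(B) = {f | f ^ p / w ∈ B}` (helper26)

`F` a field, `B ⊆ F` an `O`-subalgebra which is `p`-root closed in `F`.  Then
`L = {f | f ^ p * w⁻¹ ∈ B}` is a `B`-submodule of `F` (the sections of `O(-D)`, `div w = p D`).
-/

set_option autoImplicit false

namespace Fermat.Agent.Red

variable {O F : Type*} [CommRing O] [Field F] [Algebra O F]

/-- the key closure property: a product of `p` elements of `L` divided by `w` lies in `B`. -/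
theorem h26_mixed_mem (B : Subalgebra O F) (w : F) (p : ℕ)
    (hroot : ∀ x : F, x ^ p ∈ B → x ∈ B) {f g : F}
    (hf : f ^ p * w⁻¹ ∈ B) (hg : g ^ p * w⁻¹ ∈ B) (i : ℕ) (hi : i ≤ p) :
    f ^ i * g ^ (p - i) * w⁻¹ ∈ B := by
  apply hroot
  have : (f ^ i * g ^ (p - i) * w⁻¹) ^ p = (f ^ p * w⁻¹) ^ i * (g ^ p * w⁻¹) ^ (p - i) := by
    have hp : p = i + (p - i) := by omega
    calc (f ^ i * g ^ (p - i) * w⁻¹) ^ p
        = (f ^ p) ^ i * (g ^ p) ^ (p - i) * (w⁻¹) ^ p := by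
          rw [mul_pow, mul_pow, ← pow_mul, ← pow_mul, ← pow_mul, ← pow_mul, mul_comm i p,
            mul_comm (p - i) p]
      _ = (f ^ p) ^ i * (g ^ p) ^ (p - i) * ((w⁻¹) ^ i * (w⁻¹) ^ (p - i)) := by
          rw [← pow_add, ← hp]
      _ = (f ^ p * w⁻¹) ^ i * (g ^ p * w⁻¹) ^ (p - i) := by
          rw [mul_pow, mul_pow]; ring
  rw [this]
  exact B.mul_mem (B.pow_mem hf _) (B.pow_mem hg _)

/-- `L(B) = {f | f ^ p * w⁻¹ ∈ B}` as an `O`-submodule of `F`. -/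
def h26L (B : Subalgebra O F) (w : F) (p : ℕ) (hp0 : 0 < p)
    (hroot : ∀ x : F, x ^ p ∈ B → x ∈ B) : Submodule O F where
  carrier := {f | f ^ p * w⁻¹ ∈ B}
  zero_mem' := by
    show (0 : F) ^ p * w⁻¹ ∈ B
    rw [zero_pow hp0.ne', zero_mul]
    exact B.zero_mem
  add_mem' := by
    intro f g hf hg
    show (f + g) ^ p * w⁻¹ ∈ B
    rw [add_pow, Finset.sum_mul]
    refine B.sum_mem fun i hi => ?_
    have hi' : i ≤ p := Nat.lt_succ_iff.mp (Finset.mem_range.mp hi)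
    have h := h26_mixed_mem B w p hroot hf hg i hi'
    have e : f ^ i * g ^ (p - i) * (p.choose i : F) * w⁻¹
        = (p.choose i : F) * (f ^ i * g ^ (p - i) * w⁻¹) := by ring
    rw [e]
    exact B.mul_mem (natCast_mem B _) h
  smul_mem' := by
    intro c f hf
    show (c • f) ^ p * w⁻¹ ∈ B
    rw [Algebra.smul_def, mul_pow, mul_assoc]
    exact B.mul_mem (B.pow_mem (B.algebraMap_mem c) _) hf

theorem h26_mem_L {B : Subalgebra O F} {w : F} {p : ℕ} {hp0 : 0 < p}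
    {hroot : ∀ x : F, x ^ p ∈ B → x ∈ B} {f : F} :
    f ∈ h26L B w p hp0 hroot ↔ f ^ p * w⁻¹ ∈ B := Iff.rfl

/-- `L(B)` is stable under multiplication by `B`. -/
theorem h26_mul_mem_L {B : Subalgebra O F} {w : F} {p : ℕ} {hp0 : 0 < p}
    {hroot : ∀ x : F, x ^ p ∈ B → x ∈ B} {b f : F} (hb : b ∈ B)
    (hf : f ∈ h26L B w p hp0 hroot) : b * f ∈ h26L B w p hp0 hroot := by
  show (b * f) ^ p * w⁻¹ ∈ B
  rw [mul_pow, mul_assoc]
  exact B.mul_mem (B.pow_mem hb _) hf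

/-- monotonicity in `B`. -/
theorem h26_L_mono {B B' : Subalgebra O F} {w : F} {p : ℕ} {hp0 : 0 < p}
    {hroot : ∀ x : F, x ^ p ∈ B → x ∈ B} {hroot' : ∀ x : F, x ^ p ∈ B' → x ∈ B'}
    (h : B ≤ B') : h26L B w p hp0 hroot ≤ h26L B' w p hp0 hroot' :=
  fun _ hf => h hf

/-- if `Bm = B[1/j]` then `L(Bm) = ⋃ j⁻ᵏ L(B)`. -/
theorem h26_L_exists_pow {B Bm : Subalgebra O F} {w : F} {p : ℕ} {hp0 : 0 < p}
    {hroot : ∀ x : F, x ^ p ∈ B → x ∈ B} {hrootm : ∀ x : F, x ^ p ∈ Bm → x ∈ Bm}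
    (j : F) (hjB : j ∈ B) (hm : ∀ x ∈ Bm, ∃ k : ℕ, j ^ k * x ∈ B) {f : F}
    (hf : f ∈ h26L Bm w p hp0 hrootm) : ∃ k : ℕ, j ^ k * f ∈ h26L B w p hp0 hroot := by
  obtain ⟨k, hk⟩ := hm _ hf
  refine ⟨k, ?_⟩
  show (j ^ k * f) ^ p * w⁻¹ ∈ B
  have e : (j ^ k * f) ^ p * w⁻¹ = j ^ (k * (p - 1)) * (j ^ k * (f ^ p * w⁻¹)) := by
    have hp : k * p = k * (p - 1) + k := by
      obtain ⟨q, rfl⟩ : ∃ q, p = q + 1 := ⟨p - 1, by omega⟩
      simp [Nat.mul_succ]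
    rw [mul_pow, ← pow_mul, hp, pow_add]; ring
  rw [e]
  exact B.mul_mem (B.pow_mem hjB _) hk

end Fermat.Agent.Red
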