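import Mathlib
import Fermat.Agent.Red.GateL

/-!
# P-RED: `L(B)` is finitely generated over `O[j]` (helper26)

If `B` is contained in a finitely generated `O[j]`-submodule of `F`, `O` is noetherian and
`L(B)` contains a nonzero element, then `L(B)` is spanned over `O` by `jᵃ • t`, `t` in a finite
subset of `L(B)`.
-/

set_option autoImplicit false

namespace Fermat.Agent.Red

open Polynomial

variable {O F : Type*} [CommRing O] [Field F] [Algebra O F]

/-- a `j`-stable `O`-submodule is stable under `aeval j P`. -/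
theorem h26_aeval_mul_mem (G : Submodule O F) (j : F) (hG : ∀ y ∈ G, j * y ∈ G)
    (P : Polynomial O) {y : F} (hy : y ∈ G) : Polynomial.aeval j P * y ∈ G := by
  rw [Polynomial.aeval_eq_sum_range, Finset.sum_mul]
  have hpow : ∀ n : ℕ, j ^ n * y ∈ G := by
    intro n
    induction n with
    | zero => simpa using hy
    | succ n ih =>
      have := hG _ ih
      rwa [← mul_assoc, ← pow_succ'] at this
  refine G.sum_mem fun i _ => ?_
  rw [smul_mul_assoc]
  exact G.smul_mem _ (hpow i)

/-- the span of the `jᵃ • t` is `j`-stable. -/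
theorem h26_span_pow_stable (j : F) (T : Set F) :
    ∀ y ∈ Submodule.span O {y : F | ∃ a : ℕ, ∃ t ∈ T, y = j ^ a * t},
      j * y ∈ Submodule.span O {y : F | ∃ a : ℕ, ∃ t ∈ T, y = j ^ a * t} := by
  intro y hy
  induction hy using Submodule.span_induction with
  | mem x hx =>
    obtain ⟨a, t, ht, rfl⟩ := hx
    refine Submodule.subset_span ⟨a + 1, t, ht, ?_⟩
    rw [pow_succ']; ring
  | zero => simp
  | add x y _ _ hx hy => rw [mul_add]; exact Submodule.add_mem _ hx hy
  | smul c x _ hx => rw [mul_smul_comm]; exact Submodule.smul_mem _ _ hx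

theorem h26_L_gen [IsNoetherianRing O] (B : Subalgebra O F) (j : F) (hjB : j ∈ B)
    (w : F) (hw : w ≠ 0) (p : ℕ) (hp0 : 0 < p) (hroot : ∀ x : F, x ^ p ∈ B → x ∈ B)
    (S : Finset F)
    (hfin : ∀ x ∈ B, x ∈ Submodule.span O {y : F | ∃ a : ℕ, ∃ s ∈ S, y = j ^ a * s})
    (e₀ : F) (he₀ : e₀ ≠ 0) (he₀L : e₀ ∈ h26L B w p hp0 hroot) :
    ∃ T : Finset F, (∀ t ∈ T, t ∈ h26L B w p hp0 hroot) ∧
      ∀ f ∈ h26L B w p hp0 hroot,
        f ∈ Submodule.span O {y : F | ∃ a : ℕ, ∃ t ∈ T, y = j ^ a * t} := by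
  classical
  set L := h26L B w p hp0 hroot with hL
  -- `O[X]`-module structure on `F`
  letI : Module (Polynomial O) F :=
    Module.compHom F (Polynomial.aeval j : Polynomial O →ₐ[O] F).toRingHom
  have smul_def : ∀ (P : Polynomial O) (x : F), P • x = Polynomial.aeval j P * x :=
    fun _ _ => rfl
  set u₀ : F := e₀ ^ p * w⁻¹ with hu₀
  have hu₀B : u₀ ∈ B := he₀L
  have hu₀0 : u₀ ≠ 0 := mul_ne_zero (pow_ne_zero _ he₀) (inv_ne_zero hw)
  set c₀ : F := e₀ * u₀⁻¹ with hc₀
  have hc₀0 : c₀ ≠ 0 := mul_ne_zero he₀ (inv_ne_zero hu₀0)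
  -- `f ∈ L → f * c₀⁻¹ ∈ B`
  have hLB : ∀ f ∈ L, f * c₀⁻¹ ∈ B := by
    intro f hf
    apply hroot
    have hfB : f ^ p * w⁻¹ ∈ B := hf
    have hp1 : p = (p - 1) + 1 := by omega
    have e : (f * c₀⁻¹) ^ p = (f ^ p * w⁻¹) * u₀ ^ (p - 1) := by
      have h1 : c₀⁻¹ = u₀ * e₀⁻¹ := by
        rw [hc₀, mul_inv, inv_inv, mul_comm]
      have h2 : (e₀⁻¹) ^ p = w⁻¹ * u₀⁻¹ := by
        rw [hu₀, mul_inv, inv_inv, inv_pow]
        field_simp
      have h3 : u₀ ^ p = u₀ ^ (p - 1) * u₀ := by
        conv_lhs => rw [hp1, pow_succ]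
      rw [mul_pow, h1, mul_pow, h2, h3]
      field_simp
    rw [e]
    exact B.mul_mem hfB (B.pow_mem hu₀B _)
  -- the ambient f.g. module
  set N : Submodule (Polynomial O) F := Submodule.span (Polynomial O) (S : Set F) with hN
  have hNfg : N.FG := Submodule.fg_span (Finset.finite_toSet S)
  have hNnoeth : IsNoetherian (Polynomial O) N := isNoetherian_of_fg_of_noetherian N hNfg
  have hBN : ∀ x ∈ B, x ∈ N := by
    intro x hx
    have := hfin x hx
    clear hx
    induction this using Submodule.span_induction with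
    | mem y hy =>
      obtain ⟨a, s, hs, rfl⟩ := hy
      have : j ^ a * s = (Polynomial.X ^ a : Polynomial O) • s := by
        rw [smul_def]; simp
      rw [this]
      exact N.smul_mem _ (Submodule.subset_span hs)
    | zero => exact N.zero_mem
    | add x y _ _ hx hy => exact N.add_mem hx hy
    | smul c x _ hx =>
      have : c • x = (Polynomial.C c : Polynomial O) • x := by
        rw [smul_def, Polynomial.aeval_C, Algebra.smul_def]
      rw [this]
      exact N.smul_mem _ hx
  -- the `O[X]`-submodule `{x | x * c₀ ∈ L}`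
  let Ltil : Submodule (Polynomial O) F :=
    { carrier := {x | x * c₀ ∈ L}
      zero_mem' := by
        show (0 : F) * c₀ ∈ L
        rw [zero_mul]; exact L.zero_mem
      add_mem' := by
        intro x y hx hy
        show (x + y) * c₀ ∈ L
        rw [add_mul]; exact L.add_mem hx hy
      smul_mem' := by
        intro P x hx
        show (P • x) * c₀ ∈ L
        rw [smul_def, mul_assoc]
        have hPB : Polynomial.aeval j P ∈ B := by
          have h1 : Polynomial.aeval j P ∈ Algebra.adjoin O ({j} : Set F) :=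
            Polynomial.aeval_mem_adjoin_singleton O j
          exact (Algebra.adjoin_le (Set.singleton_subset_iff.mpr hjB)) h1
        exact h26_mul_mem_L hPB hx }
  have hLtilN : Ltil ≤ N := by
    intro x hx
    have h1 : x * c₀ ∈ L := hx
    have h2 := hLB _ h1
    rw [mul_assoc, mul_inv_cancel₀ hc₀0, mul_one] at h2
    exact hBN x h2
  have hLtilfg : Ltil.FG := (isNoetherian_submodule.mp hNnoeth) Ltil hLtilN
  obtain ⟨T', hT'⟩ := hLtilfg
  refine ⟨T'.image (fun x => x * c₀), ?_, ?_⟩
  · intro t ht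
    obtain ⟨t', ht', rfl⟩ := Finset.mem_image.mp ht
    have : t' ∈ Ltil := by rw [← hT']; exact Submodule.subset_span ht'
    exact this
  · intro f hf
    set G : Submodule O F := Submodule.span O
      {y : F | ∃ a : ℕ, ∃ t ∈ T'.image (fun x => x * c₀), y = j ^ a * t} with hG
    have hGst : ∀ y ∈ G, j * y ∈ G := h26_span_pow_stable j _
    have hx : f * c₀⁻¹ ∈ Ltil := by
      show f * c₀⁻¹ * c₀ ∈ L
      rw [mul_assoc, inv_mul_cancel₀ hc₀0, mul_one]; exact hf
    rw [← hT'] at hx
    have key : ∀ x ∈ Submodule.span (Polynomial O) (T' : Set F), x * c₀ ∈ G := by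
      intro x hx
      induction hx using Submodule.span_induction with
      | mem y hy =>
        refine Submodule.subset_span ⟨0, y * c₀, Finset.mem_image.mpr ⟨y, hy, rfl⟩, by simp⟩
      | zero => rw [zero_mul]; exact G.zero_mem
      | add x y _ _ hx hy => rw [add_mul]; exact G.add_mem hx hy
      | smul P x _ hx =>
        rw [smul_def, mul_assoc]
        exact h26_aeval_mul_mem G j hGst P hx
    have := key _ hx
    rwa [mul_assoc, inv_mul_cancel₀ hc₀0, mul_one] at this

end Fermat.Agent.Red
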