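import Mathlib

/-!
# P-RED, abstract core of the torsion-injectivity gate (helper26)

Pure module theory (Mathlib only).

* `h26_exists_mem_inf_of_approx` : the "Mittag-Leffler by hand" step.  If the Čech `H¹`
  (`M ⧸ (M₀ ⊔ M∞)`) has bounded `π`-power torsion and there are approximate global sections
  modulo arbitrarily high powers of `π`, then there is an honest nonzero global section.
* `h26_bounded_torsion_of_fg` : bounded torsion from finite generation of `H¹` over a
  noetherian ring.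
-/

set_option autoImplicit false

namespace Fermat.Agent.Red

open Submodule

section MittagLeffler

variable {O : Type*} [CommRing O] {M : Type*} [AddCommGroup M] [Module O M]

/-- **Mittag-Leffler by hand.**  `M₀, M∞ ⊆ M` (sections over the two charts inside the sections
over the overlap).  If the `π`-power torsion of `M ⧸ (M₀ + M∞)` is killed by `π ^ c` and there
are `s₀ ∈ M₀`, `s∞ ∈ M∞` with `s₀ - s∞ ∈ π ^ (c + 1) • M` and `s₀ ∉ π • M₀`, then
`M₀ ⊓ M∞` contains an element `t` with `t - s₀ ∈ π • M₀`; in particular `t ≠ 0`. -/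
theorem h26_exists_mem_inf_of_approx (π : O) (M₀ Minf : Submodule O M) (c : ℕ)
    (hbdd : ∀ f : M, (∃ n : ℕ, π ^ n • f ∈ M₀ ⊔ Minf) → π ^ c • f ∈ M₀ ⊔ Minf)
    (s₀ sinf : M) (hs₀ : s₀ ∈ M₀) (hsinf : sinf ∈ Minf)
    (happrox : ∃ f : M, s₀ - sinf = π ^ (c + 1) • f)
    (hprim : ∀ b ∈ M₀, s₀ ≠ π • b) :
    ∃ t : M, t ∈ M₀ ∧ t ∈ Minf ∧ t ≠ 0 ∧ ∃ b ∈ M₀, s₀ - t = π • b := by
  obtain ⟨f, hf⟩ := happrox
  have h1 : π ^ c • f ∈ M₀ ⊔ Minf := by
    apply hbdd
    refine ⟨c + 1, ?_⟩
    rw [← hf]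
    exact Submodule.sub_mem _ (Submodule.mem_sup_left hs₀) (Submodule.mem_sup_right hsinf)
  obtain ⟨β₀, hβ₀, βi, hβi, hsum⟩ := Submodule.mem_sup.mp h1
  refine ⟨s₀ - π • β₀, ?_, ?_, ?_, β₀, hβ₀, by abel⟩
  · exact Submodule.sub_mem _ hs₀ (Submodule.smul_mem _ _ hβ₀)
  · have : s₀ - π • β₀ = sinf + π • βi := by
      have h2 : s₀ - sinf = π • (β₀ + βi) := by
        rw [hf, hsum, pow_succ', mul_smul]
      have h3 : s₀ = sinf + π • (β₀ + βi) := by
        rw [← h2]; abel
      rw [smul_add] at h3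
      calc s₀ - π • β₀ = (sinf + (π • β₀ + π • βi)) - π • β₀ := by rw [← h3]
        _ = sinf + π • βi := by abel
    rw [this]
    exact Submodule.add_mem _ hsinf (Submodule.smul_mem _ _ hβi)
  · intro h0
    exact hprim β₀ hβ₀ (sub_eq_zero.mp h0)

end MittagLeffler

section BoundedTorsion

variable {O : Type*} [CommRing O] {H : Type*} [AddCommGroup H] [Module O H]

/-- In a noetherian module the `π`-power torsion is killed by a fixed power of `π`. -/
theorem h26_bounded_torsion_of_noetherian [IsNoetherian O H] (π : O) :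
    ∃ c : ℕ, ∀ x : H, (∃ n : ℕ, π ^ n • x = 0) → π ^ c • x = 0 := by
  -- the ascending chain of kernels of `π ^ n` stabilises
  let K : ℕ →o Submodule O H :=
    { toFun := fun n => LinearMap.ker (LinearMap.lsmul O H (π ^ n))
      monotone' := by
        intro a b hab x hx
        simp only [LinearMap.mem_ker, LinearMap.lsmul_apply] at hx ⊢
        obtain ⟨d, rfl⟩ := Nat.exists_eq_add_of_le hab
        rw [pow_add, mul_comm, mul_smul, hx, smul_zero] }
  obtain ⟨c, hc⟩ := (monotone_stabilizes_iff_noetherian.mpr ‹IsNoetherian O H›) K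
  refine ⟨c, ?_⟩
  rintro x ⟨n, hn⟩
  have hx : x ∈ K (max c n) := by
    show x ∈ LinearMap.ker (LinearMap.lsmul O H (π ^ (max c n)))
    simp only [LinearMap.mem_ker, LinearMap.lsmul_apply]
    obtain ⟨d, hd⟩ := Nat.exists_eq_add_of_le (le_max_right c n)
    rw [hd, pow_add, mul_comm, mul_smul, hn, smul_zero]
  have : K (max c n) = K c := (hc _ (le_max_left c n)).symm
  rw [this] at hx
  have hx' : x ∈ LinearMap.ker (LinearMap.lsmul O H (π ^ c)) := hx
  simpa only [LinearMap.mem_ker, LinearMap.lsmul_apply] using hx'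

/-- Bounded torsion in the form used by `h26_exists_mem_inf_of_approx`: if the quotient
`M ⧸ P` is a noetherian `O`-module then there is `c` such that `π ^ n • f ∈ P` for some `n`
implies `π ^ c • f ∈ P`. -/
theorem h26_bounded_torsion_quotient {M : Type*} [AddCommGroup M] [Module O M]
    (P : Submodule O M) [IsNoetherian O (M ⧸ P)] (π : O) :
    ∃ c : ℕ, ∀ f : M, (∃ n : ℕ, π ^ n • f ∈ P) → π ^ c • f ∈ P := by
  obtain ⟨c, hc⟩ := h26_bounded_torsion_of_noetherian (O := O) (H := M ⧸ P) π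
  refine ⟨c, fun f ⟨n, hn⟩ => ?_⟩
  have := hc (Submodule.Quotient.mk f) ⟨n, by
    rw [← Submodule.Quotient.mk_smul]; exact (Submodule.Quotient.mk_eq_zero P).mpr hn⟩
  rw [← Submodule.Quotient.mk_smul] at this
  exact (Submodule.Quotient.mk_eq_zero P).mp this

end BoundedTorsion

end Fermat.Agent.Red
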