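import Mathlib
import Fermat.Agent.Red.GateCore

/-!
# P-RED: the Čech `H¹` of a twisted chart pair has bounded torsion (helper26)

Pure module theory inside a field `F` (Mathlib only).

`L₀, L∞ ≤ Lm` are `O`-submodules of `F`, `L₀` is stable under `j`, `L∞` under `j⁻¹`,
`Lm = ⋃ j⁻ᵏ L₀ = ⋃ jᵏ L∞`, and `L₀` is spanned over `O` by `jᵃ • t` for `t` in a finite set.
Then `Lm ⧸ (L₀ + L∞)` is a finitely generated `O`-module; if `O` is noetherian its
`π`-power torsion is killed by a fixed power of `π`.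
-/

set_option autoImplicit false

namespace Fermat.Agent.Red

open Submodule

variable {O F : Type*} [CommRing O] [Field F] [Algebra O F]

/-- stability under `j` propagates to powers. -/
theorem h26_pow_mul_mem (L : Submodule O F) (j : F) (hj : ∀ f ∈ L, j * f ∈ L) (a : ℕ)
    {f : F} (hf : f ∈ L) : j ^ a * f ∈ L := by
  induction a with
  | zero => simpa using hf
  | succ n ih =>
    have := hj _ ih
    rwa [← mul_assoc, ← pow_succ'] at this

/-- **`H¹` is finitely generated**: `Lm ≤ L₀ ⊔ L∞ ⊔ G` with `G` a finitely generated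
`O`-submodule. -/
theorem h26_H1_fg (L₀ Linf Lm : Submodule O F) (j : F) (hj : j ≠ 0)
    (hj₀ : ∀ f ∈ L₀, j * f ∈ L₀) (hjinf : ∀ f ∈ Linf, j⁻¹ * f ∈ Linf)
    (h0m : L₀ ≤ Lm)
    (hm0 : ∀ f ∈ Lm, ∃ k : ℕ, j ^ k * f ∈ L₀)
    (hminf : ∀ f ∈ Lm, ∃ k : ℕ, j⁻¹ ^ k * f ∈ Linf)
    (T : Finset F) (hT : ∀ t ∈ T, t ∈ L₀)
    (hgen : ∀ f ∈ L₀, f ∈ Submodule.span O {y : F | ∃ a : ℕ, ∃ t ∈ T, y = j ^ a * t}) :
    ∃ G : Submodule O F, G.FG ∧ Lm ≤ L₀ ⊔ Linf ⊔ G := by
  classical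
  -- a uniform `k` with `j⁻ᵏ t ∈ L∞` for all `t ∈ T`
  have hk : ∃ k : ℕ, ∀ t ∈ T, ∀ m : ℕ, k ≤ m → j⁻¹ ^ m * t ∈ Linf := by
    have hex : ∀ t ∈ T, ∃ k : ℕ, j⁻¹ ^ k * t ∈ Linf := fun t ht => hminf t (h0m (hT t ht))
    choose! kf hkf using hex
    refine ⟨T.sup kf, fun t ht m hm => ?_⟩
    have hle : kf t ≤ m := le_trans (Finset.le_sup ht) hm
    obtain ⟨d, rfl⟩ := Nat.exists_eq_add_of_le hle
    have := h26_pow_mul_mem Linf j⁻¹ hjinf d (hkf t ht)
    rwa [← mul_assoc, ← pow_add, add_comm] at this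
  obtain ⟨k, hk⟩ := hk
  -- the finite set of "middle" generators
  let Gset : Finset F := (T ×ˢ Finset.range k).image (fun x => j⁻¹ ^ x.2 * x.1)
  refine ⟨Submodule.span O (Gset : Set F), Submodule.fg_span (Finset.finite_toSet _), ?_⟩
  set P : Submodule O F := L₀ ⊔ Linf ⊔ Submodule.span O (Gset : Set F) with hP
  -- key: for every `t ∈ T` and all `a K`, `j⁻ᴷ * (jᵃ t) ∈ P`
  have key : ∀ t ∈ T, ∀ a K : ℕ, j⁻¹ ^ K * (j ^ a * t) ∈ P := by
    intro t ht a K
    rcases le_or_gt K a with h | h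
    · -- nonnegative power of j
      obtain ⟨d, rfl⟩ := Nat.exists_eq_add_of_le h
      have e : j⁻¹ ^ K * (j ^ (K + d) * t) = j ^ d * t := by
        rw [pow_add, inv_pow]
        field_simp
      rw [e]
      exact Submodule.mem_sup_left (Submodule.mem_sup_left
        (h26_pow_mul_mem L₀ j hj₀ d (hT t ht)))
    · obtain ⟨d, rfl⟩ := Nat.exists_eq_add_of_le h.le
      have e : j⁻¹ ^ (a + d) * (j ^ a * t) = j⁻¹ ^ d * t := by
        rw [pow_add, inv_pow, inv_pow]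
        field_simp
      rw [e]
      rcases le_or_gt k d with h2 | h2
      · exact Submodule.mem_sup_left (Submodule.mem_sup_right (hk t ht d h2))
      · refine Submodule.mem_sup_right (Submodule.subset_span ?_)
        simp only [Gset, Finset.coe_image, Set.mem_image, Finset.mem_coe, Finset.mem_product,
          Finset.mem_range, Prod.exists]
        exact ⟨t, d, ⟨ht, h2⟩, rfl⟩
  intro f hf
  obtain ⟨K, hK⟩ := hm0 f hf
  have hspan := hgen _ hK
  -- multiplication by `j⁻ᴷ` as an `O`-linear map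
  let μ : F →ₗ[O] F := LinearMap.mulLeft O (j⁻¹ ^ K)
  have hμ : Submodule.span O {y : F | ∃ a : ℕ, ∃ t ∈ T, y = j ^ a * t} ≤ P.comap μ := by
    rw [Submodule.span_le]
    rintro y ⟨a, t, ht, rfl⟩
    exact key t ht a K
  have := hμ hspan
  have e : μ (j ^ K * f) = f := by
    simp only [μ, LinearMap.mulLeft_apply]
    rw [inv_pow]
    field_simp
  rw [Submodule.mem_comap, e] at this
  exact this

/-- **Bounded torsion of the Čech `H¹`.** -/
theorem h26_H1_bounded_torsion [IsNoetherianRing O] (π : O)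
    (L₀ Linf Lm : Submodule O F) (j : F) (hj : j ≠ 0)
    (hj₀ : ∀ f ∈ L₀, j * f ∈ L₀) (hjinf : ∀ f ∈ Linf, j⁻¹ * f ∈ Linf)
    (h0m : L₀ ≤ Lm)
    (hm0 : ∀ f ∈ Lm, ∃ k : ℕ, j ^ k * f ∈ L₀)
    (hminf : ∀ f ∈ Lm, ∃ k : ℕ, j⁻¹ ^ k * f ∈ Linf)
    (T : Finset F) (hT : ∀ t ∈ T, t ∈ L₀)
    (hgen : ∀ f ∈ L₀, f ∈ Submodule.span O {y : F | ∃ a : ℕ, ∃ t ∈ T, y = j ^ a * t}) :
    ∃ c : ℕ, ∀ f ∈ Lm, (∃ n : ℕ, π ^ n • f ∈ L₀ ⊔ Linf) → π ^ c • f ∈ L₀ ⊔ Linf := by
  obtain ⟨G, hGfg, hG⟩ := h26_H1_fg L₀ Linf Lm j hj hj₀ hjinf h0m hm0 hminf T hT hgen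
  have hGn : IsNoetherian O G := isNoetherian_of_fg_of_noetherian G hGfg
  set P : Submodule O F := L₀ ⊔ Linf with hP
  -- ascending chain `K n = {g ∈ G | πⁿ g ∈ P}` of submodules of `G`
  let K : ℕ →o Submodule O G :=
    { toFun := fun n => (P.comap (LinearMap.lsmul O F (π ^ n))).comap G.subtype
      monotone' := by
        intro a b hab x hx
        simp only [Submodule.mem_comap, Submodule.subtype_apply, LinearMap.lsmul_apply] at hx ⊢
        obtain ⟨d, rfl⟩ := Nat.exists_eq_add_of_le hab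
        rw [pow_add, mul_comm, mul_smul]
        exact P.smul_mem _ hx }
  obtain ⟨c, hc⟩ := (monotone_stabilizes_iff_noetherian.mpr hGn) K
  refine ⟨c, ?_⟩
  rintro f hf ⟨n, hn⟩
  have hfP : f ∈ P ⊔ G := hG hf
  obtain ⟨q, hq, g, hg, rfl⟩ := Submodule.mem_sup.mp hfP
  have hgn : π ^ n • g ∈ P := by
    have h1 : π ^ n • g = π ^ n • (q + g) - π ^ n • q := by rw [smul_add]; abel
    rw [h1]
    exact P.sub_mem hn (P.smul_mem _ hq)
  have hmem : (⟨g, hg⟩ : G) ∈ K (max c n) := by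
    show (⟨g, hg⟩ : G) ∈ (P.comap (LinearMap.lsmul O F (π ^ (max c n)))).comap G.subtype
    simp only [Submodule.mem_comap, Submodule.subtype_apply, LinearMap.lsmul_apply]
    obtain ⟨d, hd⟩ := Nat.exists_eq_add_of_le (le_max_right c n)
    rw [hd, pow_add, mul_comm, mul_smul]
    exact P.smul_mem _ hgn
  rw [← hc _ (le_max_left c n)] at hmem
  have hgc : π ^ c • g ∈ P := by
    have : (⟨g, hg⟩ : G) ∈ (P.comap (LinearMap.lsmul O F (π ^ c))).comap G.subtype := hmem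
    simpa only [Submodule.mem_comap, Submodule.subtype_apply, LinearMap.lsmul_apply] using this
  rw [smul_add]
  exact P.add_mem (P.smul_mem _ hq) hgc

end Fermat.Agent.Red
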