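import Mathlib

/-!
# P-RED: elementary lemmas on `p`-th roots modulo powers of `π` (helper26)

`R` is a commutative ring, `π : R`, and `p : ℕ` is a unit of `R`.

* `h26_one_add_pow_expand` : `(1 + a) ^ p = 1 + p * a + a ^ 2 * k`.
* `h26_root_unique` : if `y ≡ 1 mod π` and `y ^ p ≡ 1 mod π ^ n` then `y ≡ 1 mod π ^ n`.
* `h26_exists_inv_root` : if `u ≡ 1 mod π` then for every `n` there is `c ≡ 1 mod π` with
  `c ^ p * u ≡ 1 mod π ^ n`.
-/

set_option autoImplicit false

namespace Fermat.Agent.Red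

variable {R : Type*} [CommRing R]

theorem h26_one_add_pow_expand (a : R) (p : ℕ) :
    ∃ k : R, (1 + a) ^ p = 1 + (p : R) * a + a ^ 2 * k := by
  induction p with
  | zero => exact ⟨0, by simp⟩
  | succ n ih =>
    obtain ⟨k, hk⟩ := ih
    refine ⟨(n : R) + k + k * a, ?_⟩
    rw [pow_succ, hk]
    push_cast
    ring

/-- geometric sum of something `≡ 1 mod π` is `≡ p mod π`. -/
theorem h26_geom_sum_one_add (π b : R) (p : ℕ) :
    ∃ z : R, (Finset.range p).sum (fun i => (1 + π * b) ^ i) = (p : R) + π * z := by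
  induction p with
  | zero => exact ⟨0, by simp⟩
  | succ n ih =>
    obtain ⟨z, hz⟩ := ih
    obtain ⟨k, hk⟩ := h26_one_add_pow_expand (π * b) n
    refine ⟨z + (n : R) * b + π * b ^ 2 * k, ?_⟩
    rw [Finset.sum_range_succ, hz, hk]
    push_cast
    ring

/-- a unit plus a multiple of `π` is invertible modulo `π ^ n`. -/
theorem h26_unit_add_mul_inv_mod (π z : R) {q : R} (hq : IsUnit q) (n : ℕ) :
    ∃ c d : R, (q + π * z) * c = 1 + π ^ n * d := by
  obtain ⟨qi, hqi⟩ := hq.exists_right_inv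
  -- (1 + x) * Σ_{k<n} (-x)^k = 1 - (-x)^n with x = π z qi
  set x : R := π * (z * qi) with hx
  have hgeo : (1 + x) * (Finset.range n).sum (fun k => (-x) ^ k) = 1 - (-x) ^ n := by
    have := mul_neg_geom_sum (-x) n
    -- (1 - (-x)) * Σ (-x)^i = 1 - (-x)^n
    simpa [sub_neg_eq_add] using this
  refine ⟨qi * (Finset.range n).sum (fun k => (-x) ^ k), -((-(z * qi)) ^ n), ?_⟩
  have h1 : (q + π * z) * qi = 1 + x := by
    rw [add_mul, hqi, hx]; ring
  calc (q + π * z) * (qi * (Finset.range n).sum (fun k => (-x) ^ k))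
      = ((q + π * z) * qi) * (Finset.range n).sum (fun k => (-x) ^ k) := by ring
    _ = 1 - (-x) ^ n := by rw [h1, hgeo]
    _ = 1 + π ^ n * -((-(z * qi)) ^ n) := by
        rw [hx]
        have : (-(π * (z * qi))) ^ n = π ^ n * (-(z * qi)) ^ n := by
          rw [← mul_pow]; congr 1; ring
        rw [this]; ring

/-- **Uniqueness of roots.**  If `y = 1 + π b` and `π ^ n ∣ y ^ p - 1` with `p` a unit, then
`π ^ n ∣ y - 1`. -/
theorem h26_root_unique (π : R) (p : ℕ) (hp : IsUnit (p : R)) (n : ℕ) (y b : R)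
    (hy : y = 1 + π * b) (hpow : π ^ n ∣ y ^ p - 1) : π ^ n ∣ y - 1 := by
  obtain ⟨z, hz⟩ := h26_geom_sum_one_add π b p
  obtain ⟨c, d, hcd⟩ := h26_unit_add_mul_inv_mod π z hp n
  have hfac : y ^ p - 1 = (y - 1) * ((p : R) + π * z) := by
    rw [← hz, ← hy]
    have := (Commute.one_right y).mul_geom_sum₂ p
    simp only [one_pow, mul_one] at this
    -- (y - 1) * Σ y^i = y^p - 1
    have h2 := mul_geom_sum y p
    rw [h2]
  obtain ⟨e, he⟩ := hpow
  refine ⟨e * c - d * (y - 1), ?_⟩
  have : (y - 1) * (1 + π ^ n * d) = π ^ n * e * c := by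
    rw [← hcd, ← mul_assoc, ← hfac, he]
  calc y - 1 = (y - 1) * (1 + π ^ n * d) - π ^ n * d * (y - 1) := by ring
    _ = π ^ n * e * c - π ^ n * d * (y - 1) := by rw [this]
    _ = π ^ n * (e * c - d * (y - 1)) := by ring

/-- **Existence of inverse roots.**  If `u = 1 + π b` and `p` is a unit, then for every `n`
there is `c = 1 + π c'` with `π ^ n ∣ c ^ p * u - 1`. -/
theorem h26_exists_inv_root (π : R) (p : ℕ) (hp : IsUnit (p : R)) (u b : R)
    (hu : u = 1 + π * b) (n : ℕ) :
    ∃ c c' : R, c = 1 + π * c' ∧ π ^ n ∣ c ^ p * u - 1 := by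
  obtain ⟨pi', hpi'⟩ := hp.exists_right_inv
  induction n with
  | zero => exact ⟨1, 0, by simp, by simp⟩
  | succ n ih =>
    obtain ⟨c, c', hc, y, hy⟩ := ih
    rcases Nat.eq_zero_or_pos n with rfl | hn
    · -- n = 0 : take c = 1
      refine ⟨1, 0, by simp, ?_⟩
      rw [hu]; simp
    · -- Newton step
      set a : R := -(π ^ n * y * pi') with ha
      obtain ⟨k, hk⟩ := h26_one_add_pow_expand a p
      refine ⟨c * (1 + a), c' + (1 + π * c') * (-(π ^ (n - 1) * y * pi')), ?_, ?_⟩
      · have hpn : π ^ n = π * π ^ (n - 1) := by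
          rw [← pow_succ']; congr 1; omega
        rw [hc, ha, hpn]; ring
      · have h1 : c ^ p * u = 1 + π ^ n * y := by
          rw [← hy]; ring
        have h2 : (c * (1 + a)) ^ p * u - 1
            = (1 + π ^ n * y) * (1 + (p : R) * a + a ^ 2 * k) - 1 := by
          rw [mul_pow, hk, ← h1]; ring
        have hpa : (p : R) * a = -(π ^ n * y) := by
          rw [ha]
          calc (p : R) * -(π ^ n * y * pi') = -(π ^ n * y * ((p : R) * pi')) := by ring
            _ = -(π ^ n * y) := by rw [hpi', mul_one]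
        have h2n : π ^ (n + 1) ∣ π ^ (2 * n) := pow_dvd_pow π (by omega)
        have ha2 : a ^ 2 = π ^ (2 * n) * (y * pi') ^ 2 := by
          rw [ha]; ring
        rw [h2, hpa]
        have : (1 + π ^ n * y) * (1 + -(π ^ n * y) + a ^ 2 * k) - 1
            = π ^ (2 * n) * (-(y ^ 2) + (1 + π ^ n * y) * ((y * pi') ^ 2 * k)) := by
          rw [ha2]; ring
        rw [this]
        exact Dvd.dvd.mul_right h2n _

end Fermat.Agent.Red
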