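import Mathlib
import Fermat.Agent.Red.GateAbs

/-!
# P-RED: the abstract gate with an abstract `H¹`-torsion bound (helper26)

Same statement as `h26_gate_abs`, but the bound on the `π`-power torsion of
`Lm ⧸ (L₀ + L∞)` is a hypothesis.  No noetherianity: `O` may be the rank-one valuation ring
`A ⊆ ℚ̄` and `π` any nonzero element of `𝔪_A`.
-/

set_option autoImplicit false

namespace Fermat.Agent.Red

variable {O F : Type*} [CommRing O] [Field F] [Algebra O F]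

/-- **The abstract gate, core form**: the bound on the `π`-power torsion of the Čech `H¹` is a
hypothesis (no noetherianity, no finiteness).  To be used over a rank-one valuation ring. -/
theorem h26_gate_core
    (π : O) (p : ℕ) (hp0 : 0 < p) (hp : IsUnit (p : O))
    (V : Subring F) (hVπ : algebraMap O F π ∈ V)
    (hVinv : ∀ x ∈ V, (1 + algebraMap O F π * x)⁻¹ ∈ V)
    (hVnt : ∀ x ∈ V, algebraMap O F π * x ≠ 1)
    (B₀ Binf Bm : Subalgebra O F)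
    (h0m : B₀ ≤ Bm) (hinfm : Binf ≤ Bm)
    (hB₀V : ∀ x ∈ B₀, x ∈ V) (hBinfV : ∀ x ∈ Binf, x ∈ V)
    (hroot₀ : ∀ x : F, x ^ p ∈ B₀ → x ∈ B₀)
    (hrootinf : ∀ x : F, x ^ p ∈ Binf → x ∈ Binf)
    (hrootm : ∀ x : F, x ^ p ∈ Bm → x ∈ Bm)
    (hqep₀ : ∀ x ∈ V, algebraMap O F π * x ∈ B₀ → x ∈ B₀)
    (hqepinf : ∀ x ∈ V, algebraMap O F π * x ∈ Binf → x ∈ Binf)
    (hqepm : ∀ x ∈ V, algebraMap O F π * x ∈ Bm → x ∈ Bm)
    (w : F) (hwU : w ∈ h26U π V)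
    (hbdd : ∃ c : ℕ, ∀ f ∈ h26L Bm w p hp0 hrootm,
      (∃ n : ℕ, π ^ n • f ∈ h26L B₀ w p hp0 hroot₀ ⊔ h26L Binf w p hp0 hrootinf) →
        π ^ c • f ∈ h26L B₀ w p hp0 hroot₀ ⊔ h26L Binf w p hp0 hrootinf)
    (e₀ : F) (he₀ : e₀ ^ p * w⁻¹ ∈ B₀) (he₀U : e₀ ∈ h26U π V)
    (einf : F) (heinf : einf ^ p * w⁻¹ ∈ Binf) (heinfU : einf ∈ h26U π V) :
    ∃ t : F, t ≠ 0 ∧ t ^ p * w⁻¹ ∈ B₀ ∧ t ^ p * w⁻¹ ∈ Binf := by
  set ϖ : F := algebraMap O F π with hϖ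
  have hw : w ≠ 0 := h26U_ne_zero hVnt hwU
  set L₀ := h26L B₀ w p hp0 hroot₀ with hL₀
  set Linf := h26L Binf w p hp0 hrootinf with hLinf
  set Lm := h26L Bm w p hp0 hrootm with hLm
  have hL0m : L₀ ≤ Lm := h26_L_mono h0m
  have hLinfm : Linf ≤ Lm := h26_L_mono hinfm
  obtain ⟨c, hc⟩ := hbdd
  -- approximations modulo `π ^ (c + 1)`
  obtain ⟨a, haL, haU, α, hα, haeq⟩ := h26_approx π p hp0 hp V hVπ hVinv hVnt B₀ hB₀V hroot₀
    hqep₀ w hwU e₀ he₀ he₀U (c + 1)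
  obtain ⟨b, hbL, hbU, β, hβ, hbeq⟩ := h26_approx π p hp0 hp V hVπ hVinv hVnt Binf hBinfV
    hrootinf hqepinf w hwU einf heinf heinfU (c + 1)
  have ha0 : a ≠ 0 := h26U_ne_zero hVnt haU
  have hb0 : b ≠ 0 := h26U_ne_zero hVnt hbU
  -- the overlap: `a - b ∈ π ^ (c+1) Lm`
  have hover : ∃ f ∈ Lm, a - b = π ^ (c + 1) • f := by
    set A : F := a ^ p * w⁻¹ with hA
    set Bv : F := b ^ p * w⁻¹ with hBv
    have hAm : A ∈ Bm := h0m haL
    have hBvm : Bv ∈ Bm := hinfm hbL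
    have hBv0 : Bv ≠ 0 := mul_ne_zero (pow_ne_zero _ hb0) (inv_ne_zero hw)
    set y : F := a * Bv * b⁻¹ with hy
    have hp1 : p = (p - 1) + 1 := by omega
    have hyp : y ^ p = A * Bv ^ (p - 1) := by
      have h1 : Bv ^ p = Bv ^ (p - 1) * Bv := by
        conv_lhs => rw [hp1, pow_succ]
      rw [hy, mul_pow, mul_pow, h1, inv_pow, hA]
      have hbp : b ^ p = Bv * w := by
        rw [hBv]; field_simp
      rw [hbp]
      field_simp
    have hyBm : y ∈ Bm := by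
      apply hrootm
      rw [hyp]
      exact Bm.mul_mem hAm (Bm.pow_mem hBvm _)
    have hBvU : Bv ∈ h26U π V :=
      h26U_mul hVπ (h26U_pow hVπ hbU p) (h26U_inv hVinv hVnt hwU)
    have hyU : y ∈ h26U π V :=
      h26U_mul hVπ (h26U_mul hVπ haU hBvU) (h26U_inv hVinv hVnt hbU)
    obtain ⟨v, hvV, hv⟩ := h26U_sub_one hyU
    have hvBm : v ∈ Bm := by
      apply hqepm v hvV
      rw [← hv]
      exact Bm.sub_mem hyBm Bm.one_mem
    have hpBm : IsUnit ((p : ℕ) : Bm) := by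
      have := hp.map (algebraMap O Bm)
      simpa using this
    -- `π^n ∣ y^p - 1` in `Bm`
    have hkBm : ∃ κ ∈ Bm, y ^ p - 1 = ϖ ^ (c + 1) * κ := by
      obtain ⟨k', hk'⟩ := h26_one_add_pow_factor (R := Bm)
        ((algebraMap O Bm π) ^ (c + 1) * ⟨β, hinfm hβ⟩) (p - 1)
      have hk'' := congrArg (Subtype.val) hk'
      simp only [Subalgebra.coe_add, Subalgebra.coe_mul, Subalgebra.coe_pow, Subalgebra.coe_one,
        Subalgebra.coe_algebraMap] at hk''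
      refine ⟨α + β * (k' : F) + ϖ ^ (c + 1) * α * (β * (k' : F)), ?_, ?_⟩
      · exact Bm.add_mem (Bm.add_mem (h0m hα) (Bm.mul_mem (hinfm hβ) k'.2))
          (Bm.mul_mem (Bm.mul_mem (Bm.pow_mem (Bm.algebraMap_mem π) _) (h0m hα))
            (Bm.mul_mem (hinfm hβ) k'.2))
      · rw [hyp, haeq, hbeq, hk'']
        ring
    obtain ⟨κ, hκ, hκeq⟩ := hkBm
    have hdiv : (algebraMap O Bm π) ^ (c + 1) ∣ (⟨y, hyBm⟩ : Bm) ^ p - 1 := by
      refine ⟨⟨κ, hκ⟩, ?_⟩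
      apply Subtype.ext
      simp only [Subalgebra.coe_sub, Subalgebra.coe_mul, Subalgebra.coe_pow, Subalgebra.coe_one,
        Subalgebra.coe_algebraMap]
      exact hκeq
    have hyeq : (⟨y, hyBm⟩ : Bm) = 1 + algebraMap O Bm π * ⟨v, hvBm⟩ := by
      apply Subtype.ext
      simp only [Subalgebra.coe_add, Subalgebra.coe_mul, Subalgebra.coe_one,
        Subalgebra.coe_algebraMap]
      rw [← hϖ, ← hv]; ring
    obtain ⟨γ, hγ⟩ := h26_root_unique (R := Bm) (algebraMap O Bm π) p hpBm (c + 1)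
      ⟨y, hyBm⟩ ⟨v, hvBm⟩ hyeq hdiv
    have hγ' : y - 1 = ϖ ^ (c + 1) * (γ : F) := by
      have := congrArg (Subtype.val) hγ
      simpa only [Subalgebra.coe_sub, Subalgebra.coe_mul, Subalgebra.coe_pow,
        Subalgebra.coe_one, Subalgebra.coe_algebraMap] using this
    refine ⟨(γ : F) * b - β * a, ?_, ?_⟩
    · exact Lm.sub_mem (h26_mul_mem_L γ.2 (hLinfm hbL)) (h26_mul_mem_L (hinfm hβ) (hL0m haL))
    · rw [Algebra.smul_def, map_pow, ← hϖ]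
      have h1 : a * Bv - b = b * (y - 1) := by
        rw [hy]; field_simp
      have h2 : a * Bv - a = a * (ϖ ^ (c + 1) * β) := by
        rw [hbeq]; ring
      calc a - b = (a * Bv - b) - (a * Bv - a) := by ring
        _ = b * (ϖ ^ (c + 1) * (γ : F)) - a * (ϖ ^ (c + 1) * β) := by rw [h1, h2, hγ']
        _ = ϖ ^ (c + 1) * ((γ : F) * b - β * a) := by ring
  -- primitivity of `a`
  have hprim : ∀ b' ∈ L₀, a ≠ π • b' := by
    intro b' hb' hab
    have hpp : ϖ ^ p = ϖ * ϖ ^ (p - 1) := by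
      rw [← pow_succ']; congr 1; omega
    have h1 : a ^ p * w⁻¹ = ϖ * (ϖ ^ (p - 1) * (b' ^ p * w⁻¹)) := by
      rw [hab, Algebra.smul_def, ← hϖ, mul_pow, hpp]
      ring
    have hAU : a ^ p * w⁻¹ ∈ h26U π V :=
      h26U_mul hVπ (h26U_pow hVπ haU p) (h26U_inv hVinv hVnt hwU)
    obtain ⟨v, hvV, hv⟩ := h26U_sub_one hAU
    have hmem : ϖ ^ (p - 1) * (b' ^ p * w⁻¹) ∈ V :=
      V.mul_mem (V.pow_mem hVπ _) (hB₀V _ hb')
    apply hVnt (ϖ ^ (p - 1) * (b' ^ p * w⁻¹) - v) (V.sub_mem hmem hvV)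
    rw [mul_sub, ← h1, ← hv]; ring
  -- Mittag-Leffler
  obtain ⟨f, hfLm, hf⟩ := hover
  have h1 : π ^ c • f ∈ L₀ ⊔ Linf := by
    apply hc f hfLm
    refine ⟨c + 1, ?_⟩
    rw [← hf]
    exact Submodule.sub_mem _ (Submodule.mem_sup_left haL) (Submodule.mem_sup_right hbL)
  obtain ⟨β₀, hβ₀, βi, hβi, hsum⟩ := Submodule.mem_sup.mp h1
  have hab : a - b = π • (β₀ + βi) := by
    rw [hf, hsum, pow_succ', mul_smul]
  refine ⟨a - π • β₀, ?_, ?_, ?_⟩
  · intro h0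
    exact hprim β₀ hβ₀ (sub_eq_zero.mp h0)
  · exact L₀.sub_mem haL (L₀.smul_mem _ hβ₀)
  · have : a - π • β₀ = b + π • βi := by
      have h3 : a = b + π • (β₀ + βi) := by rw [← hab]; abel
      rw [smul_add] at h3
      calc a - π • β₀ = (b + (π • β₀ + π • βi)) - π • β₀ := by rw [← h3]
        _ = b + π • βi := by abel
    rw [this]
    exact Linf.add_mem hbL (Linf.smul_mem _ hβi)

end Fermat.Agent.Red
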