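import Mathlib
import Fermat.Agent.Red.GateL

/-!
# P-RED: local-to-global steps of the gate (helper26)

Mathlib-only.  `B ⊆ F` a `p`-root closed subalgebra, `L = L(B, w) = {f | f ^ p / w ∈ B}`.

* `h26_exists_e` (**E**) : if at every maximal ideal `𝔫` of `B` either `𝔫` misses an element of
  `𝔪_V ∩ B`, or `L` has a local section `g ≡ 1 mod 𝔪_V` at `𝔫`, then `L` contains a global
  element `e ≡ 1 mod 𝔪_V`.
* `h26_L_fg_of_local` : if `L` is locally generated by one element at every maximal ideal,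
  then `L` is generated over `B` by finitely many elements.
* `h26_L_gen_of_local` : if moreover `B` is spanned over `O` by the `jᵃ • s`, `s` in a finite
  subset of `B`, then `L` is spanned over `O` by the `jᵃ • t`, `t` in a finite subset of `L`.
-/

set_option autoImplicit false

namespace Fermat.Agent.Red

variable {O F : Type*} [CommRing O] [Field F] [Algebra O F]

/-- **(E)**: a global section `≡ 1` from local sections `≡ 1`. -/
theorem h26_exists_e (B : Subalgebra O F) (w : F) (p : ℕ) (hp0 : 0 < p)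
    (hroot : ∀ x : F, x ^ p ∈ B → x ∈ B)
    (mV : AddSubgroup F) (hmV : ∀ b ∈ B, ∀ x ∈ mV, b * x ∈ mV)
    (hloc : ∀ 𝔫 : Ideal B, 𝔫.IsMaximal →
        (∃ c : B, c ∉ 𝔫 ∧ (c : F) ∈ mV) ∨
        (∃ s : B, s ∉ 𝔫 ∧ ∃ g : F, g - 1 ∈ mV ∧ ((s : F) * g) ^ p * w⁻¹ ∈ B)) :
    ∃ e : F, e ^ p * w⁻¹ ∈ B ∧ e - 1 ∈ mV := by
  set L := h26L B w p hp0 hroot with hL
  let J : Ideal B :=
    { carrier := {b | ∃ e : F, e ∈ L ∧ e - (b : F) ∈ mV}
      zero_mem' := ⟨0, L.zero_mem, by simp [mV.zero_mem]⟩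
      add_mem' := by
        rintro a b ⟨e, he, hea⟩ ⟨e', he', heb⟩
        refine ⟨e + e', L.add_mem he he', ?_⟩
        have : e + e' - ((a + b : B) : F) = (e - (a : F)) + (e' - (b : F)) := by
          push_cast; ring
        rw [this]
        exact mV.add_mem hea heb
      smul_mem' := by
        rintro a b ⟨e, he, heb⟩
        refine ⟨(a : F) * e, h26_mul_mem_L a.2 he, ?_⟩
        have : (a : F) * e - ((a • b : B) : F) = (a : F) * (e - (b : F)) := by
          rw [smul_eq_mul]; push_cast; ring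
        rw [this]
        exact hmV _ a.2 _ heb }
  have hJ : J = ⊤ := by
    by_contra hne
    obtain ⟨𝔫, h𝔫, hle⟩ := Ideal.exists_le_maximal J hne
    rcases hloc 𝔫 h𝔫 with ⟨c, hc, hcm⟩ | ⟨s, hs, g, hg, hsg⟩
    · apply hc
      apply hle
      refine ⟨0, L.zero_mem, ?_⟩
      rw [zero_sub]
      exact mV.neg_mem hcm
    · apply hs
      apply hle
      refine ⟨(s : F) * g, hsg, ?_⟩
      have : (s : F) * g - (s : F) = (s : F) * (g - 1) := by ring
      rw [this]
      exact hmV _ s.2 _ hg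
  have h1 : (1 : B) ∈ J := by rw [hJ]; trivial
  obtain ⟨e, he, he1⟩ := h1
  exact ⟨e, he, by simpa using he1⟩

/-- the product of an element of `L(B, w)` and an element of `L(B, w⁻¹)` lies in `B`. -/
theorem h26_mul_dual_mem (B : Subalgebra O F) (w : F) (hw : w ≠ 0) (p : ℕ)
    (hroot : ∀ x : F, x ^ p ∈ B → x ∈ B) {f f' : F}
    (hf : f ^ p * w⁻¹ ∈ B) (hf' : f' ^ p * w ∈ B) : f' * f ∈ B := by
  apply hroot
  have : (f' * f) ^ p = (f' ^ p * w) * (f ^ p * w⁻¹) := by
    rw [mul_pow]; field_simp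
  rw [this]
  exact B.mul_mem hf' hf

/-- **Finite generation of `L` from local principality.** -/
theorem h26_L_fg_of_local (B : Subalgebra O F) (w : F) (hw : w ≠ 0) (p : ℕ) (hp0 : 0 < p)
    (hroot : ∀ x : F, x ^ p ∈ B → x ∈ B)
    (hloc : ∀ 𝔫 : Ideal B, 𝔫.IsMaximal → ∃ s : B, s ∉ 𝔫 ∧ ∃ g : F, g ≠ 0 ∧
        ((s : F) * g) ^ p * w⁻¹ ∈ B ∧ ((s : F) * g⁻¹) ^ p * w ∈ B) :
    ∃ T : Finset F, (∀ t ∈ T, t ∈ h26L B w p hp0 hroot) ∧
      ∀ f ∈ h26L B w p hp0 hroot, ∃ c : F → F, (∀ t, c t ∈ B) ∧ f = ∑ t ∈ T, c t * t := by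
  classical
  set L := h26L B w p hp0 hroot with hL
  set gens : Set B := {b | ∃ l : F, l ∈ L ∧ ∃ l' : F, l' ^ p * w ∈ B ∧ (b : F) = l * l'}
    with hgens
  have htop : Ideal.span gens = ⊤ := by
    by_contra hne
    obtain ⟨𝔫, h𝔫, hle⟩ := Ideal.exists_le_maximal _ hne
    obtain ⟨s, hs, g, hg, h1, h2⟩ := hloc 𝔫 h𝔫
    have hmem : s * s ∈ 𝔫 := by
      apply hle
      apply Ideal.subset_span
      refine ⟨(s : F) * g, h1, (s : F) * g⁻¹, h2, ?_⟩
      push_cast
      field_simp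
    rcases h𝔫.isPrime.mem_or_mem hmem with h | h <;> exact hs h
  -- the property propagated along the span
  have key : ∀ b ∈ Ideal.span gens, ∃ T : Finset F, (∀ t ∈ T, t ∈ L) ∧
      ∀ f ∈ L, ∃ c : F → F, (∀ t, c t ∈ B) ∧ (b : F) * f = ∑ t ∈ T, c t * t := by
    intro b hb
    induction hb using Submodule.span_induction with
    | mem x hx =>
      obtain ⟨l, hl, l', hl', hxe⟩ := hx
      refine ⟨{l}, by simpa using hl, fun f hf => ?_⟩
      refine ⟨fun _ => l' * f, fun _ => h26_mul_dual_mem B w hw p hroot hf hl', ?_⟩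
      rw [Finset.sum_singleton, hxe]; ring
    | zero =>
      refine ⟨∅, by simp, fun f _ => ⟨fun _ => 0, fun _ => B.zero_mem, by simp⟩⟩
    | add x y _ _ hx hy =>
      obtain ⟨T₁, hT₁, h₁⟩ := hx
      obtain ⟨T₂, hT₂, h₂⟩ := hy
      refine ⟨T₁ ∪ T₂, ?_, fun f hf => ?_⟩
      · intro t ht
        rcases Finset.mem_union.mp ht with h | h
        · exact hT₁ t h
        · exact hT₂ t h
      · obtain ⟨c₁, hc₁, e₁⟩ := h₁ f hf
        obtain ⟨c₂, hc₂, e₂⟩ := h₂ f hf
        refine ⟨fun t => (if t ∈ T₁ then c₁ t else 0) + (if t ∈ T₂ then c₂ t else 0), ?_, ?_⟩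
        · intro t
          refine B.add_mem ?_ ?_
          · split_ifs
            · exact hc₁ t
            · exact B.zero_mem
          · split_ifs
            · exact hc₂ t
            · exact B.zero_mem
        · have hs₁ : ∑ t ∈ T₁ ∪ T₂, (if t ∈ T₁ then c₁ t else 0) * t = ∑ t ∈ T₁, c₁ t * t := by
            rw [← Finset.sum_subset (Finset.subset_union_left (s₁ := T₁) (s₂ := T₂))]
            · exact Finset.sum_congr rfl fun t ht => by rw [if_pos ht]
            · intro t _ ht; rw [if_neg ht, zero_mul]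
          have hs₂ : ∑ t ∈ T₁ ∪ T₂, (if t ∈ T₂ then c₂ t else 0) * t = ∑ t ∈ T₂, c₂ t * t := by
            rw [← Finset.sum_subset (Finset.subset_union_right (s₁ := T₁) (s₂ := T₂))]
            · exact Finset.sum_congr rfl fun t ht => by rw [if_pos ht]
            · intro t _ ht; rw [if_neg ht, zero_mul]
          calc ((x + y : B) : F) * f = (x : F) * f + (y : F) * f := by push_cast; ring
            _ = ∑ t ∈ T₁, c₁ t * t + ∑ t ∈ T₂, c₂ t * t := by rw [e₁, e₂]
            _ = _ := by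
              rw [← hs₁, ← hs₂, ← Finset.sum_add_distrib]
              exact Finset.sum_congr rfl fun t _ => by ring
    | smul a x _ hx =>
      obtain ⟨T, hT, h⟩ := hx
      refine ⟨T, hT, fun f hf => ?_⟩
      obtain ⟨c, hc, e⟩ := h f hf
      refine ⟨fun t => (a : F) * c t, fun t => B.mul_mem a.2 (hc t), ?_⟩
      calc ((a • x : B) : F) * f = (a : F) * ((x : F) * f) := by
            rw [smul_eq_mul]; push_cast; ring
        _ = (a : F) * ∑ t ∈ T, c t * t := by rw [e]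
        _ = ∑ t ∈ T, (a : F) * c t * t := by
            rw [Finset.mul_sum]; exact Finset.sum_congr rfl fun t _ => by ring
  obtain ⟨T, hT, h⟩ := key 1 (by rw [htop]; trivial)
  refine ⟨T, hT, fun f hf => ?_⟩
  obtain ⟨c, hc, e⟩ := h f hf
  exact ⟨c, hc, by simpa using e⟩

/-- **Generation of `L` over `O[j]` from local principality and finiteness of `B`.** -/
theorem h26_L_gen_of_local (B : Subalgebra O F) (j : F) (w : F) (hw : w ≠ 0) (p : ℕ)
    (hp0 : 0 < p) (hroot : ∀ x : F, x ^ p ∈ B → x ∈ B)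
    (S : Finset F) (hS : ∀ s ∈ S, s ∈ B)
    (hfin : ∀ x ∈ B, x ∈ Submodule.span O {y : F | ∃ a : ℕ, ∃ s ∈ S, y = j ^ a * s})
    (hloc : ∀ 𝔫 : Ideal B, 𝔫.IsMaximal → ∃ s : B, s ∉ 𝔫 ∧ ∃ g : F, g ≠ 0 ∧
        ((s : F) * g) ^ p * w⁻¹ ∈ B ∧ ((s : F) * g⁻¹) ^ p * w ∈ B) :
    ∃ T : Finset F, (∀ t ∈ T, t ∈ h26L B w p hp0 hroot) ∧
      ∀ f ∈ h26L B w p hp0 hroot,
        f ∈ Submodule.span O {y : F | ∃ a : ℕ, ∃ t ∈ T, y = j ^ a * t} := by
  classical
  obtain ⟨T₀, hT₀, hgen⟩ := h26_L_fg_of_local B w hw p hp0 hroot hloc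
  refine ⟨(S ×ˢ T₀).image (fun x => x.1 * x.2), ?_, ?_⟩
  · intro t ht
    obtain ⟨⟨s, t₀⟩, hst, rfl⟩ := Finset.mem_image.mp ht
    obtain ⟨hs, ht₀⟩ := Finset.mem_product.mp hst
    exact h26_mul_mem_L (hS s hs) (hT₀ t₀ ht₀)
  · intro f hf
    obtain ⟨c, hc, rfl⟩ := hgen f hf
    refine Submodule.sum_mem _ fun t ht => ?_
    -- `c t ∈ span {jᵃ s}` and multiplication by `t`
    have h1 := hfin (c t) (hc t)
    let μ : F →ₗ[O] F := LinearMap.mulRight O t
    have hμ : Submodule.span O {y : F | ∃ a : ℕ, ∃ s ∈ S, y = j ^ a * s} ≤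
        (Submodule.span O {y : F | ∃ a : ℕ,
          ∃ t' ∈ (S ×ˢ T₀).image (fun x => x.1 * x.2), y = j ^ a * t'}).comap μ := by
      rw [Submodule.span_le]
      rintro y ⟨a, s, hs, rfl⟩
      refine Submodule.subset_span ⟨a, s * t, ?_, ?_⟩
      · exact Finset.mem_image.mpr ⟨(s, t), Finset.mem_product.mpr ⟨hs, ht⟩, rfl⟩
      · simp only [μ, LinearMap.mulRight_apply]; ring
    exact hμ h1

end Fermat.Agent.Red
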