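import Mathlib
import Fermat.Agent.Red.LocalFact
import Fermat.Agent.Red.GateAbs

/-!
# P-RED, R-LOCAL (helper26): the local input of the gate

* `h26_local_gate` : at a closed point `𝔫 ⊇ 𝔪_A B` of the special fibre at which
  `𝔫 = (t) + 𝔪_A B`: if `w ≡ 1 mod π V`, all orders of `w` are divisible by `r` and the values
  `t(P)` at the zeros and poles `P` of `w` centered at `𝔫` are divisible by `π`, then there is
  `g ≡ 1 mod π V` such that `w / g ^ r` is a unit of `B_𝔫`.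
* `h26_local_generic` : the same (without the congruence) at a closed point of the generic
  fibre.
-/

set_option autoImplicit false

open WithZero IsLocalRing

namespace Fermat.Agent.Red

section U

variable {O F : Type*} [CommRing O] [Field F] [Algebra O F] {π : O} {V : Subring F}

theorem h26U_zpow (hVπ : algebraMap O F π ∈ V)
    (hVinv : ∀ x ∈ V, (1 + algebraMap O F π * x)⁻¹ ∈ V)
    (hVnt : ∀ x ∈ V, algebraMap O F π * x ≠ 1) {x : F} (hx : x ∈ h26U π V) (z : ℤ) :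
    x ^ z ∈ h26U π V := by
  obtain ⟨n, rfl | rfl⟩ := z.eq_nat_or_neg
  · rw [zpow_natCast]; exact h26U_pow hVπ hx n
  · rw [zpow_neg, zpow_natCast]; exact h26U_inv hVinv hVnt (h26U_pow hVπ hx n)

theorem h26U_prod (hVπ : algebraMap O F π ∈ V) {α : Type*} (T : Finset α) (f : α → F)
    (hf : ∀ i ∈ T, f i ∈ h26U π V) : ∏ i ∈ T, f i ∈ h26U π V :=
  Finset.prod_induction f (fun x => x ∈ h26U π V) (fun _ _ ha hb => h26U_mul hVπ ha hb)
    h26U_one hf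

end U

theorem h26_prod_zpow_const {F : Type*} [Field F] {α : Type*} (T : Finset α) (t : F)
    (ht : t ≠ 0) (e : α → ℤ) : ∏ i ∈ T, t ^ (e i) = t ^ (∑ i ∈ T, e i) := by
  classical
  induction T using Finset.induction_on with
  | empty => simp
  | insert a T ha ih =>
    rw [Finset.prod_insert ha, Finset.sum_insert ha, ih, zpow_add₀ ht]

section Chart

variable {A : Type*} [CommRing A] [IsLocalRing A] {F : Type*} [Field F] [Algebra A F]
variable {B : Subalgebra A F} {V : Subring F} {ι : Type*} {v : ι → Valuation F ℤᵐ⁰}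

/-- `π V ∩ B ⊆ 𝔫`-type consequences of QEP: `1 ∉ π V`. -/
theorem h26_chart_nt (hC : H26Chart B V v) (𝔫 : Ideal B) [h𝔫 : 𝔫.IsPrime]
    (h𝔪𝔫 : (maximalIdeal A).map (algebraMap A B) ≤ 𝔫)
    (π : A) (hπ : π ∈ maximalIdeal A) (hπ0 : algebraMap A F π ≠ 0) :
    ∀ x ∈ V, algebraMap A F π * x ≠ 1 := by
  intro x hx hx1
  have h1 : π • x ∈ B := by
    rw [Algebra.smul_def, hx1]; exact B.one_mem
  have hxB : x ∈ B := hC.hQEP π hπ0 x hx h1
  have h2 : algebraMap A B π * ⟨x, hxB⟩ = 1 := by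
    apply Subtype.ext
    simpa using hx1
  have h3 : algebraMap A B π ∈ 𝔫 := h𝔪𝔫 (Ideal.mem_map_of_mem _ hπ)
  have h4 : (1 : B) ∈ 𝔫 := by
    rw [← h2]; exact 𝔫.mul_mem_right _ h3
  exact h𝔫.ne_top ((Ideal.eq_top_iff_one 𝔫).mpr h4)

/-- auxiliary: a local unit times a positive power of `t` is not `≡ 1 mod π V`. -/
theorem h26_local_gate_aux (hC : H26Chart B V v) (𝔫 : Ideal B)
    (h𝔪𝔫 : (maximalIdeal A).map (algebraMap A B) ≤ 𝔫)
    (t : B) (ht : t ∈ 𝔫) (π : A) (hπ : π ∈ maximalIdeal A) (hπ0 : algebraMap A F π ≠ 0)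
    (s : B) (hs : s ∉ 𝔫) (e z : F) (m : ℕ) (hm : 0 < m) (hse : (s : F) * e ∈ B)
    (hz : z ∈ h26U π V) (hez : e * (t : F) ^ m = z) : False := by
  obtain ⟨x, hx, rfl⟩ := hz
  have h1 : π • ((s : F) * x) ∈ B := by
    have h2 : π • ((s : F) * x) = (s : F) * e * (t : F) ^ m - (s : F) := by
      rw [Algebra.smul_def, mul_assoc (s : F) e, hez]; ring
    rw [h2]
    exact sub_mem (mul_mem hse (pow_mem t.2 m)) s.2
  have hsx : (s : F) * x ∈ B := hC.hQEP π hπ0 _ (mul_mem (hC.hBV _ s.2) hx) h1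
  have h3 : s = ⟨(s : F) * e, hse⟩ * t ^ m - algebraMap A B π * ⟨(s : F) * x, hsx⟩ := by
    apply Subtype.ext
    have h4 : (((⟨(s : F) * e, hse⟩ : B) * t ^ m -
        algebraMap A B π * ⟨(s : F) * x, hsx⟩ : B) : F) =
        (s : F) * e * (t : F) ^ m - algebraMap A F π * ((s : F) * x) := rfl
    rw [h4, mul_assoc (s : F) e, hez]
    ring
  apply hs
  rw [h3]
  refine 𝔫.sub_mem (𝔫.mul_mem_left _ (Ideal.pow_mem_of_mem 𝔫 ht m hm)) ?_
  exact 𝔫.mul_mem_right _ (h𝔪𝔫 (Ideal.mem_map_of_mem _ hπ))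

/-- **The local input of the gate at a closed point of the special fibre.** -/
theorem h26_local_gate (hC : H26Chart B V v)
    (𝔫 : Ideal B) [h𝔫 : 𝔫.IsPrime] (h𝔪𝔫 : (maximalIdeal A).map (algebraMap A B) ≤ 𝔫)
    (t : B) (ht : t ∈ 𝔫) (ht0 : (t : F) ≠ 0) (htV : (t : F)⁻¹ ∈ V)
    (hprin : ∀ y ∈ 𝔫, ∃ s, s ∉ 𝔫 ∧
      s * y ∈ Ideal.span {t} ⊔ (maximalIdeal A).map (algebraMap A B))
    (T : Finset ι) (φ : ι → (B →ₐ[A] A))
    (hφker : ∀ i ∈ T, ∀ b : B, φ i b = 0 ↔ v i (b : F) < 1)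
    (hφfg : ∀ i ∈ T, (RingHom.ker (φ i : B →+* A)).FG)
    (hcent : ∀ i ∈ T, h26Centered B v 𝔫 i)
    (π : A) (hπ : π ∈ maximalIdeal A) (hπ0 : algebraMap A F π ≠ 0)
    (hc : ∀ i ∈ T, ∃ a : A, φ i t = π * a)
    (w : F) (hwU : w ∈ h26U π V)
    (r : ℕ) (n : ι → ℤ) (hn : ∀ i ∈ T, v i w = exp (-((r : ℤ) * n i)))
    (hw1 : ∀ k, h26Centered B v 𝔫 k → k ∉ T → v k w = 1) :
    ∃ g ∈ h26U π V, ∃ s : B, s ∉ 𝔫 ∧
      (s : F) * (w * (g ^ r)⁻¹) ∈ B ∧ (s : F) * (g ^ r * w⁻¹) ∈ B := by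
  classical
  have hAV : ∀ a : A, algebraMap A F a ∈ V := fun a => hC.hBV _ (B.algebraMap_mem a)
  have hVπ : algebraMap A F π ∈ V := hAV π
  have hVinv : ∀ x ∈ V, (1 + algebraMap A F π * x)⁻¹ ∈ V := hC.hVunit π hπ
  have hVnt : ∀ x ∈ V, algebraMap A F π * x ≠ 1 := h26_chart_nt hC 𝔫 h𝔪𝔫 π hπ hπ0
  have hwV : w ∈ V := h26U_mem_V hVπ hwU
  have hwV' : w⁻¹ ∈ V := h26U_mem_V hVπ (h26U_inv hVinv hVnt hwU)
  -- the local factorisation
  obtain ⟨s, hs, h1, h2⟩ := h26_local_factor hC 𝔫 h𝔪𝔫 t ht ht0 htV hprin T φ hφker hφfg hcent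
    w hwV hwV' (fun i => (r : ℤ) * n i) hn hw1
  -- the functions `y i = 1 - c_i / t`
  have hex : ∀ i, ∃ a : A, i ∈ T → φ i t = π * a := by
    intro i
    by_cases hi : i ∈ T
    · obtain ⟨a, ha⟩ := hc i hi
      exact ⟨a, fun _ => ha⟩
    · exact ⟨0, fun h => (hi h).elim⟩
  choose a ha using hex
  set y : ι → F := fun i => 1 + algebraMap A F π * (-(algebraMap A F (a i) * (t : F)⁻¹))
    with hy
  have hyU : ∀ i, y i ∈ h26U π V := fun i =>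
    ⟨_, neg_mem (mul_mem (hAV (a i)) htV), rfl⟩
  have huy : ∀ i ∈ T, (t : F) - algebraMap A F (φ i t) = (t : F) * y i := by
    intro i hi
    rw [ha i hi, map_mul, hy]
    field_simp
    ring
  set E : ℤ := ∑ i ∈ T, (r : ℤ) * n i with hE
  set Y : F := ∏ i ∈ T, y i ^ (-((r : ℤ) * n i)) with hY
  have hYU : Y ∈ h26U π V :=
    h26U_prod hVπ T _ (fun i _ => h26U_zpow hVπ hVinv hVnt (hyU i) _)
  have hprod : ∏ i ∈ T, ((t : F) - algebraMap A F (φ i t)) ^ (-((r : ℤ) * n i)) =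
      (t : F) ^ (-E) * Y := by
    rw [hY, hE, ← Finset.sum_neg_distrib, ← h26_prod_zpow_const T _ ht0,
      ← Finset.prod_mul_distrib]
    refine Finset.prod_congr rfl fun i hi => ?_
    rw [huy i hi, mul_zpow]
  rw [hprod] at h1 h2
  have hzU : w * Y ∈ h26U π V := h26U_mul hVπ hwU hYU
  have hzU' : (w * Y)⁻¹ ∈ h26U π V := h26U_inv hVinv hVnt hzU
  have hY0 : Y ≠ 0 := h26U_ne_zero hVnt hYU
  have hw0 : w ≠ 0 := h26U_ne_zero hVnt hwU
  have htE : ∀ z : ℤ, (t : F) ^ z ≠ 0 := fun z => zpow_ne_zero _ ht0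
  -- `E = 0`
  have hE0 : E = 0 := by
    rcases lt_trichotomy E 0 with hlt | heq | hgt
    · exfalso
      have hm : (((-E).toNat : ℕ) : ℤ) = -E := Int.toNat_of_nonneg (by omega)
      have hmpos : 0 < (-E).toNat := by omega
      refine h26_local_gate_aux hC 𝔫 h𝔪𝔫 t ht π hπ hπ0 s hs _ _ _ hmpos h2 hzU' ?_
      rw [← zpow_natCast, hm]
      have h5 := htE (-E)
      field_simp
    · exact heq
    · exfalso
      have hm : ((E.toNat : ℕ) : ℤ) = E := Int.toNat_of_nonneg (by omega)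
      have hmpos : 0 < E.toNat := by omega
      refine h26_local_gate_aux hC 𝔫 h𝔪𝔫 t ht π hπ hπ0 s hs _ _ _ hmpos h1 hzU ?_
      rw [← zpow_natCast, hm, zpow_neg]
      have h5 := htE E
      field_simp
  rw [hE0, neg_zero, zpow_zero, one_mul] at h1 h2
  -- the function `g`
  refine ⟨∏ i ∈ T, y i ^ (n i),
    h26U_prod hVπ T _ (fun i _ => h26U_zpow hVπ hVinv hVnt (hyU i) _), s, hs, ?_, ?_⟩
  · have h3 : ((∏ i ∈ T, y i ^ (n i)) ^ r)⁻¹ = Y := by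
      rw [hY, ← Finset.prod_pow, ← Finset.prod_inv_distrib]
      refine Finset.prod_congr rfl fun i _ => ?_
      rw [← zpow_natCast, ← zpow_mul, zpow_neg, mul_comm]
    rw [h3]
    exact h1
  · have h3 : (∏ i ∈ T, y i ^ (n i)) ^ r * w⁻¹ = (w * Y)⁻¹ := by
      rw [hY, mul_inv, mul_comm, ← Finset.prod_pow, ← Finset.prod_inv_distrib]
      congr 1
      refine Finset.prod_congr rfl fun i _ => ?_
      rw [← zpow_natCast, ← zpow_mul, zpow_neg, inv_inv, mul_comm]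
    rw [h3]
    exact h2

/-- **The local input at a closed point of the generic fibre.** -/
theorem h26_local_generic (hC : H26Chart B V v) (𝔫 : Ideal B) [h𝔫 : 𝔫.IsPrime]
    (h𝔫A : ∀ a : A, algebraMap A F a ≠ 0 → algebraMap A B a ∉ 𝔫)
    (hsub : ∀ i k, h26Centered B v 𝔫 i → h26Centered B v 𝔫 k → i = k)
    (w : F) (r : ℕ) (hrw : ∀ i, ∃ n : ℤ, v i w = exp (-((r : ℤ) * n))) :
    ∃ g : F, g ≠ 0 ∧ ∃ s : B, s ∉ 𝔫 ∧
      (s : F) * (w * (g ^ r)⁻¹) ∈ B ∧ (s : F) * (g ^ r * w⁻¹) ∈ B := by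
  classical
  have hg : ∃ g : F, g ≠ 0 ∧ ∀ k, h26Centered B v 𝔫 k → v k (w * (g ^ r)⁻¹) = 1 := by
    by_cases h : ∃ i₀, h26Centered B v 𝔫 i₀
    · obtain ⟨i₀, hi₀⟩ := h
      obtain ⟨n, hn⟩ := hrw i₀
      obtain ⟨ϖ, hϖ⟩ := hC.hunif i₀
      have hϖ0 : (ϖ : F) ≠ 0 := by
        intro h0
        rw [h0, map_zero] at hϖ
        exact exp_ne_zero hϖ.symm
      refine ⟨(ϖ : F) ^ n, zpow_ne_zero _ hϖ0, fun k hk => ?_⟩
      have hk' : k = i₀ := hsub k i₀ hk hi₀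
      subst hk'
      rw [map_mul, map_inv₀, map_pow, map_zpow₀, hn, hϖ, ← exp_zsmul, ← exp_nsmul, ← exp_neg,
        ← exp_add, ← exp_zero, exp_inj]
      simp only [smul_eq_mul, nsmul_eq_mul]
      ring
    · refine ⟨1, one_ne_zero, fun k hk => (h ⟨k, hk⟩).elim⟩
  obtain ⟨g, hg0, hgv⟩ := hg
  obtain ⟨a₁, ha₁, s₁, hs₁, h1⟩ := h26_stepC hC.hfin hC.hint hC.hB 𝔫 (w * (g ^ r)⁻¹)
    (fun k hk => (hgv k hk).le)
  obtain ⟨a₂, ha₂, s₂, hs₂, h2⟩ := h26_stepC hC.hfin hC.hint hC.hB 𝔫 (w * (g ^ r)⁻¹)⁻¹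
    (fun k hk => by rw [map_inv₀, hgv k hk, inv_one])
  have hS₁ : algebraMap A B a₁ * s₁ ∉ 𝔫 := fun h =>
    (h𝔫.mem_or_mem h).elim (h𝔫A a₁ ha₁) hs₁
  have hS₂ : algebraMap A B a₂ * s₂ ∉ 𝔫 := fun h =>
    (h𝔫.mem_or_mem h).elim (h𝔫A a₂ ha₂) hs₂
  refine ⟨g, hg0, algebraMap A B a₁ * s₁ * (algebraMap A B a₂ * s₂),
    fun h => (h𝔫.mem_or_mem h).elim hS₁ hS₂, ?_, ?_⟩
  · have h3 : ((algebraMap A B a₁ * s₁ * (algebraMap A B a₂ * s₂) : B) : F) *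
        (w * (g ^ r)⁻¹) = ((algebraMap A B a₂ * s₂ : B) : F) *
          (a₁ • ((s₁ : F) * (w * (g ^ r)⁻¹))) := by
      rw [Algebra.smul_def]
      push_cast
      ring
    rw [h3]
    exact mul_mem (algebraMap A B a₂ * s₂).2 h1
  · have h3 : ((algebraMap A B a₁ * s₁ * (algebraMap A B a₂ * s₂) : B) : F) *
        (g ^ r * w⁻¹) = ((algebraMap A B a₁ * s₁ : B) : F) *
          (a₂ • ((s₂ : F) * (w * (g ^ r)⁻¹)⁻¹)) := by
      rw [Algebra.smul_def, mul_inv, inv_inv]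
      push_cast
      ring
    rw [h3]
    exact mul_mem (algebraMap A B a₁ * s₁).2 h2

end Chart

end Fermat.Agent.Red
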