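import Mathlib
import Fermat.Agent.Red.LocalGate

/-!
# P-RED, R-LOCAL (helper26): the local input of the gate at all closed points of a chart

`h26_local_all` : under the axioms `H26Chart`, local uniformisers at the closed points of the
special fibre (smoothness), sections at the places centered at those points, and uniqueness of
the centered place at the closed points of the generic fibre: for `w ≡ 1 mod π₁ V` all of whose
orders are divisible by `r` there is `π₀ ∣ π₁` in `𝔪_A`, `π₀ ≠ 0`, such that for every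
`π ∣ π₀` in `𝔪_A` and every maximal ideal `𝔫` of the chart there is `g ≠ 0` with `w / g ^ r` a
unit of `B_𝔫`, and `g ≡ 1 mod π V` if `𝔫 ⊇ 𝔪_A B`.
-/

set_option autoImplicit false

open WithZero IsLocalRing

namespace Fermat.Agent.Red

/-- finitely many elements of the maximal ideal of a valuation ring, together with a nonzero
one, have a nonzero common divisor in the maximal ideal. -/
theorem h26_common_divisor {A : Type*} [CommRing A] [IsDomain A] [ValuationRing A]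
    {α : Type*} (T : Finset α) (c : α → A) (hc : ∀ i ∈ T, c i ∈ maximalIdeal A)
    (π₁ : A) (hπ₁ : π₁ ∈ maximalIdeal A) (hπ₁0 : π₁ ≠ 0) :
    ∃ d ∈ maximalIdeal A, d ≠ 0 ∧ d ∣ π₁ ∧ ∀ i ∈ T, d ∣ c i := by
  classical
  induction T using Finset.induction_on with
  | empty => exact ⟨π₁, hπ₁, hπ₁0, dvd_rfl, fun i hi => by simp at hi⟩
  | insert a T ha ih =>
    obtain ⟨d, hd, hd0, hdπ, hdT⟩ := ih (fun i hi => hc i (Finset.mem_insert_of_mem hi))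
    rcases ValuationRing.dvd_total d (c a) with h | h
    · refine ⟨d, hd, hd0, hdπ, fun i hi => ?_⟩
      rcases Finset.mem_insert.mp hi with rfl | hi
      · exact h
      · exact hdT i hi
    · have hca0 : c a ≠ 0 := by
        intro h0
        rw [h0, zero_dvd_iff] at h
        exact hd0 h
      refine ⟨c a, hc a (Finset.mem_insert_self a T), hca0, h.trans hdπ, fun i hi => ?_⟩
      rcases Finset.mem_insert.mp hi with rfl | hi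
      · exact dvd_rfl
      · exact h.trans (hdT i hi)

section Chart

variable {A : Type*} [CommRing A] [IsDomain A] [ValuationRing A]
  {F : Type*} [Field F] [Algebra A F]
  {B : Subalgebra A F} {V : Subring F} {ι : Type*} {v : ι → Valuation F ℤᵐ⁰}

/-- a Gauss unit without zeros or poles centered at `𝔫` is a unit of `B_𝔫`. -/
theorem h26_local_unit (hC : H26Chart B V v) (𝔫 : Ideal B) [h𝔫 : 𝔫.IsPrime]
    (w : F) (hwV : w ∈ V) (hwV' : w⁻¹ ∈ V)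
    (hw1 : ∀ k, h26Centered B v 𝔫 k → v k w = 1) :
    ∃ s : B, s ∉ 𝔫 ∧ (s : F) * w ∈ B ∧ (s : F) * w⁻¹ ∈ B := by
  obtain ⟨a₁, ha₁, s₁, hs₁, h1⟩ := h26_stepC hC.hfin hC.hint hC.hB 𝔫 w
    (fun k hk => (hw1 k hk).le)
  obtain ⟨a₂, ha₂, s₂, hs₂, h2⟩ := h26_stepC hC.hfin hC.hint hC.hB 𝔫 w⁻¹
    (fun k hk => by rw [map_inv₀, hw1 k hk, inv_one])
  have h1' : (s₁ : F) * w ∈ B := hC.hQEP a₁ ha₁ _ (mul_mem (hC.hBV _ s₁.2) hwV) h1
  have h2' : (s₂ : F) * w⁻¹ ∈ B := hC.hQEP a₂ ha₂ _ (mul_mem (hC.hBV _ s₂.2) hwV') h2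
  refine ⟨s₁ * s₂, fun h => (h𝔫.mem_or_mem h).elim hs₁ hs₂, ?_, ?_⟩
  · have : ((s₁ * s₂ : B) : F) * w = (s₂ : F) * ((s₁ : F) * w) := by
      push_cast; ring
    rw [this]
    exact mul_mem s₂.2 h1'
  · have : ((s₁ * s₂ : B) : F) * w⁻¹ = (s₁ : F) * ((s₂ : F) * w⁻¹) := by
      push_cast; ring
    rw [this]
    exact mul_mem s₁.2 h2'

/-- the set of places at which `w` is not a unit is finite. -/
theorem h26_finite_support (hC : H26Chart B V v) (w : F) (hw0 : w ≠ 0) :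
    {i | v i w ≠ 1}.Finite := by
  refine ((hC.hfin w hw0).union (hC.hfin w⁻¹ (inv_ne_zero hw0))).subset ?_
  intro i hi
  rcases lt_or_gt_of_ne (show v i w ≠ 1 from hi) with h | h
  · right
    show 1 < v i w⁻¹
    rw [map_inv₀]
    exact (one_lt_inv₀ (zero_lt_iff.mpr ((Valuation.ne_zero_iff _).mpr hw0))).mpr h
  · left
    exact h

/-- **The local input of the gate at all closed points of a chart.** -/
theorem h26_local_all (hC : H26Chart B V v)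
    (hAF : Function.Injective (algebraMap A F))
    (harch : ∀ c ∈ maximalIdeal A, c ≠ 0 → ∀ a : A, a ≠ 0 → ∃ k : ℕ, a ∣ c ^ k)
    (hVnt : ∀ m ∈ maximalIdeal A, ∀ x ∈ V, algebraMap A F m * x ≠ 1)
    (hSM : ∀ 𝔫 : Ideal B, 𝔫.IsMaximal → (maximalIdeal A).map (algebraMap A B) ≤ 𝔫 →
      ∃ t ∈ 𝔫, (t : F) ≠ 0 ∧ (t : F)⁻¹ ∈ V ∧ ∀ y ∈ 𝔫, ∃ s, s ∉ 𝔫 ∧
        s * y ∈ Ideal.span {t} ⊔ (maximalIdeal A).map (algebraMap A B))
    (hsec : ∀ (i : ι) (𝔫 : Ideal B), 𝔫.IsMaximal →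
      (maximalIdeal A).map (algebraMap A B) ≤ 𝔫 → h26Centered B v 𝔫 i →
      ∃ φ : B →ₐ[A] A, (∀ b : B, φ b = 0 ↔ v i (b : F) < 1) ∧
        (RingHom.ker (φ : B →+* A)).FG)
    (hgen : ∀ 𝔫 : Ideal B, 𝔫.IsMaximal → ¬ (maximalIdeal A).map (algebraMap A B) ≤ 𝔫 →
      ∀ i k, h26Centered B v 𝔫 i → h26Centered B v 𝔫 k → i = k)
    (w : F) (hw0 : w ≠ 0) (r : ℕ) (hrw : ∀ i, ∃ n : ℤ, v i w = exp (-((r : ℤ) * n)))
    (π₁ : A) (hπ₁ : π₁ ∈ maximalIdeal A) (hπ₁0 : π₁ ≠ 0) (hwU : w ∈ h26U π₁ V) :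
    ∃ π₀ ∈ maximalIdeal A, π₀ ≠ 0 ∧ π₀ ∣ π₁ ∧ ∀ π ∈ maximalIdeal A, π ∣ π₀ →
      ∀ 𝔫 : Ideal B, 𝔫.IsMaximal →
        ∃ g : F, g ≠ 0 ∧ ((maximalIdeal A).map (algebraMap A B) ≤ 𝔫 → g ∈ h26U π V) ∧
          ∃ s : B, s ∉ 𝔫 ∧ (s : F) * (w * (g ^ r)⁻¹) ∈ B ∧ (s : F) * (g ^ r * w⁻¹) ∈ B := by
  classical
  have hAV : ∀ a : A, algebraMap A F a ∈ V := fun a => hC.hBV _ (B.algebraMap_mem a)
  -- divisibility transfers the congruence
  have hU_of_dvd : ∀ π : A, π ∣ π₁ → w ∈ h26U π V := by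
    rintro π ⟨a, rfl⟩
    obtain ⟨x, hx, rfl⟩ := hwU
    exact ⟨algebraMap A F a * x, mul_mem (hAV a) hx, by rw [map_mul]; ring⟩
  -- the generic points
  have hgeneric : ∀ 𝔫 : Ideal B, 𝔫.IsMaximal → ¬ (maximalIdeal A).map (algebraMap A B) ≤ 𝔫 →
      ∃ g : F, g ≠ 0 ∧ ∃ s : B, s ∉ 𝔫 ∧
        (s : F) * (w * (g ^ r)⁻¹) ∈ B ∧ (s : F) * (g ^ r * w⁻¹) ∈ B := by
    intro 𝔫 h𝔫 hnle
    have := h𝔫.isPrime
    refine h26_local_generic hC 𝔫 ?_ (hgen 𝔫 h𝔫 hnle) w r hrw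
    intro a ha ha𝔫
    have ha0 : a ≠ 0 := fun h => ha (by rw [h, map_zero])
    apply hnle
    rw [Ideal.map_le_iff_le_comap]
    intro m hm
    rw [Ideal.mem_comap]
    by_cases hm0 : m = 0
    · rw [hm0, map_zero]; exact 𝔫.zero_mem
    obtain ⟨k, b, hk⟩ := harch m hm hm0 a ha0
    have h1 : algebraMap A B m ^ k ∈ 𝔫 := by
      rw [← map_pow, hk, map_mul]
      exact 𝔫.mul_mem_right _ ha𝔫
    exact h𝔫.isPrime.mem_of_pow_mem k h1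
  by_cases hP : ∃ (i : ι) (𝔫 : Ideal B), 𝔫.IsMaximal ∧
      (maximalIdeal A).map (algebraMap A B) ≤ 𝔫 ∧ h26Centered B v 𝔫 i
  swap
  · -- no place is centered on the special fibre
    refine ⟨π₁, hπ₁, hπ₁0, dvd_rfl, fun π hπ hππ 𝔫 h𝔫 => ?_⟩
    have := h𝔫.isPrime
    by_cases hle : (maximalIdeal A).map (algebraMap A B) ≤ 𝔫
    · have hwπ := hU_of_dvd π hππ
      have hVπ : algebraMap A F π ∈ V := hAV π
      have hwV : w ∈ V := h26U_mem_V hVπ hwπ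
      have hwV' : w⁻¹ ∈ V :=
        h26U_mem_V hVπ (h26U_inv (hC.hVunit π hπ) (hVnt π hπ) hwπ)
      obtain ⟨s, hs, h1, h2⟩ := h26_local_unit hC 𝔫 w hwV hwV'
        (fun k hk => (hP ⟨k, 𝔫, h𝔫, hle, hk⟩).elim)
      refine ⟨1, one_ne_zero, fun _ => h26U_one, s, hs, ?_, ?_⟩
      · simpa using h1
      · simpa using h2
    · obtain ⟨g, hg0, s, hs, h1, h2⟩ := hgeneric 𝔫 h𝔫 hle
      exact ⟨g, hg0, fun h => (hle h).elim, s, hs, h1, h2⟩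
  -- a default section
  obtain ⟨i₀, 𝔫₀, h𝔫₀, hle₀, hc₀⟩ := hP
  obtain ⟨φ₀, -, -⟩ := hsec i₀ 𝔫₀ h𝔫₀ hle₀ hc₀
  -- the sections
  have hex : ∀ i : ι, ∃ φ : B →ₐ[A] A, ∀ 𝔫 : Ideal B, 𝔫.IsMaximal →
      (maximalIdeal A).map (algebraMap A B) ≤ 𝔫 → h26Centered B v 𝔫 i →
      (∀ b : B, φ b = 0 ↔ v i (b : F) < 1) ∧ (RingHom.ker (φ : B →+* A)).FG := by
    intro i
    by_cases h : ∃ 𝔫 : Ideal B, 𝔫.IsMaximal ∧
        (maximalIdeal A).map (algebraMap A B) ≤ 𝔫 ∧ h26Centered B v 𝔫 i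
    · obtain ⟨𝔫, h𝔫, hle, hc⟩ := h
      obtain ⟨φ, h1, h2⟩ := hsec i 𝔫 h𝔫 hle hc
      exact ⟨φ, fun _ _ _ _ => ⟨h1, h2⟩⟩
    · exact ⟨φ₀, fun 𝔫 h𝔫 hle hc => (h ⟨𝔫, h𝔫, hle, hc⟩).elim⟩
  choose φ hφ using hex
  -- the local uniformisers
  have hex2 : ∀ 𝔫 : Ideal B, ∃ t : B, t ∈ 𝔫 ∧ (𝔫.IsMaximal →
      (maximalIdeal A).map (algebraMap A B) ≤ 𝔫 →
      (t : F) ≠ 0 ∧ (t : F)⁻¹ ∈ V ∧ ∀ y ∈ 𝔫, ∃ s, s ∉ 𝔫 ∧
        s * y ∈ Ideal.span {t} ⊔ (maximalIdeal A).map (algebraMap A B)) := by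
    intro 𝔫
    by_cases h : 𝔫.IsMaximal ∧ (maximalIdeal A).map (algebraMap A B) ≤ 𝔫
    · obtain ⟨t, ht, h1⟩ := hSM 𝔫 h.1 h.2
      exact ⟨t, ht, fun _ _ => h1⟩
    · exact ⟨0, 𝔫.zero_mem, fun h1 h2 => (h ⟨h1, h2⟩).elim⟩
  choose τ hτmem hτ using hex2
  -- the values `c i = t(P_i)`
  set c : ι → A := fun i => φ i (τ ((maximalIdeal A).comap (φ i : B →+* A))) with hc
  have hcm : ∀ i, c i ∈ maximalIdeal A := fun i =>
    Ideal.mem_comap.mp (hτmem ((maximalIdeal A).comap (φ i : B →+* A)))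
  set Z : Finset ι := (h26_finite_support hC w hw0).toFinset with hZ
  obtain ⟨π₀, hπ₀, hπ₀0, hπ₀π₁, hπ₀c⟩ := h26_common_divisor Z c (fun i _ => hcm i) π₁ hπ₁ hπ₁0
  refine ⟨π₀, hπ₀, hπ₀0, hπ₀π₁, fun π hπ hππ 𝔫 h𝔫 => ?_⟩
  have := h𝔫.isPrime
  by_cases hle : (maximalIdeal A).map (algebraMap A B) ≤ 𝔫
  swap
  · obtain ⟨g, hg0, s, hs, h1, h2⟩ := hgeneric 𝔫 h𝔫 hle
    exact ⟨g, hg0, fun h => (hle h).elim, s, hs, h1, h2⟩
  have hπ0 : π ≠ 0 := by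
    rintro rfl
    exact hπ₀0 (zero_dvd_iff.mp hππ)
  have hπF : algebraMap A F π ≠ 0 := fun h => hπ0 (hAF (by rw [h, map_zero]))
  obtain ⟨ht0, htV, hprin⟩ := hτ 𝔫 h𝔫 hle
  set T : Finset ι := Z.filter (fun i => h26Centered B v 𝔫 i) with hT
  have hTc : ∀ i ∈ T, h26Centered B v 𝔫 i := fun i hi => (Finset.mem_filter.mp hi).2
  have hφT : ∀ i ∈ T, (∀ b : B, φ i b = 0 ↔ v i (b : F) < 1) ∧
      (RingHom.ker (φ i : B →+* A)).FG := fun i hi => hφ i 𝔫 h𝔫 hle (hTc i hi)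
  -- the centre of `i ∈ T` is `𝔫`
  have hcomap : ∀ i ∈ T, (maximalIdeal A).comap (φ i : B →+* A) = 𝔫 := by
    intro i hi
    have hkerle : RingHom.ker (φ i : B →+* A) ≤ 𝔫 := by
      intro b hb
      exact hTc i hi b (((hφT i hi).1 b).mp hb)
    have h1 : 𝔫 ≤ (maximalIdeal A).comap (φ i : B →+* A) := fun y hy =>
      h26_section_local 𝔫 (φ i) hkerle y hy
    have h2 : (maximalIdeal A).comap (φ i : B →+* A) ≠ ⊤ := by
      rw [Ne, Ideal.eq_top_iff_one, Ideal.mem_comap, map_one]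
      exact fun h => (Ideal.ne_top_iff_one _).mp (IsLocalRing.maximalIdeal.isMaximal A).ne_top h
    exact (h𝔫.eq_of_le h2 h1).symm
  have hcT : ∀ i ∈ T, ∃ a : A, φ i (τ 𝔫) = π * a := by
    intro i hi
    have h1 : φ i (τ 𝔫) = c i := by
      rw [hc]
      simp only
      rw [hcomap i hi]
    rw [h1]
    exact hππ.trans (hπ₀c i (Finset.mem_filter.mp hi).1)
  choose n hn using hrw
  have hw1 : ∀ k, h26Centered B v 𝔫 k → k ∉ T → v k w = 1 := by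
    intro k hk hkT
    by_contra hne
    apply hkT
    rw [hT, Finset.mem_filter, hZ, Set.Finite.mem_toFinset]
    exact ⟨hne, hk⟩
  obtain ⟨g, hgU, s, hs, h1, h2⟩ := h26_local_gate hC 𝔫 hle (τ 𝔫) (hτmem 𝔫) ht0 htV hprin T φ
    (fun i hi => (hφT i hi).1) (fun i hi => (hφT i hi).2) hTc π hπ hπF hcT w
    (hU_of_dvd π (hππ.trans hπ₀π₁)) r n (fun i _ => hn i) hw1
  exact ⟨g, h26U_ne_zero (hVnt π hπ) hgU, fun _ => hgU, s, hs, h1, h2⟩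

end Chart

end Fermat.Agent.Red
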