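import Mathlib
import Fermat.Agent.Red.LocalAll
import Fermat.Agent.Red.GateCore2
import Fermat.Agent.Red.GateBT
import Fermat.Agent.Red.GateE

/-!
# P-RED (helper26): abstract assembly of the gate on a two-chart model over a rank-one
valuation ring

`h26_gate_asm` : `A` a valuation ring of rank one (`harch`), `F` a field over `A`, `V ⊆ F` the
Gauss ring, `B₀, B∞ ⊆ Bm` the two charts and their overlap (`Bm = B₀[1/j] = B∞[j]`), both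
charts satisfying the axioms `H26Chart` for their families of places, with local uniformisers at
the closed points of the special fibre (smoothness), sections, and `B₀` a finite `A[j]`-module.
If `w ≡ 1 mod π₁ V` and all orders of `w` are divisible by `r` (a unit of `A`), then there is
`t ≠ 0` with `t ^ r / w ∈ B₀ ∩ B∞`.
-/

set_option autoImplicit false
set_option linter.unusedSectionVars false

open WithZero IsLocalRing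

namespace Fermat.Agent.Red

section Asm

variable {A : Type*} [CommRing A] [IsDomain A] [ValuationRing A]
  {F : Type*} [Field F] [Algebra A F]

/-- the additive subgroup `π V`. -/
def h26mV (π : A) (V : Subring F) : AddSubgroup F where
  carrier := {x | ∃ y ∈ V, x = algebraMap A F π * y}
  zero_mem' := ⟨0, V.zero_mem, by simp⟩
  add_mem' := by
    rintro _ _ ⟨y, hy, rfl⟩ ⟨z, hz, rfl⟩
    exact ⟨y + z, V.add_mem hy hz, by ring⟩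
  neg_mem' := by
    rintro _ ⟨y, hy, rfl⟩
    exact ⟨-y, V.neg_mem hy, by ring⟩

theorem h26_mem_mV {π : A} {V : Subring F} {x : F} :
    x ∈ h26mV π V ↔ ∃ y ∈ V, x = algebraMap A F π * y := Iff.rfl

/-- `𝔪_A B ⊆ 𝔫` as soon as `π ∈ 𝔫` (rank one). -/
theorem h26_map_le_of_mem {B : Subalgebra A F}
    (harch : ∀ c ∈ maximalIdeal A, c ≠ 0 → ∀ a : A, a ≠ 0 → ∃ k : ℕ, a ∣ c ^ k)
    (π : A) (hπ0 : π ≠ 0) (𝔫 : Ideal B) [h𝔫 : 𝔫.IsPrime] (hπ𝔫 : algebraMap A B π ∈ 𝔫) :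
    (maximalIdeal A).map (algebraMap A B) ≤ 𝔫 := by
  rw [Ideal.map_le_iff_le_comap]
  intro m hm
  rw [Ideal.mem_comap]
  by_cases hm0 : m = 0
  · rw [hm0, map_zero]; exact 𝔫.zero_mem
  obtain ⟨k, b, hk⟩ := harch m hm hm0 π hπ0
  have h1 : algebraMap A B m ^ k ∈ 𝔫 := by
    rw [← map_pow, hk, map_mul]
    exact 𝔫.mul_mem_right _ hπ𝔫
  exact h𝔫.mem_of_pow_mem k h1

/-- the local data in the form consumed by `h26_exists_e`. -/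
theorem h26_local_for_e {B : Subalgebra A F} {V : Subring F}
    (harch : ∀ c ∈ maximalIdeal A, c ≠ 0 → ∀ a : A, a ≠ 0 → ∃ k : ℕ, a ∣ c ^ k)
    (π : A) (hπ0 : π ≠ 0) (w : F) (r : ℕ) (hr : 0 < r)
    (hloc : ∀ 𝔫 : Ideal B, 𝔫.IsMaximal →
      ∃ g : F, g ≠ 0 ∧ ((maximalIdeal A).map (algebraMap A B) ≤ 𝔫 → g ∈ h26U π V) ∧
        ∃ s : B, s ∉ 𝔫 ∧ (s : F) * (w * (g ^ r)⁻¹) ∈ B ∧ (s : F) * (g ^ r * w⁻¹) ∈ B)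
    (𝔫 : Ideal B) (h𝔫 : 𝔫.IsMaximal) :
    (∃ c : B, c ∉ 𝔫 ∧ (c : F) ∈ h26mV π V) ∨
      ∃ s : B, s ∉ 𝔫 ∧ ∃ g : F, g - 1 ∈ h26mV π V ∧ ((s : F) * g) ^ r * w⁻¹ ∈ B := by
  have := h𝔫.isPrime
  by_cases hπ𝔫 : algebraMap A B π ∈ 𝔫
  · right
    obtain ⟨g, -, hgU, s, hs, -, h2⟩ := hloc 𝔫 h𝔫
    obtain ⟨x, hx, hgx⟩ := hgU (h26_map_le_of_mem harch π hπ0 𝔫 hπ𝔫)
    refine ⟨s, hs, g, ⟨x, hx, by rw [hgx]; ring⟩, ?_⟩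
    obtain ⟨r', rfl⟩ : ∃ r', r = r' + 1 := ⟨r - 1, by omega⟩
    have h3 : ((s : F) * g) ^ (r' + 1) * w⁻¹ =
        (s : F) ^ r' * ((s : F) * (g ^ (r' + 1) * w⁻¹)) := by
      rw [mul_pow, pow_succ (s : F)]; ring
    rw [h3]
    exact mul_mem (pow_mem s.2 r') h2
  · left
    exact ⟨algebraMap A B π, hπ𝔫, 1, V.one_mem, by simp⟩

/-- the local data in the form consumed by `h26_L_gen_of_local`. -/
theorem h26_local_for_L {B : Subalgebra A F} {V : Subring F}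
    (π : A) (w : F) (r : ℕ) (hr : 0 < r)
    (hloc : ∀ 𝔫 : Ideal B, 𝔫.IsMaximal →
      ∃ g : F, g ≠ 0 ∧ ((maximalIdeal A).map (algebraMap A B) ≤ 𝔫 → g ∈ h26U π V) ∧
        ∃ s : B, s ∉ 𝔫 ∧ (s : F) * (w * (g ^ r)⁻¹) ∈ B ∧ (s : F) * (g ^ r * w⁻¹) ∈ B)
    (𝔫 : Ideal B) (h𝔫 : 𝔫.IsMaximal) :
    ∃ s : B, s ∉ 𝔫 ∧ ∃ g : F, g ≠ 0 ∧ ((s : F) * g) ^ r * w⁻¹ ∈ B ∧
      ((s : F) * g⁻¹) ^ r * w ∈ B := by
  obtain ⟨g, hg0, -, s, hs, h1, h2⟩ := hloc 𝔫 h𝔫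
  refine ⟨s, hs, g, hg0, ?_, ?_⟩
  · obtain ⟨r', rfl⟩ : ∃ r', r = r' + 1 := ⟨r - 1, by omega⟩
    have h3 : ((s : F) * g) ^ (r' + 1) * w⁻¹ =
        (s : F) ^ r' * ((s : F) * (g ^ (r' + 1) * w⁻¹)) := by
      rw [mul_pow, pow_succ (s : F)]; ring
    rw [h3]
    exact mul_mem (pow_mem s.2 r') h2
  · obtain ⟨r', rfl⟩ : ∃ r', r = r' + 1 := ⟨r - 1, by omega⟩
    have h3 : ((s : F) * g⁻¹) ^ (r' + 1) * w =
        (s : F) ^ r' * ((s : F) * (w * (g ^ (r' + 1))⁻¹)) := by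
      rw [mul_pow, pow_succ (s : F), inv_pow]; ring
    rw [h3]
    exact mul_mem (pow_mem s.2 r') h1

/-- **Abstract assembly of the gate.** -/
theorem h26_gate_asm
    (hAF : Function.Injective (algebraMap A F))
    (harch : ∀ c ∈ maximalIdeal A, c ≠ 0 → ∀ a : A, a ≠ 0 → ∃ k : ℕ, a ∣ c ^ k)
    (V : Subring F)
    (hVnt : ∀ m ∈ maximalIdeal A, ∀ x ∈ V, algebraMap A F m * x ≠ 1)
    (j : F) (hj : j ≠ 0) (B₀ Binf Bm : Subalgebra A F)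
    (hj₀ : j ∈ B₀) (hjinf : j⁻¹ ∈ Binf) (h0m : B₀ ≤ Bm) (hinfm : Binf ≤ Bm)
    (hm0 : ∀ x ∈ Bm, ∃ k : ℕ, j ^ k * x ∈ B₀)
    (hminf : ∀ x ∈ Bm, ∃ k : ℕ, j⁻¹ ^ k * x ∈ Binf)
    (r : ℕ) (hr : 0 < r) (hrA : IsUnit (r : A))
    (hroot₀ : ∀ x : F, x ^ r ∈ B₀ → x ∈ B₀)
    (hrootinf : ∀ x : F, x ^ r ∈ Binf → x ∈ Binf)
    (hrootm : ∀ x : F, x ^ r ∈ Bm → x ∈ Bm)
    (hqepm : ∀ a : A, algebraMap A F a ≠ 0 → ∀ x ∈ V, a • x ∈ Bm → x ∈ Bm)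
    {ι₀ ι₁ : Type*} (v₀ : ι₀ → Valuation F ℤᵐ⁰) (v₁ : ι₁ → Valuation F ℤᵐ⁰)
    (hC₀ : H26Chart B₀ V v₀) (hC₁ : H26Chart Binf V v₁)
    (hSM₀ : ∀ 𝔫 : Ideal B₀, 𝔫.IsMaximal → (maximalIdeal A).map (algebraMap A B₀) ≤ 𝔫 →
      ∃ t ∈ 𝔫, (t : F) ≠ 0 ∧ (t : F)⁻¹ ∈ V ∧ ∀ y ∈ 𝔫, ∃ s, s ∉ 𝔫 ∧
        s * y ∈ Ideal.span {t} ⊔ (maximalIdeal A).map (algebraMap A B₀))
    (hSM₁ : ∀ 𝔫 : Ideal Binf, 𝔫.IsMaximal → (maximalIdeal A).map (algebraMap A Binf) ≤ 𝔫 →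
      ∃ t ∈ 𝔫, (t : F) ≠ 0 ∧ (t : F)⁻¹ ∈ V ∧ ∀ y ∈ 𝔫, ∃ s, s ∉ 𝔫 ∧
        s * y ∈ Ideal.span {t} ⊔ (maximalIdeal A).map (algebraMap A Binf))
    (hsec₀ : ∀ (i : ι₀) (𝔫 : Ideal B₀), 𝔫.IsMaximal →
      (maximalIdeal A).map (algebraMap A B₀) ≤ 𝔫 → h26Centered B₀ v₀ 𝔫 i →
      ∃ φ : B₀ →ₐ[A] A, (∀ b : B₀, φ b = 0 ↔ v₀ i (b : F) < 1) ∧
        (RingHom.ker (φ : B₀ →+* A)).FG)
    (hsec₁ : ∀ (i : ι₁) (𝔫 : Ideal Binf), 𝔫.IsMaximal →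
      (maximalIdeal A).map (algebraMap A Binf) ≤ 𝔫 → h26Centered Binf v₁ 𝔫 i →
      ∃ φ : Binf →ₐ[A] A, (∀ b : Binf, φ b = 0 ↔ v₁ i (b : F) < 1) ∧
        (RingHom.ker (φ : Binf →+* A)).FG)
    (hgen₀ : ∀ 𝔫 : Ideal B₀, 𝔫.IsMaximal → ¬ (maximalIdeal A).map (algebraMap A B₀) ≤ 𝔫 →
      ∀ i k, h26Centered B₀ v₀ 𝔫 i → h26Centered B₀ v₀ 𝔫 k → i = k)
    (hgen₁ : ∀ 𝔫 : Ideal Binf, 𝔫.IsMaximal →
      ¬ (maximalIdeal A).map (algebraMap A Binf) ≤ 𝔫 →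
      ∀ i k, h26Centered Binf v₁ 𝔫 i → h26Centered Binf v₁ 𝔫 k → i = k)
    (S : Finset F) (hS : ∀ s ∈ S, s ∈ B₀)
    (hfin : ∀ x ∈ B₀, x ∈ Submodule.span A {y : F | ∃ a : ℕ, ∃ s ∈ S, y = j ^ a * s})
    (w : F) (hw0 : w ≠ 0)
    (hrw₀ : ∀ i, ∃ n : ℤ, v₀ i w = exp (-((r : ℤ) * n)))
    (hrw₁ : ∀ i, ∃ n : ℤ, v₁ i w = exp (-((r : ℤ) * n)))
    (π₁ : A) (hπ₁ : π₁ ∈ maximalIdeal A) (hπ₁0 : π₁ ≠ 0) (hwU : w ∈ h26U π₁ V) :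
    ∃ t : F, t ≠ 0 ∧ t ^ r * w⁻¹ ∈ B₀ ∧ t ^ r * w⁻¹ ∈ Binf := by
  classical
  have hAV : ∀ a : A, algebraMap A F a ∈ V := fun a => hC₀.hBV _ (B₀.algebraMap_mem a)
  -- the constant `π`
  obtain ⟨π₀, hπ₀, hπ₀0, hπ₀π₁, hloc₀⟩ := h26_local_all hC₀ hAF harch hVnt hSM₀ hsec₀ hgen₀
    w hw0 r hrw₀ π₁ hπ₁ hπ₁0 hwU
  have hwU₀ : w ∈ h26U π₀ V := by
    obtain ⟨a, rfl⟩ := hπ₀π₁
    obtain ⟨x, hx, rfl⟩ := hwU
    exact ⟨algebraMap A F a * x, mul_mem (hAV a) hx, by rw [map_mul]; ring⟩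
  obtain ⟨π, hπ, hπ0, hππ₀, hloc₁⟩ := h26_local_all hC₁ hAF harch hVnt hSM₁ hsec₁ hgen₁
    w hw0 r hrw₁ π₀ hπ₀ hπ₀0 hwU₀
  have hL₀ := hloc₀ π hπ hππ₀
  have hL₁ := hloc₁ π hπ dvd_rfl
  have hwUπ : w ∈ h26U π V := by
    obtain ⟨a, rfl⟩ := hππ₀
    obtain ⟨x, hx, rfl⟩ := hwU₀
    exact ⟨algebraMap A F a * x, mul_mem (hAV a) hx, by rw [map_mul]; ring⟩
  have hπF : algebraMap A F π ≠ 0 := fun h => hπ0 (hAF (by rw [h, map_zero]))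
  have hVπ : algebraMap A F π ∈ V := hAV π
  have hVinv : ∀ x ∈ V, (1 + algebraMap A F π * x)⁻¹ ∈ V := hC₀.hVunit π hπ
  have hVntπ : ∀ x ∈ V, algebraMap A F π * x ≠ 1 := hVnt π hπ
  -- the elements `e₀`, `e∞`
  have hmVstable : ∀ (B : Subalgebra A F), (∀ x ∈ B, x ∈ V) →
      ∀ b ∈ B, ∀ x ∈ h26mV π V, b * x ∈ h26mV π V := by
    rintro B hBV b hb _ ⟨y, hy, rfl⟩
    exact ⟨b * y, mul_mem (hBV b hb) hy, by ring⟩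
  obtain ⟨e₀, he₀, he₀m⟩ := h26_exists_e B₀ w r hr hroot₀ (h26mV π V)
    (hmVstable B₀ hC₀.hBV) (fun 𝔫 h𝔫 => h26_local_for_e harch π hπ0 w r hr hL₀ 𝔫 h𝔫)
  obtain ⟨einf, heinf, heinfm⟩ := h26_exists_e Binf w r hr hrootinf (h26mV π V)
    (hmVstable Binf hC₁.hBV) (fun 𝔫 h𝔫 => h26_local_for_e harch π hπ0 w r hr hL₁ 𝔫 h𝔫)
  have he₀U : e₀ ∈ h26U π V := by
    obtain ⟨y, hy, h⟩ := he₀m
    exact ⟨y, hy, by rw [← h]; ring⟩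
  have heinfU : einf ∈ h26U π V := by
    obtain ⟨y, hy, h⟩ := heinfm
    exact ⟨y, hy, by rw [← h]; ring⟩
  -- generators of `L₀`
  obtain ⟨T, hT, hgen⟩ := h26_L_gen_of_local B₀ j w hw0 r hr hroot₀ S hS hfin
    (fun 𝔫 h𝔫 => h26_local_for_L π w r hr hL₀ 𝔫 h𝔫)
  -- `H¹` is finitely generated up to `L₀ + L∞`
  obtain ⟨G, hG, hGle⟩ := h26_H1_fg (h26L B₀ w r hr hroot₀) (h26L Binf w r hr hrootinf)
    (h26L Bm w r hr hrootm) j hj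
    (fun f hf => h26_mul_mem_L hj₀ hf) (fun f hf => h26_mul_mem_L hjinf hf) (h26_L_mono h0m)
    (fun f hf => h26_L_exists_pow j hj₀ hm0 hf)
    (fun f hf => h26_L_exists_pow j⁻¹ hjinf hminf hf) T hT hgen
  -- bounded torsion
  obtain ⟨k, hk⟩ := h26_pow_torsion_bound π hπ0 (harch π hπ hπ0)
    (h26L B₀ w r hr hroot₀ ⊔ h26L Binf w r hr hrootinf) G hG
  -- the gate
  refine h26_gate_core π r hr hrA V hVπ hVinv hVntπ B₀ Binf Bm h0m hinfm hC₀.hBV hC₁.hBV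
    hroot₀ hrootinf hrootm ?_ ?_ ?_ w hwUπ ⟨k, fun f hf hn => hk f (hGle hf) hn⟩
    e₀ he₀ he₀U einf heinf heinfU
  · intro x hx h
    exact hC₀.hQEP π hπF x hx (by rw [Algebra.smul_def]; exact h)
  · intro x hx h
    exact hC₁.hQEP π hπF x hx (by rw [Algebra.smul_def]; exact h)
  · intro x hx h
    exact hqepm π hπF x hx (by rw [Algebra.smul_def]; exact h)

end Asm

end Fermat.Agent.Red
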