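import Fermat.Agent.Red.GGInst
import Fermat.Agent.Red.GateAsm
import Fermat.Agent.Red.ModelO.Mid
import Fermat.Agent.S05.RealOrdExists

/-!
# P-RED, R-GATEGOOD (helper26): `GateGood` from the chart inputs

`gateGood_of_pieces : IfaceGatePieces → GateGood`, where `IfaceGatePieces` collects, at every
good level, the interface statements of `Red/GGDefs.lean` for the two charts `t = j`,
`t = 1/j`: `IfaceChart`, `IfaceFinite` (finite chart only), `IfaceSection`, `IfaceGeneric`,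
`IfaceLocalUnif`.  Everything else (Gauss ring, overlap chart, rank one, `CongOne`) is taken
from the landed files `Red/GV/Bar.lean`, `Red/ModelO/*.lean`, `S05/RealOrdExists.lean`.
-/

set_option autoImplicit false
set_option linter.unusedSectionVars false

open AlgebraicCurve WithZero IsLocalRing

noncomputable section

namespace Fermat.Agent.Red.GG

open Fermat.Agent.S37 Fermat.Agent.Red.GV Fermat.Agent.Red.ModelO

/-- the package of chart inputs at the good levels. -/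
def IfaceGatePieces : Prop :=
  ∀ (ℓ : ℕ), ℓ.Prime → ∀ (M : ℕ) [NeZero M], ¬ ℓ ∣ M → auxLevel ℓ ∣ M →
    ∀ A : ValuationSubring Kbar, A.LiesOverPrime ℓ →
      (IfaceChart M A (jB M) ∧ IfaceChart M A (jB M)⁻¹) ∧
      IfaceFinite M A (jB M) ∧
      (IfaceSection M A (jB M) ∧ IfaceSection M A (jB M)⁻¹) ∧
      (IfaceGeneric M A (jB M) ∧ IfaceGeneric M A (jB M)⁻¹) ∧
      (IfaceLocalUnif M A (jB M) ∧ IfaceLocalUnif M A (jB M)⁻¹)

variable (M : ℕ) [NeZero M] (A : ValuationSubring Kbar)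

/-- the overlap chart as a subalgebra. -/
def chartMid : Subalgebra A (FF M) :=
  { h85modelMid M A with
    algebraMap_mem' := fun a => h85_modelFin_le_modelMid M A (h85_cst_mem_modelAt M A _ a.2) }

theorem mem_chartMid {x : FF M} : x ∈ chartMid M A ↔ x ∈ h85modelMid M A := Iff.rfl

theorem algebraMap_injective_FF : Function.Injective (algebraMap A (FF M)) := by
  intro a b h
  have h1 : cst M (a : Kbar) = cst M (b : Kbar) := h
  exact Subtype.ext ((algebraMap Kbar (FF M)).injective h1)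

/-- rank one. -/
theorem harch_of_liesOver {ℓ : ℕ} (hℓ : ℓ.Prime) (hA : A.LiesOverPrime ℓ) :
    ∀ c ∈ maximalIdeal A, c ≠ 0 → ∀ a : A, a ≠ 0 → ∃ k : ℕ, a ∣ c ^ k := by
  obtain ⟨v, -, hv1, hv2, -⟩ := Fermat.Agent.S05.exists_realOrd' A hℓ hA
  intro c hc hc0 a ha0
  have hcK : (c : Kbar) ≠ 0 := fun h => hc0 (Subtype.ext h)
  have haK : (a : Kbar) ≠ 0 := fun h => ha0 (Subtype.ext h)
  have hcpos : 0 < v.ord (c : Kbar) := (hv2 _ hcK).mp ((mem_maximalIdeal_iff A c).mp hc)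
  obtain ⟨k, hk⟩ := Archimedean.arch (v.ord (a : Kbar)) hcpos
  refine ⟨k, ?_⟩
  have hx0 : (c : Kbar) ^ k * (a : Kbar)⁻¹ ≠ 0 :=
    mul_ne_zero (pow_ne_zero _ hcK) (inv_ne_zero haK)
  have hxA : (c : Kbar) ^ k * (a : Kbar)⁻¹ ∈ A := by
    rw [hv1 _ hx0, v.ord_mul (pow_ne_zero _ hcK) (inv_ne_zero haK), v.ord_pow hcK,
      v.ord_inv haK]
    rw [nsmul_eq_mul] at hk
    linarith
  refine ⟨⟨_, hxA⟩, ?_⟩
  apply Subtype.ext
  push_cast
  field_simp

/-- a prime `r ≠ ℓ` is a unit of `A`. -/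
theorem isUnit_natCast_of_ne {ℓ : ℕ} (hℓ : ℓ.Prime) (hA : A.LiesOverPrime ℓ) {r : ℕ}
    (hr : r.Prime) (hrℓ : r ≠ ℓ) : IsUnit ((r : ℕ) : A) := by
  rw [← IsLocalRing.notMem_maximalIdeal]
  intro hmem
  have hℓmem : ((ℓ : ℕ) : A) ∈ maximalIdeal A := by
    rw [mem_maximalIdeal_iff]
    exact hA
  have hcop : IsCoprime (r : ℤ) (ℓ : ℤ) :=
    Nat.isCoprime_iff_coprime.mpr ((Nat.coprime_primes hr hℓ).mpr hrℓ)
  obtain ⟨a, b, hab⟩ := hcop
  have h1 : ((a : ℤ) : A) * ((r : ℕ) : A) + ((b : ℤ) : A) * ((ℓ : ℕ) : A) = 1 := by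
    have := congrArg (Int.cast : ℤ → A) hab
    push_cast at this
    exact this
  have h2 : (1 : A) ∈ maximalIdeal A := by
    rw [← h1]
    exact Ideal.add_mem _ (Ideal.mul_mem_left _ _ hmem) (Ideal.mul_mem_left _ _ hℓmem)
  exact (Ideal.ne_top_iff_one _).mp (IsLocalRing.maximalIdeal.isMaximal A).ne_top h2

/-- `1 ∉ 𝔪_A V`. -/
theorem hVnt_gaussV {ℓ : ℕ} (hA : A.LiesOverPrime ℓ) :
    ∀ m ∈ maximalIdeal A, ∀ x ∈ gaussV A M, algebraMap A (FF M) m * x ≠ 1 := by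
  intro m hm x hx h
  have hm0 : (m : Kbar) ≠ 0 := by
    intro h0
    have : algebraMap A (FF M) m = 0 := by
      show cst M (m : Kbar) = 0
      rw [h0]; exact map_zero _
    rw [this, zero_mul] at h
    exact zero_ne_one h
  have hx' : x = cst M ((m : Kbar)⁻¹) := by
    have h1 : cst M (m : Kbar) * x = 1 := h
    have h2 : cst M (m : Kbar) ≠ 0 := by
      simpa only [cst, ne_eq, map_eq_zero] using hm0
    rw [cst, map_inv₀]
    exact eq_inv_of_mul_eq_one_right h1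
  rw [hx', cst_mem_gaussV_iff A M hA] at hx
  have hnu := (mem_maximalIdeal_iff A m).mp hm
  rw [ValuationSubring.mem_nonunits_iff_or] at hnu
  rcases hnu with h0 | h0
  · exact hm0 h0
  · exact h0 hx

/-- FINITE in the span form. -/
theorem span_of_ifaceFinite (t : FF M) (h : IfaceFinite M A t) :
    ∃ S : Finset (FF M), (∀ s ∈ S, s ∈ chart M A t) ∧
      ∀ x ∈ chart M A t,
        x ∈ Submodule.span A {y : FF M | ∃ a : ℕ, ∃ s ∈ S, y = t ^ a * s} := by
  obtain ⟨S, hS, hfin⟩ := h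
  refine ⟨S, hS, fun x hx => ?_⟩
  obtain ⟨c, rfl⟩ := hfin x hx
  refine Submodule.sum_mem _ fun s hs => ?_
  have h1 : h85ev M A t (c s) * s =
      ∑ a ∈ Finset.range ((c s).natDegree + 1), ((c s).coeff a) • (t ^ a * s) := by
    rw [h85ev, Polynomial.coe_eval₂RingHom, Polynomial.eval₂_eq_sum_range, Finset.sum_mul]
    refine Finset.sum_congr rfl fun a _ => ?_
    rw [mul_assoc]
    rfl
  rw [h1]
  exact Submodule.sum_mem _ fun a _ =>
    Submodule.smul_mem _ _ (Submodule.subset_span ⟨a, s, hs, rfl⟩)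

/-- divisibility of the orders, in terms of the valuations. -/
theorem exists_val_eq (t : FF M) (w : FF M) (hw0 : w ≠ 0) (r : ℕ)
    (hrw : ∀ v : Place Kbar (FF M), (r : ℤ) ∣ v.ord w) (i : ChartPlace M t) :
    ∃ n : ℤ, chartVal M t i w = exp (-((r : ℤ) * n)) := by
  obtain ⟨n, hn⟩ := hrw i.1
  refine ⟨n, ?_⟩
  have h1 : i.1.adicValuation w ≠ 0 := i.1.adicValuation_ne_zero hw0
  have h2 : i.1.ord w = -(log (i.1.adicValuation w)) := rfl
  show i.1.adicValuation w = _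
  rw [← hn, h2, neg_neg, exp_log h1]

set_option maxHeartbeats 400000 in
/-- `CongOne` gives a congruence modulo `π V`. -/
theorem exists_mem_U_of_congOne {ℓ : ℕ} (hℓ : ℓ.Prime) (hM : ¬ ℓ ∣ M)
    (hA : A.LiesOverPrime ℓ) (w : FF M) (hw : CongOne A w) :
    ∃ π₁ : A, π₁ ∈ maximalIdeal A ∧ π₁ ≠ 0 ∧ w ∈ h26U π₁ (gaussV A M) := by
  have : Fact ℓ.Prime := ⟨hℓ⟩
  obtain ⟨hwV, hred⟩ := (congOne_iff_gaussR A M hℓ hM hA w).mp hw
  have h1 : gaussR A M ((⟨w, hwV⟩ : gaussV A M) - 1) = 0 := by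
    rw [map_sub, hred, map_one, sub_self]
  obtain ⟨c, x', hc0, hcnu, hx', hxx'⟩ := exists_eq_mul_of_gaussRed_eq_zero A
    (IsLocalRing.residue A) M ℓ (isResidueMap_residue A ℓ hA) hM
    ((⟨w, hwV⟩ : gaussV A M) - 1) h1
  have h2 : w - 1 = cst M (c : Kbar) * x' := hxx'
  refine ⟨c, (mem_maximalIdeal_iff A c).mpr hcnu, hc0, x', hx', ?_⟩
  show w = 1 + cst M (c : Kbar) * x'
  rw [← h2]
  ring

set_option maxHeartbeats 1600000 in
/-- **`GateGood` from the chart inputs.** -/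
theorem gateGood_of_pieces (h : IfaceGatePieces) : GateGood := by
  intro ℓ hℓ M _ hM haux A hA r hr hrℓ w hw0 hrw hcong
  obtain ⟨⟨hC₀, hC₁⟩, hFin, ⟨hsec₀, hsec₁⟩, ⟨hgen₀, hgen₁⟩, ⟨hLU₀, hLU₁⟩⟩ :=
    h ℓ hℓ M hM haux A hA
  obtain ⟨S, hS, hfin⟩ := span_of_ifaceFinite M A (jB M) hFin
  obtain ⟨π₁, hπ₁, hπ₁0, hwU⟩ := exists_mem_U_of_congOne M A hℓ hM hA w hcong
  have hjV : jB M ∈ gaussV A M := modelFin_le_gaussV A M hℓ hM hA (h85_jB_mem_modelFin M A)
  obtain ⟨t, ht0, ht₀, htinf⟩ := h26_gate_asm (algebraMap_injective_FF M A)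
    (harch_of_liesOver A hℓ hA) (gaussV A M) (hVnt_gaussV M A hA) (jB M) (h85_jB_ne_zero M)
    (chart M A (jB M)) (chart M A (jB M)⁻¹) (chartMid M A)
    (h85_jB_mem_modelFin M A) (h85_jB_inv_mem_modelInf M A)
    (h85_modelFin_le_modelMid M A) (h85_modelInf_le_modelMid M A)
    (fun x hx => h85_modelMid_scale_fin M A hx) (fun x hx => h85_modelMid_scale_inf M A hx)
    r hr.pos (isUnit_natCast_of_ne A hℓ hA hr hrℓ)
    (fun x hx => h85_modelAt_root_closed M A _ hr.ne_zero hx)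
    (fun x hx => h85_modelAt_root_closed M A _ hr.ne_zero hx)
    (fun x hx => h85_modelMid_root_closed M A hr.ne_zero hx)
    (fun a ha x hx hax => h85_modelMid_qep M A (gaussV A M) hjV (algebraMap A (FF M) a)
      (fun y hy hay => hC₀.hQEP a ha y hy (by rw [Algebra.smul_def]; exact hay)) hx
      (by rw [Algebra.smul_def] at hax; exact hax))
    (chartVal M (jB M)) (chartVal M (jB M)⁻¹) hC₀ hC₁ hLU₀ hLU₁ hsec₀ hsec₁ hgen₀ hgen₁
    S hS hfin w hw0 (exists_val_eq M (jB M) w hw0 r hrw) (exists_val_eq M (jB M)⁻¹ w hw0 r hrw)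
    π₁ hπ₁ hπ₁0 hwU
  -- `t ^ r / w` is a constant
  obtain ⟨a, -, ha⟩ := h85_modelFin_inf_modelInf M A ht₀ htinf
  have ha0 : a ≠ 0 := by
    rintro rfl
    rw [cst, map_zero] at ha
    exact mul_ne_zero (pow_ne_zero _ ht0) (inv_ne_zero hw0) ha
  obtain ⟨b, hb⟩ := IsAlgClosed.exists_pow_nat_eq a hr.pos
  have hb0 : b ≠ 0 := by
    rintro rfl
    rw [zero_pow hr.ne_zero] at hb
    exact ha0 hb.symm
  have hcb0 : cst M b ≠ 0 := by
    simpa only [cst, ne_eq, map_eq_zero] using hb0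
  refine ⟨t * (cst M b)⁻¹, ?_⟩
  have h1 : cst M b ^ r = t ^ r * w⁻¹ := by
    rw [ha, ← hb]
    exact (map_pow _ _ _).symm
  rw [mul_pow, inv_pow, h1]
  field_simp

end Fermat.Agent.Red.GG
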