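import Fermat.Agent.S37.Gate
import Fermat.Agent.Red.HKMod
import Fermat.Agent.Red.GV.Asm3
import Fermat.Agent.S28.PartOne

/-!
# P-RED, module R-GATE (helper99)

* `gatePrime_of` : the gate for prime exponents at every level `N` from the gate at good
  levels (`GateGood`) and the descent of roots (`IfaceGateDescent`).
* `gate_of_gatePrime` : the gate for prime exponents implies the gate for every exponent prime
  to `ℓ` (induction on the exponent; the root produced by the prime gate is normalised by a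
  root of unity so that it is again `≡ 1` modulo the Gauss valuation).
-/

set_option autoImplicit false

open AlgebraicCurve ModularCurve IntermediateField

noncomputable section

namespace Fermat.Agent.Red.GateAll

open Fermat.Agent.S37 Fermat.Agent.Red.GV Fermat.Agent.Red.GV.Asm

/-! ## Part 1: from good levels to all levels -/

theorem h99_degen_jB {N M : ℕ} [NeZero N] [NeZero M] (h : N ∣ M) :
    degen h (jB N) = jB M :=
  Subtype.ext (by rw [coe_degen]; rfl)

theorem h99_finiteAlong_degen {N M : ℕ} [NeZero N] [NeZero M] (h : N ∣ M) :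
    FiniteAlong Kbar (degen h) := by
  have : FiniteDimensional Kbar⟮degen h (jB N)⟯ (FF M) := by
    rw [h99_degen_jB]
    exact Fermat.Agent.Red.HKMod.finiteDimensional_jBar M
  exact Fermat.Agent.Red.HKMod.finiteAlong_of_finiteDimensional_adjoin (degen h) (jB N)

theorem h99_isIntegral_degen {N M : ℕ} [NeZero N] [NeZero M] (h : N ∣ M) :
    (degen h).toRingHom.IsIntegral :=
  Fermat.Agent.Red.HKMod.isIntegral_of_finiteAlong _ (h99_finiteAlong_degen h)

theorem h99_congOne_degen {N M : ℕ} [NeZero N] [NeZero M] (h : N ∣ M)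
    (A : ValuationSubring Kbar) (w : FF N) (hw : CongOne A w) : CongOne A (degen h w) := by
  obtain ⟨a, b, hb, hab, hred⟩ := hw
  exact ⟨a, b, hb, by rw [coe_degen]; exact hab, hred⟩

theorem gatePrime_of (hG : GateGood) (hD : IfaceGateDescent) (N : ℕ) [NeZero N] :
    GatePrime N := by
  intro ℓ hℓ hℓN A hA r hr hrℓ w hw hord hcong
  refine hD ℓ N r hr w hw hord ?_
  refine hG ℓ hℓ (goodLevel ℓ N) (not_dvd_goodLevel hℓ hℓN) (auxLevel_dvd_goodLevel ℓ N) A hA
    r hr hrℓ (degen (dvd_goodLevel ℓ N) w) ?_ ?_ (h99_congOne_degen _ A w hcong)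
  · intro h0
    exact hw ((degen (dvd_goodLevel ℓ N)).toRingHom.injective (by simpa using h0))
  · intro v
    rw [Place.ord_restrictAlong (degen (dvd_goodLevel ℓ N)) (h99_isIntegral_degen _) v w]
    exact Dvd.dvd.mul_left (hord _) _

/-! ## Part 2: from prime exponents to all exponents prime to `ℓ` -/

/-- the residue map of `A` satisfies the standing hypotheses of the Gauss valuation library. -/
theorem h99_isResidueMap (A : ValuationSubring Kbar) (ℓ : ℕ) (hA : A.LiesOverPrime ℓ) :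
    IsResidueMap A (IsLocalRing.residue A) ℓ where
  ker_eq a := by
    rw [IsLocalRing.residue_eq_zero_iff, ValuationSubring.coe_mem_nonunits_iff]
  natCast_mem := hA

/-- an element one of whose powers is in `A` is in `A`. -/
theorem h99_mem_of_pow_mem (A : ValuationSubring Kbar) (r : ℕ) (hr : 0 < r) (z : Kbar)
    (hz : z ^ r ∈ A) : z ∈ A := by
  rw [← A.valuation_le_one_iff] at hz ⊢
  rw [map_pow] at hz
  exact (pow_le_one_iff hr.ne').1 hz

/-- roots of unity lie in every valuation subring. -/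
theorem h99_mem_of_pow_eq_one (A : ValuationSubring Kbar) (r : ℕ) (hr : 0 < r) (z : Kbar)
    (hz : z ^ r = 1) : z ∈ A :=
  h99_mem_of_pow_mem A r hr z (by rw [hz]; exact A.one_mem)

/-- A scalar `e` with `e · emb y₁ = emb y₂`, `y₁, y₂ ≢ 0 mod 𝔪` is a unit of `A`. -/
theorem h99_unit_of_rep (A : ValuationSubring Kbar) {k : Type} [Field k]
    (π : A →+* k) (hker : ∀ a : A, π a = 0 ↔ (a : Kbar) ∈ A.nonunits)
    (e : Kbar) (he : e ≠ 0) (y₁ y₂ : LaurentSeries A)
    (h₁ : redA π y₁ ≠ 0) (h₂ : redA π y₂ ≠ 0)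
    (h : HahnSeries.C e * embA A y₁ = embA A y₂) : e ∈ A ∧ e⁻¹ ∈ A := by
  constructor
  · by_contra hn
    have hinv := inv_mem_nonunits_of_notMem A e hn
    have hinvA : e⁻¹ ∈ A := mem_of_mem_nonunits A _ hinv
    have h1 : y₁ = HahnSeries.C (⟨e⁻¹, hinvA⟩ : A) * y₂ := by
      apply embA_injective A
      rw [embA_C_mul, ← h, ← mul_assoc, ← map_mul, inv_mul_cancel₀ he, map_one, one_mul]
    have h2 := congrArg (redA π) h1
    rw [redA_C_mul_of_nonunit π hker _ hinv] at h2
    exact h₁ h2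
  · by_contra hn
    have hnu := inv_mem_nonunits_of_notMem A e⁻¹ hn
    rw [inv_inv] at hnu
    have heA : e ∈ A := mem_of_mem_nonunits A _ hnu
    have h1 : HahnSeries.C (⟨e, heA⟩ : A) * y₁ = y₂ := by
      apply embA_injective A
      rw [embA_C_mul, h]
    have h2 := congrArg (redA π) h1
    rw [redA_C_mul_of_nonunit π hker _ hnu] at h2
    exact h₂ h2.symm

/-- an `r`-th root of unity of a domain `S` which is an algebra over a domain `A` having a
primitive `r`-th root of unity comes from `A`. -/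
theorem h99_root_of_unity_from {A S : Type*} [CommRing A] [IsDomain A] [CommRing S] [IsDomain S]
    (f : A →+* S) (r : ℕ) (hr : 0 < r) (ζ : A) (hζ : IsPrimitiveRoot ζ r)
    (ρ : S) (hρ : ρ ^ r = 1) : ∃ a : A, a ^ r = 1 ∧ ρ = f a := by
  classical
  have h := Polynomial.X_pow_sub_one_eq_prod hr hζ
  have h2 := congrArg (Polynomial.eval₂ f ρ) h
  rw [Polynomial.eval₂_sub, Polynomial.eval₂_pow, Polynomial.eval₂_X, Polynomial.eval₂_one, hρ,
    sub_self, Polynomial.eval₂_finsetProd] at h2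
  obtain ⟨a, ha, h3⟩ := Finset.prod_eq_zero_iff.1 h2.symm
  rw [Polynomial.eval₂_sub, Polynomial.eval₂_X, Polynomial.eval₂_C, sub_eq_zero] at h3
  exact ⟨a, ((Polynomial.mem_nthRootsFinset hr 1).1 ha), h3⟩

/-- a primitive `r`-th root of unity inside `A`. -/
theorem h99_exists_primitiveRoot (A : ValuationSubring Kbar) (r : ℕ) (hr : 0 < r) :
    ∃ ζ : A, IsPrimitiveRoot ζ r := by
  have : NeZero (r : ℚ) := ⟨by exact_mod_cast hr.ne'⟩
  obtain ⟨ζ, hζ⟩ := HasEnoughRootsOfUnity.exists_primitiveRoot Kbar r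
  have hmem : ζ ∈ A := h99_mem_of_pow_eq_one A r hr ζ hζ.pow_eq_one
  exact ⟨⟨ζ, hmem⟩, IsPrimitiveRoot.of_map_of_injective (f := A.subtype) hζ A.subtype_injective⟩

/-- **Root normalisation, series form.**  If `x ^ r = a / b` with `a ≡ b ≢ 0` modulo `𝔪_A`,
then `x = y / z` with `y ≡ ζ z ≢ 0` for an `r`-th root of unity `ζ ∈ A`. -/
theorem h99_root_normalize (N ℓ : ℕ) [NeZero N] (hℓ : ℓ.Prime) (hℓN : ¬ ℓ ∣ N)
    (A : ValuationSubring Kbar) (hA : A.LiesOverPrime ℓ) (r : ℕ) (hr : 0 < r)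
    (x : LaurentSeries Kbar) (hx : x ∈ FK Kbar N)
    (a b : LaurentSeries A) (hb : redA (IsLocalRing.residue A) b ≠ 0)
    (hab : embA A a = x ^ r * embA A b)
    (hred : redA (IsLocalRing.residue A) a = redA (IsLocalRing.residue A) b) :
    ∃ (ζ : A) (y z : LaurentSeries A), (ζ : Kbar) ^ r = 1 ∧
      redA (IsLocalRing.residue A) z ≠ 0 ∧ embA A y = x * embA A z ∧
      redA (IsLocalRing.residue A) y =
        HahnSeries.C (IsLocalRing.residue A ζ) * redA (IsLocalRing.residue A) z := by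
  have : Fact ℓ.Prime := ⟨hℓ⟩
  have hπ : IsResidueMap A (IsLocalRing.residue A) ℓ := h99_isResidueMap A ℓ hA
  obtain ⟨D⟩ := Fermat.Agent.S28.exists_igusaInput N ℓ hℓN
  have ha0 : redA (IsLocalRing.residue A) a ≠ 0 := hred ▸ hb
  have hx0 : x ≠ 0 := by
    rintro rfl
    rw [zero_pow hr.ne', zero_mul] at hab
    have : a = 0 := embA_injective A (by rw [hab, map_zero])
    exact ha0 (by rw [this, map_zero])
  obtain ⟨c, Dn, P, bb, hc, hDn, hbb, -, hrep⟩ :=
    exists_gauss_rep A (IsLocalRing.residue A) N ℓ hπ D x hx hx0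
  set dj : LaurentSeries A := Fermat.Agent.S28.evalC (jqModC A) Dn with hdj
  have hdjE : embA A dj = evalA A (jK Kbar) Dn := embA_evalC_j A Dn
  have hdjR : redA (IsLocalRing.residue A) dj ≠ 0 := redA_evalC_j_ne_zero _ Dn hDn
  rw [← hdjE] at hrep
  -- `c ^ r` is a unit
  have hpow : HahnSeries.C (c ^ r) * embA A (dj ^ r * a) = embA A (bb ^ r * b) := by
    simp only [map_mul, map_pow]
    rw [hab, ← hrep]
    ring
  have h1 : redA (IsLocalRing.residue A) (dj ^ r * a) ≠ 0 := by
    rw [map_mul, map_pow]; exact mul_ne_zero (pow_ne_zero _ hdjR) ha0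
  have h2 : redA (IsLocalRing.residue A) (bb ^ r * b) ≠ 0 := by
    rw [map_mul, map_pow]; exact mul_ne_zero (pow_ne_zero _ hbb) hb
  obtain ⟨hcr, hcr'⟩ :=
    h99_unit_of_rep A _ hπ.ker_eq (c ^ r) (pow_ne_zero _ hc) _ _ h1 h2 hpow
  have hcA' : c⁻¹ ∈ A := h99_mem_of_pow_mem A r hr c⁻¹ (by rwa [inv_pow])
  -- `y`, `z`
  set y : LaurentSeries A := HahnSeries.C (⟨c⁻¹, hcA'⟩ : A) * bb with hy
  have hyE : embA A y = x * embA A dj := by
    rw [hy, embA_C_mul, ← hrep, ← mul_assoc, ← map_mul, inv_mul_cancel₀ hc, map_one, one_mul,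
      mul_comm]
  have hrel : y ^ r * b = dj ^ r * a := by
    apply embA_injective A
    rw [map_mul, map_mul, map_pow, map_pow, hyE, hab]
    ring
  have hrelR : (redA (IsLocalRing.residue A) y) ^ r = (redA (IsLocalRing.residue A) dj) ^ r := by
    have := congrArg (redA (IsLocalRing.residue A)) hrel
    rw [map_mul, map_mul, map_pow, map_pow, hred] at this
    exact mul_right_cancel₀ hb this
  have hρ : (redA (IsLocalRing.residue A) y / redA (IsLocalRing.residue A) dj) ^ r = 1 := by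
    rw [div_pow, hrelR, div_self (pow_ne_zero _ hdjR)]
  obtain ⟨ζ, hζ⟩ := h99_exists_primitiveRoot A r hr
  obtain ⟨t, ht, hρt⟩ := h99_root_of_unity_from
    ((HahnSeries.C : IsLocalRing.ResidueField A →+* LaurentSeries (IsLocalRing.ResidueField A)).comp
      (IsLocalRing.residue A)) r hr ζ hζ _ hρ
  refine ⟨t, y, dj, ?_, hdjR, hyE, ?_⟩
  · have := congrArg (fun u : A => (u : Kbar)) ht
    simpa using this
  · rw [div_eq_iff hdjR] at hρt
    rw [hρt]; rfl

theorem h99_coe_cst_mul (N : ℕ) (c : Kbar) (f : FF N) :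
    ((cst N c * f : FF N) : LaurentSeries Kbar) = HahnSeries.C c * (f : LaurentSeries Kbar) := by
  have h1 : (HahnSeries.C c : LaurentSeries Kbar) = algebraMap Kbar (LaurentSeries Kbar) c := by
    rw [algebraMap_laurentSeries_eq_single]; rfl
  rw [h1]
  rfl

/-- **Root normalisation.**  An `r`-th root of a function `≡ 1` can be chosen `≡ 1`. -/
theorem h99_congOne_root (N ℓ : ℕ) [NeZero N] (hℓ : ℓ.Prime) (hℓN : ¬ ℓ ∣ N)
    (A : ValuationSubring Kbar) (hA : A.LiesOverPrime ℓ) (r : ℕ) (hr : 0 < r)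
    (h1 w : FF N) (hpow : h1 ^ r = w) (hcong : CongOne A w) :
    ∃ h' : FF N, h' ^ r = w ∧ CongOne A h' := by
  obtain ⟨a, b, hb, hab, hred⟩ := hcong
  have hx : (h1 : LaurentSeries Kbar) ∈ FK Kbar N := h1.2
  have hab' : embA A a = (h1 : LaurentSeries Kbar) ^ r * embA A b := by
    rw [← hpow] at hab
    exact hab
  obtain ⟨ζ, y, z, hζ, hz, hyz, hred'⟩ :=
    h99_root_normalize N ℓ hℓ hℓN A hA r hr _ hx a b hb hab' hred
  have hζ0 : (ζ : Kbar) ≠ 0 := by
    intro h0
    rw [h0, zero_pow hr.ne'] at hζ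
    exact zero_ne_one hζ
  have hπζ : IsLocalRing.residue A ζ ≠ 0 := by
    intro h0
    have h3 : (ζ : Kbar) ∈ A.nonunits := ((h99_isResidueMap A ℓ hA).ker_eq ζ).1 h0
    have h4 : ((ζ : Kbar) ^ r) ∈ A.nonunits := by
      rw [ValuationSubring.mem_nonunits_iff] at h3 ⊢
      rw [map_pow]
      exact pow_lt_one₀ zero_le h3 hr.ne'
    rw [hζ] at h4
    exact ((ValuationSubring.mem_nonunits_iff A).1 h4).ne (map_one _)
  refine ⟨cst N (ζ : Kbar)⁻¹ * h1, ?_, y, HahnSeries.C ζ * z, ?_, ?_, ?_⟩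
  · rw [mul_pow, hpow, ← map_pow, inv_pow, hζ, inv_one, map_one, one_mul]
  · show redA (IsLocalRing.residue A) (HahnSeries.C ζ * z) ≠ 0
    rw [redA_C_mul]
    exact mul_ne_zero ((map_ne_zero _).2 hπζ) hz
  · show embA A y = _ * embA A (HahnSeries.C ζ * z)
    rw [h99_coe_cst_mul, embA_C_mul, hyz]
    have h5 : (HahnSeries.C (ζ : Kbar)⁻¹ : LaurentSeries Kbar) * HahnSeries.C (ζ : Kbar) = 1 := by
      rw [← map_mul, inv_mul_cancel₀ hζ0, map_one]
    calc (h1 : LaurentSeries Kbar) * embA A z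
        = (HahnSeries.C (ζ : Kbar)⁻¹ * HahnSeries.C (ζ : Kbar)) *
            ((h1 : LaurentSeries Kbar) * embA A z) := by rw [h5, one_mul]
      _ = _ := by ring
  · show redA (IsLocalRing.residue A) y = redA (IsLocalRing.residue A) (HahnSeries.C ζ * z)
    rw [redA_C_mul, hred']

/-- **R-GATE (2)**: the gate for prime exponents implies the gate for all exponents prime to
`ℓ`. -/
theorem gate_of_gatePrime (N : ℕ) [NeZero N] (h : GatePrime N) : Gate N := by
  intro ℓ hℓ hℓN A hA m
  induction m using Nat.strong_induction_on with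
  | _ m ih =>
    intro hℓm w hw hord hcong
    rcases Nat.lt_or_ge m 2 with hm | hm
    · interval_cases m
      · exact absurd (dvd_zero ℓ) hℓm
      · exact ⟨w, pow_one w⟩
    · have hrp : (m.minFac).Prime := Nat.minFac_prime (by omega)
      obtain ⟨m', hm'⟩ : m.minFac ∣ m := Nat.minFac_dvd m
      have hrℓ : m.minFac ≠ ℓ := by
        intro he
        exact hℓm (he ▸ Nat.minFac_dvd m)
      have hm'pos : 0 < m' := by
        rcases Nat.eq_zero_or_pos m' with h0 | h0
        · rw [h0, mul_zero] at hm'; omega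
        · exact h0
      have hm'lt : m' < m := by
        have := hrp.two_le
        nlinarith
      have hℓm' : ¬ ℓ ∣ m' := fun hd => hℓm (hm'.symm ▸ Dvd.dvd.mul_left hd _)
      obtain ⟨h1, hh1⟩ := h ℓ hℓ hℓN A hA m.minFac hrp hrℓ w hw
        (fun v => (Int.natCast_dvd_natCast.2 (Nat.minFac_dvd m)).trans (hord v)) hcong
      obtain ⟨h1', hh1', hc1⟩ := h99_congOne_root N ℓ hℓ hℓN A hA m.minFac hrp.pos h1 w hh1 hcong
      have h1'0 : h1' ≠ 0 := by
        rintro rfl
        rw [zero_pow hrp.ne_zero] at hh1'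
        exact hw hh1'.symm
      have hord' : ∀ v : Place Kbar (FF N), (m' : ℤ) ∣ v.ord h1' := by
        intro v
        have h3 := hord v
        rw [← hh1', ← zpow_natCast, Place.ord_zpow] at h3
        have h4 : ((m : ℕ) : ℤ) = (m.minFac : ℤ) * (m' : ℤ) := by exact_mod_cast hm'
        rw [h4] at h3
        exact (mul_dvd_mul_iff_left (by exact_mod_cast hrp.ne_zero)).1 h3
      obtain ⟨h2, hh2⟩ := ih m' hm'lt hℓm' h1' h1'0 hord' hc1
      exact ⟨h2, by rw [hm', mul_comm, pow_mul, hh2, hh1']⟩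

end Fermat.Agent.Red.GateAll
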