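import Fermat.Agent.Red.GFF

/-!
# P-RED, module HK-COMM (WA): weak approximation in a fibre of a finite extension of function
fields, and the `Along` forms of the fundamental identity and of the norm formula

`K` is a field of characteristic zero, `F'/F` a finite extension of function fields over `K`
(in the sense of the Prelude: fields over `K` with `HasPrincipalDivisors K F'`).

* `exists_intValuation_eq` : abstract weak approximation in a Dedekind domain (CRT).
* `exists_ord_eq_fiber_nat`, `exists_ord_eq_fiber` : an element of `F'` with prescribed orders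
  at all places over a given place `v` of `F`.
* `exists_ord_eq_one_fiber` (+ `Along` form) : order one at `w`, order zero at the other places
  over `v`.
* `sum_fiberAlong_ord_eq_ord_norm`, `sum_ramificationIndexAlong_eq_finrankAlong` : `Along` forms
  of the pointwise norm formula and of the fundamental identity of `Red/GFF.lean`.
-/

set_option autoImplicit false

noncomputable section

namespace Fermat.Agent.Red.GFF

open IsDedekindDomain AlgebraicCurve WithZero IntermediateField
open Fermat.Agent.S24

section AbstractApprox

variable {R : Type*} [CommRing R] [IsDedekindDomain R]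

/-- **Weak approximation**, integral form: in a Dedekind domain one can prescribe the
valuations at finitely many primes. -/
theorem exists_intValuation_eq {ι : Type*} (s : Finset ι) (P : ι → HeightOneSpectrum R)
    (hP : Set.InjOn P s) (n : ι → ℕ) :
    ∃ y : R, y ≠ 0 ∧ ∀ i ∈ s, (P i).intValuation y = exp (-(n i : ℤ)) := by
  classical
  rcases s.eq_empty_or_nonempty with rfl | ⟨i₀, hi₀⟩
  · exact ⟨1, one_ne_zero, by simp⟩
  choose π hπ using fun i : ι => (P i).intValuation_exists_uniformizer
  obtain ⟨y, hy⟩ := IsDedekindDomain.exists_forall_sub_mem_ideal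
    (s := s) (fun i => (P i).asIdeal) (fun i => n i + 1) (fun i _ => (P i).prime)
    (fun i hi j hj hij h => hij (hP hi hj (HeightOneSpectrum.ext h)))
    (fun i => π i ^ n i)
  have key : ∀ i ∈ s, (P i).intValuation y = exp (-(n i : ℤ)) := by
    intro i hi
    have h1 : (P i).intValuation (π i ^ n i) = exp (-(n i : ℤ)) := by
      rw [map_pow, hπ, ← exp_nsmul]
      simp
    have h2 : (P i).intValuation (y - π i ^ n i) ≤ exp (-((n i + 1 : ℕ) : ℤ)) :=
      ((P i).intValuation_le_pow_iff_mem _ _).mpr (hy i hi)
    have h3 : (P i).intValuation (y - π i ^ n i) < (P i).intValuation (π i ^ n i) := by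
      rw [h1]
      refine lt_of_le_of_lt h2 ?_
      rw [exp_lt_exp]
      push_cast
      omega
    rw [← h1]
    exact Valuation.map_eq_of_sub_lt _ h3
  refine ⟨y, ?_, key⟩
  rintro rfl
  have := key i₀ hi₀
  rw [map_zero] at this
  exact WithZero.exp_ne_zero this.symm

end AbstractApprox

section Fibre

variable {K F F' : Type*} [Field K] [Field F] [Field F'] [Algebra K F] [Algebra K F']
  [Algebra F F'] [IsScalarTower K F F']
variable [CharZero K] [FiniteDimensional F F'] [HasPrincipalDivisors K F']

set_option synthInstance.maxHeartbeats 400000 in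
set_option maxHeartbeats 1600000 in
/-- **Weak approximation in a fibre**, integral form: prescribed orders `n w ≥ 0` at the places
`w` over `v`, by an element integral over `O_v`. -/
theorem exists_ord_eq_fiber_nat (v : Place K F) (n : Place K F' → ℕ) :
    ∃ t : F', t ≠ 0 ∧ IsIntegral v.toValuationSubring t ∧
      ∀ w ∈ v.fiber F', w.ord t = n w := by
  classical
  have hchar : CharZero F := charZero_of_injective_algebraMap (algebraMap K F).injective
  have htower : IsScalarTower K v.toValuationSubring F' := isScalarTower_place v
  have hDed : IsDedekindDomain (integralClosure v.toValuationSubring F') :=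
    integralClosure.isDedekindDomain v.toValuationSubring F F'
  have hFrac : IsFractionRing (integralClosure v.toValuationSubring F') F' :=
    integralClosure.isFractionRing_of_finite_extension F F'
  have hex : ∀ w : ↥(v.fiber F'),
      ∃ P : HeightOneSpectrum (integralClosure v.toValuationSubring F'),
        Place.ofHeightOneSpectrum (K := K) (F := F') P = w.1 := by
    intro w
    have hw : w.1.restrict F = v := Place.mem_fiber.mp w.2
    refine exists_ofHeightOneSpectrum_eq (R := integralClosure v.toValuationSubring F') w.1 ?_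
    intro b
    refine mem_of_isIntegral_of_forall_mem w.1 (fun a => ?_) b.2
    have ha : (a : F) ∈ (w.1.restrict F).toValuationSubring := by rw [hw]; exact a.2
    exact (Place.mem_restrict_iff w.1).mp ha
  choose P hP using hex
  have hinj : Set.InjOn P (Finset.univ : Finset ↥(v.fiber F')) := by
    intro a _ b _ hab
    apply Subtype.ext
    rw [← hP a, ← hP b, hab]
  obtain ⟨y, hy0, hy⟩ := exists_intValuation_eq Finset.univ P hinj (fun w => n w.1)
  refine ⟨algebraMap (integralClosure v.toValuationSubring F') F' y, ?_, y.2, ?_⟩
  · intro h0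
    exact hy0 ((IsFractionRing.injective (integralClosure v.toValuationSubring F') F')
      (h0.trans (map_zero _).symm))
  · intro w hw
    have h1 := hy ⟨w, hw⟩ (Finset.mem_univ _)
    have h2 := hP ⟨w, hw⟩
    simp only at h1 h2
    calc w.ord (algebraMap (integralClosure v.toValuationSubring F') F' y)
        = (Place.ofHeightOneSpectrum (K := K) (F := F') (P ⟨w, hw⟩)).ord
            (algebraMap (integralClosure v.toValuationSubring F') F' y) := by rw [h2]
      _ = n w := by
          rw [ord_ofHeightOneSpectrum, HeightOneSpectrum.valuation_of_algebraMap, h1, log_exp,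
            neg_neg]

/-- **Weak approximation in a fibre**: prescribed orders `n w ∈ ℤ` at the places `w`
over `v`. -/
theorem exists_ord_eq_fiber (v : Place K F) (n : Place K F' → ℤ) :
    ∃ t : F', t ≠ 0 ∧ ∀ w ∈ v.fiber F', w.ord t = n w := by
  obtain ⟨a, ha0, -, ha⟩ := exists_ord_eq_fiber_nat (F' := F') v (fun w => (n w).toNat)
  obtain ⟨b, hb0, -, hb⟩ := exists_ord_eq_fiber_nat (F' := F') v (fun w => (-n w).toNat)
  refine ⟨a / b, div_ne_zero ha0 hb0, fun w hw => ?_⟩
  rw [div_eq_mul_inv, w.ord_mul ha0 (inv_ne_zero hb0), w.ord_inv, ha w hw, hb w hw]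
  omega

/-- **WA**: an element of `F'` of order one at `w` and of order zero at the other places over
`v = w ∩ F`. -/
theorem exists_ord_eq_one_fiber (v : Place K F) (w : Place K F') (hw : w ∈ v.fiber F') :
    ∃ t : F', t ≠ 0 ∧ w.ord t = 1 ∧ ∀ w' ∈ v.fiber F', w' ≠ w → w'.ord t = 0 := by
  classical
  obtain ⟨t, ht0, -, ht⟩ := exists_ord_eq_fiber_nat (F' := F') v
    (fun w' => if w' = w then 1 else 0)
  refine ⟨t, ht0, ?_, fun w' hw' hne => ?_⟩
  · rw [ht w hw]
    simp
  · rw [ht w' hw']
    simp [hne]

end Fibre

section AlongApprox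

variable {K F F' : Type*} [Field K] [Field F] [Field F'] [Algebra K F] [Algebra K F']
  [CharZero K] [HasPrincipalDivisors K F']

/-- **WA**, `Along` form, with arbitrary prescribed orders. -/
theorem exists_ord_eq_fiberAlong (φ : F →ₐ[K] F') (hφ : φ.toRingHom.IsIntegral)
    (hfin : FiniteAlong K φ) (v : Place K F) (n : Place K F' → ℤ) :
    ∃ t : F', t ≠ 0 ∧ ∀ w ∈ Place.fiberAlong φ hφ v, w.ord t = n w := by
  let _ := algebraAlong φ
  have := isScalarTower_along φ
  have : Module.Finite F F' := hfin
  exact exists_ord_eq_fiber (F' := F') v n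

/-- **WA**, `Along` form. -/
theorem exists_ord_eq_one_fiberAlong (φ : F →ₐ[K] F') (hφ : φ.toRingHom.IsIntegral)
    (hfin : FiniteAlong K φ) (v : Place K F) (w : Place K F')
    (hw : w ∈ Place.fiberAlong φ hφ v) :
    ∃ t : F', t ≠ 0 ∧ w.ord t = 1 ∧ ∀ w' ∈ Place.fiberAlong φ hφ v, w' ≠ w → w'.ord t = 0 := by
  let _ := algebraAlong φ
  have := isScalarTower_along φ
  have : Module.Finite F F' := hfin
  exact exists_ord_eq_one_fiber (F' := F') v w hw

variable [IsAlgClosed K]

/-- **Norm formula**, pointwise `Along` form: `∑_{w ∣ v} ord_w f = ord_v (N f)`. -/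
theorem sum_fiberAlong_ord_eq_ord_norm (φ : F →ₐ[K] F') (hφ : φ.toRingHom.IsIntegral)
    (hfin : FiniteAlong K φ) (x : F') [FiniteDimensional K⟮x⟯ F'] (v : Place K F) (f : F')
    (hf : f ≠ 0) :
    ∑ w ∈ Place.fiberAlong φ hφ v, w.ord f =
      v.ord (letI := algebraAlong φ; haveI : Module.Finite F F' := hfin; Algebra.norm F f) := by
  let _ := algebraAlong φ
  have := isScalarTower_along φ
  have : Module.Finite F F' := hfin
  exact sum_fiber_ord_eq_ord_norm (F := F) (F' := F') x v f hf

/-- **Fundamental identity**, pointwise `Along` form: `∑_{w ∣ v} e(w ∣ v) = [F' : F]`. -/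
theorem sum_ramificationIndexAlong_eq_finrankAlong (φ : F →ₐ[K] F')
    (hφ : φ.toRingHom.IsIntegral) (hfin : FiniteAlong K φ) (x : F')
    [FiniteDimensional K⟮x⟯ F'] (v : Place K F) :
    ∑ w ∈ Place.fiberAlong φ hφ v, (w.ramificationIndexAlong φ : ℤ) = (finrankAlong K φ : ℤ) := by
  let _ := algebraAlong φ
  have := isScalarTower_along φ
  have : Module.Finite F F' := hfin
  exact sum_ramificationIndex_eq_finrank (F := F) (F' := F') x v

end AlongApprox

end Fermat.Agent.Red.GFF
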