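import Fermat.Agent.Red.Match
import Fermat.Agent.Red.HKMod

/-!
# P-RED, task R-MATCH (second half): the local dictionary on the charts of the normal model

* `exists_valueAt` : every function regular at a place of `F_M` has a value in `ℚ̄`.
* `exists_valueAt_modelFin` / `exists_valueAt_modelInf` : functions of the finite chart
  (resp. the chart at infinity) have values in `A` at the finite (resp. non-finite) places.
* `evFin`, `evInf`, `rdFin`, `rdInf` : evaluation and reduction homomorphisms of the charts.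
* `sameRed_refl`, `sameRed_symm`, `sameRed_trans` : `SameRed A` is an equivalence relation.
* `sameRed_iff_fin`, `sameRed_iff_inf` : `SameRed` is equality of the reduction homs.
-/

set_option autoImplicit false

open Polynomial AlgebraicCurve ModularCurve IntermediateField

noncomputable section

namespace Fermat.Agent.Red.Match

open Fermat.Agent.S37

variable {M : ℕ} [NeZero M]

/-- every function regular at a place has a value. -/
theorem exists_valueAt (v : Place Kbar (FF M)) {f : FF M} (hf : f ∈ v.toValuationSubring) :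
    ∃ c : Kbar, ValueAt v f c := by
  have := Fermat.Agent.Red.HKMod.finiteDimensional_jBar M
  have halg : Algebra.IsAlgebraic Kbar⟮jB M⟯ (FF M) := Algebra.IsAlgebraic.of_finite _ _
  obtain ⟨c, hc⟩ := Fermat.Agent.S24.DiffPlace.exists_const_sub_mem_maximalIdeal (jB M) halg v ⟨f, hf⟩
  exact ⟨c, ValuationSubring.coe_mem_nonunits_iff.mpr hc⟩

omit [NeZero M] in
theorem valueAt_ne_zero_not_mem_nonunits {v : Place Kbar (FF M)} {f : FF M} {c : Kbar}
    (h : ValueAt v f c) (hc : c ≠ 0) : f ∉ v.toValuationSubring.nonunits := by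
  intro hf
  have h1 : ValueAt v f 0 := by
    unfold ValueAt
    simpa only [cst, map_zero, sub_zero] using hf
  exact hc (valueAt_unique h h1)

omit [NeZero M] in
/-- the value of the inverse. -/
theorem valueAt_inv {v : Place Kbar (FF M)} {f : FF M} {c : Kbar}
    (h : ValueAt v f c) (hc : c ≠ 0) : ValueAt v f⁻¹ c⁻¹ := by
  have hnu := valueAt_ne_zero_not_mem_nonunits h hc
  rw [ValuationSubring.mem_nonunits_iff_or, not_or, not_not] at hnu
  obtain ⟨hf0, hfinv⟩ := hnu
  have hc0 : cst M c ≠ 0 := by
    simpa only [cst, ne_eq, map_eq_zero] using hc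
  unfold ValueAt at h ⊢
  have h1 : f⁻¹ - cst M c⁻¹ = (f - cst M c) * (-(f⁻¹ * cst M c⁻¹)) := by
    simp only [cst, map_inv₀] at hc0 ⊢
    field_simp
    ring
  rw [h1]
  refine h71_mul_mem_nonunits _ h (neg_mem (mul_mem hfinv (cst_mem v _)))

omit [NeZero M] in
/-- values on the subring `A[x]` lie in `A` as soon as the value of `x` does. -/
theorem exists_valueAt_ringAdj (A : ValuationSubring Kbar) (v : Place Kbar (FF M)) (x : FF M)
    (hx : ∃ a : A, ValueAt v x (a : Kbar)) (s : FF M) (hs : s ∈ ringAdj M A x) :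
    ∃ a : A, ValueAt v s (a : Kbar) := by
  unfold ringAdj at hs
  induction hs using Subring.closure_induction with
  | mem y hy =>
    rcases hy with ⟨a, ha, rfl⟩ | hy
    · exact ⟨⟨a, ha⟩, valueAt_cst v a⟩
    · rw [Set.mem_singleton_iff] at hy
      rw [hy]
      exact hx
  | zero => exact ⟨0, valueAt_zero v⟩
  | one => exact ⟨1, valueAt_one v⟩
  | add y z _ _ hy hz =>
    obtain ⟨a, ha⟩ := hy
    obtain ⟨b, hb⟩ := hz
    exact ⟨a + b, valueAt_add ha hb⟩
  | neg y _ hy =>
    obtain ⟨a, ha⟩ := hy
    exact ⟨-a, valueAt_neg ha⟩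
  | mul y z _ _ hy hz =>
    obtain ⟨a, ha⟩ := hy
    obtain ⟨b, hb⟩ := hz
    exact ⟨a * b, valueAt_mul ha hb⟩

/-- **integrality and values.** If all values of the subring `S` at `v` lie in `A`, then so do
the values of the roots of monic polynomials over `S`. -/
theorem exists_valueAt_of_monic (A : ValuationSubring Kbar) (v : Place Kbar (FF M))
    (S : Subring (FF M)) (hS : ∀ s : S, ∃ a : A, ValueAt v (s : FF M) (a : Kbar))
    {f : FF M} (P : Polynomial S) (hPm : P.Monic) (hP : Polynomial.eval₂ S.subtype f P = 0) :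
    ∃ a : A, ValueAt v f (a : Kbar) := by
  have hSO : S ≤ v.toValuationSubring.toSubring := fun s hs =>
    valueAt_mem (hS ⟨s, hs⟩).choose_spec
  -- `f` is regular at `v`
  have hfO : f ∈ v.toValuationSubring := by
    have h1 : IsIntegral v.toValuationSubring f := by
      refine ⟨P.map (Subring.inclusion hSO), hPm.map _, ?_⟩
      rw [Polynomial.eval₂_map]
      exact hP
    obtain ⟨y, hy⟩ := IsIntegrallyClosed.isIntegral_iff.mp h1
    rw [← hy]
    exact y.2
  -- the value homomorphism on the valuation ring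
  have hval : ∀ g : v.toValuationSubring.toSubring,
      ∃ a : (⊤ : ValuationSubring Kbar), ValueAt v (g : FF M) (a : Kbar) := by
    intro g
    obtain ⟨c, hc⟩ := exists_valueAt v g.2
    exact ⟨⟨c, ValuationSubring.mem_top c⟩, hc⟩
  set φ : v.toValuationSubring.toSubring →+* Kbar :=
    ((⊤ : ValuationSubring Kbar).subtype).comp
      (valHom (⊤ : ValuationSubring Kbar) v.toValuationSubring.toSubring v hval) with hφ
  have hφspec : ∀ g : v.toValuationSubring.toSubring, ValueAt v (g : FF M) (φ g) := fun g =>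
    valHom_spec _ _ v hval g
  have hcomp : φ.comp (Subring.inclusion hSO) = A.subtype.comp (valHom A S v hS) := by
    ext s
    exact valueAt_unique (hφspec _) (valHom_spec A S v hS s)
  -- apply `φ` to the integrality equation
  have h0 : Polynomial.eval₂ (Subring.inclusion hSO)
      (⟨f, hfO⟩ : v.toValuationSubring.toSubring) P = 0 := by
    apply Subtype.ext
    have h1 := Polynomial.hom_eval₂ P (Subring.inclusion hSO)
      (v.toValuationSubring.toSubring.subtype) (⟨f, hfO⟩ : v.toValuationSubring.toSubring)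
    exact h1.trans hP
  have h2 := congrArg φ h0
  rw [Polynomial.hom_eval₂, hcomp, map_zero, ← Polynomial.eval₂_map] at h2
  have hint : IsIntegral A (φ ⟨f, hfO⟩) := ⟨P.map (valHom A S v hS), hPm.map _, h2⟩
  obtain ⟨y, hy⟩ := IsIntegrallyClosed.isIntegral_iff.mp hint
  refine ⟨y, ?_⟩
  have h3 : ((y : A) : Kbar) = φ ⟨f, hfO⟩ := hy
  rw [h3]
  exact hφspec ⟨f, hfO⟩

/-- values on `modelAt M A x` lie in `A` as soon as the value of `x` does. -/
theorem exists_valueAt_modelAt (A : ValuationSubring Kbar) (v : Place Kbar (FF M)) (x : FF M)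
    (hx : ∃ a : A, ValueAt v x (a : Kbar)) (f : FF M) (hf : f ∈ modelAt M A x) :
    ∃ a : A, ValueAt v f (a : Kbar) := by
  obtain ⟨P, hPm, hP⟩ := hf
  exact exists_valueAt_of_monic A v (ringAdj M A x)
    (fun s => exists_valueAt_ringAdj A v x hx s s.2) P hPm hP

/-- values of the finite chart at a finite place. -/
theorem exists_valueAt_modelFin {A : ValuationSubring Kbar} {v : Place Kbar (FF M)}
    (hv : IsFinAt A v) (f : modelFin M A) : ∃ a : A, ValueAt v (f : FF M) (a : Kbar) := by
  obtain ⟨a, ha, hja⟩ := hv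
  exact exists_valueAt_modelAt A v (jB M) ⟨⟨a, ha⟩, hja⟩ f f.2

/-- at a non-finite place, `1/j` takes a value in `𝔪_A`. -/
theorem exists_valueAt_inv_of_not_isFinAt {A : ValuationSubring Kbar} {v : Place Kbar (FF M)}
    (hv : ¬ IsFinAt A v) : ∃ a : Kbar, a ∈ A.nonunits ∧ ValueAt v (jB M)⁻¹ a := by
  by_cases hj : jB M ∈ v.toValuationSubring
  · obtain ⟨c, hc⟩ := exists_valueAt v hj
    have hcA : c ∉ A := fun h => hv ⟨c, h, hc⟩
    have hc0 : c ≠ 0 := fun h => hcA (h ▸ A.zero_mem)
    exact ⟨c⁻¹, (ValuationSubring.inv_mem_nonunits_iff _).mpr (Or.inr hcA), valueAt_inv hc hc0⟩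
  · refine ⟨0, zero_mem _, ?_⟩
    unfold ValueAt
    simp only [cst, map_zero, sub_zero]
    exact (ValuationSubring.inv_mem_nonunits_iff _).mpr (Or.inr hj)

/-- values of the chart at infinity at a non-finite place. -/
theorem exists_valueAt_modelInf {A : ValuationSubring Kbar} {v : Place Kbar (FF M)}
    (hv : ¬ IsFinAt A v) (f : modelInf M A) : ∃ a : A, ValueAt v (f : FF M) (a : Kbar) := by
  obtain ⟨a, ha, hja⟩ := exists_valueAt_inv_of_not_isFinAt hv
  exact exists_valueAt_modelAt A v (jB M)⁻¹ ⟨⟨a, ValuationSubring.nonunits_subset ha⟩, hja⟩ f f.2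

/-! ## Evaluation and reduction on the two charts -/

/-- evaluation `R_fin → A` at a finite place. -/
def evFin {A : ValuationSubring Kbar} {v : Place Kbar (FF M)} (hv : IsFinAt A v) :
    modelFin M A →+* A :=
  valHom A (modelFin M A) v (exists_valueAt_modelFin hv)

/-- reduction `R_fin → k` at a finite place. -/
def rdFin {A : ValuationSubring Kbar} {v : Place Kbar (FF M)} (hv : IsFinAt A v) :
    modelFin M A →+* IsLocalRing.ResidueField A :=
  redHom A (modelFin M A) v (exists_valueAt_modelFin hv)

/-- evaluation `R_inf → A` at a non-finite place. -/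
def evInf {A : ValuationSubring Kbar} {v : Place Kbar (FF M)} (hv : ¬ IsFinAt A v) :
    modelInf M A →+* A :=
  valHom A (modelInf M A) v (exists_valueAt_modelInf hv)

/-- reduction `R_inf → k` at a non-finite place. -/
def rdInf {A : ValuationSubring Kbar} {v : Place Kbar (FF M)} (hv : ¬ IsFinAt A v) :
    modelInf M A →+* IsLocalRing.ResidueField A :=
  redHom A (modelInf M A) v (exists_valueAt_modelInf hv)

theorem evFin_spec {A : ValuationSubring Kbar} {v : Place Kbar (FF M)} (hv : IsFinAt A v)
    (f : modelFin M A) : ValueAt v (f : FF M) ((evFin hv f : A) : Kbar) :=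
  valHom_spec _ _ _ _ f

theorem evInf_spec {A : ValuationSubring Kbar} {v : Place Kbar (FF M)} (hv : ¬ IsFinAt A v)
    (f : modelInf M A) : ValueAt v (f : FF M) ((evInf hv f : A) : Kbar) :=
  valHom_spec _ _ _ _ f

theorem rdFin_apply {A : ValuationSubring Kbar} {v : Place Kbar (FF M)} (hv : IsFinAt A v)
    (f : modelFin M A) : rdFin hv f = IsLocalRing.residue A (evFin hv f) := rfl

theorem rdInf_apply {A : ValuationSubring Kbar} {v : Place Kbar (FF M)} (hv : ¬ IsFinAt A v)
    (f : modelInf M A) : rdInf hv f = IsLocalRing.residue A (evInf hv f) := rfl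

/-- `SameRed` for finite places is equality of the reduction homomorphisms. -/
theorem sameRed_iff_fin {A : ValuationSubring Kbar} {v w : Place Kbar (FF M)}
    (hv : IsFinAt A v) (hw : IsFinAt A w) : SameRed A v w ↔ rdFin hv = rdFin hw := by
  constructor
  · rintro (⟨-, -, h⟩ | ⟨h, -, -⟩)
    · exact redHom_eq_of_congAt A _ v w _ _ h
    · exact (h hv).elim
  · intro h
    exact Or.inl ⟨hv, hw, congAt_of_redHom_eq A _ v w _ _ h⟩

/-- `SameRed` for non-finite places is equality of the reduction homomorphisms. -/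
theorem sameRed_iff_inf {A : ValuationSubring Kbar} {v w : Place Kbar (FF M)}
    (hv : ¬ IsFinAt A v) (hw : ¬ IsFinAt A w) : SameRed A v w ↔ rdInf hv = rdInf hw := by
  constructor
  · rintro (⟨h, -, -⟩ | ⟨-, -, h⟩)
    · exact (hv h).elim
    · exact redHom_eq_of_congAt A _ v w _ _ h
  · intro h
    exact Or.inr ⟨hv, hw, congAt_of_redHom_eq A _ v w _ _ h⟩

theorem sameRed_isFinAt_iff {A : ValuationSubring Kbar} {v w : Place Kbar (FF M)}
    (h : SameRed A v w) : IsFinAt A v ↔ IsFinAt A w := by
  rcases h with ⟨h1, h2, -⟩ | ⟨h1, h2, -⟩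
  · exact ⟨fun _ => h2, fun _ => h1⟩
  · exact ⟨fun h => (h1 h).elim, fun h => (h2 h).elim⟩

theorem sameRed_refl (A : ValuationSubring Kbar) (v : Place Kbar (FF M)) : SameRed A v v := by
  by_cases hv : IsFinAt A v
  · exact (sameRed_iff_fin hv hv).mpr rfl
  · exact (sameRed_iff_inf hv hv).mpr rfl

theorem sameRed_symm {A : ValuationSubring Kbar} {v w : Place Kbar (FF M)}
    (h : SameRed A v w) : SameRed A w v := by
  by_cases hv : IsFinAt A v
  · have hw := (sameRed_isFinAt_iff h).mp hv
    exact (sameRed_iff_fin hw hv).mpr ((sameRed_iff_fin hv hw).mp h).symm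
  · have hw := fun hw => hv ((sameRed_isFinAt_iff h).mpr hw)
    exact (sameRed_iff_inf hw hv).mpr ((sameRed_iff_inf hv hw).mp h).symm

theorem sameRed_trans {A : ValuationSubring Kbar} {u v w : Place Kbar (FF M)}
    (h1 : SameRed A u v) (h2 : SameRed A v w) : SameRed A u w := by
  by_cases hu : IsFinAt A u
  · have hv := (sameRed_isFinAt_iff h1).mp hu
    have hw := (sameRed_isFinAt_iff h2).mp hv
    exact (sameRed_iff_fin hu hw).mpr
      (((sameRed_iff_fin hu hv).mp h1).trans ((sameRed_iff_fin hv hw).mp h2))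
  · have hv := fun hv => hu ((sameRed_isFinAt_iff h1).mpr hv)
    have hw := fun hw => hv ((sameRed_isFinAt_iff h2).mpr hw)
    exact (sameRed_iff_inf hu hw).mpr
      (((sameRed_iff_inf hu hv).mp h1).trans ((sameRed_iff_inf hv hw).mp h2))

/-- `SameRed A` is an equivalence relation on the places of `F_M`. -/
theorem sameRed_equivalence (A : ValuationSubring Kbar) :
    Equivalence (SameRed (M := M) A) :=
  ⟨sameRed_refl A, sameRed_symm, sameRed_trans⟩

end Fermat.Agent.Red.Match
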