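import Mathlib

/-!
# P-RED, gate integration leaf (L2): local uniformisers from a Dedekind special fibre

If `R ⧸ I` is a Dedekind domain which is not a field and `𝔫` is a maximal ideal of `R` containing
`I`, then there are `t ∈ 𝔫 \ I` and `s ∉ 𝔫` with `s • 𝔫 ⊆ (t) + I`
(i.e. `𝔫 = (t) + I` locally at `𝔫`).
-/

set_option autoImplicit false

namespace Fermat.Agent.Red

/-- In a Dedekind domain which is not a field, every maximal ideal `P` contains an element `t`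
and there is `s ∉ P` with `s • P ⊆ (t)`. -/
theorem h3_dedekind_local_uniformizer {D : Type*} [CommRing D] [IsDedekindDomain D]
    (hnf : ¬ IsField D) (P : Ideal D) [hP : P.IsMaximal] :
    ∃ t ∈ P, t ≠ 0 ∧ ∃ s, s ∉ P ∧ ∀ y ∈ P, s * y ∈ Ideal.span {t} := by
  have hP0 : P ≠ ⊥ := Ring.ne_bot_of_isMaximal_of_not_isField hP hnf
  have hP1 : P ≠ ⊤ := hP.ne_top
  obtain ⟨t, ht1, ht2⟩ := P.exists_mem_pow_notMem_pow_succ hP0 hP1 1
  rw [pow_one] at ht1
  have ht0 : t ≠ 0 := by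
    rintro rfl
    exact ht2 (zero_mem _)
  -- `(t) = P * 𝔞`
  have hle : Ideal.span {t} ≤ P := (Ideal.span_singleton_le_iff_mem P).mpr ht1
  obtain ⟨𝔞, h𝔞⟩ := Ideal.dvd_iff_le.mpr hle
  -- `𝔞 ⊄ P`
  have hnot : ¬ 𝔞 ≤ P := by
    intro h
    obtain ⟨𝔟, h𝔟⟩ := Ideal.dvd_iff_le.mpr h
    have : Ideal.span {t} ≤ P ^ 2 := by
      rw [h𝔞, h𝔟, ← mul_assoc, ← pow_two]
      exact Ideal.mul_le_right (I := 𝔟) (J := P ^ 2) |> fun h => by rwa [mul_comm] at h
    exact ht2 (this (Ideal.mem_span_singleton_self t))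
  obtain ⟨s, hs𝔞, hsP⟩ := SetLike.not_le_iff_exists.mp hnot
  refine ⟨t, ht1, ht0, s, hsP, fun y hy => ?_⟩
  rw [h𝔞, mul_comm s y]
  exact Ideal.mul_mem_mul hy hs𝔞

/-- **(L2)** local uniformiser at a maximal ideal containing `I`, when `R ⧸ I` is a Dedekind
domain which is not a field. -/
theorem h3_exists_local_uniformizer {R : Type*} [CommRing R] (I : Ideal R)
    [IsDedekindDomain (R ⧸ I)] (hnf : ¬ IsField (R ⧸ I)) (𝔫 : Ideal R) [h𝔫 : 𝔫.IsMaximal]
    (hI : I ≤ 𝔫) :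
    ∃ t ∈ 𝔫, t ∉ I ∧ ∃ s, s ∉ 𝔫 ∧ ∀ y ∈ 𝔫, s * y ∈ Ideal.span {t} ⊔ I := by
  -- the image of `𝔫` in the quotient
  set P : Ideal (R ⧸ I) := 𝔫.map (Ideal.Quotient.mk I) with hPdef
  have hsurj : Function.Surjective (Ideal.Quotient.mk I) := Ideal.Quotient.mk_surjective
  have hker : RingHom.ker (Ideal.Quotient.mk I) ≤ 𝔫 := by rwa [Ideal.mk_ker]
  have hPmax : P.IsMaximal := by
    rcases Ideal.map_eq_top_or_isMaximal_of_surjective (Ideal.Quotient.mk I) hsurj h𝔫 with h | h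
    · exfalso
      have h1 : (1 : R ⧸ I) ∈ 𝔫.map (Ideal.Quotient.mk I) := by rw [h]; trivial
      obtain ⟨x, hx, hx1⟩ := (Ideal.mem_map_iff_of_surjective _ hsurj).mp h1
      have h2 : x - 1 ∈ I := by
        rw [← Ideal.Quotient.eq_zero_iff_mem, map_sub, hx1, map_one, sub_self]
      have h3 : (1 : R) ∈ 𝔫 := by
        have := 𝔫.sub_mem hx (hI h2)
        simpa using this
      exact h𝔫.ne_top ((Ideal.eq_top_iff_one _).mpr h3)
    · exact h
  obtain ⟨tb, htP, ht0, sb, hsP, hall⟩ := h3_dedekind_local_uniformizer hnf P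
  obtain ⟨t, ht𝔫, rfl⟩ := (Ideal.mem_map_iff_of_surjective _ hsurj).mp htP
  obtain ⟨s, rfl⟩ := hsurj sb
  refine ⟨t, ht𝔫, fun htI => ht0 (Ideal.Quotient.eq_zero_iff_mem.mpr htI), s, fun hs => ?_,
    fun y hy => ?_⟩
  · exact hsP (Ideal.mem_map_of_mem _ hs)
  · have h1 := hall (Ideal.Quotient.mk I y) (Ideal.mem_map_of_mem _ hy)
    obtain ⟨cb, hcb⟩ := Ideal.mem_span_singleton'.mp h1
    obtain ⟨c, rfl⟩ := hsurj cb
    have h2 : s * y - c * t ∈ I := by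
      rw [← Ideal.Quotient.eq_zero_iff_mem, map_sub, map_mul, map_mul, hcb, sub_self]
    have h3 : s * y = c * t + (s * y - c * t) := by ring
    rw [h3]
    exact Ideal.add_mem _
      (Ideal.mem_sup_left (Ideal.mem_span_singleton'.mpr ⟨c, rfl⟩)) (Ideal.mem_sup_right h2)

end Fermat.Agent.Red
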