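import Fermat.Agent.S37.Gate
import Fermat.Agent.Red.GV.Asm3
import Fermat.Agent.S28.PartOne
import Fermat.Agent.Bridge.H47Inertia

/-!
# P-RED, task R-ESTI: the inertia congruence `σ u / u ≡ 1`

For `σ` in the inertia group at `A` (over `ℓ ∤ N`) and `u ≠ 0` in `F_N`, the Gauss
normalisation (`GV`) gives `c ≠ 0` with `c · Q(j) · u = y`, `Q ∈ A[Y]`, `Q̄ ≠ 0`,
`y ∈ A((q))`, `ȳ ≠ 0`.  As `σ` preserves `A`, acts trivially on `A / 𝔪_A` and fixes the
(rational) `q`-expansion of `j`, the series `a := σ(y) · Q(j)` and `b := y · σ(Q)(j)` have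
coefficients in `A`, the same nonzero reduction, and `a = (σ(cu) / (cu)) · b`.
-/

set_option autoImplicit false

open ModularCurve

noncomputable section

namespace Fermat.Agent.Red.EstI

open Fermat.Agent.S28 Fermat.Agent.Red.GV Fermat.Agent.Red.GV.Asm Fermat.Agent.S37

/-- `coeffMap` commutes with polynomial evaluation. -/
theorem h61_coeffMap_evalC {R S : Type} [CommRing R] [CommRing S] (f : R →+* S)
    (y : LaurentSeries R) (Q : Polynomial R) :
    coeffMap f (evalC y Q) = evalC (coeffMap f y) (Q.map f) := by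
  have hcomp : (coeffMap f).comp (HahnSeries.C : R →+* LaurentSeries R) =
      (HahnSeries.C : S →+* LaurentSeries S).comp f := by
    ext a : 1
    simp only [RingHom.comp_apply, HahnSeries.C_apply, coeffMap_single]
  show coeffMap f (Polynomial.eval₂ _ y Q) = Polynomial.eval₂ _ (coeffMap f y) (Q.map f)
  rw [Polynomial.hom_eval₂, hcomp, Polynomial.eval₂_map]

/-- the restriction to `A` of a ring endomorphism of `K` mapping `A` into itself. -/
def h61_resA {K : Type} [Field K] (A : ValuationSubring K) (σ : K →+* K)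
    (h : ∀ z ∈ A, σ z ∈ A) : A →+* A :=
  (σ.comp A.subtype).codRestrict A (fun z => h z z.2)

theorem h61_coe_resA {K : Type} [Field K] (A : ValuationSubring K) (σ : K →+* K)
    (h : ∀ z ∈ A, σ z ∈ A) (z : A) : ((h61_resA A σ h z : A) : K) = σ (z : K) := rfl

theorem h61_subtype_comp_resA {K : Type} [Field K] (A : ValuationSubring K) (σ : K →+* K)
    (h : ∀ z ∈ A, σ z ∈ A) : A.subtype.comp (h61_resA A σ h) = σ.comp A.subtype :=
  RingHom.ext fun _ => rfl

theorem h61_residue_comp_resA {K : Type} [Field K] (A : ValuationSubring K) (σ : K →+* K)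
    (h : ∀ z ∈ A, σ z ∈ A) (h' : ∀ z ∈ A, σ z - z ∈ A.nonunits) :
    (IsLocalRing.residue A).comp (h61_resA A σ h) = IsLocalRing.residue A := by
  ext z
  rw [RingHom.comp_apply, ← sub_eq_zero, ← map_sub, IsLocalRing.residue_eq_zero_iff,
    ← ValuationSubring.coe_mem_nonunits_iff]
  exact h' z z.2

theorem h61_embA_coeffMap_resA {K : Type} [Field K] (A : ValuationSubring K) (σ : K →+* K)
    (h : ∀ z ∈ A, σ z ∈ A) (y : LaurentSeries A) :
    embA A (coeffMap (h61_resA A σ h) y) = coeffMap σ (embA A y) := by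
  rw [embA, coeffMap_coeffMap, coeffMap_coeffMap, h61_subtype_comp_resA]

theorem h61_redA_coeffMap_resA {K : Type} [Field K] (A : ValuationSubring K) (σ : K →+* K)
    (h : ∀ z ∈ A, σ z ∈ A) (h' : ∀ z ∈ A, σ z - z ∈ A.nonunits) (y : LaurentSeries A) :
    redA (IsLocalRing.residue A) (coeffMap (h61_resA A σ h) y) =
      redA (IsLocalRing.residue A) y := by
  rw [redA, coeffMap_coeffMap, h61_residue_comp_resA A σ h h']

theorem h61_map_map_resA {K : Type} [Field K] (A : ValuationSubring K) (σ : K →+* K)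
    (h : ∀ z ∈ A, σ z ∈ A) (h' : ∀ z ∈ A, σ z - z ∈ A.nonunits) (Q : Polynomial A) :
    (Q.map (h61_resA A σ h)).map (IsLocalRing.residue A) = Q.map (IsLocalRing.residue A) := by
  rw [Polynomial.map_map, h61_residue_comp_resA A σ h h']

/-- `σ` commutes with evaluation at `j` (rational coefficients). -/
theorem h61_evalA_map_resA {K : Type} [Field K] (A : ValuationSubring K) (σ : K →+* K)
    (h : ∀ z ∈ A, σ z ∈ A) (Q : Polynomial A) :
    evalA A (jK K) (Q.map (h61_resA A σ h)) = coeffMap σ (evalA A (jK K) Q) := by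
  rw [← embA_evalC_j, ← embA_evalC_j, ← h61_embA_coeffMap_resA A σ h, h61_coeffMap_evalC,
    coeffMap_jqModC]

/-- the abstract computation behind `R-ESTI`. -/
theorem h61_congOne_core {K : Type} [Field K] (A : ValuationSubring K) (σ : K →+* K)
    (h : ∀ z ∈ A, σ z ∈ A) (h' : ∀ z ∈ A, σ z - z ∈ A.nonunits)
    (X : LaurentSeries K) (hX : X ≠ 0) (Dn : Polynomial A)
    (hDn : Dn.map (IsLocalRing.residue A) ≠ 0) (bb : LaurentSeries A)
    (hbb : redA (IsLocalRing.residue A) bb ≠ 0)
    (hrep : evalA A (jK K) Dn * X = embA A bb) :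
    ∃ a b : LaurentSeries A,
      coeffMap (IsLocalRing.residue A) b ≠ 0 ∧
      coeffMap A.subtype a = (coeffMap σ X / X) * coeffMap A.subtype b ∧
      coeffMap (IsLocalRing.residue A) a = coeffMap (IsLocalRing.residue A) b := by
  refine ⟨coeffMap (h61_resA A σ h) bb * evalC (jqModC A) Dn,
    bb * evalC (jqModC A) (Dn.map (h61_resA A σ h)), ?_, ?_, ?_⟩
  · show redA (IsLocalRing.residue A) _ ≠ 0
    rw [map_mul]
    refine mul_ne_zero hbb (redA_evalC_j_ne_zero _ _ ?_)
    rwa [h61_map_map_resA A σ h h']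
  · show embA A _ = _ * embA A _
    rw [map_mul, map_mul, h61_embA_coeffMap_resA, embA_evalC_j, embA_evalC_j,
      h61_evalA_map_resA, ← hrep, map_mul]
    field_simp
  · show redA (IsLocalRing.residue A) _ = redA (IsLocalRing.residue A) _
    rw [map_mul, map_mul, h61_redA_coeffMap_resA A σ h h', redA_evalC_j, redA_evalC_j,
      h61_map_map_resA A σ h h']

/-- **R-ESTI.**  For `σ` in the inertia group at `A`, every nonzero function can be scaled
so that `σ u / u ≡ 1` modulo the Gauss valuation. -/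
theorem ifaceCongInertia (N : ℕ) [NeZero N] : IfaceCongInertia N := by
  intro ℓ hℓ hℓN A hA σ hσ u hu
  have : Fact ℓ.Prime := ⟨hℓ⟩
  obtain ⟨D⟩ := exists_igusaInput N ℓ hℓN
  obtain ⟨hdec, hin⟩ := (Fermat.Agent.Bridge.H47.mem_inertiaSubgroupIn_iff A).1 hσ
  have hmem : ∀ z ∈ A, (σ : Kbar →+* Kbar) z ∈ A := by
    intro z hz
    exact ((⟨σ, hdec⟩ : A.decompositionSubgroup ℚ) • (⟨z, hz⟩ : A) : A).2
  have hin' : ∀ z ∈ A, (σ : Kbar →+* Kbar) z - z ∈ A.nonunits := hin
  have hπ : IsResidueMap A (IsLocalRing.residue A) ℓ :=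
    ⟨fun a => by
      rw [IsLocalRing.residue_eq_zero_iff, ← ValuationSubring.coe_mem_nonunits_iff], hA⟩
  have hx0 : (u : LaurentSeries Kbar) ≠ 0 := fun h0 => hu (Subtype.ext h0)
  obtain ⟨c, Dn, P, bb, hc, hDn, hbb, -, hrep⟩ :=
    exists_gauss_rep A (IsLocalRing.residue A) N ℓ hπ D (u : LaurentSeries Kbar) u.2 hx0
  refine ⟨c, hc, ?_⟩
  have hC : (HahnSeries.C c : LaurentSeries Kbar) = algebraMap Kbar (LaurentSeries Kbar) c := by
    rw [algebraMap_laurentSeries_eq_single]; rfl
  have hX : ((cst N c * u : FF N) : LaurentSeries Kbar) =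
      HahnSeries.C c * (u : LaurentSeries Kbar) := by
    rw [hC]; rfl
  have hX0 : HahnSeries.C c * (u : LaurentSeries Kbar) ≠ 0 := mul_ne_zero (C_ne_zero' hc) hx0
  have hrep' : evalA A (jK Kbar) Dn * (HahnSeries.C c * (u : LaurentSeries Kbar)) =
      embA A bb := by
    rw [← hrep]; ring
  have hw : (((gal N σ • (cst N c * u)) / (cst N c * u) : FF N) : LaurentSeries Kbar) =
      coeffMap (σ : Kbar →+* Kbar) (HahnSeries.C c * (u : LaurentSeries Kbar)) /
        (HahnSeries.C c * (u : LaurentSeries Kbar)) := by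
    rw [IntermediateField.coe_div, coe_arithmeticGalois_smul, hX]
  obtain ⟨a, b, hb, hab, hred⟩ :=
    h61_congOne_core A (σ : Kbar →+* Kbar) hmem hin' _ hX0 Dn hDn bb hbb hrep'
  exact ⟨a, b, hb, by rw [hab, hw], hred⟩

end Fermat.Agent.Red.EstI
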