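import Fermat.Agent.Red.GateGoodFinal
import Fermat.Agent.S37.Smooth37

/-!
# P-RED, R-GATEGOOD (helper26): the gate at good level, unconditionally

`gateGood : GateGood` and `gatePieces : IfaceGatePieces`, from `gateGood_of_smooth`
(`Red/GateGoodFinal.lean`) and the smoothness of the special fibre `h37_ifaceSmooth`
(`S37/Smooth37.lean`, R-SM).
-/

set_option autoImplicit false

namespace Fermat.Agent.Red.GG

/-- **the pieces of the gate at good level.** -/
theorem gatePieces : IfaceGatePieces :=
  gatePieces_of_smooth Fermat.Agent.S37.h37_ifaceSmooth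

/-- **the gate at good level.** -/
theorem gateGood : Fermat.Agent.S37.GateGood :=
  gateGood_of_smooth Fermat.Agent.S37.h37_ifaceSmooth

end Fermat.Agent.Red.GG
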