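import Fermat.Agent.Red.GateGoodOf
import Fermat.Agent.Red.GGSection
import Fermat.Agent.Red.GGChartAsm
import Fermat.Agent.Red.H67LocalUnifGG
import Fermat.Agent.Red.ModelO.Bridge85
import Fermat.Agent.Red.ModelO.Generic85

/-!
# P-RED, R-GATEGOOD (helper26): the final wiring of the gate at good level

The five pieces of `IfaceGatePieces` (`Red/GateGoodOf.lean`) are collected from the leaves of
the integration:

* `IfaceChart` = `ifaceChart_fin`, `ifaceChart_inf` (helper97, with `h18c_hint` of helper18);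
* `IfaceFinite` = `h85_modelFin_fg`, `h85_modelInf_fg` (helper85);
* `IfaceSection` = `ifaceSection_of` (helper71);
* `IfaceGeneric` = `h85_ifaceGeneric_of_chart` (helper85);
* `IfaceLocalUnif` = `h67_ifaceLocalUnif_fin`, `h67_ifaceLocalUnif_inf` (helper67), the only
  consumer of smoothness `IfaceSmooth`.

Main statements:

* `gatePieces_of_smooth : IfaceSmooth → IfaceGatePieces`;
* `gateGood_of_smooth : IfaceSmooth → GateGood`.
-/

set_option autoImplicit false

open AlgebraicCurve

noncomputable section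

namespace Fermat.Agent.Red.GG

open Fermat.Agent.S37 Fermat.Agent.Red.ModelO

/-- **the pieces of the gate from smoothness.** -/
theorem gatePieces_of_smooth (hSM : IfaceSmooth) : IfaceGatePieces := by
  intro ℓ hℓ M _ hM haux A hA
  have hC₀ : IfaceChart M A (jB M) := ifaceChart_fin hℓ hM hA
  have hC₁ : IfaceChart M A (jB M)⁻¹ := ifaceChart_inf hℓ hM hA
  have hF₀ : IfaceFinite M A (jB M) := h85_modelFin_fg hℓ hM hA
  have hF₁ : IfaceFinite M A (jB M)⁻¹ := h85_modelInf_fg hℓ hM hA
  exact ⟨⟨hC₀, hC₁⟩, hF₀, ⟨ifaceSection_of M A _ hF₀, ifaceSection_of M A _ hF₁⟩,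
    ⟨h85_ifaceGeneric_of_chart hℓ A hA _ hC₀, h85_ifaceGeneric_of_chart hℓ A hA _ hC₁⟩,
    ⟨h67_ifaceLocalUnif_fin M A hSM hℓ hM haux hA,
      h67_ifaceLocalUnif_inf M A hSM hℓ hM haux hA⟩⟩

/-- **the gate at good level from smoothness.** -/
theorem gateGood_of_smooth (hSM : IfaceSmooth) : GateGood :=
  gateGood_of_pieces (gatePieces_of_smooth hSM)

end Fermat.Agent.Red.GG
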