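import Fermat.Agent.Red.HKInputs
import Fermat.Agent.S37.Skeleton

/-!
# P-RED, module HK: the interface `IfaceHeckeInputs` of `S37/Skeleton.lean`

Wrapper of `Fermat.Agent.Red.HKMod.heckeInputsAlong` (`Red/HKInputs.lean`).
-/

set_option autoImplicit false

open AlgebraicCurve ModularCurve

namespace Fermat.Agent.Red.HKInputsIface

/-- **HK** (P-RED interface): `HeckeInputsAlong ℚ̄ N ℓ` for all `N`, `ℓ`. -/
theorem h43_ifaceHeckeInputs : Fermat.Agent.S37.IfaceHeckeInputs :=
  fun N ℓ _ _ => Fermat.Agent.Red.HKMod.heckeInputsAlong N ℓ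

end Fermat.Agent.Red.HKInputsIface
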