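import Mathlib
import Fermat.Prelude.Def_AlgebraicCurve_Correspondence

/-!
# P-RED, module HK-COMM (TOW): functoriality of restriction, ramification index, pullback and
pushforward of places / divisors in a tower `F → F' → F''` of function fields

All statements are in the `Along` form of `Def_AlgebraicCurve_Correspondence`.

* `restrictAlong_comp`, `ramificationIndexAlong_comp`, `pullbackAlong_comp`: no hypotheses.
* `pushforwardAlong_comp`: for places of degree one (e.g. `K` algebraically closed).
-/

set_option autoImplicit false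

noncomputable section

namespace Fermat.Agent.Red.GFF

open AlgebraicCurve

section Tower

variable {K F F' F'' : Type*} [Field K] [Field F] [Field F'] [Field F'']
  [Algebra K F] [Algebra K F'] [Algebra K F'']

/-- the composite of two integral embeddings is integral. -/
theorem isIntegral_comp_along (φ : F →ₐ[K] F') (ψ : F' →ₐ[K] F'')
    (hφ : φ.toRingHom.IsIntegral) (hψ : ψ.toRingHom.IsIntegral) :
    (ψ.comp φ).toRingHom.IsIntegral :=
  RingHom.IsIntegral.trans _ _ hφ hψ

/-- **TOW 1**: restriction of places is functorial. -/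
theorem restrictAlong_comp (φ : F →ₐ[K] F') (ψ : F' →ₐ[K] F'')
    (hφ : φ.toRingHom.IsIntegral) (hψ : ψ.toRingHom.IsIntegral)
    (hψφ : (ψ.comp φ).toRingHom.IsIntegral) (W : Place K F'') :
    W.restrictAlong (ψ.comp φ) hψφ = (W.restrictAlong ψ hψ).restrictAlong φ hφ := by
  apply Place.ext
  ext f
  rfl

/-- the order at `W` of the image of `f : F` in `F''`. -/
theorem ord_comp_along (φ : F →ₐ[K] F') (ψ : F' →ₐ[K] F'')
    (hφ : φ.toRingHom.IsIntegral) (hψ : ψ.toRingHom.IsIntegral) (W : Place K F'') (f : F) :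
    W.ord (ψ (φ f)) = (W.ramificationIndexAlong ψ : ℤ) *
      ((W.restrictAlong ψ hψ).ramificationIndexAlong φ *
        ((W.restrictAlong ψ hψ).restrictAlong φ hφ).ord f) := by
  rw [Place.ord_restrictAlong ψ hψ W (φ f), Place.ord_restrictAlong φ hφ _ f]

/-- **TOW 2**: ramification indices are multiplicative in towers. -/
theorem ramificationIndexAlong_comp (φ : F →ₐ[K] F') (ψ : F' →ₐ[K] F'')
    (hφ : φ.toRingHom.IsIntegral) (hψ : ψ.toRingHom.IsIntegral) (W : Place K F'') :
    W.ramificationIndexAlong (ψ.comp φ) =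
      W.ramificationIndexAlong ψ * (W.restrictAlong ψ hψ).ramificationIndexAlong φ := by
  have hψφ : (ψ.comp φ).toRingHom.IsIntegral := isIntegral_comp_along φ ψ hφ hψ
  obtain ⟨π, hπ⟩ := IsDiscreteValuationRing.exists_irreducible
    ((W.restrictAlong ψ hψ).restrictAlong φ hφ).toValuationSubring
  have h1 : (((W.restrictAlong ψ hψ).restrictAlong φ hφ).ord (π : F)) = 1 :=
    Place.ord_coe_irreducible _ hπ
  have h2 := ord_comp_along φ ψ hφ hψ W (π : F)
  have h3 := Place.ord_restrictAlong (ψ.comp φ) hψφ W (π : F)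
  rw [restrictAlong_comp φ ψ hφ hψ hψφ W, h1, mul_one] at h3
  rw [h1, mul_one] at h2
  have h4 : (ψ.comp φ) (π : F) = ψ (φ (π : F)) := rfl
  rw [h4, h2] at h3
  exact_mod_cast h3.symm

/-- **TOW 3**: pullback of divisors is functorial. -/
theorem pullbackAlong_comp [HasPrincipalDivisors K F'] [HasPrincipalDivisors K F'']
    (φ : F →ₐ[K] F') (ψ : F' →ₐ[K] F'')
    (hφ : φ.toRingHom.IsIntegral) (hψ : ψ.toRingHom.IsIntegral)
    (hψφ : (ψ.comp φ).toRingHom.IsIntegral) (D : Divisor K F) :
    Divisor.pullbackAlong (ψ.comp φ) hψφ D =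
      Divisor.pullbackAlong ψ hψ (Divisor.pullbackAlong φ hφ D) := by
  ext W
  rw [Divisor.pullbackAlong_apply, Divisor.pullbackAlong_apply, Divisor.pullbackAlong_apply,
    ramificationIndexAlong_comp φ ψ hφ hψ W, restrictAlong_comp φ ψ hφ hψ hψφ W]
  push_cast
  ring

/-- the inertia degree along `φ` is one at a place of degree one. -/
theorem inertiaDegAlong_eq_one_of_deg (φ : F →ₐ[K] F') (hφ : φ.toRingHom.IsIntegral)
    (w : Place K F') (hw : w.deg = 1) :
    w.inertiaDegAlong φ hφ = 1 := by
  let _ := algebraAlong φ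
  have := isScalarTower_along φ
  have := isIntegral_along φ hφ
  have h := Place.deg_restrict_mul_inertiaDeg (F := F) w
  rw [hw] at h
  exact Nat.eq_one_of_mul_eq_one_left h

/-- **TOW 4**: pushforward of divisors is functorial, provided the places of `F'` and `F''`
have degree one (e.g. `K` algebraically closed). -/
theorem pushforwardAlong_comp (φ : F →ₐ[K] F') (ψ : F' →ₐ[K] F'')
    (hφ : φ.toRingHom.IsIntegral) (hψ : ψ.toRingHom.IsIntegral)
    (hψφ : (ψ.comp φ).toRingHom.IsIntegral)
    (h' : ∀ w : Place K F', w.deg = 1)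
    (h'' : ∀ W : Place K F'', W.deg = 1) (D : Divisor K F'') :
    Divisor.pushforwardAlong (ψ.comp φ) hψφ D =
      Divisor.pushforwardAlong φ hφ (Divisor.pushforwardAlong ψ hψ D) := by
  induction D using Finsupp.induction_linear with
  | zero => simp
  | add D₁ D₂ h₁ h₂ => rw [map_add, map_add, map_add, h₁, h₂]
  | single W n =>
    rw [Divisor.pushforwardAlong_single, Divisor.pushforwardAlong_single,
      Divisor.pushforwardAlong_single, inertiaDegAlong_eq_one_of_deg _ hψφ W (h'' W),
      inertiaDegAlong_eq_one_of_deg ψ hψ W (h'' W),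
      inertiaDegAlong_eq_one_of_deg φ hφ _ (h' _), restrictAlong_comp φ ψ hφ hψ hψφ W]
    simp

end Tower

end Fermat.Agent.Red.GFF
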