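import Fermat.Agent.Red.TransferRed

/-!
# P-RED, NORMLOC auxiliary lemmas (helper87)

* `h87_exists_listing` : a finite set with multiplicities, listed as a family `Fin n → α`.
* `NormLocRel` : the relative form of NORMLOC (product over the fibre with ramification
  indices as exponents), and `normLocStatement_of_rel : NormLocRel → NormLocStatement`.
* `h87_charpoly_piMap` : the characteristic polynomial of a block diagonal map is the product
  of the characteristic polynomials of the blocks.
* `h87_charpoly_of_isNilpotent_sub` : `T - c` nilpotent ⇒ `charpoly T = (X - c) ^ rank`.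
-/

set_option autoImplicit false

open AlgebraicCurve ModularCurve IntermediateField Polynomial

noncomputable section

namespace Fermat.Agent.Red.NLA

open Fermat.Agent.S37 Fermat.Agent.S37.GalI Fermat.Agent.Red.TRK

universe u₁ u₂ u₃

/-! ### Listing a finite set with multiplicities -/

/-- the list in which every element `w` of `s` occurs `e w` times. -/
def h87_list {α : Type*} (s : Finset α) (e : α → ℕ) : List α :=
  (s.toList.map fun w => List.replicate (e w) w).flatten

theorem h87_mem_list {α : Type*} (s : Finset α) (e : α → ℕ) {w : α} (hw : w ∈ h87_list s e) :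
    w ∈ s := by
  unfold h87_list at hw
  rw [List.mem_flatten] at hw
  obtain ⟨l, hl, hwl⟩ := hw
  rw [List.mem_map] at hl
  obtain ⟨a, ha, rfl⟩ := hl
  rw [List.mem_replicate] at hwl
  rw [hwl.2]
  exact Finset.mem_toList.mp ha

theorem h87_mem_list_of_pos {α : Type*} (s : Finset α) (e : α → ℕ) {w : α} (hw : w ∈ s)
    (he : 0 < e w) : w ∈ h87_list s e := by
  unfold h87_list
  rw [List.mem_flatten]
  refine ⟨List.replicate (e w) w, ?_, ?_⟩
  · rw [List.mem_map]
    exact ⟨w, Finset.mem_toList.mpr hw, rfl⟩
  · rw [List.mem_replicate]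
    exact ⟨he.ne', rfl⟩

theorem h87_prod_list {α M : Type*} [CommMonoid M] (s : Finset α) (e : α → ℕ) (h : α → M) :
    ((h87_list s e).map h).prod = ∏ w ∈ s, h w ^ e w := by
  unfold h87_list
  rw [List.map_flatten, List.prod_flatten, List.map_map, List.map_map,
    ← Finset.prod_map_toList s fun w => h w ^ e w]
  congr 1
  apply List.map_congr_left
  intro a _
  simp only [Function.comp_apply, List.map_replicate, List.prod_replicate]

theorem h87_sum_list {α M : Type*} [AddCommMonoid M] (s : Finset α) (e : α → ℕ) (h : α → M) :
    ((h87_list s e).map h).sum = ∑ w ∈ s, e w • h w := by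
  unfold h87_list
  rw [List.map_flatten, List.sum_flatten, List.map_map, List.map_map,
    ← Finset.sum_map_toList s fun w => e w • h w]
  congr 1
  apply List.map_congr_left
  intro a _
  simp only [Function.comp_apply, List.map_replicate, List.sum_replicate]

/-- **listing**: a finite set with multiplicities as a family indexed by `Fin n`. -/
theorem h87_exists_listing {α : Type u₁} (s : Finset α) (e : α → ℕ) :
    ∃ (n : ℕ) (u : Fin n → α), n = ∑ w ∈ s, e w ∧ (∀ i, u i ∈ s) ∧
      (∀ w ∈ s, 0 < e w → ∃ i, u i = w) ∧
      (∀ (M : Type u₂) [CommMonoid M] (h : α → M), ∏ i, h (u i) = ∏ w ∈ s, h w ^ e w) ∧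
      (∀ (M : Type u₃) [AddCommMonoid M] (h : α → M),
        ∑ i, h (u i) = ∑ w ∈ s, e w • h w) := by
  refine ⟨(h87_list s e).length, fun i => (h87_list s e)[i.1], ?_, fun i => ?_, ?_, ?_, ?_⟩
  · have := h87_sum_list s e (fun _ => (1 : ℕ))
    simp only [smul_eq_mul, mul_one] at this
    rw [← this]
    simp
  · exact h87_mem_list s e (List.getElem_mem _)
  · intro w hw he
    obtain ⟨i, hi, hiw⟩ := List.mem_iff_getElem.mp (h87_mem_list_of_pos s e hw he)
    exact ⟨⟨i, hi⟩, hiw⟩
  · intro M _ h
    rw [← h87_prod_list]
    exact Fin.prod_univ_fun_getElem _ _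
  · intro M _ h
    rw [← h87_sum_list]
    exact Fin.sum_univ_fun_getElem _ _

/-! ### From the relative form of NORMLOC to the listing form -/

/-- **NORMLOC, relative form**: the characteristic polynomial of `g` (integral at all places
above `v`) has coefficients with values at `v`, and the polynomial of values is the product of
the `(T - g(w)) ^ e(w)` over the places `w` above `v`. -/
def NormLocRel : Prop :=
  ∀ (N M : ℕ) [NeZero N] [NeZero M] (φ : FF N →ₐ[Kbar] FF M) (hφ : φ.toRingHom.IsIntegral)
    (hfin : FiniteAlong Kbar φ) [HasPrincipalDivisors Kbar (FF M)] (v : Place Kbar (FF N))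
    (g : FF M) (val : Place Kbar (FF M) → Kbar),
    (∀ w ∈ Place.fiberAlong φ hφ v, ValueAt w g (val w)) →
    ∀ m : ℕ, ValueAt v ((charpolyAlong φ hfin g).coeff m)
      ((∏ w ∈ Place.fiberAlong φ hφ v,
        (X - C (val w)) ^ w.ramificationIndexAlong φ).coeff m)

theorem h87_ramificationIndexAlong_pos {N M : ℕ} (φ : FF N →ₐ[Kbar] FF M)
    (hφ : φ.toRingHom.IsIntegral) (w : Place Kbar (FF M)) :
    0 < w.ramificationIndexAlong φ := by
  letI := algebraAlong φ
  haveI := isScalarTower_along φ
  haveI := isIntegral_along φ hφ
  exact w.ramificationIndex_pos (F := FF N)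

theorem normLocStatement_of_rel (h : NormLocRel) : NormLocStatement := by
  classical
  intro N M _ _ φ hφ hfin _ v
  obtain ⟨n, u, -, hus, hsu, hprod, hsum⟩ :=
    h87_exists_listing.{0, 0, 0} (Place.fiberAlong φ hφ v)
      (fun w => w.ramificationIndexAlong φ)
  refine ⟨n, u, ?_, ?_⟩
  · rw [Divisor.pullbackAlong_single, hsum (Divisor Kbar (FF M)) fun w => Finsupp.single w 1]
    refine Finset.sum_congr rfl fun w _ => ?_
    rw [one_mul, Finsupp.smul_single, nsmul_eq_mul, mul_one]
  · intro g hg
    have hgw : ∀ w ∈ Place.fiberAlong φ hφ v, g ∈ w.toValuationSubring := by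
      intro w hw
      obtain ⟨i, rfl⟩ := hsu w hw (h87_ramificationIndexAlong_pos φ hφ w)
      exact hg i
    let val : Place Kbar (FF M) → Kbar := fun w =>
      if hw : w ∈ Place.fiberAlong φ hφ v then Classical.choose (exists_valueAt w (hgw w hw))
      else 0
    have hval : ∀ w ∈ Place.fiberAlong φ hφ v, ValueAt w g (val w) := by
      intro w hw
      simp only [val, dif_pos hw]
      exact Classical.choose_spec (exists_valueAt w (hgw w hw))
    refine ⟨fun i => val (u i), fun i => hval (u i) (hus i), ?_⟩
    intro m
    have := h N M φ hφ hfin v g val hval m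
    rwa [← hprod (Polynomial Kbar) fun w => X - C (val w)] at this

/-! ### The characteristic polynomial of a block diagonal map -/

universe u v

/-- the characteristic polynomial of an endomorphism of a trivial module is `1`. -/
theorem h87_charpoly_of_subsingleton {R V : Type*} [CommRing R] [Nontrivial R]
    [AddCommGroup V] [Module R V] [Module.Free R V] [Module.Finite R V] [Subsingleton V]
    (T : Module.End R V) : T.charpoly = 1 := by
  have h1 : T.charpoly.natDegree = 0 := by
    rw [LinearMap.charpoly_natDegree, Module.finrank_zero_of_subsingleton]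
  exact (LinearMap.charpoly_monic T).natDegree_eq_zero.mp h1

/-- the statement of `h87_charpoly_piMap` as a predicate on the index type. -/
def h87_PiCharpoly (R : Type*) [CommRing R] (ι : Type u) [Fintype ι] : Prop :=
  ∀ (M : ι → Type v) [∀ i, AddCommGroup (M i)] [∀ i, Module R (M i)]
    [∀ i, Module.Free R (M i)] [∀ i, Module.Finite R (M i)] (f : ∀ i, Module.End R (M i)),
    (LinearMap.piMap f).charpoly = ∏ i, (f i).charpoly

theorem h87_piCharpoly {R : Type*} [CommRing R] [Nontrivial R] (ι : Type u) [Fintype ι] :
    h87_PiCharpoly.{u, v} R ι := by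
  refine Fintype.induction_empty_option (P := fun α _ => h87_PiCharpoly.{u, v} R α)
    ?_ ?_ ?_ ι
  · intro α β _ e ih M _ _ _ _ f
    letI : Fintype α := Fintype.ofEquiv β e.symm
    have h1 := ih (fun a => M (e a)) (fun a => f (e a))
    have h2 : (LinearEquiv.piCongrLeft R M e).conj (LinearMap.piMap fun a => f (e a)) =
        LinearMap.piMap f := by
      apply LinearMap.ext
      intro x
      rw [LinearEquiv.conj_apply_apply]
      ext b
      obtain ⟨a, rfl⟩ := e.surjective b
      have h3 : ∀ g : (∀ a, M (e a)), (LinearEquiv.piCongrLeft R M e) g (e a) = g a :=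
        fun g => Equiv.piCongrLeft_apply_apply M e g a
      have h4 : ∀ y : (∀ b, M b), (LinearEquiv.piCongrLeft R M e).symm y a = y (e a) :=
        fun y => rfl
      rw [h3, LinearMap.coe_piMap, Pi.map_apply, h4, LinearMap.coe_piMap, Pi.map_apply]
    rw [← h2, LinearEquiv.charpoly_conj, h1]
    exact Fintype.prod_equiv e _ _ fun _ => rfl
  · intro M _ _ _ _ f
    rw [h87_charpoly_of_subsingleton]
    simp
  · intro α _ ih M _ _ _ _ f
    have h1 := ih (fun a => M (some a)) (fun a => f (some a))
    have h2 : (LinearEquiv.piOptionEquivProd R (M := M)).conj (LinearMap.piMap f) =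
        (f none).prodMap (LinearMap.piMap fun a => f (some a)) := by
      apply LinearMap.ext
      intro x
      rw [LinearEquiv.conj_apply_apply]
      rfl
    rw [← LinearEquiv.charpoly_conj (LinearEquiv.piOptionEquivProd R (M := M)), h2,
      LinearMap.charpoly_prodMap, h1, Fintype.prod_option]

/-- **charpoly of a block diagonal map**. -/
theorem h87_charpoly_piMap {R : Type*} [CommRing R] [Nontrivial R] {ι : Type u} [Fintype ι]
    (M : ι → Type v) [∀ i, AddCommGroup (M i)] [∀ i, Module R (M i)]
    [∀ i, Module.Free R (M i)] [∀ i, Module.Finite R (M i)] (f : ∀ i, Module.End R (M i)) :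
    (LinearMap.piMap f).charpoly = ∏ i, (f i).charpoly :=
  h87_piCharpoly ι M f

/-! ### Nilpotent shift -/

/-- if `T - c` is nilpotent, the characteristic polynomial of `T` is `(X - c) ^ rank`. -/
theorem h87_charpoly_of_isNilpotent_sub {R V : Type*} [CommRing R] [IsDomain R]
    [AddCommGroup V] [Module R V] [Module.Free R V] [Module.Finite R V]
    (T : Module.End R V) (c : R) (hT : IsNilpotent (T - c • (1 : Module.End R V))) :
    T.charpoly = (X - C c) ^ Module.finrank R V := by
  have h1 := LinearMap.charpoly_sub_smul T c
  rw [hT.charpoly_eq_X_pow_finrank] at h1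
  have h2 := congrArg (fun p : Polynomial R => p.comp (X - C c)) h1
  simp only [comp_assoc, add_comp, X_comp, C_comp, sub_add_cancel, comp_X, X_pow_comp] at h2
  exact h2.symm

end Fermat.Agent.Red.NLA
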