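import Mathlib

/-!
# P-RED: the "unit disc" lemma

`K` an algebraically closed field with a valuation `v`.  A polynomial `P` with `v`-integral
coefficients, one of which is a unit, and without roots in the open unit disc around an integral
point `c`, takes a unit value at `c` (`h29_val_eval_eq_one`).  Equivalently: a zero of the
reduction of `P` lifts to a root of `P`.  This replaces purity arguments for discriminants.
-/

set_option autoImplicit false

namespace Fermat.Agent.Red.UnitDisc

open Polynomial

variable {K : Type*} [Field K] {Γ : Type*} [LinearOrderedCommGroupWithZero Γ]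

theorem h29_one_le_val_prod (v : Valuation K Γ) (u : Multiset K) (hu : ∀ r ∈ u, 1 ≤ v r) :
    1 ≤ v u.prod := by
  induction u using Multiset.induction_on with
  | empty => simp
  | cons a s ih =>
    rw [Multiset.prod_cons, map_mul]
    have h1 : 1 ≤ v a := hu a (Multiset.mem_cons_self a s)
    have h2 : 1 ≤ v s.prod := ih fun r hr => hu r (Multiset.mem_cons_of_mem hr)
    calc (1 : Γ) = 1 * 1 := (mul_one 1).symm
      _ ≤ v a * v s.prod := mul_le_mul' h1 h2

theorem h29_val_prod_le_of_le (v : Valuation K Γ) {s t : Multiset K} (hst : t ≤ s)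
    (hs : ∀ r ∈ s, 1 ≤ v r) : v t.prod ≤ v s.prod := by
  obtain ⟨u, rfl⟩ := Multiset.le_iff_exists_add.mp hst
  rw [Multiset.prod_add, map_mul]
  have h1 : 1 ≤ v u.prod :=
    h29_one_le_val_prod v u fun r hr => hs r (Multiset.mem_add.mpr (Or.inr hr))
  calc v t.prod = v t.prod * 1 := (mul_one _).symm
    _ ≤ v t.prod * v u.prod := mul_le_mul_right h1 _

theorem h29_val_multiset_sum_le (v : Valuation K Γ) (s : Multiset K) (g : Γ)
    (hs : ∀ x ∈ s, v x ≤ g) : v s.sum ≤ g := by
  induction s using Multiset.induction_on with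
  | empty => simp
  | cons a s ih =>
    rw [Multiset.sum_cons]
    exact v.map_add_le (hs a (Multiset.mem_cons_self a s))
      (ih fun x hx => hs x (Multiset.mem_cons_of_mem hx))

theorem h29_val_esymm_le (v : Valuation K Γ) (s : Multiset K) (hs : ∀ r ∈ s, 1 ≤ v r) (n : ℕ) :
    v (s.esymm n) ≤ v s.prod := by
  rw [Multiset.esymm]
  apply h29_val_multiset_sum_le
  intro x hx
  obtain ⟨t, ht, rfl⟩ := Multiset.mem_map.mp hx
  exact h29_val_prod_le_of_le v (Multiset.mem_powersetCard.mp ht).1 hs

/-- if no root of `P` lies in the open unit disc then every coefficient is bounded by the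
constant coefficient. -/
theorem h29_val_coeff_le_coeff_zero [IsAlgClosed K] (v : Valuation K Γ) (P : K[X])
    (hroot : ∀ r : K, P.IsRoot r → 1 ≤ v r) (k : ℕ) : v (P.coeff k) ≤ v (P.coeff 0) := by
  by_cases hP : P = 0
  · subst hP
    simp
  by_cases hk : k ≤ P.natDegree
  · have hcard : Multiset.card P.roots = P.natDegree := IsAlgClosed.card_roots_eq_natDegree
    have hr : ∀ r ∈ P.roots, 1 ≤ v r := fun r hr => hroot r ((Polynomial.mem_roots hP).mp hr)
    rw [Polynomial.coeff_eq_esymm_roots_of_card hcard hk,
      Polynomial.coeff_eq_esymm_roots_of_card hcard (Nat.zero_le _)]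
    simp only [map_mul, map_pow, Valuation.map_neg, map_one, one_pow, mul_one, Nat.sub_zero]
    have h1 : P.roots.esymm P.natDegree = P.roots.prod := by
      rw [← hcard, Multiset.esymm, Multiset.powersetCard_self]
      simp
    rw [h1]
    exact mul_le_mul_right (h29_val_esymm_le v P.roots hr _) _
  · rw [Polynomial.coeff_eq_zero_of_natDegree_lt (not_le.mp hk)]
    simp

/-- **unit disc lemma at `0`.** -/
theorem h29_val_coeff_zero_eq_one [IsAlgClosed K] (v : Valuation K Γ) (P : K[X])
    (hint : ∀ n, v (P.coeff n) ≤ 1) (hprim : ∃ n, v (P.coeff n) = 1)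
    (hroot : ∀ r : K, P.IsRoot r → 1 ≤ v r) : v (P.coeff 0) = 1 := by
  obtain ⟨n, hn⟩ := hprim
  exact le_antisymm (hint 0) (hn ▸ h29_val_coeff_le_coeff_zero v P hroot n)

/-- primitivity is invariant under translation. -/
theorem h29_map_comp_ne_zero {R k : Type*} [CommRing R] [Field k] (π : R →+* k) (P : R[X])
    (hP : P.map π ≠ 0) (c : R) : (P.comp (X + C c)).map π ≠ 0 := by
  intro h
  apply hP
  have h1 : ((P.comp (X + C c)).map π).comp (X - C (π c)) = 0 := by rw [h, zero_comp]
  rw [Polynomial.map_comp, Polynomial.comp_assoc] at h1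
  simpa using h1

/-- **unit disc lemma.**  `A` a valuation subring of the algebraically closed field `K`,
`P ∈ A[X]` with nonzero reduction, `c ∈ A`.  If no root `r` of `P` satisfies `r - c ∈ 𝔪_A`, then
`P c` is a unit of `A`. -/
theorem h29_isUnit_eval [IsAlgClosed K] (A : ValuationSubring K) (P : (A : Type _)[X])
    (hP : P.map (IsLocalRing.residue A) ≠ 0) (c : A)
    (hroot : ∀ r : K, (P.map A.subtype).IsRoot r → r - (c : K) ∉ A.nonunits) :
    IsUnit (P.eval c) := by
  set Q : (A : Type _)[X] := P.comp (X + C c) with hQ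
  have hQ0 : Q.map (IsLocalRing.residue A) ≠ 0 := h29_map_comp_ne_zero _ P hP c
  have hint : ∀ n, A.valuation ((Q.map A.subtype).coeff n) ≤ 1 := by
    intro n
    rw [Polynomial.coeff_map]
    exact A.valuation_le_one _
  have hprim : ∃ n, A.valuation ((Q.map A.subtype).coeff n) = 1 := by
    by_contra hne
    push Not at hne
    apply hQ0
    ext n
    rw [Polynomial.coeff_map, Polynomial.coeff_zero, IsLocalRing.residue_eq_zero_iff,
      ValuationSubring.valuation_lt_one_iff]
    have h1 := hint n
    have h2 := hne n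
    rw [Polynomial.coeff_map] at h1 h2
    exact lt_of_le_of_ne h1 h2
  have hrootQ : ∀ r : K, (Q.map A.subtype).IsRoot r → 1 ≤ A.valuation r := by
    intro r hr
    have h1 : (P.map A.subtype).IsRoot (r + (c : K)) := by
      rw [Polynomial.IsRoot.def] at hr ⊢
      rw [hQ, Polynomial.map_comp, Polynomial.eval_comp] at hr
      simpa using hr
    have h2 := hroot _ h1
    rw [add_sub_cancel_right] at h2
    by_contra hlt
    exact h2 (not_le.mp hlt)
  have h := h29_val_coeff_zero_eq_one A.valuation (Q.map A.subtype) hint hprim hrootQ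
  rw [Polynomial.coeff_map, hQ, Polynomial.coeff_zero_eq_eval_zero, Polynomial.eval_comp] at h
  simp only [eval_add, eval_X, eval_C, zero_add] at h
  exact (ValuationSubring.valuation_eq_one_iff A _).mpr h

/-- **unit disc lemma, residue form**: a zero of the reduction lifts to a root. -/
theorem h29_exists_root_of_residue_eval_eq_zero [IsAlgClosed K] (A : ValuationSubring K)
    (P : (A : Type _)[X]) (hP : P.map (IsLocalRing.residue A) ≠ 0) (c : A)
    (h0 : (P.map (IsLocalRing.residue A)).eval (IsLocalRing.residue A c) = 0) :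
    ∃ r : K, (P.map A.subtype).IsRoot r ∧ r - (c : K) ∈ A.nonunits := by
  by_contra hne
  push Not at hne
  have hu := h29_isUnit_eval A P hP c hne
  rw [Polynomial.eval_map, Polynomial.eval₂_hom, IsLocalRing.residue_eq_zero_iff] at h0
  exact (IsLocalRing.mem_maximalIdeal _).mp h0 hu

end Fermat.Agent.Red.UnitDisc
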