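import Fermat.Agent.Red.NormLoc
import Fermat.Agent.Red.HKMod
import Fermat.Agent.Red.TransferRed

/-!
# P-RED, module R-NORMLOC (helper35): the local characteristic polynomial formula, `Along` form

* `exists_listing_fiberAlong` : for `φ : F →ₐ[K] F'` finite, `K` algebraically closed of
  characteristic zero, `F'` finite over `K(x)`, and a place `v` of `F`: the places of `F'` above
  `v` listed with multiplicity as `u : Fin (finrankAlong K φ) → Place K F'`, with
  `pullbackAlong φ (single v 1) = ∑ i, single (u i) 1`, and for `g` integral at all `u i` the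
  coefficients of the characteristic polynomial of `g` over `F` are integral at `v` with values
  the coefficients of `∏ i, (X - C (g(u i)))`.
* `normLoc` : the specialisation to `FF N → FF M` in the vocabulary of `S37` (`ValueAt`).
* `normLocStatement : Fermat.Agent.Red.TRK.NormLocStatement` (the frozen shape consumed by
  `Fermat.Agent.Red.TRK.ifaceTransferRed_of`).
-/

set_option autoImplicit false

open AlgebraicCurve ModularCurve IntermediateField Polynomial

noncomputable section

namespace Fermat.Agent.Red.NormLoc

open Fermat.Agent.S37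

section Along

variable {K F F' : Type*} [Field K] [Field F] [Field F'] [Algebra K F] [Algebra K F']
  [IsAlgClosed K] [CharZero K] [HasPrincipalDivisors K F']

/-- **NORMLOC**, `Along` form. -/
theorem exists_listing_fiberAlong (φ : F →ₐ[K] F') (hφ : φ.toRingHom.IsIntegral)
    (hfin : FiniteAlong K φ) (x : F') [FiniteDimensional K⟮x⟯ F'] (v : Place K F) :
    ∃ u : Fin (finrankAlong K φ) → Place K F',
      (∀ i, (u i).restrictAlong φ hφ = v) ∧
      Divisor.pullbackAlong φ hφ (Finsupp.single v (1 : ℤ))
        = ∑ i, Finsupp.single (u i) (1 : ℤ) ∧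
      ∀ g : F', (∀ i, g ∈ (u i).toValuationSubring) →
        ∃ a : Fin (finrankAlong K φ) → K,
          (∀ i, g - algebraMap K F' (a i) ∈ (u i).toValuationSubring.nonunits) ∧
          ∀ m : ℕ, (Fermat.Agent.Red.TRK.charpolyAlong φ hfin g).coeff m
              - algebraMap K F ((∏ i, (X - C (a i))).coeff m)
            ∈ v.toValuationSubring.nonunits := by
  let _ := algebraAlong φ
  have := isScalarTower_along φ
  have : FiniteDimensional F F' := hfin
  exact exists_listing_fiber x v

end Along

section Modular

/-- **NORMLOC** for the modular function fields, in the vocabulary of `S37`, with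
`n = finrankAlong Kbar φ` and the additional information that the `u i` lie above `v`. -/
theorem normLoc (N M : ℕ) [NeZero N] [NeZero M] (φ : FF N →ₐ[Kbar] FF M)
    (hφ : φ.toRingHom.IsIntegral) (hfin : FiniteAlong Kbar φ)
    [HasPrincipalDivisors Kbar (FF M)] (v : Place Kbar (FF N)) :
    ∃ u : Fin (finrankAlong Kbar φ) → Place Kbar (FF M),
      (∀ i, (u i).restrictAlong φ hφ = v) ∧
      Divisor.pullbackAlong φ hφ (Finsupp.single v (1 : ℤ))
        = ∑ i, Finsupp.single (u i) (1 : ℤ) ∧
      ∀ g : FF M, (∀ i, g ∈ (u i).toValuationSubring) →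
        ∃ a : Fin (finrankAlong Kbar φ) → Kbar, (∀ i, ValueAt (u i) g (a i)) ∧
          ∀ m : ℕ, ValueAt v ((Fermat.Agent.Red.TRK.charpolyAlong φ hfin g).coeff m)
            ((∏ i, (X - C (a i))).coeff m) := by
  have := Fermat.Agent.Red.HKMod.finiteDimensional_jBar M
  exact exists_listing_fiberAlong φ hφ hfin (jB M) v

/-- **NORMLOC**, the frozen shape consumed by `Fermat.Agent.Red.TRK.ifaceTransferRed_of`. -/
theorem normLocStatement : Fermat.Agent.Red.TRK.NormLocStatement := by
  intro N M _ _ φ hφ hfin _ v
  obtain ⟨u, -, hpull, hval⟩ := normLoc N M φ hφ hfin v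
  exact ⟨finrankAlong Kbar φ, u, hpull, hval⟩

end Modular

end Fermat.Agent.Red.NormLoc
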