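import Fermat.Agent.Red.TransferRed
import Fermat.Agent.Red.NormLocAlong

/-!
# P-RED, module TRK-a (helper87): `IfaceTransferRed`, unconditional

`ifaceTransferRed : Fermat.Agent.S37.IfaceTransferRed` from `ifaceTransferRed_of`
(`Red/TransferRed.lean`) and NORMLOC (`Red/NormLocAlong.lean`, helper35).
-/

set_option autoImplicit false

namespace Fermat.Agent.Red.TRK

/-- **TRK-a (conservation of number)**: pull-back of divisors along `F_N ⊆ F_M` maps `redKer`
into `redKer`. -/
theorem ifaceTransferRed : Fermat.Agent.S37.IfaceTransferRed :=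
  ifaceTransferRed_of Fermat.Agent.Red.NormLoc.normLocStatement

end Fermat.Agent.Red.TRK
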