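import Fermat.Prelude.Def_ModularCurve_HeckeModule

/-!
# P-RED, function-based route to IN-RED: the gate (helper26)

Frozen interface of the function-based route (findings 396):

* `CongOne A w` : the Laurent series `w ∈ ℚ̄((q))` is `≡ 1` modulo the maximal ideal of the
  Gauss valuation attached to `A`: `w = a / b` with `a, b ∈ A((q))`, `b` primitive and
  `a ≡ b` coefficientwise modulo `𝔪_A`.
* `FGate N m ℓ` : a modular function `w` of level `N` whose divisor is divisible by `m` and
  which is `≡ 1` modulo `𝔪_A` (`A` over `ℓ`) is an `m`-th power.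
* `FGateStatement` : `FGate N m ℓ` for all `ℓ ∤ N * m`.

`EichlerShimuraTorsion` follows from `FGateStatement`, the norm formula for `T_ℓ` on functions
and the coefficientwise Kronecker congruence; `FGateStatement` follows from the abstract gate
`h26_gate_abs` over a discrete valuation ring `O = A ∩ L₀`.
-/

set_option autoImplicit false

open ModularCurve AlgebraicCurve

namespace Fermat.Agent.Red

/-- `w ≡ 1` modulo the maximal ideal of the Gauss valuation attached to `A`. -/
def CongOne (A : ValuationSubring (AlgebraicClosure ℚ))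
    (w : LaurentSeries (AlgebraicClosure ℚ)) : Prop :=
  ∃ a b : LaurentSeries A,
    (∃ n : ℤ, IsUnit (b.coeff n)) ∧
    (∀ n : ℤ, a.coeff n - b.coeff n ∈ IsLocalRing.maximalIdeal A) ∧
    coeffMap A.subtype b * w = coeffMap A.subtype a

/-- **The function-based torsion gate** at `(N, m, ℓ)`. -/
def FGate (N : ℕ) [NeZero N] (m ℓ : ℕ) : Prop :=
  ∀ A : ValuationSubring (AlgebraicClosure ℚ), A.LiesOverPrime ℓ →
    ∀ w : modularFunctionFieldBar N, w ≠ 0 →
      (∀ v : Place (AlgebraicClosure ℚ) (modularFunctionFieldBar N), (m : ℤ) ∣ v.ord w) →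
      CongOne A (w : LaurentSeries (AlgebraicClosure ℚ)) →
      ∃ h : modularFunctionFieldBar N, h ^ m = w

/-- the gate for all `ℓ ∤ N * m`. -/
def FGateStatement : Prop :=
  ∀ (N : ℕ) [NeZero N] (m ℓ : ℕ), ℓ.Prime → ¬ ℓ ∣ N * m → FGate N m ℓ

theorem congOne_one (A : ValuationSubring (AlgebraicClosure ℚ)) : CongOne A 1 := by
  refine ⟨1, 1, ⟨0, ?_⟩, fun n => ?_, by simp⟩
  · simp
  · simp

end Fermat.Agent.Red
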