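import Fermat.Agent.Red.GGChart18
import Fermat.Agent.S24.FICore
import Fermat.Agent.S24.PlaceDict
import Fermat.Agent.S24.DiffPlace

/-!
# P-RED, gate integration (L1): field `hinj` of `GG.IfaceChart` and `GG.IfaceGeneric`
(helper18)

`t` transcendental over `Kbar`, `D` = integral closure of `Kbar[t]` in `FF M` (a Dedekind
domain).  The places at which `t` is regular are the maximal ideals of `D`.

* `h18c_exists_sep` : for distinct places `i ≠ k` at which `t` is regular there is an element of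
  the chart `modelAt M A t` vanishing at `i` and not at `k`;
* `h18c_hinj` : field `hinj` of `H26Chart`;
* `h18c_generic` : `GG.IfaceGeneric M A t`.
-/

set_option autoImplicit false
set_option synthInstance.maxHeartbeats 400000

open AlgebraicCurve WithZero IsLocalRing Polynomial IsDedekindDomain IntermediateField

noncomputable section

namespace Fermat.Agent.Red.GG

open Fermat.Agent.S37 Fermat.Agent.Red.GV

/-- the valuation of a nonzero constant is `1`. -/
theorem h18c_val_cst {M : ℕ} (v : Place Kbar (FF M)) {a : Kbar} (ha : a ≠ 0) :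
    v.adicValuation (cst M a) = 1 := by
  have h0 : cst M a ≠ 0 := (map_ne_zero (algebraMap Kbar (FF M))).2 ha
  rw [v.adicValuation_eq_exp_neg_ord h0, Fermat.Agent.S24.DiffPlace.ord_algebraMap, neg_zero, exp_zero]

section Dedekind

open scoped IntermediateField.algebraAdjoinAdjoin

set_option maxHeartbeats 1600000 in
/-- for distinct places `i ≠ k` at which `t` is regular there is `d`, integral over `Kbar[t]`,
with `v_i(d) < 1` and `v_k(d) = 1`. -/
theorem h18c_exists_sep_top (M : ℕ) [NeZero M] (t : FF M) (ht : Transcendental Kbar t)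
    (i k : ChartPlace M t) (hik : i ≠ k) :
    ∃ d : FF M, (∀ v : ChartPlace M t, chartVal M t v d ≤ 1) ∧
      chartVal M t i d < 1 ∧ chartVal M t k d = 1 := by
  have := HKMod.finiteDimensional_adjoin_FF M t ht
  have hPID := Fermat.Agent.S24.FICore.isPrincipalIdealRing_adjoin t ht
  have hDed : IsDedekindDomain (integralClosure (Algebra.adjoin Kbar {t}) (FF M)) :=
    integralClosure.isDedekindDomain (Algebra.adjoin Kbar {t}) Kbar⟮t⟯ (FF M)
  have hFrac : IsFractionRing (integralClosure (Algebra.adjoin Kbar {t}) (FF M)) (FF M) :=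
    integralClosure.isFractionRing_of_finite_extension Kbar⟮t⟯ (FF M)
  obtain ⟨P, hP⟩ := Fermat.Agent.S24.exists_ofHeightOneSpectrum_eq (K := Kbar) (F := FF M)
    (R := integralClosure (Algebra.adjoin Kbar {t}) (FF M)) i.1
    (fun r => Fermat.Agent.S24.FICore.mem_of_isIntegral_adjoin t i.1 i.2
      (b := (r : FF M)) r.2)
  obtain ⟨Q, hQ⟩ := Fermat.Agent.S24.exists_ofHeightOneSpectrum_eq (K := Kbar) (F := FF M)
    (R := integralClosure (Algebra.adjoin Kbar {t}) (FF M)) k.1
    (fun r => Fermat.Agent.S24.FICore.mem_of_isIntegral_adjoin t k.1 k.2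
      (b := (r : FF M)) r.2)
  have hPQ : P ≠ Q := by
    rintro rfl
    exact hik (Subtype.ext (hP.symm.trans hQ))
  obtain ⟨d, hdP, hdQ⟩ : ∃ d, d ∈ P.asIdeal ∧ d ∉ Q.asIdeal := by
    by_contra hcon
    have hle : P.asIdeal ≤ Q.asIdeal := fun x hx => by
      by_contra hxQ
      exact hcon ⟨x, hx, hxQ⟩
    exact hPQ (HeightOneSpectrum.ext (P.isMaximal.eq_of_le Q.isPrime.ne_top hle))
  have hd0 : (d : FF M) ≠ 0 := by
    intro h0
    apply hdQ
    have : d = 0 := Subtype.ext h0
    rw [this]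
    exact Q.asIdeal.zero_mem
  have hdint : IsIntegral (Algebra.adjoin Kbar {t}) (d : FF M) := d.2
  have hreg : ∀ v : ChartPlace M t, chartVal M t v (d : FF M) ≤ 1 := fun v =>
    v.1.adicValuation_le_one_of_mem
      (Fermat.Agent.S24.FICore.mem_of_isIntegral_adjoin t v.1 v.2 hdint)
  have hvalP : (Place.ofHeightOneSpectrum (K := Kbar) (F := FF M) P).adicValuation (d : FF M)
      = P.valuation (FF M) (d : FF M) := by
    rw [Place.adicValuation_eq_exp_neg_ord _ hd0, Fermat.Agent.S24.ord_ofHeightOneSpectrum,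
      neg_neg, exp_log ((Valuation.ne_zero_iff _).2 hd0)]
  have hvalQ : (Place.ofHeightOneSpectrum (K := Kbar) (F := FF M) Q).adicValuation (d : FF M)
      = Q.valuation (FF M) (d : FF M) := by
    rw [Place.adicValuation_eq_exp_neg_ord _ hd0, Fermat.Agent.S24.ord_ofHeightOneSpectrum,
      neg_neg, exp_log ((Valuation.ne_zero_iff _).2 hd0)]
  refine ⟨(d : FF M), hreg, ?_, ?_⟩
  · show i.1.adicValuation (d : FF M) < 1
    rw [← hP, hvalP]
    exact (P.valuation_lt_one_iff_mem d).2 hdP
  · show k.1.adicValuation (d : FF M) = 1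
    rw [← hQ, hvalQ]
    exact (Q.valuation_eq_one_iff_notMem).2 hdQ

set_option maxHeartbeats 1600000 in
/-- for distinct places `i ≠ k` at which `t` is regular there are `x`, `y`, integral over
`Kbar[t]`, with `x + y = 1`, `v_i(x) < 1` and `v_k(y) < 1`. -/
theorem h18c_exists_coprime_top (M : ℕ) [NeZero M] (t : FF M) (ht : Transcendental Kbar t)
    (i k : ChartPlace M t) (hik : i ≠ k) :
    ∃ x y : FF M, (∀ v : ChartPlace M t, chartVal M t v x ≤ 1) ∧
      (∀ v : ChartPlace M t, chartVal M t v y ≤ 1) ∧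
      chartVal M t i x < 1 ∧ chartVal M t k y < 1 ∧ x + y = 1 := by
  have := HKMod.finiteDimensional_adjoin_FF M t ht
  have hPID := Fermat.Agent.S24.FICore.isPrincipalIdealRing_adjoin t ht
  have hDed : IsDedekindDomain (integralClosure (Algebra.adjoin Kbar {t}) (FF M)) :=
    integralClosure.isDedekindDomain (Algebra.adjoin Kbar {t}) Kbar⟮t⟯ (FF M)
  have hFrac : IsFractionRing (integralClosure (Algebra.adjoin Kbar {t}) (FF M)) (FF M) :=
    integralClosure.isFractionRing_of_finite_extension Kbar⟮t⟯ (FF M)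
  obtain ⟨P, hP⟩ := Fermat.Agent.S24.exists_ofHeightOneSpectrum_eq (K := Kbar) (F := FF M)
    (R := integralClosure (Algebra.adjoin Kbar {t}) (FF M)) i.1
    (fun r => Fermat.Agent.S24.FICore.mem_of_isIntegral_adjoin t i.1 i.2
      (b := (r : FF M)) r.2)
  obtain ⟨Q, hQ⟩ := Fermat.Agent.S24.exists_ofHeightOneSpectrum_eq (K := Kbar) (F := FF M)
    (R := integralClosure (Algebra.adjoin Kbar {t}) (FF M)) k.1
    (fun r => Fermat.Agent.S24.FICore.mem_of_isIntegral_adjoin t k.1 k.2
      (b := (r : FF M)) r.2)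
  have hPQ : P.asIdeal ≠ Q.asIdeal := by
    intro h
    have : P = Q := HeightOneSpectrum.ext h
    subst this
    exact hik (Subtype.ext (hP.symm.trans hQ))
  have hcop : P.asIdeal ⊔ Q.asIdeal = ⊤ := P.isMaximal.coprime_of_ne Q.isMaximal hPQ
  obtain ⟨x, hx, y, hy, hxy⟩ := Submodule.mem_sup.1
    ((Ideal.eq_top_iff_one _).1 hcop)
  have hval : ∀ (P' : HeightOneSpectrum (integralClosure (Algebra.adjoin Kbar {t}) (FF M)))
      (z : integralClosure (Algebra.adjoin Kbar {t}) (FF M)), z ∈ P'.asIdeal →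
      (Place.ofHeightOneSpectrum (K := Kbar) (F := FF M) P').adicValuation (z : FF M) < 1 := by
    intro P' z hz
    rcases eq_or_ne (z : FF M) 0 with h0 | h0
    · rw [h0, map_zero]
      exact zero_lt_one
    · rw [Place.adicValuation_eq_exp_neg_ord _ h0, Fermat.Agent.S24.ord_ofHeightOneSpectrum,
        neg_neg, exp_log ((Valuation.ne_zero_iff _).2 h0)]
      exact (P'.valuation_lt_one_iff_mem z).2 hz
  have hreg : ∀ (z : integralClosure (Algebra.adjoin Kbar {t}) (FF M)) (v : ChartPlace M t),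
      chartVal M t v (z : FF M) ≤ 1 := fun z v =>
    v.1.adicValuation_le_one_of_mem
      (Fermat.Agent.S24.FICore.mem_of_isIntegral_adjoin t v.1 v.2 (b := (z : FF M)) z.2)
  refine ⟨(x : FF M), (y : FF M), hreg x, hreg y, ?_, ?_, ?_⟩
  · show i.1.adicValuation (x : FF M) < 1
    rw [← hP]
    exact hval P x hx
  · show k.1.adicValuation (y : FF M) < 1
    rw [← hQ]
    exact hval Q y hy
  · have := congrArg (fun z : integralClosure (Algebra.adjoin Kbar {t}) (FF M) => (z : FF M)) hxy
    simpa using this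

end Dedekind

/-- for distinct places `i ≠ k` at which `t` is regular there is an element of the chart
`modelAt M A t` vanishing at `i` and not at `k`. -/
theorem h18c_exists_sep (M : ℕ) [NeZero M] (A : ValuationSubring Kbar) (t : FF M)
    (ht : Transcendental Kbar t) (i k : ChartPlace M t) (hik : i ≠ k) :
    ∃ b : chart M A t, chartVal M t i (b : FF M) < 1 ∧ chartVal M t k (b : FF M) = 1 := by
  obtain ⟨d, hreg, hdi, hdk⟩ := h18c_exists_sep_top M t ht i k hik
  obtain ⟨a, ha0, hab⟩ := h18c_hint M A t d hreg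
  have ha0' : (a : Kbar) ≠ 0 := by
    intro h
    apply ha0
    show cst M (a : Kbar) = 0
    rw [h]
    exact map_zero (algebraMap Kbar (FF M))
  refine ⟨⟨a • d, hab⟩, ?_, ?_⟩
  · show i.1.adicValuation (a • d) < 1
    rw [Algebra.smul_def, map_mul]
    have h1 : i.1.adicValuation (algebraMap A (FF M) a) = 1 := h18c_val_cst i.1 ha0'
    rw [h1, one_mul]
    exact hdi
  · show k.1.adicValuation (a • d) = 1
    rw [Algebra.smul_def, map_mul]
    have h1 : k.1.adicValuation (algebraMap A (FF M) a) = 1 := h18c_val_cst k.1 ha0'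
    rw [h1, one_mul]
    exact hdk

/-- **field `hinj` of `H26Chart`** for the chart `modelAt M A t`, `t` transcendental. -/
theorem h18c_hinj (M : ℕ) [NeZero M] (A : ValuationSubring Kbar) (t : FF M)
    (ht : Transcendental Kbar t) (i k : ChartPlace M t)
    (h : ∀ b : chart M A t, chartVal M t i (b : FF M) < 1 → chartVal M t k (b : FF M) < 1) :
    i = k := by
  by_contra hik
  obtain ⟨b, hbi, hbk⟩ := h18c_exists_sep M A t ht i k hik
  have := h b hbi
  rw [hbk] at this
  exact lt_irrefl _ this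

/-- **`GG.IfaceGeneric`**: at a maximal ideal of the chart which does not contain `𝔪_A` at most
one place is centered (`A` of rank one, `t` transcendental). -/
theorem h18c_generic (M : ℕ) [NeZero M] (A : ValuationSubring Kbar)
    (harch : ∀ c ∈ maximalIdeal A, c ≠ 0 → ∀ a : A, a ≠ 0 → ∃ n : ℕ, a ∣ c ^ n)
    (t : FF M) (ht : Transcendental Kbar t) : IfaceGeneric M A t := by
  intro 𝔫 h𝔫 hnot i k hi hk
  by_contra hik
  have hprime : 𝔫.IsPrime := h𝔫.isPrime
  -- a constant of `𝔪_A` outside `𝔫`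
  obtain ⟨c, hc, hc𝔫⟩ : ∃ c ∈ maximalIdeal A, algebraMap A (chart M A t) c ∉ 𝔫 := by
    by_contra hcon
    apply hnot
    rw [Ideal.map_le_iff_le_comap]
    intro c hc
    by_contra hc'
    exact hcon ⟨c, hc, hc'⟩
  have hc0 : c ≠ 0 := by
    rintro rfl
    apply hc𝔫
    rw [map_zero]
    exact 𝔫.zero_mem
  -- every nonzero constant is outside `𝔫`
  have hconst : ∀ a : A, a ≠ 0 → algebraMap A (chart M A t) a ∉ 𝔫 := by
    intro a ha ha𝔫
    obtain ⟨n, b, hb⟩ := harch c hc hc0 a ha
    have h1 : algebraMap A (chart M A t) (c ^ n) ∈ 𝔫 := by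
      rw [hb, map_mul]
      exact 𝔫.mul_mem_right _ ha𝔫
    rw [map_pow] at h1
    exact hc𝔫 (hprime.mem_of_pow_mem n h1)
  obtain ⟨x, y, hxreg, hyreg, hxi, hyk, hxy⟩ := h18c_exists_coprime_top M t ht i k hik
  obtain ⟨a₁, ha₁, hx'⟩ := h18c_hint M A t x hxreg
  obtain ⟨a₂, ha₂, hy'⟩ := h18c_hint M A t y hyreg
  have ha₁' : (a₁ : Kbar) ≠ 0 := by
    intro h
    apply ha₁
    show cst M (a₁ : Kbar) = 0
    rw [h]
    exact map_zero (algebraMap Kbar (FF M))
  have ha₂' : (a₂ : Kbar) ≠ 0 := by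
    intro h
    apply ha₂
    show cst M (a₂ : Kbar) = 0
    rw [h]
    exact map_zero (algebraMap Kbar (FF M))
  -- `a₁ x ∈ 𝔫`, `a₂ y ∈ 𝔫`
  have hx𝔫 : (⟨a₁ • x, hx'⟩ : chart M A t) ∈ 𝔫 := by
    apply hi
    show i.1.adicValuation (a₁ • x) < 1
    rw [Algebra.smul_def, map_mul]
    have h1 : i.1.adicValuation (algebraMap A (FF M) a₁) = 1 := h18c_val_cst i.1 ha₁'
    rw [h1, one_mul]
    exact hxi
  have hy𝔫 : (⟨a₂ • y, hy'⟩ : chart M A t) ∈ 𝔫 := by
    apply hk
    show k.1.adicValuation (a₂ • y) < 1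
    rw [Algebra.smul_def, map_mul]
    have h1 : k.1.adicValuation (algebraMap A (FF M) a₂) = 1 := h18c_val_cst k.1 ha₂'
    rw [h1, one_mul]
    exact hyk
  have hsum : algebraMap A (chart M A t) (a₁ * a₂)
      = algebraMap A (chart M A t) a₂ * ⟨a₁ • x, hx'⟩
        + algebraMap A (chart M A t) a₁ * ⟨a₂ • y, hy'⟩ := by
    apply Subtype.ext
    have h2 : (algebraMap A (FF M) (a₁ * a₂))
        = algebraMap A (FF M) a₂ * (a₁ • x) + algebraMap A (FF M) a₁ * (a₂ • y) := by
      rw [Algebra.smul_def, Algebra.smul_def, map_mul]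
      have hy1 : y = 1 - x := by rw [← hxy]; ring
      rw [hy1]
      ring
    exact h2
  have hmem : algebraMap A (chart M A t) (a₁ * a₂) ∈ 𝔫 := by
    rw [hsum]
    exact 𝔫.add_mem (𝔫.mul_mem_left _ hx𝔫) (𝔫.mul_mem_left _ hy𝔫)
  refine hconst (a₁ * a₂) ?_ hmem
  intro h0
  have h3 : (a₁ : Kbar) * (a₂ : Kbar) = 0 := by
    have := congrArg (fun z : A => (z : Kbar)) h0
    simpa using this
  rcases mul_eq_zero.1 h3 with h | h
  · exact ha₁' h
  · exact ha₂' h

end Fermat.Agent.Red.GG
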