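import Fermat.Agent.Red.GGChart18
import Fermat.Agent.Red.GGSection

/-!
# P-RED, R-GATEGOOD, leaf (L1), field `hunif` (helper71, hedge)

* `h71u_exists_unif` (abstract, Mathlib only): in the setting of `H26Chart`, the field `hunif`
  follows from `hfin`, `hint`, `hB`, `hinj`, as soon as the constants are units at all places
  and every valuation takes the value `exp (-1)` somewhere on `F`:
  start from a uniformiser `π ∈ F`, kill its finitely many poles by powers of separating
  elements of the chart (`hinj`), and clear the denominator (`hint`).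
* `h71u_hB`, `h71u_hfin`, `h71u_hcst`, `h71u_exists_pi` : these inputs for the chart
  `modelAt M A t` of `F_M`.
* `h71u_hunif_of_hinj` : **field `hunif` of `GG.IfaceChart M A t`** from the field `hinj`.
-/

set_option autoImplicit false

open AlgebraicCurve WithZero IsLocalRing

noncomputable section

namespace Fermat.Agent.Red.GG

open Fermat.Agent.S37 Fermat.Agent.Red.GV Fermat.Agent.Red.Match

/-! ### Abstract form -/

section Abstract

theorem h71u_prod_le_one {ι : Type*} (T : Finset ι) (x : ι → ℤᵐ⁰) (hx : ∀ k ∈ T, x k ≤ 1) :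
    ∏ k ∈ T, x k ≤ 1 := by
  classical
  induction T using Finset.induction_on with
  | empty => simp
  | insert a s ha ih =>
    rw [Finset.prod_insert ha]
    exact mul_le_one' (hx a (Finset.mem_insert_self a s))
      (ih fun k hk => hx k (Finset.mem_insert_of_mem hk))

theorem h71u_prod_eq_one {ι : Type*} (T : Finset ι) (x : ι → ℤᵐ⁰) (hx : ∀ k ∈ T, x k = 1) :
    ∏ k ∈ T, x k = 1 :=
  Finset.prod_eq_one hx

variable {A F ι : Type*} [CommRing A] [Field F] [Algebra A F]

/-- **uniformisers in the chart, abstract form.** -/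
theorem h71u_exists_unif (B : Subalgebra A F) (v : ι → Valuation F ℤᵐ⁰)
    (hfin : ∀ f : F, f ≠ 0 → {i | 1 < v i f}.Finite)
    (hint : ∀ f : F, (∀ i, v i f ≤ 1) → ∃ a : A, algebraMap A F a ≠ 0 ∧ a • f ∈ B)
    (hB : ∀ b ∈ B, ∀ i, v i b ≤ 1)
    (hinj : ∀ i k, (∀ b : B, v i (b : F) < 1 → v k (b : F) < 1) → i = k)
    (hcst : ∀ a : A, algebraMap A F a ≠ 0 → ∀ i, v i (algebraMap A F a) = 1)
    (i : ι) (π : F) (hπ : v i π = exp (-1 : ℤ)) :
    ∃ b : B, v i (b : F) = exp (-1 : ℤ) := by
  classical
  have hexp : exp (-1 : ℤ) < (1 : ℤᵐ⁰) := by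
    rw [← exp_zero]
    exact exp_lt_exp.mpr (by norm_num)
  have hπ0 : π ≠ 0 := by
    rintro rfl
    rw [map_zero] at hπ
    exact exp_ne_zero.symm hπ
  -- separating elements
  have hsep : ∀ k, k ≠ i → ∃ b : B, v k (b : F) < 1 ∧ v i (b : F) = 1 := by
    intro k hk
    by_contra hcon
    apply hk
    apply hinj k i
    intro b hb
    by_contra hib
    apply hcon
    exact ⟨b, hb, le_antisymm (hB b b.2 i) (not_lt.mp hib)⟩
  -- the choice of the separating elements and of the exponents
  have hc : ∀ k, ∃ c : F, ∃ N : ℕ, c ∈ B ∧ v i c = 1 ∧ (k ≠ i → v k c ^ N * v k π ≤ 1) := by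
    intro k
    by_cases hk : k = i
    · exact ⟨1, 0, B.one_mem, map_one _, fun h => absurd hk h⟩
    · obtain ⟨b, hb1, hb2⟩ := hsep k hk
      obtain ⟨N, hN⟩ := h26_exists_pow_mul_le_one (v k (b : F)) (v k π) hb1
      exact ⟨b, N, b.2, hb2, fun _ => hN⟩
  choose c N hcB hci hcN using hc
  set T : Finset ι := (hfin π hπ0).toFinset with hT
  have hiT : i ∉ T := by
    rw [hT, Set.Finite.mem_toFinset, Set.mem_ofPred_eq, hπ]
    exact not_lt.mpr hexp.le
  set f : F := π * ∏ k ∈ T, c k ^ N k with hf
  have hvf : ∀ m, v m f = v m π * ∏ k ∈ T, v m (c k) ^ N k := by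
    intro m
    rw [hf, map_mul, map_prod]
    congr 1
    exact Finset.prod_congr rfl fun k _ => map_pow _ _ _
  have hle : ∀ m k, v m (c k) ^ N k ≤ 1 := fun m k =>
    pow_le_one' (hB (c k) (hcB k) m) (N k)
  -- `f` is regular at all places
  have hfreg : ∀ m, v m f ≤ 1 := by
    intro m
    rw [hvf]
    by_cases hm : m ∈ T
    · have hmi : m ≠ i := fun h => hiT (h ▸ hm)
      rw [← Finset.mul_prod_erase T _ hm, ← mul_assoc]
      have h1 : v m π * v m (c m) ^ N m ≤ 1 := by
        rw [mul_comm]
        exact hcN m hmi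
      exact mul_le_one' h1 (h71u_prod_le_one _ _ fun k _ => hle m k)
    · have h1 : v m π ≤ 1 := by
        rw [hT, Set.Finite.mem_toFinset, Set.mem_ofPred_eq] at hm
        exact not_lt.mp hm
      exact mul_le_one' h1 (h71u_prod_le_one _ _ fun k _ => hle m k)
  -- the value at `i`
  have hfi : v i f = exp (-1 : ℤ) := by
    rw [hvf, hπ, h71u_prod_eq_one _ _ fun k _ => by rw [hci k, one_pow], mul_one]
  obtain ⟨a, ha0, hab⟩ := hint f hfreg
  refine ⟨⟨a • f, hab⟩, ?_⟩
  show v i (a • f) = exp (-1 : ℤ)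
  rw [Algebra.smul_def, map_mul, hcst a ha0 i, one_mul, hfi]

end Abstract

/-! ### The inputs for the chart `modelAt M A t` -/

variable {M : ℕ}

/-- field `hB`: the elements of the chart are regular at the places at which `t` is regular. -/
theorem h71u_hB (A : ValuationSubring Kbar) (t : FF M) :
    ∀ b ∈ chart M A t, ∀ i : ChartPlace M t, chartVal M t i b ≤ 1 := by
  intro b hb i
  rw [mem_chart, ModelO.h85_mem_modelAt_iff_forall] at hb
  exact i.1.adicValuation_le_one_of_mem
    (hb i.1.toValuationSubring (fun a _ => cst_mem i.1 a) i.2)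

/-- the nonzero constants are units at all places. -/
theorem h71u_hcst (A : ValuationSubring Kbar) (t : FF M) (a : A)
    (ha : algebraMap A (FF M) a ≠ 0) (i : ChartPlace M t) :
    chartVal M t i (algebraMap A (FF M) a) = 1 := by
  have h1 : i.1.adicValuation (cst M (a : Kbar)) ≤ 1 :=
    i.1.adicValuation_le_one_of_mem (cst_mem i.1 _)
  have h2 : i.1.adicValuation (cst M (a : Kbar)⁻¹) ≤ 1 :=
    i.1.adicValuation_le_one_of_mem (cst_mem i.1 _)
  have h0 : cst M (a : Kbar) ≠ 0 := ha
  have h3 : i.1.adicValuation (cst M (a : Kbar)) * i.1.adicValuation (cst M (a : Kbar)⁻¹) = 1 := by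
    rw [← map_mul]
    have h4 : cst M (a : Kbar) * cst M (a : Kbar)⁻¹ = 1 := by
      simp only [cst, map_inv₀]
      exact mul_inv_cancel₀ h0
    rw [h4, map_one]
  show i.1.adicValuation (cst M (a : Kbar)) = 1
  refine le_antisymm h1 ?_
  by_contra hlt
  rw [not_le] at hlt
  have h5 : i.1.adicValuation (cst M (a : Kbar)) * i.1.adicValuation (cst M (a : Kbar)⁻¹) < 1 :=
    mul_lt_one_of_lt_of_le hlt h2
  exact h5.ne h3

/-- every place has a uniformiser in `F_M`. -/
theorem h71u_exists_pi (t : FF M) (i : ChartPlace M t) :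
    ∃ π : FF M, chartVal M t i π = exp (-1 : ℤ) := by
  obtain ⟨π, hπ⟩ := IsDiscreteValuationRing.exists_irreducible i.1.toValuationSubring
  exact ⟨(π : FF M), i.1.adicValuation_coe_irreducible hπ⟩

/-- field `hfin`: every nonzero function has finitely many poles. -/
theorem h71u_hfin [NeZero M] (t : FF M) (f : FF M) (hf : f ≠ 0) :
    {i : ChartPlace M t | 1 < chartVal M t i f}.Finite := by
  have := Fermat.Agent.Red.HKMod.hasPrincipalDivisors_FF M
  obtain ⟨D, hD, -⟩ := HasPrincipalDivisors.exists_divisor (K := Kbar) f hf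
  have hsub : (Subtype.val '' {i : ChartPlace M t | 1 < chartVal M t i f}) ⊆
      (D.support : Set (Place Kbar (FF M))) := by
    rintro _ ⟨i, hi, rfl⟩
    rw [Finset.mem_coe, Finsupp.mem_support_iff, hD]
    have h1 : ¬ i.1.adicValuation f ≤ 1 := not_le.mpr hi
    rw [i.1.not_adicValuation_le_one_iff] at h1
    exact h1.ne
  have hfin' := (D.support.finite_toSet.subset hsub)
  exact Set.Finite.of_finite_image hfin' Subtype.val_injective.injOn

/-- **field `hunif` of `GG.IfaceChart M A t`**, from the field `hinj`. -/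
theorem h71u_hunif_of_hinj [NeZero M] (A : ValuationSubring Kbar) (t : FF M)
    (hinj : ∀ i k : ChartPlace M t,
      (∀ b : chart M A t, chartVal M t i (b : FF M) < 1 → chartVal M t k (b : FF M) < 1) → i = k)
    (i : ChartPlace M t) :
    ∃ b : chart M A t, chartVal M t i (b : FF M) = exp (-1 : ℤ) := by
  obtain ⟨π, hπ⟩ := h71u_exists_pi t i
  exact h71u_exists_unif (chart M A t) (chartVal M t) (h71u_hfin t)
    (fun f hf => h18c_hint M A t f hf) (h71u_hB A t) hinj (h71u_hcst A t) i π hπ

end Fermat.Agent.Red.GG
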