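import Mathlib

/-!
# Abstract Zariski connectedness (for P-RED: torsion injectivity via Kummer covers)

Let `B₀ → B₂ ← B₁` be rings (think of a scheme `Y = Spec B₀ ∪ Spec B₁` with
`Spec B₀ ∩ Spec B₁ = Spec B₂`, flat over a discrete valuation ring with uniformiser `π`).
Write `H⁰ = {(x, y) : φ₀ x = φ₁ y}` and `H¹ = B₂ / (φ₀ B₀ + φ₁ B₁)`.

`Fermat.Agent.Red.H18.connected_of_bounded_torsion`: if the `π`-power torsion of `H¹` is bounded
and the global sections `H⁰` have only trivial idempotents modulo `π`, then the special fibre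
`Y ⊗ (π = 0)` has only trivial idempotents: every pair `(e₀, e₁)` of idempotents modulo `π`
which agree modulo `π` on the overlap is `(0, 0)` or `(1, 1)` modulo `π`.

Auxiliary results:
* `exists_idempotent_lift` : idempotents modulo `π` lift to idempotents modulo `π ^ n`;
* `dvd_pow_sub_of_idempotent` : uniqueness of such lifts.
-/

set_option autoImplicit false

namespace Fermat.Agent.Red.H18

section Lift

variable {B : Type*} [CommRing B]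

/-- Uniqueness of idempotent lifts: two elements which are idempotent modulo `π ^ n` and
congruent modulo `π` are congruent modulo `π ^ n`. -/
theorem dvd_pow_sub_of_idempotent (π a b : B) (n : ℕ)
    (ha : π ^ n ∣ a ^ 2 - a) (hb : π ^ n ∣ b ^ 2 - b) (hab : π ∣ a - b) :
    π ^ n ∣ a - b := by
  set I : Ideal B := Ideal.span {π ^ n} with hI
  have hmk : ∀ x : B, Ideal.Quotient.mk I x = 0 ↔ π ^ n ∣ x := by
    intro x
    rw [Ideal.Quotient.eq_zero_iff_mem, hI, Ideal.mem_span_singleton]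
  have h1 : IsIdempotentElem (Ideal.Quotient.mk I a) := by
    have := (hmk _).mpr ha
    rw [map_sub, map_pow, sub_eq_zero, pow_two] at this
    exact this
  have h2 : IsIdempotentElem (Ideal.Quotient.mk I b) := by
    have := (hmk _).mpr hb
    rw [map_sub, map_pow, sub_eq_zero, pow_two] at this
    exact this
  have h3 : IsNilpotent (Ideal.Quotient.mk I a - Ideal.Quotient.mk I b) := by
    obtain ⟨c, hc⟩ := hab
    refine ⟨n, ?_⟩
    rw [← map_sub, ← map_pow, hmk, hc, mul_pow]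
    exact Dvd.intro _ rfl
  have h4 := eq_of_isNilpotent_sub_of_isIdempotentElem h1 h2 h3
  rw [← sub_eq_zero, ← map_sub, hmk] at h4
  exact h4

/-- Idempotents modulo `π` lift to idempotents modulo `π ^ n`. -/
theorem exists_idempotent_lift (π e : B) (n : ℕ) (he : π ∣ e ^ 2 - e) :
    ∃ f : B, π ∣ f - e ∧ π ^ n ∣ f ^ 2 - f := by
  rcases Nat.eq_zero_or_pos n with rfl | hn
  · exact ⟨e, by simp, by simp⟩
  set I : Ideal B := Ideal.span {π ^ n} with hI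
  have hmk : ∀ x : B, Ideal.Quotient.mk I x = 0 ↔ π ^ n ∣ x := by
    intro x
    rw [Ideal.Quotient.eq_zero_iff_mem, hI, Ideal.mem_span_singleton]
  -- `x = e mod π ^ n` satisfies `(x - x ^ 2) ^ n = 0`
  have hx : (Ideal.Quotient.mk I e - Ideal.Quotient.mk I e ^ 2) ^ n = 0 := by
    rw [← map_pow, ← map_sub, ← map_pow, hmk]
    obtain ⟨c, hc⟩ := he
    have : e - e ^ 2 = π * (-c) := by rw [mul_neg, ← hc]; ring
    rw [this, mul_pow]
    exact Dvd.intro _ rfl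
  have hid := isIdempotentElem_one_sub_one_sub_pow_pow (Ideal.Quotient.mk I e) n hx
  refine ⟨1 - (1 - e ^ n) ^ n, ?_, ?_⟩
  · -- modulo `π`, `e ^ n = e` and `(1 - e) ^ n = 1 - e`
    set J : Ideal B := Ideal.span {π} with hJ
    have hmkJ : ∀ x : B, Ideal.Quotient.mk J x = 0 ↔ π ∣ x := by
      intro x
      rw [Ideal.Quotient.eq_zero_iff_mem, hJ, Ideal.mem_span_singleton]
    have h1 : IsIdempotentElem (Ideal.Quotient.mk J e) := by
      have := (hmkJ _).mpr he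
      rw [map_sub, map_pow, sub_eq_zero, pow_two] at this
      exact this
    rw [← hmkJ]
    obtain ⟨m, rfl⟩ : ∃ m, n = m + 1 := ⟨n - 1, by omega⟩
    simp only [map_sub, map_one, map_pow]
    rw [h1.pow_succ_eq, h1.one_sub.pow_succ_eq]
    ring
  · have h2 : Ideal.Quotient.mk I ((1 - (1 - e ^ n) ^ n) ^ 2 - (1 - (1 - e ^ n) ^ n)) = 0 := by
      simp only [map_sub, map_one, map_pow]
      have := hid.eq
      rw [sub_eq_zero, pow_two]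
      exact this
    exact (hmk _).mp h2

end Lift

section Connected

variable {B₀ B₁ B₂ : Type*} [CommRing B₀] [CommRing B₁] [CommRing B₂]

/-- **Abstract Zariski connectedness.**  See the module docstring. -/
theorem connected_of_bounded_torsion
    (φ₀ : B₀ →+* B₂) (φ₁ : B₁ →+* B₂) (π₀ : B₀) (π₁ : B₁) (π₂ : B₂)
    (h₀ : φ₀ π₀ = π₂) (h₁ : φ₁ π₁ = π₂)
    (c : ℕ)
    (htors : ∀ b : B₂, (∃ x y, π₂ ^ (c + 1) * b = φ₀ x + φ₁ y) → ∃ x y, π₂ ^ c * b = φ₀ x + φ₁ y)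
    (hH0 : ∀ x y, φ₀ x = φ₁ y → π₀ ∣ x ^ 2 - x → π₁ ∣ y ^ 2 - y →
      (π₀ ∣ x ∧ π₁ ∣ y) ∨ (π₀ ∣ x - 1 ∧ π₁ ∣ y - 1))
    (e₀ : B₀) (e₁ : B₁) (he₀ : π₀ ∣ e₀ ^ 2 - e₀) (he₁ : π₁ ∣ e₁ ^ 2 - e₁)
    (he : π₂ ∣ φ₀ e₀ - φ₁ e₁) :
    (π₀ ∣ e₀ ∧ π₁ ∣ e₁) ∨ (π₀ ∣ e₀ - 1 ∧ π₁ ∣ e₁ - 1) := by
  -- lift to idempotents modulo `π ^ (c + 1)`
  obtain ⟨f₀, hf₀e, hf₀⟩ := exists_idempotent_lift π₀ e₀ (c + 1) he₀
  obtain ⟨f₁, hf₁e, hf₁⟩ := exists_idempotent_lift π₁ e₁ (c + 1) he₁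
  -- their images agree modulo `π ^ (c + 1)`
  have hmap₀ : ∀ x : B₀, ∀ n : ℕ, π₀ ^ n ∣ x → π₂ ^ n ∣ φ₀ x := by
    intro x n hx
    have := map_dvd φ₀ hx
    rwa [map_pow, h₀] at this
  have hmap₁ : ∀ x : B₁, ∀ n : ℕ, π₁ ^ n ∣ x → π₂ ^ n ∣ φ₁ x := by
    intro x n hx
    have := map_dvd φ₁ hx
    rwa [map_pow, h₁] at this
  have ha : π₂ ^ (c + 1) ∣ φ₀ f₀ ^ 2 - φ₀ f₀ := by
    have := hmap₀ _ _ hf₀
    rwa [map_sub, map_pow] at this
  have hb : π₂ ^ (c + 1) ∣ φ₁ f₁ ^ 2 - φ₁ f₁ := by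
    have := hmap₁ _ _ hf₁
    rwa [map_sub, map_pow] at this
  have hab : π₂ ∣ φ₀ f₀ - φ₁ f₁ := by
    have e1 : π₂ ∣ φ₀ (f₀ - e₀) := by
      have := map_dvd φ₀ hf₀e
      rwa [h₀] at this
    have e2 : π₂ ∣ φ₁ (f₁ - e₁) := by
      have := map_dvd φ₁ hf₁e
      rwa [h₁] at this
    have e3 : φ₀ f₀ - φ₁ f₁ = φ₀ (f₀ - e₀) - φ₁ (f₁ - e₁) + (φ₀ e₀ - φ₁ e₁) := by
      rw [map_sub, map_sub]; ring
    rw [e3]
    exact dvd_add (dvd_sub e1 e2) he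
  obtain ⟨b, hb'⟩ := dvd_pow_sub_of_idempotent π₂ (φ₀ f₀) (φ₁ f₁) (c + 1) ha hb hab
  -- bounded torsion
  obtain ⟨x, y, hxy⟩ := htors b ⟨f₀, -f₁, by rw [← hb', map_neg]; ring⟩
  -- the glued global section
  have hglue : φ₀ (f₀ - π₀ * x) = φ₁ (f₁ + π₁ * y) := by
    have e1 : φ₀ f₀ - φ₁ f₁ = π₂ * (φ₀ x + φ₁ y) := by
      rw [hb', pow_succ', mul_assoc, hxy]
    rw [map_sub, map_add, map_mul, map_mul, h₀, h₁]
    linear_combination e1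
  have hX : π₀ ∣ (f₀ - π₀ * x) ^ 2 - (f₀ - π₀ * x) := by
    have e1 : π₀ ∣ f₀ ^ 2 - f₀ := dvd_trans (dvd_pow_self π₀ (Nat.succ_ne_zero c)) hf₀
    obtain ⟨u, hu⟩ := e1
    refine ⟨u + (-2 * f₀ * x + π₀ * x ^ 2 + x), ?_⟩
    linear_combination hu
  have hY : π₁ ∣ (f₁ + π₁ * y) ^ 2 - (f₁ + π₁ * y) := by
    have e1 : π₁ ∣ f₁ ^ 2 - f₁ := dvd_trans (dvd_pow_self π₁ (Nat.succ_ne_zero c)) hf₁
    obtain ⟨u, hu⟩ := e1
    refine ⟨u + (2 * f₁ * y + π₁ * y ^ 2 - y), ?_⟩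
    linear_combination hu
  obtain ⟨u₀, hu₀⟩ := hf₀e
  obtain ⟨u₁, hu₁⟩ := hf₁e
  rcases hH0 _ _ hglue hX hY with ⟨⟨v₀, hv₀⟩, ⟨v₁, hv₁⟩⟩ | ⟨⟨v₀, hv₀⟩, ⟨v₁, hv₁⟩⟩
  · left
    refine ⟨⟨v₀ + x - u₀, ?_⟩, ⟨v₁ - y - u₁, ?_⟩⟩
    · linear_combination hv₀ - hu₀
    · linear_combination hv₁ - hu₁
  · right
    refine ⟨⟨v₀ + x - u₀, ?_⟩, ⟨v₁ - y - u₁, ?_⟩⟩
    · linear_combination hv₀ - hu₀
    · linear_combination hv₁ - hu₁

end Connected

end Fermat.Agent.Red.H18
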