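import Fermat.Agent.Red.HKGal

/-!
# P-RED, module HK-TOW: functoriality of places and divisors in towers

For `K`-algebra homomorphisms of fields `φ : F → F'`, `ψ : F' → F''` (both integral):
restriction of places, ramification indices, inertia degrees, pullback and pushforward of
divisors are compatible with composition.
-/

set_option autoImplicit false

open AlgebraicCurve

noncomputable section

namespace Fermat.Agent.Red.HKTower

open Fermat.Agent.Red.HKGal

variable {K F F' F'' : Type*} [Field K] [Field F] [Field F'] [Field F'']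
  [Algebra K F] [Algebra K F'] [Algebra K F'']

/-- integrality of a composite -/
theorem isIntegral_comp (φ : F →ₐ[K] F') (ψ : F' →ₐ[K] F'')
    (hφ : φ.toRingHom.IsIntegral) (hψ : ψ.toRingHom.IsIntegral) :
    (ψ.comp φ).toRingHom.IsIntegral :=
  RingHom.IsIntegral.trans _ _ hφ hψ

variable (φ : F →ₐ[K] F') (ψ : F' →ₐ[K] F'')
  (hφ : φ.toRingHom.IsIntegral) (hψ : ψ.toRingHom.IsIntegral)
  (hψφ : (ψ.comp φ).toRingHom.IsIntegral)

/-- restriction of places is functorial -/
theorem restrictAlong_comp (W : Place K F'') :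
    W.restrictAlong (ψ.comp φ) hψφ = (W.restrictAlong ψ hψ).restrictAlong φ hφ := by
  apply Place.ext
  ext f
  rw [mem_restrictAlong_iff, mem_restrictAlong_iff, mem_restrictAlong_iff]
  rfl

include hφ hψ hψφ in
/-- ramification indices are multiplicative in towers -/
theorem ramificationIndexAlong_comp (W : Place K F'') :
    W.ramificationIndexAlong (ψ.comp φ)
      = W.ramificationIndexAlong ψ * (W.restrictAlong ψ hψ).ramificationIndexAlong φ := by
  obtain ⟨π, -, hπ⟩ := exists_ord_eq_one ((W.restrictAlong ψ hψ).restrictAlong φ hφ)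
  have hπ' : (W.restrictAlong (ψ.comp φ) hψφ).ord π = 1 := by
    rw [restrictAlong_comp φ ψ hφ hψ hψφ]; exact hπ
  have h1 : (Place.ramificationIndexAlong (ψ.comp φ) W : ℤ) = W.ord ((ψ.comp φ) π) :=
    ramificationIndexAlong_eq_ord (ψ.comp φ) hψφ W hπ'
  have h2 : W.ord (ψ (φ π))
      = Place.ramificationIndexAlong ψ W * (W.restrictAlong ψ hψ).ord (φ π) :=
    Place.ord_restrictAlong ψ hψ W (φ π)
  have h3 : (W.restrictAlong ψ hψ).ord (φ π)
      = Place.ramificationIndexAlong φ (W.restrictAlong ψ hψ) := by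
    rw [Place.ord_restrictAlong φ hφ (W.restrictAlong ψ hψ) π, hπ, mul_one]
  have h4 : (ψ.comp φ) π = ψ (φ π) := rfl
  rw [h4, h2, h3] at h1
  exact_mod_cast h1

/-- inertia degrees are multiplicative in towers (places of the base of nonzero degree) -/
theorem inertiaDegAlong_comp (W : Place K F'')
    (hdeg : ((W.restrictAlong ψ hψ).restrictAlong φ hφ).deg ≠ 0) :
    W.inertiaDegAlong (ψ.comp φ) hψφ
      = W.inertiaDegAlong ψ hψ * (W.restrictAlong ψ hψ).inertiaDegAlong φ hφ := by
  have h1 := deg_restrictAlong_mul_inertiaDegAlong (ψ.comp φ) hψφ W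
  have h2 := deg_restrictAlong_mul_inertiaDegAlong ψ hψ W
  have h3 := deg_restrictAlong_mul_inertiaDegAlong φ hφ (W.restrictAlong ψ hψ)
  rw [restrictAlong_comp φ ψ hφ hψ hψφ] at h1
  rw [← h3, ← h1, mul_assoc] at h2
  have h4 := Nat.eq_of_mul_eq_mul_left (Nat.pos_of_ne_zero hdeg) h2
  rw [← h4, mul_comm]

/-- pullback of divisors is functorial -/
theorem pullbackAlong_comp [HasPrincipalDivisors K F'] [HasPrincipalDivisors K F'']
    (D : Divisor K F) :
    Divisor.pullbackAlong (ψ.comp φ) hψφ D
      = Divisor.pullbackAlong ψ hψ (Divisor.pullbackAlong φ hφ D) := by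
  ext W
  rw [Divisor.pullbackAlong_apply, Divisor.pullbackAlong_apply, Divisor.pullbackAlong_apply,
    restrictAlong_comp φ ψ hφ hψ hψφ, ramificationIndexAlong_comp φ ψ hφ hψ hψφ]
  push_cast
  ring

/-- pushforward of divisors is functorial (all places of the base of nonzero degree) -/
theorem pushforwardAlong_comp (hdeg : ∀ v : Place K F, v.deg ≠ 0) (D : Divisor K F'') :
    Divisor.pushforwardAlong (ψ.comp φ) hψφ D
      = Divisor.pushforwardAlong φ hφ (Divisor.pushforwardAlong ψ hψ D) := by
  induction D using Finsupp.induction with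
  | zero => simp
  | single_add W n D _ _ ih =>
    rw [map_add, map_add, map_add, ih, Divisor.pushforwardAlong_single,
      Divisor.pushforwardAlong_single, Divisor.pushforwardAlong_single,
      restrictAlong_comp φ ψ hφ hψ hψφ, inertiaDegAlong_comp φ ψ hφ hψ hψφ W (hdeg _)]
    push_cast
    rw [mul_assoc]

/-- fibres in towers: `W` lies over `v` along `ψ ∘ φ` iff its restriction along `ψ` lies over
`v` along `φ` -/
theorem mem_fiberAlong_comp_iff [HasPrincipalDivisors K F'] [HasPrincipalDivisors K F'']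
    (v : Place K F) (W : Place K F'') :
    W ∈ Place.fiberAlong (ψ.comp φ) hψφ v
      ↔ W.restrictAlong ψ hψ ∈ Place.fiberAlong φ hφ v := by
  rw [Place.mem_fiberAlong, Place.mem_fiberAlong, restrictAlong_comp φ ψ hφ hψ hψφ]

/-- the correspondence attached to composites: `(ψ'φ')_* (ψφ)^* = φ'_* ψ'_* ψ^* φ^*` -/
theorem correspondence_comp [HasPrincipalDivisors K F'] [HasPrincipalDivisors K F'']
    (φ' : F →ₐ[K] F') (ψ' : F' →ₐ[K] F'')
    (hφ' : φ'.toRingHom.IsIntegral) (hψ' : ψ'.toRingHom.IsIntegral)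
    (hψφ' : (ψ'.comp φ').toRingHom.IsIntegral)
    (hdeg : ∀ v : Place K F, v.deg ≠ 0) (D : Divisor K F) :
    Divisor.correspondence (ψ.comp φ) (ψ'.comp φ') hψφ hψφ' D
      = Divisor.pushforwardAlong φ' hφ'
          (Divisor.correspondence ψ ψ' hψ hψ' (Divisor.pullbackAlong φ hφ D)) := by
  rw [Divisor.correspondence_apply, Divisor.correspondence_apply,
    pullbackAlong_comp φ ψ hφ hψ hψφ, pushforwardAlong_comp φ' ψ' hφ' hψ' hψφ' hdeg]

end Fermat.Agent.Red.HKTower
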