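import Mathlib

/-!
# P-RED, R-LOCAL, STEP A (second seat, helper97): Nakayama at a section

Mathlib only.

* `L97_local_nakayama`: local Nakayama without localisations in the statement.
* `L97_mem_map_valuationRing`: over a valuation ring every element of an extended ideal
  `J B` is a single product `a * b`, `a ∈ J`.
* `L97_stepA`: for an `A`-point `φ : B → A` centred at the maximal ideal `n` of `B`, with
  `n B_n = (t, m_A) B_n` and finitely generated kernel, the kernel of `φ` is generated by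
  `t - φ t` locally at `n`.
-/

set_option autoImplicit false

namespace Fermat.Agent.Red

open Ideal

/-- Local Nakayama: if `K` is a finitely generated ideal with `s₀ K ⊆ P + I K`, `s₀ ∉ n`,
`I ⊆ n`, `n` prime, then every element of `K` is in `P` up to a multiplier outside `n`. -/
theorem L97_local_nakayama {B : Type*} [CommRing B] (n : Ideal B) [n.IsPrime] (I K P : Ideal B)
    (hI : I ≤ n) (hK : K.FG) (s₀ : B) (hs₀ : s₀ ∉ n)
    (h : ∀ y ∈ K, s₀ * y ∈ P ⊔ I * K) :
    ∀ y ∈ K, ∃ s, s ∉ n ∧ s * y ∈ P := by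
  classical
  let R := Localization.AtPrime n
  let f : B →+* R := algebraMap B R
  have hunit : IsUnit (f s₀) :=
    IsLocalization.map_units R (⟨s₀, hs₀⟩ : n.primeCompl)
  have hjac : I.map f ≤ Ideal.jacobson (⊥ : Ideal R) := by
    rw [IsLocalRing.jacobson_eq_maximalIdeal ⊥ bot_ne_top,
      ← Localization.AtPrime.map_eq_maximalIdeal]
    exact Ideal.map_mono hI
  have hle : K.map f ≤ P.map f ⊔ I.map f • K.map f := by
    rw [Ideal.map_le_iff_le_comap]
    intro y hy
    rw [Ideal.mem_comap]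
    have h1 : f (s₀ * y) ∈ (P ⊔ I * K).map f := Ideal.mem_map_of_mem f (h y hy)
    rw [Ideal.map_sup, Ideal.map_mul, map_mul] at h1
    obtain ⟨u, hu⟩ := hunit
    have h2 : f y = (↑u⁻¹ : R) * (f s₀ * f y) := by
      rw [← hu, ← mul_assoc, Units.inv_mul, one_mul]
    rw [h2, smul_eq_mul]
    exact Ideal.mul_mem_left _ _ h1
  have hKP : K.map f ≤ P.map f :=
    Submodule.le_of_le_smul_of_le_jacobson_bot (hK.map f) hjac hle
  intro y hy
  have hy' : f y ∈ P.map f := hKP (Ideal.mem_map_of_mem f hy)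
  rw [IsLocalization.mem_map_algebraMap_iff n.primeCompl] at hy'
  obtain ⟨⟨⟨p, hp⟩, ⟨s, hs⟩⟩, hx⟩ := hy'
  simp only at hx
  have hx' : algebraMap B R (y * s) = algebraMap B R p := by
    rw [map_mul]; exact hx
  obtain ⟨⟨c, hc⟩, hceq⟩ := (IsLocalization.eq_iff_exists n.primeCompl R).mp hx'
  simp only at hceq
  refine ⟨c * s, ?_, ?_⟩
  · intro hmem
    rcases (inferInstance : n.IsPrime).mem_or_mem hmem with h1 | h1
    · exact hc h1
    · exact hs h1
  · have : c * s * y = c * (y * s) := by ring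
    rw [this, hceq]
    exact Ideal.mul_mem_left _ _ hp

/-- In a valuation ring, every element of an extended ideal is a single product. -/
theorem L97_mem_map_valuationRing {A B : Type*} [CommRing A] [IsDomain A] [ValuationRing A]
    [CommRing B] [Algebra A B] (J : Ideal A) (m : B) (hm : m ∈ J.map (algebraMap A B)) :
    ∃ a ∈ J, ∃ b : B, m = algebraMap A B a * b := by
  unfold Ideal.map at hm
  induction hm using Submodule.span_induction with
  | mem x hx =>
    obtain ⟨a, ha, rfl⟩ := hx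
    exact ⟨a, ha, 1, by rw [mul_one]⟩
  | zero => exact ⟨0, J.zero_mem, 0, by simp⟩
  | add x y _ _ hx hy =>
    obtain ⟨a₁, ha₁, b₁, rfl⟩ := hx
    obtain ⟨a₂, ha₂, b₂, rfl⟩ := hy
    rcases ValuationRing.dvd_total a₁ a₂ with ⟨c, hc⟩ | ⟨c, hc⟩
    · refine ⟨a₁, ha₁, b₁ + algebraMap A B c * b₂, ?_⟩
      rw [hc, map_mul]; ring
    · refine ⟨a₂, ha₂, algebraMap A B c * b₁ + b₂, ?_⟩
      rw [hc, map_mul]; ring
  | smul r x _ hx =>
    obtain ⟨a, ha, b, rfl⟩ := hx
    exact ⟨a, ha, r * b, by rw [smul_eq_mul]; ring⟩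

/-- **STEP A** (Nakayama at a section): the kernel of an `A`-point `φ` centred at `n` is
generated by `t - φ t` locally at `n`, as soon as `n` is generated by `t` and `m_A` locally. -/
theorem L97_stepA {A B : Type*} [CommRing A] [IsDomain A] [ValuationRing A]
    [CommRing B] [Algebra A B]
    (n : Ideal B) [hn : n.IsMaximal]
    (φ : B →ₐ[A] A) (hφn : ∀ x ∈ n, φ x ∈ IsLocalRing.maximalIdeal A)
    (hfg : (RingHom.ker (φ : B →+* A)).FG)
    (t : B) (ht : t ∈ n)
    (hgen : ∃ s₀, s₀ ∉ n ∧ ∀ x ∈ n,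
      s₀ * x ∈ Ideal.span {t} ⊔ (IsLocalRing.maximalIdeal A).map (algebraMap A B)) :
    ∀ y ∈ RingHom.ker (φ : B →+* A),
      ∃ s, s ∉ n ∧ s * y ∈ Ideal.span {t - algebraMap A B (φ t)} := by
  obtain ⟨s₀, hs₀, hgen⟩ := hgen
  set K := RingHom.ker (φ : B →+* A) with hKdef
  set mA := IsLocalRing.maximalIdeal A with hmA
  -- `n` is the preimage of `m_A`
  have hcomap : n = mA.comap (φ : B →+* A) := by
    refine hn.eq_of_le ?_ (fun x hx => hφn x hx)
    intro htop
    have h1 : (1 : B) ∈ mA.comap (φ : B →+* A) := by rw [htop]; exact Submodule.mem_top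
    rw [Ideal.mem_comap] at h1
    have h2 : (1 : A) ∈ mA := by simpa using h1
    exact (Ideal.ne_top_iff_one mA).mp (IsLocalRing.maximalIdeal.isMaximal A).ne_top h2
  have hKn : K ≤ n := by
    intro y hy
    rw [hcomap, Ideal.mem_comap]
    have : (φ : B →+* A) y = 0 := hy
    rw [this]
    exact mA.zero_mem
  have hmn : mA.map (algebraMap A B) ≤ n := by
    rw [Ideal.map_le_iff_le_comap]
    intro a ha
    rw [Ideal.mem_comap, hcomap, Ideal.mem_comap]
    have : (φ : B →+* A) (algebraMap A B a) = a := φ.commutes a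
    rw [this]
    exact ha
  have hc : φ t ∈ mA := hφn t ht
  have hPK : t - algebraMap A B (φ t) ∈ K := by
    show (φ : B →+* A) (t - algebraMap A B (φ t)) = 0
    rw [map_sub]
    have : (φ : B →+* A) (algebraMap A B (φ t)) = φ t := φ.commutes _
    rw [this]
    exact sub_self _
  refine L97_local_nakayama n (mA.map (algebraMap A B)) K
    (Ideal.span {t - algebraMap A B (φ t)}) hmn hfg s₀ hs₀ ?_
  intro y hy
  have h1 := hgen y (hKn hy)
  obtain ⟨u, hu, m, hm, hum⟩ := Submodule.mem_sup.mp h1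
  obtain ⟨b, rfl⟩ := Ideal.mem_span_singleton'.mp hu
  -- `m + c b` is a single product `a'' b''`
  have hm2 : m + algebraMap A B (φ t) * b ∈ mA.map (algebraMap A B) :=
    Ideal.add_mem _ hm (Ideal.mul_mem_right _ _ (Ideal.mem_map_of_mem _ hc))
  obtain ⟨a, ha, b', hab⟩ := L97_mem_map_valuationRing mA _ hm2
  have hdecomp : s₀ * y = b * (t - algebraMap A B (φ t)) + algebraMap A B a * b' := by
    rw [← hab, ← hum]; ring
  have hφ0 : (φ : B →+* A) (s₀ * y) = 0 := by
    rw [map_mul]
    have : (φ : B →+* A) y = 0 := hy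
    rw [this, mul_zero]
  have hφ1 : a * (φ : B →+* A) b' = 0 := by
    have h2 := congrArg (φ : B →+* A) hdecomp
    rw [hφ0, map_add, map_mul, map_mul] at h2
    have h3 : (φ : B →+* A) (t - algebraMap A B (φ t)) = 0 := hPK
    have h4 : (φ : B →+* A) (algebraMap A B a) = a := φ.commutes a
    rw [h3, mul_zero, zero_add, h4] at h2
    exact h2.symm
  rw [hdecomp]
  rcases mul_eq_zero.mp hφ1 with h0 | h0
  · rw [h0, map_zero, zero_mul, add_zero]
    exact Submodule.mem_sup_left (Ideal.mul_mem_left _ _ (Ideal.mem_span_singleton_self _))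
  · refine Submodule.add_mem _
      (Submodule.mem_sup_left (Ideal.mul_mem_left _ _ (Ideal.mem_span_singleton_self _)))
      (Submodule.mem_sup_right ?_)
    exact Ideal.mul_mem_mul (Ideal.mem_map_of_mem _ ha) h0

end Fermat.Agent.Red
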