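import Mathlib

/-!
# P-RED / R-LOCAL: STEP A (Nakayama) and STEP C (Dedekind), abstract Mathlib-only forms

Second seat on R-LOCAL (helper59 for helper26).  Setting of helper26's LOCAL design:
`A` a valuation ring, `B` an `A`-algebra (a chart of the model), `n` a maximal ideal of `B`
containing `m_A B`, `D` a Dedekind domain with `D = B[1/(A \ 0)]`, `F = Frac D`.

* `h59_stepC`: a function `f : F` which is integral at every height-one prime `P` of `D`
  centered at `n` (i.e. `P ∩ B ≤ n`) satisfies `a * s * f ∈ B` for some `a ∈ A \ 0`, `s ∉ n`.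
* `h59_stepA`: for an `A`-algebra homomorphism `φ : B → A` with `φ n ≤ m_A`, finitely generated
  kernel, and `t ∈ n`, `s₀ ∉ n` with `s₀ * n ≤ t B + m_A B`: every `y ∈ ker φ` satisfies
  `s * y ∈ (t - φ t) B` for some `s ∉ n`.
-/

set_option autoImplicit false

namespace Fermat.Agent.Red

open IsDedekindDomain

/-- If every ideal of a multiset of ideals of `D` contains the image of an element of `B`
outside the prime ideal `n`, so does their product. -/
theorem h59_exists_notMem_of_multiset_prod {B D : Type*} [CommRing B] [CommRing D] [Algebra B D]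
    (n : Ideal B) [n.IsPrime] (Z : Multiset (Ideal D))
    (h : ∀ P ∈ Z, ∃ s : B, s ∉ n ∧ algebraMap B D s ∈ P) :
    ∃ s : B, s ∉ n ∧ algebraMap B D s ∈ Z.prod := by
  induction Z using Multiset.induction_on with
  | empty =>
    refine ⟨1, fun h1 => ?_, by simp⟩
    exact (Ideal.IsPrime.ne_top ‹n.IsPrime›) ((Ideal.eq_top_iff_one n).2 h1)
  | cons P Z ih =>
    obtain ⟨s₁, hs₁, hs₁P⟩ := h P (Multiset.mem_cons_self P Z)
    obtain ⟨s₂, hs₂, hs₂Z⟩ := ih fun Q hQ => h Q (Multiset.mem_cons_of_mem hQ)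
    refine ⟨s₁ * s₂, fun h12 => ?_, ?_⟩
    · rcases Ideal.IsPrime.mem_or_mem ‹n.IsPrime› h12 with h' | h'
      · exact hs₁ h'
      · exact hs₂ h'
    · rw [Multiset.prod_cons, map_mul]
      exact Ideal.mul_mem_mul hs₁P hs₂Z

/-- **STEP C (Dedekind).**  `D` a Dedekind domain with fraction field `F`, `B → D` a ring
homomorphism such that every element of `D` becomes an element of `B` after multiplication by
a nonzero constant `a : A`, `n` a prime ideal of `B`.  If `f : F` is integral at every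
height-one prime `P` of `D` centered at `n` (`P ∩ B ≤ n`), then `a * s * f ∈ B` for some
`a ≠ 0` in `A` and some `s ∉ n`. -/
theorem h59_stepC {A B D F : Type*} [CommRing A] [CommRing B] [CommRing D] [IsDedekindDomain D]
    [Field F] [Algebra A D] [Algebra B D] [Algebra D F] [IsFractionRing D F]
    (hloc : ∀ d : D, ∃ a : A, a ≠ 0 ∧ ∃ b : B, algebraMap B D b = algebraMap A D a * d)
    (n : Ideal B) [n.IsPrime] (f : F)
    (hf : ∀ P : HeightOneSpectrum D, P.asIdeal.comap (algebraMap B D) ≤ n →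
      P.valuation F f ≤ 1) :
    ∃ a : A, a ≠ 0 ∧ ∃ s : B, s ∉ n ∧ ∃ b : B,
      algebraMap D F (algebraMap B D b) =
        algebraMap D F (algebraMap A D a) * algebraMap D F (algebraMap B D s) * f := by
  classical
  -- the denominator ideal
  let 𝔡 : Ideal D :=
    { carrier := {d | ∃ e : D, algebraMap D F e = algebraMap D F d * f}
      zero_mem' := ⟨0, by simp⟩
      add_mem' := by
        rintro d₁ d₂ ⟨e₁, h₁⟩ ⟨e₂, h₂⟩
        exact ⟨e₁ + e₂, by rw [map_add, map_add, h₁, h₂, add_mul]⟩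
      smul_mem' := by
        rintro c d ⟨e, h⟩
        exact ⟨c * e, by rw [smul_eq_mul, map_mul, map_mul, h, mul_assoc]⟩ }
  have hmem : ∀ d : D, d ∈ 𝔡 ↔ ∃ e : D, algebraMap D F e = algebraMap D F d * f := fun _ => Iff.rfl
  -- it is nonzero
  obtain ⟨x, y, hy, rfl⟩ := IsFractionRing.div_surjective (A := D) f
  have hy0 : algebraMap D F y ≠ 0 := IsFractionRing.to_map_ne_zero_of_mem_nonZeroDivisors hy
  have hy𝔡 : y ∈ 𝔡 := (hmem y).2 ⟨x, by field_simp⟩
  have h𝔡 : 𝔡 ≠ ⊥ := fun h => by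
    rw [h, Ideal.mem_bot] at hy𝔡
    exact hy0 (by rw [hy𝔡, map_zero])
  -- find `s`
  obtain ⟨s, hsn, hs𝔡⟩ : ∃ s : B, s ∉ n ∧ algebraMap B D s ∈ 𝔡 := by
    rw [← Ideal.prod_normalizedFactors_eq_self h𝔡]
    refine h59_exists_notMem_of_multiset_prod n _ fun P hP => ?_
    rw [Ideal.mem_normalizedFactors_iff h𝔡] at hP
    obtain ⟨hPprime, hPle⟩ := hP
    by_contra hcon
    push Not at hcon
    have hP0 : P ≠ ⊥ := fun h => h𝔡 (le_bot_iff.1 (h ▸ hPle))
    let P' : HeightOneSpectrum D := ⟨P, hPprime, hP0⟩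
    have hcent : P'.asIdeal.comap (algebraMap B D) ≤ n := fun s hs => by
      by_contra hsn
      exact hcon s hsn hs
    obtain ⟨m, d, hmd⟩ := P'.exists_primeCompl_mul_eq_of_integer _ (hf P' hcent)
    have hd𝔡 : (d : D) ∈ 𝔡 := (hmem d).2 ⟨m, by rw [← hmd, mul_comm]⟩
    exact d.2 (hPle hd𝔡)
  obtain ⟨e, he⟩ := (hmem _).1 hs𝔡
  obtain ⟨a, ha, b, hb⟩ := hloc e
  exact ⟨a, ha, s, hsn, b, by rw [hb, map_mul, he]; ring⟩

/-- In an algebra over a valuation ring, every element of `I B` (`I` an ideal of `A`) is of the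
form `a * b` with `a ∈ I`. -/
theorem h59_mem_map_valuationRing {A B : Type*} [CommRing A] [IsDomain A] [ValuationRing A]
    [CommRing B] [Algebra A B] (I : Ideal A) {m : B} (hm : m ∈ I.map (algebraMap A B)) :
    ∃ a ∈ I, ∃ b : B, m = algebraMap A B a * b := by
  rw [Ideal.map, Ideal.span] at hm
  induction hm using Submodule.span_induction with
  | mem x hx =>
    obtain ⟨a, ha, rfl⟩ := hx
    exact ⟨a, ha, 1, by rw [mul_one]⟩
  | zero => exact ⟨0, I.zero_mem, 0, by simp⟩
  | add x y _ _ hx hy =>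
    obtain ⟨a₁, ha₁, b₁, rfl⟩ := hx
    obtain ⟨a₂, ha₂, b₂, rfl⟩ := hy
    rcases ValuationRing.dvd_total a₁ a₂ with ⟨r, rfl⟩ | ⟨r, rfl⟩
    · exact ⟨a₁, ha₁, b₁ + algebraMap A B r * b₂, by rw [map_mul]; ring⟩
    · exact ⟨a₂, ha₂, algebraMap A B r * b₁ + b₂, by rw [map_mul]; ring⟩
  | smul r x _ hx =>
    obtain ⟨a, ha, b, rfl⟩ := hx
    exact ⟨a, ha, r * b, by rw [smul_eq_mul]; ring⟩

/-- **STEP A (Nakayama).**  `A` a valuation ring, `B` an `A`-algebra, `n` a maximal ideal of `B`,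
`φ : B → A` an `A`-algebra homomorphism with `φ n ≤ m_A` and finitely generated kernel,
`t ∈ n` and `s₀ ∉ n` with `s₀ * n ≤ t B + m_A B`.  Then locally at `n` the kernel of `φ` is
generated by `t - φ t`: for every `y ∈ ker φ` there is `s ∉ n` with `s * y ∈ (t - φ t) B`. -/
theorem h59_stepA {A B : Type*} [CommRing A] [IsDomain A] [ValuationRing A] [CommRing B]
    [Algebra A B] (n : Ideal B) [hn : n.IsMaximal] (φ : B →ₐ[A] A)
    (hφ : ∀ x ∈ n, φ x ∈ IsLocalRing.maximalIdeal A)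
    (hfg : (RingHom.ker (φ : B →+* A)).FG) (t : B) (ht : t ∈ n) (s₀ : B) (hs₀ : s₀ ∉ n)
    (hst : ∀ x ∈ n, s₀ * x ∈ Ideal.span {t} ⊔ (IsLocalRing.maximalIdeal A).map (algebraMap A B)) :
    ∀ y ∈ RingHom.ker (φ : B →+* A),
      ∃ s, s ∉ n ∧ s * y ∈ Ideal.span {t - algebraMap A B (φ t)} := by
  classical
  set 𝔪 := IsLocalRing.maximalIdeal A with h𝔪
  -- `n` is the preimage of the maximal ideal
  have hne : Ideal.comap (φ : B →+* A) 𝔪 ≠ ⊤ := by
    intro h
    have h1 : (1 : B) ∈ Ideal.comap (φ : B →+* A) 𝔪 := h ▸ Submodule.mem_top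
    rw [Ideal.mem_comap] at h1
    have h2 : (φ : B →+* A) 1 = 1 := map_one _
    rw [h2] at h1
    exact (Ideal.ne_top_iff_one 𝔪).1 (IsLocalRing.maximalIdeal.isMaximal A).ne_top h1
  have hneq : n = Ideal.comap (φ : B →+* A) 𝔪 :=
    hn.eq_of_le hne fun x hx => hφ x hx
  have hker : RingHom.ker (φ : B →+* A) ≤ n := by
    intro y hy
    rw [hneq, Ideal.mem_comap, (RingHom.mem_ker).1 hy]
    exact 𝔪.zero_mem
  have hmA : 𝔪.map (algebraMap A B) ≤ n := by
    rw [Ideal.map_le_iff_le_comap]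
    intro a ha
    rw [Ideal.mem_comap, hneq, Ideal.mem_comap]
    have : (φ : B →+* A) (algebraMap A B a) = a := φ.commutes a
    rw [this]
    exact ha
  have hc : φ t ∈ 𝔪 := hφ t ht
  -- the local relation
  have key : ∀ y ∈ RingHom.ker (φ : B →+* A), ∃ b : B, ∃ a ∈ 𝔪, ∃ b' : B,
      b' ∈ RingHom.ker (φ : B →+* A) ∧
        s₀ * y = (t - algebraMap A B (φ t)) * b + algebraMap A B a * b' := by
    intro y hy
    obtain ⟨u, hu, m, hm, hum⟩ := Submodule.mem_sup.1 (hst y (hker hy))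
    obtain ⟨b, rfl⟩ := Ideal.mem_span_singleton'.1 hu
    have hm' : algebraMap A B (φ t) * b + m ∈ 𝔪.map (algebraMap A B) :=
      Ideal.add_mem _ (Ideal.mul_mem_right _ _ (Ideal.mem_map_of_mem _ hc)) hm
    obtain ⟨a, ha, b', hab'⟩ := h59_mem_map_valuationRing 𝔪 hm'
    have hrel : s₀ * y = (t - algebraMap A B (φ t)) * b + algebraMap A B a * b' := by
      rw [← hab', ← hum]; ring
    by_cases ha0 : a = 0
    · refine ⟨b, 0, 𝔪.zero_mem, 0, (RingHom.ker (φ : B →+* A)).zero_mem, ?_⟩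
      rw [hrel, ha0, map_zero, zero_mul, zero_mul]
    · refine ⟨b, a, ha, b', ?_, hrel⟩
      have h1 := congrArg φ hrel
      have hy0 : φ y = 0 := (RingHom.mem_ker).1 hy
      rw [map_mul, hy0, mul_zero, map_add, map_mul, map_sub, φ.commutes, map_mul, φ.commutes] at h1
      have h2 : (φ t - algebraMap A A (φ t)) = 0 := by
        rw [Algebra.algebraMap_self_apply, sub_self]
      rw [h2, zero_mul, zero_add, Algebra.algebraMap_self_apply] at h1
      rcases mul_eq_zero.1 h1.symm with h3 | h3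
      · exact absurd h3 ha0
      · exact (RingHom.mem_ker).2 h3
  -- localise at `n`
  let Bn := Localization.AtPrime n
  let I' : Ideal Bn := (RingHom.ker (φ : B →+* A)).map (algebraMap B Bn)
  let N : Ideal Bn := Ideal.span {algebraMap B Bn (t - algebraMap A B (φ t))}
  let J : Ideal Bn := (𝔪.map (algebraMap A B)).map (algebraMap B Bn)
  have hI'fg : I'.FG := hfg.map _
  have hJ : J ≤ Ideal.jacobson (⊥ : Ideal Bn) := by
    rw [IsLocalRing.jacobson_eq_maximalIdeal ⊥ bot_ne_top,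
      ← Localization.AtPrime.map_eq_maximalIdeal]
    exact Ideal.map_mono hmA
  have hle : I' ≤ N ⊔ J • I' := by
    rw [Ideal.map_le_iff_le_comap]
    intro y hy
    rw [Ideal.mem_comap]
    obtain ⟨b, a, ha, b', hb', hrel⟩ := key y hy
    have hunit : IsUnit (algebraMap B Bn s₀) :=
      IsLocalization.map_units Bn (⟨s₀, hs₀⟩ : n.primeCompl)
    have h1 : algebraMap B Bn (s₀ * y) ∈ N ⊔ J • I' := by
      rw [hrel, map_add, map_mul, map_mul]
      refine Ideal.add_mem _ (Ideal.mem_sup_left ?_) (Ideal.mem_sup_right ?_)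
      · exact Ideal.mul_mem_right _ _ (Ideal.subset_span rfl)
      · rw [smul_eq_mul]
        exact Ideal.mul_mem_mul
          (Ideal.mem_map_of_mem _ (Ideal.mem_map_of_mem _ ha)) (Ideal.mem_map_of_mem _ hb')
    rw [map_mul] at h1
    exact (Ideal.unit_mul_mem_iff_mem _ hunit).1 h1
  have hI'N : I' ≤ N := Submodule.le_of_le_smul_of_le_jacobson_bot hI'fg hJ hle
  -- back to `B`
  intro y hy
  have hyN : algebraMap B Bn y ∈ N := hI'N (Ideal.mem_map_of_mem _ hy)
  have hN : N = (Ideal.span {t - algebraMap A B (φ t)}).map (algebraMap B Bn) := by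
    rw [Ideal.map_span, Set.image_singleton]
  rw [hN, IsLocalization.mem_map_algebraMap_iff n.primeCompl] at hyN
  obtain ⟨⟨x, s⟩, hxs⟩ := hyN
  rw [← map_mul] at hxs
  obtain ⟨c, hc'⟩ := (IsLocalization.eq_iff_exists n.primeCompl Bn).1 hxs
  refine ⟨c * s, (c * s).2, ?_⟩
  have : (c : B) * (s : B) * y = c * (x : B) := by
    rw [← hc']; ring
  rw [this]
  exact Ideal.mul_mem_left _ _ x.2

end Fermat.Agent.Red
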