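import Mathlib

/-!
# P-RED, R-LOCAL, STEP C (second seat, helper97): the Dedekind step

Mathlib only.

* `L97_stepC`: `B → D`, `D` a Dedekind domain with fraction field `F`, `n` a prime of `B`.
  If `f ∈ F` is integral at every height-one prime `P` of `D` centred at `n`
  (`P ∩ B ⊆ n`), then `s f ∈ D` for some `s ∈ B ∖ n`.
* `L97_stepC_chart`: if moreover every element of `D` is a fraction `b / a` with `a ∈ S`,
  then `a s f ∈ B` for some `a ∈ S`, `s ∉ n`.
-/

set_option autoImplicit false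

namespace Fermat.Agent.Red

open Ideal IsDedekindDomain

/-- **STEP C** (Dedekind): if `f ∈ Frac D` is integral at every height-one prime of `D` centred
at the prime `n` of `B` (i.e. `P ∩ B ⊆ n`), then `s f ∈ D` for some `s ∈ B ∖ n`. -/
theorem L97_stepC {B D F : Type*} [CommRing B] [CommRing D] [IsDedekindDomain D] [Field F]
    [Algebra D F] [IsFractionRing D F] [Algebra B D]
    (n : Ideal B) [hn : n.IsPrime] (f : F)
    (hf : ∀ P : HeightOneSpectrum D,
        P.asIdeal.comap (algebraMap B D) ≤ n → P.valuation F f ≤ 1) :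
    ∃ s : B, s ∉ n ∧ ∃ d : D, algebraMap D F (algebraMap B D s) * f = algebraMap D F d := by
  classical
  -- the denominator ideal
  let J : Ideal D :=
    { carrier := {d | ∃ d' : D, algebraMap D F d * f = algebraMap D F d'}
      add_mem' := by
        rintro a b ⟨a', ha⟩ ⟨b', hb⟩
        exact ⟨a' + b', by rw [map_add, add_mul, ha, hb, map_add]⟩
      zero_mem' := ⟨0, by simp⟩
      smul_mem' := by
        rintro c a ⟨a', ha⟩
        exact ⟨c * a', by rw [smul_eq_mul, map_mul, mul_assoc, ha, map_mul]⟩ }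
  have hJmem : ∀ d : D, d ∈ J ↔ ∃ d' : D, algebraMap D F d * f = algebraMap D F d' :=
    fun d => Iff.rfl
  by_contra hcon
  push Not at hcon
  -- `J` is disjoint from the image of `B ∖ n`
  let T : Submonoid D := n.primeCompl.map (algebraMap B D : B →* D)
  have hdisj : Disjoint (J : Set D) (T : Set D) := by
    rw [Set.disjoint_left]
    rintro d hdJ ⟨s, hs, rfl⟩
    obtain ⟨d', hd'⟩ := (hJmem _).mp hdJ
    exact hcon s hs d' hd'
  obtain ⟨P, hPprime, hJP, hPT⟩ := Ideal.exists_le_prime_disjoint J T hdisj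
  -- `J ≠ ⊥`
  obtain ⟨⟨x, y, hy⟩, hxy⟩ := IsLocalization.surj (nonZeroDivisors D) f
  simp only at hxy
  have hyJ : y ∈ J := (hJmem y).mpr ⟨x, by rw [mul_comm]; exact hxy⟩
  have hy0 : y ≠ 0 := nonZeroDivisors.ne_zero hy
  have hPbot : P ≠ ⊥ := by
    intro h
    have := hJP hyJ
    rw [h, Ideal.mem_bot] at this
    exact hy0 this
  let v : HeightOneSpectrum D := ⟨P, hPprime, hPbot⟩
  have hcent : v.asIdeal.comap (algebraMap B D) ≤ n := by
    intro b hb
    by_contra hbn
    rw [Ideal.mem_comap] at hb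
    exact Set.disjoint_left.mp hPT hb ⟨b, hbn, rfl⟩
  obtain ⟨m, ⟨d, hd⟩, hmd⟩ := v.exists_primeCompl_mul_eq_of_integer f (hf v hcent)
  simp only at hmd
  have hdJ : d ∈ J := (hJmem d).mpr ⟨m, by rw [mul_comm]; exact hmd⟩
  exact hd (hJP hdJ)

/-- **STEP C**, with the chart: if moreover `D` is obtained from `B` by inverting the elements
of `S`, then `a s f ∈ B` for some `a ∈ S`, `s ∉ n`. -/
theorem L97_stepC_chart {B D F : Type*} [CommRing B] [CommRing D] [IsDedekindDomain D] [Field F]
    [Algebra D F] [IsFractionRing D F] [Algebra B D]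
    (S : Submonoid B)
    (hloc : ∀ d : D, ∃ a ∈ S, ∃ b : B, algebraMap B D a * d = algebraMap B D b)
    (n : Ideal B) [hn : n.IsPrime] (f : F)
    (hf : ∀ P : HeightOneSpectrum D,
        P.asIdeal.comap (algebraMap B D) ≤ n → P.valuation F f ≤ 1) :
    ∃ a ∈ S, ∃ s : B, s ∉ n ∧ ∃ b : B,
      algebraMap D F (algebraMap B D (a * s)) * f = algebraMap D F (algebraMap B D b) := by
  obtain ⟨s, hs, d, hd⟩ := L97_stepC n f hf
  obtain ⟨a, ha, b, hab⟩ := hloc d
  refine ⟨a, ha, s, hs, b, ?_⟩
  rw [map_mul, map_mul, mul_assoc, hd, ← map_mul, hab]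

end Fermat.Agent.Red
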