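import Fermat.Agent.Red.LocalAC59

/-!
# P-RED / R-LOCAL: the Dedekind half of FACTORISATION (abstract, Mathlib-only)

Setting (helper26's LOCAL design): `A` a valuation ring, `B` an `A`-algebra (chart), `D` a
Dedekind domain with `D = B[1/(A \ 0)]`, `F = Frac D`, `n` a maximal ideal of `B`, `t ∈ n`,
`s₀ ∉ n` with `s₀ * n ≤ t B + m_A B` (the special fibre is regular at `n` with uniformizer `t`).

A height-one prime `P` of `D` is *centered at `n`* if `P ∩ B ≤ n`.  For a centered `P` which is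
the kernel of an `A`-point `φ : B → A` (with finitely generated kernel):

* `h59_phi_mem_maximalIdeal`: `φ n ≤ m_A`;
* `h59_le_of_sub_mem`: a centered prime `Q` containing `t - φ t` contains `P`;
* `h59_valuation_sub`: `t - φ t` is a uniformizer at `P`;
* `h59_valuation_sub_of_ne`: `t - φ t` is a unit at every centered prime `Q ≠ P`;
* `h59_eps_valuation`: `eps := w * ∏_{P ∈ T} (t - φ_P t) ^ (- n_P)` is a unit at every centered
  prime;
* `h59_factorisation_dedekind`: hence `a * s * eps ∈ B` and `a * s * eps⁻¹ ∈ B` for some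
  `a ≠ 0` in `A` and `s ∉ n`.
-/

set_option autoImplicit false
set_option linter.unusedSectionVars false

namespace Fermat.Agent.Red

open IsDedekindDomain WithZero

section

variable {A B D F : Type*} [CommRing A] [IsDomain A] [ValuationRing A] [CommRing B] [Algebra A B]
  [CommRing D] [IsDedekindDomain D] [Algebra A D] [Algebra B D] [IsScalarTower A B D]
  [Field F] [Algebra D F] [IsFractionRing D F]

/-- An `A`-point `φ : B → A` whose kernel is contained in the maximal ideal `n` maps `n` into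
the maximal ideal of `A`. -/
theorem h59_phi_mem_maximalIdeal (n : Ideal B) [hn : n.IsMaximal] (φ : B →ₐ[A] A)
    (hker : RingHom.ker (φ : B →+* A) ≤ n) :
    ∀ x ∈ n, φ x ∈ IsLocalRing.maximalIdeal A := by
  intro x hx
  by_contra hcon
  have hu : IsUnit (φ x) := by
    by_contra h
    exact hcon ((IsLocalRing.mem_maximalIdeal _).2 h)
  have h1 : x - algebraMap A B (φ x) ∈ RingHom.ker (φ : B →+* A) := by
    rw [RingHom.mem_ker]
    change φ (x - algebraMap A B (φ x)) = 0
    rw [map_sub, φ.commutes, Algebra.algebraMap_self_apply, sub_self]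
  have h2 : algebraMap A B (φ x) ∈ n := by
    have := n.sub_mem hx (hker h1)
    rwa [sub_sub_cancel] at this
  exact hn.ne_top (Ideal.eq_top_of_isUnit_mem n h2 (hu.map (algebraMap A B)))

variable (hunit : ∀ a : A, a ≠ 0 → IsUnit (algebraMap A D a))
  (hloc : ∀ d : D, ∃ a : A, a ≠ 0 ∧ ∃ b : B, algebraMap B D b = algebraMap A D a * d)
  (n : Ideal B) [hn : n.IsMaximal] (t : B) (ht : t ∈ n) (s₀ : B) (hs₀ : s₀ ∉ n)
  (hst : ∀ x ∈ n, s₀ * x ∈ Ideal.span {t} ⊔ (IsLocalRing.maximalIdeal A).map (algebraMap A B))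

include hunit hloc hn ht hs₀ hst

/-- A prime `Q` of `D` with `Q ∩ B ≤ n` which contains `t - φ t` contains the prime `P`
cut out by `φ`. -/
theorem h59_le_of_sub_mem (P : HeightOneSpectrum D) (φ : B →ₐ[A] A)
    (hker : RingHom.ker (φ : B →+* A) = P.asIdeal.comap (algebraMap B D))
    (hfg : (RingHom.ker (φ : B →+* A)).FG) (hP : P.asIdeal.comap (algebraMap B D) ≤ n)
    (Q : Ideal D) [hQ : Q.IsPrime] (hQn : Q.comap (algebraMap B D) ≤ n)
    (hmem : algebraMap B D (t - algebraMap A B (φ t)) ∈ Q) : P.asIdeal ≤ Q := by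
  intro d hd
  obtain ⟨a, ha, b, hb⟩ := hloc d
  have hbP : b ∈ RingHom.ker (φ : B →+* A) := by
    rw [hker, Ideal.mem_comap, hb]
    exact Ideal.mul_mem_left _ _ hd
  have hφ := h59_phi_mem_maximalIdeal n φ (hker ▸ hP)
  obtain ⟨s, hs, hsb⟩ := h59_stepA n φ hφ hfg t ht s₀ hs₀ hst b hbP
  obtain ⟨b₁, hb₁⟩ := Ideal.mem_span_singleton'.1 hsb
  have h1 : algebraMap B D (s * b) ∈ Q := by
    rw [← hb₁, map_mul]
    exact Ideal.mul_mem_left _ _ hmem
  rw [map_mul] at h1
  have h2 : algebraMap B D b ∈ Q := by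
    rcases hQ.mem_or_mem h1 with h | h
    · exact absurd (hQn (Ideal.mem_comap.2 h)) hs
    · exact h
  rw [hb] at h2
  rcases hQ.mem_or_mem h2 with h | h
  · exact absurd (Ideal.eq_top_of_isUnit_mem Q h (hunit a ha)) hQ.ne_top
  · exact h

/-- `t - φ t` is a uniformizer at the prime `P` cut out by `φ`. -/
theorem h59_valuation_sub (P : HeightOneSpectrum D) (φ : B →ₐ[A] A)
    (hker : RingHom.ker (φ : B →+* A) = P.asIdeal.comap (algebraMap B D))
    (hfg : (RingHom.ker (φ : B →+* A)).FG) (hP : P.asIdeal.comap (algebraMap B D) ≤ n) :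
    P.valuation F (algebraMap D F (algebraMap B D (t - algebraMap A B (φ t)))) =
      exp (-1 : ℤ) := by
  have hφ := h59_phi_mem_maximalIdeal n φ (hker ▸ hP)
  have hu : t - algebraMap A B (φ t) ∈ RingHom.ker (φ : B →+* A) := by
    rw [RingHom.mem_ker]
    change φ (t - algebraMap A B (φ t)) = 0
    rw [map_sub, φ.commutes, Algebra.algebraMap_self_apply, sub_self]
  have huP : algebraMap B D (t - algebraMap A B (φ t)) ∈ P.asIdeal := by
    rw [hker] at hu
    exact hu
  rw [HeightOneSpectrum.valuation_of_algebraMap]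
  refine le_antisymm ?_ ?_
  · have := (P.intValuation_le_pow_iff_mem (algebraMap B D (t - algebraMap A B (φ t))) 1).2
      (by rwa [pow_one])
    simpa using this
  · obtain ⟨π, hπ⟩ := P.intValuation_exists_uniformizer
    have hπP : π ∈ P.asIdeal := by
      rw [← P.intValuation_lt_one_iff_mem, hπ, ← exp_zero, exp_lt_exp]
      norm_num
    obtain ⟨a, ha, b, hb⟩ := hloc π
    have hbP : b ∈ RingHom.ker (φ : B →+* A) := by
      rw [hker, Ideal.mem_comap, hb]
      exact Ideal.mul_mem_left _ _ hπP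
    obtain ⟨s, hs, hsb⟩ := h59_stepA n φ hφ hfg t ht s₀ hs₀ hst b hbP
    obtain ⟨b₁, hb₁⟩ := Ideal.mem_span_singleton'.1 hsb
    have hvs : P.intValuation (algebraMap B D s) = 1 := by
      rw [P.intValuation_eq_one_iff_mem_primeCompl]
      exact fun h => hs (hP (Ideal.mem_comap.2 h))
    have hva : P.intValuation (algebraMap A D a) = 1 := by
      rw [P.intValuation_eq_one_iff_mem_primeCompl]
      exact fun h => P.isPrime.ne_top (Ideal.eq_top_of_isUnit_mem _ h (hunit a ha))
    have h1 : P.intValuation (algebraMap B D (s * b)) = exp (-1 : ℤ) := by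
      rw [map_mul, map_mul, hvs, one_mul, hb, map_mul, hva, one_mul, hπ]
    rw [← h1, ← hb₁, map_mul, map_mul]
    exact mul_le_of_le_one_left' (P.intValuation_le_one _)

/-- `t - φ t` is a unit at every centered prime `Q` different from the prime `P` cut out
by `φ`. -/
theorem h59_valuation_sub_of_ne (P : HeightOneSpectrum D) (φ : B →ₐ[A] A)
    (hker : RingHom.ker (φ : B →+* A) = P.asIdeal.comap (algebraMap B D))
    (hfg : (RingHom.ker (φ : B →+* A)).FG) (hP : P.asIdeal.comap (algebraMap B D) ≤ n)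
    (Q : HeightOneSpectrum D) (hQn : Q.asIdeal.comap (algebraMap B D) ≤ n) (hQP : Q ≠ P) :
    Q.valuation F (algebraMap D F (algebraMap B D (t - algebraMap A B (φ t)))) = 1 := by
  rw [HeightOneSpectrum.valuation_of_algebraMap, Q.intValuation_eq_one_iff_mem_primeCompl]
  intro hmem
  have hle : P.asIdeal ≤ Q.asIdeal :=
    h59_le_of_sub_mem hunit hloc n t ht s₀ hs₀ hst P φ hker hfg hP Q.asIdeal hQn hmem
  have hmax : P.asIdeal.IsMaximal := P.isMaximal
  exact hQP (HeightOneSpectrum.ext (hmax.eq_of_le Q.isPrime.ne_top hle).symm)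

/-- **FACTORISATION, valuations.**  `eps := w * ∏_{P ∈ T} (t - φ_P t) ^ (- n_P)` is a unit at
every prime of `D` centered at `n`, if `T` is a finite set of centered primes, each cut out by
an `A`-point `φ_P`, with `v_P(w) = exp (- n_P)` on `T` and `v_P(w) = 1` at the centered primes
outside `T`. -/
theorem h59_eps_valuation (T : Finset (HeightOneSpectrum D))
    (φ : HeightOneSpectrum D → (B →ₐ[A] A)) (ord : HeightOneSpectrum D → ℤ)
    (hker : ∀ P ∈ T, RingHom.ker ((φ P : B →ₐ[A] A) : B →+* A) =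
      P.asIdeal.comap (algebraMap B D))
    (hfg : ∀ P ∈ T, (RingHom.ker ((φ P : B →ₐ[A] A) : B →+* A)).FG)
    (hT : ∀ P ∈ T, P.asIdeal.comap (algebraMap B D) ≤ n)
    (w : F) (hwT : ∀ P ∈ T, P.valuation F w = exp (-(ord P)))
    (hw : ∀ P : HeightOneSpectrum D, P.asIdeal.comap (algebraMap B D) ≤ n → P ∉ T →
      P.valuation F w = 1)
    (Q : HeightOneSpectrum D) (hQn : Q.asIdeal.comap (algebraMap B D) ≤ n) :
    Q.valuation F (w * ∏ P ∈ T,
      (algebraMap D F (algebraMap B D (t - algebraMap A B (φ P t)))) ^ (-(ord P))) = 1 := by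
  classical
  rw [map_mul, map_prod]
  by_cases hQT : Q ∈ T
  · rw [hwT Q hQT, ← Finset.mul_prod_erase T _ hQT, map_zpow₀,
      h59_valuation_sub hunit hloc n t ht s₀ hs₀ hst Q (φ Q) (hker Q hQT) (hfg Q hQT) hQn]
    have h1 : ∏ P ∈ T.erase Q, Q.valuation F
        ((algebraMap D F (algebraMap B D (t - algebraMap A B (φ P t)))) ^ (-(ord P))) = 1 := by
      refine Finset.prod_eq_one fun P hP => ?_
      rw [map_zpow₀, h59_valuation_sub_of_ne hunit hloc n t ht s₀ hs₀ hst P (φ P)
        (hker P (Finset.mem_of_mem_erase hP)) (hfg P (Finset.mem_of_mem_erase hP))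
        (hT P (Finset.mem_of_mem_erase hP)) Q hQn (Finset.ne_of_mem_erase hP).symm, one_zpow]
    rw [h1, mul_one, ← exp_zsmul, ← exp_add]
    simp
  · rw [hw Q hQn hQT, one_mul]
    refine Finset.prod_eq_one fun P hP => ?_
    have hne : Q ≠ P := fun h => hQT (h ▸ hP)
    rw [map_zpow₀, h59_valuation_sub_of_ne hunit hloc n t ht s₀ hs₀ hst P (φ P)
      (hker P hP) (hfg P hP) (hT P hP) Q hQn hne, one_zpow]

/-- **FACTORISATION, Dedekind half.**  With `eps` as in `h59_eps_valuation` there are `a ≠ 0`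
in `A` and `s ∉ n` such that `a * s * eps` and `a * s * eps⁻¹` both lie in (the image of) `B`. -/
theorem h59_factorisation_dedekind (T : Finset (HeightOneSpectrum D))
    (φ : HeightOneSpectrum D → (B →ₐ[A] A)) (ord : HeightOneSpectrum D → ℤ)
    (hker : ∀ P ∈ T, RingHom.ker ((φ P : B →ₐ[A] A) : B →+* A) =
      P.asIdeal.comap (algebraMap B D))
    (hfg : ∀ P ∈ T, (RingHom.ker ((φ P : B →ₐ[A] A) : B →+* A)).FG)
    (hT : ∀ P ∈ T, P.asIdeal.comap (algebraMap B D) ≤ n)
    (w : F) (hwT : ∀ P ∈ T, P.valuation F w = exp (-(ord P)))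
    (hw : ∀ P : HeightOneSpectrum D, P.asIdeal.comap (algebraMap B D) ≤ n → P ∉ T →
      P.valuation F w = 1) :
    ∃ a : A, a ≠ 0 ∧ ∃ s : B, s ∉ n ∧ ∃ b₁ b₂ : B,
      algebraMap D F (algebraMap B D b₁) =
        algebraMap D F (algebraMap A D a) * algebraMap D F (algebraMap B D s) *
          (w * ∏ P ∈ T,
            (algebraMap D F (algebraMap B D (t - algebraMap A B (φ P t)))) ^ (-(ord P))) ∧
      algebraMap D F (algebraMap B D b₂) =
        algebraMap D F (algebraMap A D a) * algebraMap D F (algebraMap B D s) *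
          (w * ∏ P ∈ T,
            (algebraMap D F (algebraMap B D (t - algebraMap A B (φ P t)))) ^ (-(ord P)))⁻¹ := by
  set eps : F := w * ∏ P ∈ T,
    (algebraMap D F (algebraMap B D (t - algebraMap A B (φ P t)))) ^ (-(ord P)) with heps
  have hv : ∀ Q : HeightOneSpectrum D, Q.asIdeal.comap (algebraMap B D) ≤ n →
      Q.valuation F eps = 1 := fun Q hQ =>
    h59_eps_valuation hunit hloc n t ht s₀ hs₀ hst T φ ord hker hfg hT w hwT hw Q hQ
  have hnprime : n.IsPrime := hn.isPrime
  obtain ⟨a₁, ha₁, s₁, hs₁, b₁, hb₁⟩ := h59_stepC (A := A) hloc n eps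
    fun Q hQ => (hv Q hQ).le
  obtain ⟨a₂, ha₂, s₂, hs₂, b₂, hb₂⟩ := h59_stepC (A := A) hloc n eps⁻¹
    fun Q hQ => by rw [map_inv₀, hv Q hQ, inv_one]
  refine ⟨a₁ * a₂, mul_ne_zero ha₁ ha₂, s₁ * s₂, fun h => ?_,
    algebraMap A B a₂ * s₂ * b₁, algebraMap A B a₁ * s₁ * b₂, ?_, ?_⟩
  · rcases hnprime.mem_or_mem h with h | h
    · exact hs₁ h
    · exact hs₂ h
  · simp only [map_mul, hb₁, ← IsScalarTower.algebraMap_apply A B D]
    ring
  · simp only [map_mul, hb₂, ← IsScalarTower.algebraMap_apply A B D]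
    ring

end

end Fermat.Agent.Red
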