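import Fermat.Agent.Red.NormLocDed
import Fermat.Agent.Red.GFF

/-!
# R-NORMLOC: the local characteristic polynomial formula for function fields

`K` algebraically closed of characteristic zero, `F'/F` a finite extension of function fields
over `K` (`F'` finite over `K(x)`), `v` a place of `F`.  If `g ∈ F'` is integral at all places
`w` of `F'` over `v`, with values `g(w) ∈ K`, then the characteristic polynomial of `g` over `F`
has coefficients integral at `v`, and its value at `v` is `∏_{w ∣ v} (X - g(w)) ^ e(w)`.
-/

set_option autoImplicit false
set_option linter.unusedSectionVars false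
set_option linter.deprecated false

noncomputable section

namespace Fermat.Agent.Red.NormLoc

open IsDedekindDomain AlgebraicCurve WithZero IntermediateField Polynomial
open UniqueFactorizationMonoid
open Fermat.Agent.S24 Fermat.Agent.Red.GFF

section Listing

theorem card_sigma_fin {α : Type*} (s : Finset α) (e : α → ℕ) {n : ℕ}
    (hn : ∑ w ∈ s, e w = n) : Fintype.card (Σ w : s, Fin (e w)) = n := by
  rw [Fintype.card_sigma]
  simp only [Fintype.card_fin]
  rw [← hn, Finset.sum_coe_sort s e]

/-- list the elements of a finite set with multiplicities. -/
def listing {α : Type*} (s : Finset α) (e : α → ℕ) {n : ℕ} (hn : ∑ w ∈ s, e w = n) :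
    Fin n → α := fun i =>
  (((Fintype.equivFinOfCardEq (card_sigma_fin s e hn)).symm i).1 : α)

theorem listing_mem {α : Type*} (s : Finset α) (e : α → ℕ) {n : ℕ} (hn : ∑ w ∈ s, e w = n)
    (i : Fin n) : listing s e hn i ∈ s :=
  ((Fintype.equivFinOfCardEq (card_sigma_fin s e hn)).symm i).1.2

theorem prod_listing {α : Type*} (s : Finset α) (e : α → ℕ) {n : ℕ} (hn : ∑ w ∈ s, e w = n)
    {M : Type*} [CommMonoid M] (f : α → M) :
    ∏ i, f (listing s e hn i) = ∏ w ∈ s, f w ^ e w := by
  rw [← Finset.prod_coe_sort s (fun w => f w ^ e w)]
  rw [← Equiv.prod_comp (Fintype.equivFinOfCardEq (card_sigma_fin s e hn))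
    (fun i => f (listing s e hn i))]
  unfold listing
  simp only [Equiv.symm_apply_apply]
  rw [Fintype.prod_sigma]
  refine Finset.prod_congr rfl fun w _ => ?_
  show ∏ _y : Fin (e w), f w = _
  rw [Finset.prod_const, Finset.card_univ, Fintype.card_fin]

theorem sum_listing {α : Type*} (s : Finset α) (e : α → ℕ) {n : ℕ} (hn : ∑ w ∈ s, e w = n)
    {M : Type*} [AddCommMonoid M] (f : α → M) :
    ∑ i, f (listing s e hn i) = ∑ w ∈ s, e w • f w := by
  rw [← Finset.sum_coe_sort s (fun w => e w • f w)]
  rw [← Equiv.sum_comp (Fintype.equivFinOfCardEq (card_sigma_fin s e hn))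
    (fun i => f (listing s e hn i))]
  unfold listing
  simp only [Equiv.symm_apply_apply]
  rw [Fintype.sum_sigma]
  refine Finset.sum_congr rfl fun w _ => ?_
  show ∑ _y : Fin (e w), f w = _
  rw [Finset.sum_const, Finset.card_univ, Fintype.card_fin]

theorem exists_listing_eq {α : Type*} (s : Finset α) (e : α → ℕ) {n : ℕ}
    (hn : ∑ w ∈ s, e w = n) (he : ∀ w ∈ s, e w ≠ 0) (w : α) (hw : w ∈ s) :
    ∃ i, listing s e hn i = w := by
  classical
  by_contra hne
  simp only [not_exists] at hne
  have h1 := sum_listing s e hn (fun w' => if w' = w then (1 : ℕ) else 0)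
  have h2 : ∑ i, (fun w' => if w' = w then (1 : ℕ) else 0) (listing s e hn i) = 0 :=
    Finset.sum_eq_zero fun i _ => if_neg (hne i)
  rw [h2] at h1
  have h3 := (Finset.sum_eq_zero_iff.mp h1.symm) w hw
  simp only [if_true, smul_eq_mul, mul_one] at h3
  exact he w hw h3

end Listing

section Relative

variable {K F F' : Type*} [Field K] [Field F] [Field F'] [Algebra K F] [Algebra K F']
  [Algebra F F'] [IsScalarTower K F F']

/-- membership in the maximal ideal of the valuation ring of the place of a height one prime. -/
theorem mem_nonunits_ofHeightOneSpectrum_iff {R : Type*} [CommRing R] [IsDedekindDomain R]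
    [Algebra R F'] [IsFractionRing R F'] [Algebra K R] [IsScalarTower K R F']
    (P : HeightOneSpectrum R) (r : R) :
    algebraMap R F' r ∈ (Place.ofHeightOneSpectrum (K := K) (F := F') P).toValuationSubring.nonunits
      ↔ r ∈ P.asIdeal := by
  rw [Place.ofHeightOneSpectrum_toValuationSubring, ValuationSubring.mem_nonunits_iff,
    ← (Valuation.isEquiv_valuation_valuationSubring (P.valuation F')).lt_one_iff_lt_one]
  exact P.valuation_lt_one_iff_mem r

variable [IsAlgClosed K] [CharZero K] [FiniteDimensional F F'] [HasPrincipalDivisors K F']

set_option synthInstance.maxHeartbeats 400000 in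
set_option maxHeartbeats 1600000 in
/-- an element of `F'` which is integral at all places over `v` is integral over `O_v`. -/
theorem mem_integralClosure_of_forall_fiber (v : Place K F) (g : F')
    (hg : ∀ w ∈ v.fiber F', g ∈ w.toValuationSubring) :
    g ∈ integralClosure v.toValuationSubring F' := by
  classical
  have hchar : CharZero F := charZero_of_injective_algebraMap (algebraMap K F).injective
  have htower : IsScalarTower K v.toValuationSubring F' := isScalarTower_place v
  have hDed : IsDedekindDomain (integralClosure v.toValuationSubring F') :=
    integralClosure.isDedekindDomain v.toValuationSubring F F'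
  have hFrac : IsFractionRing (integralClosure v.toValuationSubring F') F' :=
    integralClosure.isFractionRing_of_finite_extension F F'
  have hrestrict : ∀ P : HeightOneSpectrum (integralClosure v.toValuationSubring F'),
      (Place.ofHeightOneSpectrum (K := K) (F := F') P).restrict F = v := by
    intro P
    apply Place.ext
    have hle : v.toValuationSubring ≤
        ((Place.ofHeightOneSpectrum (K := K) (F := F') P).restrict F).toValuationSubring := by
      intro a ha
      rw [Place.mem_restrict_iff, Place.ofHeightOneSpectrum_toValuationSubring,
        Valuation.mem_valuationSubring_iff]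
      have : algebraMap F F' a = algebraMap (integralClosure v.toValuationSubring F') F'
          (algebraMap v.toValuationSubring (integralClosure v.toValuationSubring F') ⟨a, ha⟩) :=
        rfl
      rw [this]
      exact HeightOneSpectrum.valuation_le_one _ _
    exact (ValuationSubring.eq_of_le_of_ne_top _ hle (Place.ne_top' _)).symm
  have h := HeightOneSpectrum.mem_integers_of_valuation_le_one
    (R := integralClosure v.toValuationSubring F') F' g (fun P => by
      have h1 := hg _ (Place.mem_fiber.mpr (hrestrict P))
      rwa [Place.ofHeightOneSpectrum_toValuationSubring, Valuation.mem_valuationSubring_iff] at h1)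
  obtain ⟨b, rfl⟩ := h
  exact b.2

set_option synthInstance.maxHeartbeats 400000 in
set_option maxHeartbeats 3200000 in
/-- **Local characteristic polynomial formula.** -/
theorem charpoly_coeff_sub_mem_nonunits (x : F') [FiniteDimensional K⟮x⟯ F'] (v : Place K F)
    (g : F') (hg : ∀ w ∈ v.fiber F', g ∈ w.toValuationSubring) (val : Place K F' → K)
    (hval : ∀ w ∈ v.fiber F', g - algebraMap K F' (val w) ∈ w.toValuationSubring.nonunits)
    (m : ℕ) :
    (Algebra.lmul F F' g).charpoly.coeff m
        - algebraMap K F ((∏ w ∈ v.fiber F', (X - C (val w)) ^ w.ramificationIndex F).coeff m)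
      ∈ v.toValuationSubring.nonunits := by
  classical
  have hchar : CharZero F := charZero_of_injective_algebraMap (algebraMap K F).injective
  have htower : IsScalarTower K v.toValuationSubring F' := isScalarTower_place v
  have hDed : IsDedekindDomain (integralClosure v.toValuationSubring F') :=
    integralClosure.isDedekindDomain v.toValuationSubring F F'
  have hFrac : IsFractionRing (integralClosure v.toValuationSubring F') F' :=
    integralClosure.isFractionRing_of_finite_extension F F'
  have hfin : Module.Finite v.toValuationSubring (integralClosure v.toValuationSubring F') :=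
    IsIntegralClosure.finite v.toValuationSubring F F' _
  have htf0 : Module.IsTorsionFree v.toValuationSubring F' := by
    rw [Module.isTorsionFree_iff_algebraMap_injective]
    intro a b hab
    apply Subtype.ext
    exact (algebraMap F F').injective hab
  have htf : Module.IsTorsionFree v.toValuationSubring
      (integralClosure v.toValuationSubring F') := Subalgebra.instIsTorsionFree _
  have hfree : Module.Free v.toValuationSubring (integralClosure v.toValuationSubring F') :=
    Module.free_of_finite_type_torsion_free'
  have hloc : IsLocalization (Algebra.algebraMapSubmonoid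
      (integralClosure v.toValuationSubring F') (nonZeroDivisors v.toValuationSubring)) F' :=
    IsIntegralClosure.isLocalization v.toValuationSubring F F'
      (integralClosure v.toValuationSubring F')
  obtain ⟨π, hπ⟩ := IsDiscreteValuationRing.exists_irreducible v.toValuationSubring
  have hmaxeq : IsLocalRing.maximalIdeal v.toValuationSubring = Ideal.span {π} :=
    (IsDiscreteValuationRing.irreducible_iff_uniformizer π).mp hπ
  have hmax : (Ideal.span {π}).IsMaximal := by
    rw [← hmaxeq]
    infer_instance
  have hpne : (Ideal.span {π}) ≠ ⊥ := Ideal.span_singleton_eq_bot.not.mpr hπ.ne_zero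
  have hpB : (Ideal.span {π}).map
      (algebraMap v.toValuationSubring (integralClosure v.toValuationSubring F')) ≠ ⊥ :=
    Ideal.map_ne_bot_of_ne_bot hpne
  -- `g` comes from `B`
  obtain ⟨b, hb⟩ : ∃ b : integralClosure v.toValuationSubring F', (b : F') = g :=
    ⟨⟨g, mem_integralClosure_of_forall_fiber v g hg⟩, rfl⟩
  -- step 1: localization
  have h1 : (Algebra.lmul F F' g).charpoly
      = (Algebra.lmul v.toValuationSubring (integralClosure v.toValuationSubring F')
          b).charpoly.map (algebraMap v.toValuationSubring F) := by
    rw [← hb]
    exact charpoly_lmul_localization v.toValuationSubring F F'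
      (nonZeroDivisors v.toValuationSubring) b
  -- the places over `v` and the primes of `B`
  have hrestrict : ∀ P : HeightOneSpectrum (integralClosure v.toValuationSubring F'),
      (Place.ofHeightOneSpectrum (K := K) (F := F') P).restrict F = v := by
    intro P
    apply Place.ext
    have hle : v.toValuationSubring ≤
        ((Place.ofHeightOneSpectrum (K := K) (F := F') P).restrict F).toValuationSubring := by
      intro a ha
      rw [Place.mem_restrict_iff, Place.ofHeightOneSpectrum_toValuationSubring,
        Valuation.mem_valuationSubring_iff]
      have : algebraMap F F' a = algebraMap (integralClosure v.toValuationSubring F') F'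
          (algebraMap v.toValuationSubring (integralClosure v.toValuationSubring F') ⟨a, ha⟩) :=
        rfl
      rw [this]
      exact HeightOneSpectrum.valuation_le_one _ _
    exact (ValuationSubring.eq_of_le_of_ne_top _ hle (Place.ne_top' _)).symm
  have hsurj : ∀ w ∈ v.fiber F',
      ∃ P : HeightOneSpectrum (integralClosure v.toValuationSubring F'),
        Place.ofHeightOneSpectrum (K := K) (F := F') P = w := by
    intro w hw
    have hw' : w.restrict F = v := Place.mem_fiber.mp hw
    apply exists_ofHeightOneSpectrum_eq (R := integralClosure v.toValuationSubring F') w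
    intro b
    refine mem_of_isIntegral_of_forall_mem (A := v.toValuationSubring) w (fun a => ?_) b.2
    have ha : (a : F) ∈ (w.restrict F).toValuationSubring := by rw [hw']; exact a.2
    exact (Place.mem_restrict_iff w).mp ha
  have hinj := ofHeightOneSpectrum_injective (K := K) (F := F')
    (R := integralClosure v.toValuationSubring F')
  have hmemFac : ∀ P : (factors ((Ideal.span {π}).map (algebraMap v.toValuationSubring
      (integralClosure v.toValuationSubring F')))).toFinset,
      (P : Ideal (integralClosure v.toValuationSubring F')) ∈
        (Ideal.span {π}).primesOver (integralClosure v.toValuationSubring F') :=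
    fun P => (IsDedekindDomain.mem_primesOverFinset_iff hpne _).mp P.2
  let pl : (factors ((Ideal.span {π}).map (algebraMap v.toValuationSubring
      (integralClosure v.toValuationSubring F')))).toFinset → Place K F' := fun P =>
    Place.ofHeightOneSpectrum (K := K) (F := F') (FICore.primeOfOver hpne ⟨P.1, hmemFac P⟩)
  have hplinj : Function.Injective pl := by
    intro P Q h
    have h2 := hinj h
    apply Subtype.ext
    exact congrArg HeightOneSpectrum.asIdeal h2
  have hplfib : ∀ P, pl P ∈ v.fiber F' := fun P => Place.mem_fiber.mpr (hrestrict _)
  have hfibeq : v.fiber F' = Finset.univ.image pl := by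
    ext w
    rw [Finset.mem_image]
    constructor
    · intro hw
      obtain ⟨P, hP⟩ := hsurj w hw
      have hl := liesOver_maximalIdeal (A := v.toValuationSubring) P
      rw [hmaxeq] at hl
      have hPmem : P.asIdeal ∈ (factors ((Ideal.span {π}).map
          (algebraMap v.toValuationSubring (integralClosure v.toValuationSubring F')))).toFinset :=
        (IsDedekindDomain.mem_primesOverFinset_iff hpne _).mpr ⟨P.isPrime, hl⟩
      exact ⟨⟨P.asIdeal, hPmem⟩, Finset.mem_univ _, hP⟩
    · rintro ⟨P, -, rfl⟩
      exact hplfib P
  -- inertia degrees
  have hf : ∀ P : (factors ((Ideal.span {π}).map (algebraMap v.toValuationSubring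
      (integralClosure v.toValuationSubring F')))).toFinset,
      (Ideal.span {π}).inertiaDeg' (P : Ideal (integralClosure v.toValuationSubring F')) = 1 := by
    intro P
    have hP := hmemFac P
    have hPprime : (P : Ideal (integralClosure v.toValuationSubring F')).IsPrime := hP.1
    have hPlies : (P : Ideal (integralClosure v.toValuationSubring F')).LiesOver
        (Ideal.span {π}) := hP.2
    have hPmax : (P : Ideal (integralClosure v.toValuationSubring F')).IsMaximal :=
      hPprime.isMaximal (Ideal.ne_bot_of_mem_primesOver hpne hP)
    rw [Ideal.inertiaDeg'_eq_inertiaDeg]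
    exact FICore.inertiaDeg_eq_one_aux (K := K) (F := F') x v.toValuationSubring
      (integralClosure v.toValuationSubring F') (Ideal.span {π}) hpne ⟨P.1, hP⟩
  -- ramification indices
  have hordπ : v.ord (π : F) = 1 := v.ord_coe_irreducible hπ
  have he : ∀ P : (factors ((Ideal.span {π}).map (algebraMap v.toValuationSubring
      (integralClosure v.toValuationSubring F')))).toFinset,
      (Ideal.span {π}).ramificationIdx' (P : Ideal (integralClosure v.toValuationSubring F'))
        = (pl P).ramificationIndex F := by
    intro P
    have hP := hmemFac P
    have hPprime : (P : Ideal (integralClosure v.toValuationSubring F')).IsPrime := hP.1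
    have hPlies : (P : Ideal (integralClosure v.toValuationSubring F')).LiesOver
        (Ideal.span {π}) := hP.2
    rw [Ideal.ramificationIdx'_eq_ramificationIdx (Ideal.span {π}) P.1 hpne]
    have h2 := FICore.ord_eq_ramificationIdx (K := K) (F := F') π hπ.ne_zero ⟨P.1, hP⟩
    have h3 : (pl P).ord (algebraMap F F' (π : F))
        = ((pl P).ramificationIndex F : ℤ) * v.ord (π : F) := by
      rw [(pl P).ord_restrict (π : F), hrestrict]
    rw [hordπ, mul_one] at h3
    have h4 : (pl P).ord (algebraMap F F' (π : F))
        = ((P : Ideal (integralClosure v.toValuationSubring F')).ramificationIdx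
            v.toValuationSubring : ℤ) := h2
    rw [h3] at h4
    exact_mod_cast h4.symm
  -- values
  have hc : ∀ P : (factors ((Ideal.span {π}).map (algebraMap v.toValuationSubring
      (integralClosure v.toValuationSubring F')))).toFinset,
      b - algebraMap v.toValuationSubring (integralClosure v.toValuationSubring F')
          (algebraMap K v.toValuationSubring (val (pl P)))
        ∈ (P : Ideal (integralClosure v.toValuationSubring F')) := by
    intro P
    have h2 := hval (pl P) (hplfib P)
    have h3 : g - algebraMap K F' (val (pl P))
        = algebraMap (integralClosure v.toValuationSubring F') F'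
          (b - algebraMap v.toValuationSubring (integralClosure v.toValuationSubring F')
            (algebraMap K v.toValuationSubring (val (pl P)))) := by
      rw [map_sub, ← hb]
      congr 1
      rw [IsScalarTower.algebraMap_apply K F F']
      rfl
    rw [h3] at h2
    exact (mem_nonunits_ofHeightOneSpectrum_iff (K := K) (F' := F')
      (FICore.primeOfOver hpne ⟨P.1, hmemFac P⟩) _).mp h2
  -- the reduction formula
  have hB := charpoly_lmul_map_mk_eq_prod (Ideal.span {π}) hpB hf b
    (fun P => algebraMap K v.toValuationSubring (val (pl P))) hc
  have hQ : (∏ w ∈ v.fiber F', (X - C (val w)) ^ w.ramificationIndex F).map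
        ((Ideal.Quotient.mk (Ideal.span {π})).comp (algebraMap K v.toValuationSubring))
      = ∏ P : (factors ((Ideal.span {π}).map (algebraMap v.toValuationSubring
          (integralClosure v.toValuationSubring F')))).toFinset,
          (X - C (Ideal.Quotient.mk (Ideal.span {π})
            (algebraMap K v.toValuationSubring (val (pl P))))) ^
            (Ideal.span {π}).ramificationIdx'
              (P : Ideal (integralClosure v.toValuationSubring F')) := by
    rw [hfibeq, Finset.prod_image (fun a _ b _ h => hplinj h), Polynomial.map_prod]
    refine Finset.prod_congr rfl fun P _ => ?_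
    rw [Polynomial.map_pow, Polynomial.map_sub, Polynomial.map_X, Polynomial.map_C, he P]
    rfl
  rw [← hQ] at hB
  have hcoeff := congrArg (fun q => Polynomial.coeff q m) hB
  simp only [Polynomial.coeff_map] at hcoeff
  have hd : (Algebra.lmul v.toValuationSubring (integralClosure v.toValuationSubring F')
        b).charpoly.coeff m
      - algebraMap K v.toValuationSubring
          ((∏ w ∈ v.fiber F', (X - C (val w)) ^ w.ramificationIndex F).coeff m)
      ∈ IsLocalRing.maximalIdeal v.toValuationSubring := by
    rw [hmaxeq]
    exact Ideal.Quotient.eq.mp hcoeff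
  rw [h1, Polynomial.coeff_map]
  have hd2 : algebraMap v.toValuationSubring F
        ((Algebra.lmul v.toValuationSubring (integralClosure v.toValuationSubring F')
          b).charpoly.coeff m)
      - algebraMap K F ((∏ w ∈ v.fiber F', (X - C (val w)) ^ w.ramificationIndex F).coeff m)
      = (((Algebra.lmul v.toValuationSubring (integralClosure v.toValuationSubring F')
          b).charpoly.coeff m
        - algebraMap K v.toValuationSubring
          ((∏ w ∈ v.fiber F', (X - C (val w)) ^ w.ramificationIndex F).coeff m) :
          v.toValuationSubring) : F) := rfl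
  rw [hd2]
  exact ValuationSubring.mem_nonunits_iff_exists_mem_maximalIdeal.mpr ⟨Subtype.property _, hd⟩

/-- existence of values at places where the function is integral. -/
theorem exists_value (x : F') [FiniteDimensional K⟮x⟯ F'] (w : Place K F') (g : F')
    (hg : g ∈ w.toValuationSubring) :
    ∃ a : K, g - algebraMap K F' a ∈ w.toValuationSubring.nonunits := by
  have halg : Algebra.IsAlgebraic K⟮x⟯ F' := Algebra.IsAlgebraic.of_finite _ _
  obtain ⟨a, ha⟩ := DiffPlace.exists_const_sub_mem_maximalIdeal x halg w ⟨g, hg⟩
  refine ⟨a, ?_⟩
  have h : g - algebraMap K F' a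
      = ((⟨g, hg⟩ - algebraMap K w.toValuationSubring a : w.toValuationSubring) : F') := rfl
  rw [h]
  exact ValuationSubring.mem_nonunits_iff_exists_mem_maximalIdeal.mpr ⟨Subtype.property _, ha⟩

/-- **R-NORMLOC, listing form.**  The places over `v`, listed with multiplicities (the
ramification indices) by a function on `Fin [F' : F]`, and the reduction at `v` of the
characteristic polynomial of every `g` which is integral at these places. -/
theorem exists_listing_fiber (x : F') [FiniteDimensional K⟮x⟯ F'] (v : Place K F) :
    ∃ u : Fin (Module.finrank F F') → Place K F',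
      (∀ i, (u i).restrict F = v) ∧
      Divisor.pullback F' (Finsupp.single v (1 : ℤ)) = ∑ i, Finsupp.single (u i) (1 : ℤ) ∧
      ∀ g : F', (∀ i, g ∈ (u i).toValuationSubring) →
        ∃ a : Fin (Module.finrank F F') → K,
          (∀ i, g - algebraMap K F' (a i) ∈ (u i).toValuationSubring.nonunits) ∧
          ∀ m : ℕ, (Algebra.lmul F F' g).charpoly.coeff m
              - algebraMap K F ((∏ i, (X - C (a i))).coeff m)
            ∈ v.toValuationSubring.nonunits := by
  classical
  have hsum : ∑ w ∈ v.fiber F', w.ramificationIndex F = Module.finrank F F' := by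
    have := sum_ramificationIndex_eq_finrank (K := K) (F := F) x v
    exact_mod_cast this
  have hu : ∀ i, listing (v.fiber F') (fun w => w.ramificationIndex F) hsum i ∈ v.fiber F' :=
    listing_mem _ _ hsum
  have hcover : ∀ w ∈ v.fiber F',
      ∃ i, listing (v.fiber F') (fun w => w.ramificationIndex F) hsum i = w :=
    exists_listing_eq _ _ hsum (fun w _ => (w.ramificationIndex_pos (F := F)).ne')
  have hprod : ∀ f : Place K F' → K[X],
      ∏ i, f (listing (v.fiber F') (fun w => w.ramificationIndex F) hsum i)
        = ∏ w ∈ v.fiber F', f w ^ w.ramificationIndex F :=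
    fun f => prod_listing _ _ hsum f
  have hadd : ∑ i, Finsupp.single
        (listing (v.fiber F') (fun w => w.ramificationIndex F) hsum i) (1 : ℤ)
      = ∑ w ∈ v.fiber F', w.ramificationIndex F • Finsupp.single w (1 : ℤ) :=
    sum_listing _ _ hsum (fun w => Finsupp.single w (1 : ℤ))
  generalize listing (v.fiber F') (fun w => w.ramificationIndex F) hsum = u
    at hu hcover hprod hadd ⊢
  refine ⟨u, fun i => Place.mem_fiber.mp (hu i), ?_, ?_⟩
  · have h5 : ∑ i, Finsupp.single (u i) (1 : ℤ)
        = ∑ w ∈ v.fiber F', w.ramificationIndex F • Finsupp.single w (1 : ℤ) :=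
      hadd
    rw [Divisor.pullback_single, h5]
    refine Finset.sum_congr rfl fun w _ => ?_
    rw [one_mul, Finsupp.smul_single, nsmul_eq_mul, mul_one]
  · intro g hg
    have hg' : ∀ w ∈ v.fiber F', g ∈ w.toValuationSubring := by
      intro w hw
      obtain ⟨i, rfl⟩ := hcover w hw
      exact hg i
    have hex : ∀ w : Place K F', ∃ a : K, w ∈ v.fiber F' →
        g - algebraMap K F' a ∈ w.toValuationSubring.nonunits := by
      intro w
      by_cases hw : w ∈ v.fiber F'
      · obtain ⟨a, ha⟩ := exists_value x w g (hg' w hw)
        exact ⟨a, fun _ => ha⟩
      · exact ⟨0, fun h => absurd h hw⟩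
    choose val hval using hex
    refine ⟨fun i => val (u i), fun i => hval (u i) (hu i), fun m => ?_⟩
    have h := charpoly_coeff_sub_mem_nonunits x v g hg' val hval m
    have h6 : ∏ i, (X - C (val (u i)) : K[X])
        = ∏ w ∈ v.fiber F', (X - C (val w)) ^ w.ramificationIndex F :=
      hprod (fun w => (X - C (val w) : K[X]))
    rw [h6]
    exact h

end Relative

end Fermat.Agent.Red.NormLoc
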