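import Fermat.Agent.Red.NormLocLin

/-!
# R-NORMLOC, part 2: the characteristic polynomial modulo a maximal ideal (Mathlib only)

`A` a commutative ring, `p` a maximal ideal, `B` a Dedekind domain which is a finite free
`A`-algebra, `p B ≠ 0`.  If all primes `P` of `B` over `p` have inertia degree one and
`b ≡ c P mod P` with `c P ∈ A`, then the characteristic polynomial of the multiplication by `b`
reduces modulo `p` to `∏_P (X - c P) ^ e(P)`.
-/

set_option autoImplicit false
set_option linter.deprecated false
set_option linter.unusedSectionVars false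

open Polynomial UniqueFactorizationMonoid

namespace Fermat.Agent.Red.NormLoc

attribute [local instance] Ideal.Quotient.field

section Reduce

variable {A : Type*} [CommRing A] (p : Ideal A)
variable {B : Type*} [CommRing B] [Algebra A B] [Module.Finite A B] [Module.Free A B]

theorem finite_quotient_map : Module.Finite (A ⧸ p) (B ⧸ p.map (algebraMap A B)) :=
  Module.Finite.of_surjective
    ((Algebra.TensorProduct.quotIdealMapEquivQuotTensor B p).symm.toLinearEquiv.toLinearMap)
    (Algebra.TensorProduct.quotIdealMapEquivQuotTensor B p).symm.surjective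

theorem free_quotient_map : Module.Free (A ⧸ p) (B ⧸ p.map (algebraMap A B)) :=
  Module.Free.of_equiv
    (Algebra.TensorProduct.quotIdealMapEquivQuotTensor B p).symm.toLinearEquiv

/-- reduction of the characteristic polynomial modulo an ideal. -/
theorem charpoly_lmul_map_mk [Module.Finite (A ⧸ p) (B ⧸ p.map (algebraMap A B))]
    [Module.Free (A ⧸ p) (B ⧸ p.map (algebraMap A B))] (b : B) :
    (Algebra.lmul A B b).charpoly.map (Ideal.Quotient.mk p)
      = (Algebra.lmul (A ⧸ p) (B ⧸ p.map (algebraMap A B))
          (Ideal.Quotient.mk (p.map (algebraMap A B)) b)).charpoly := by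
  have h1 := LinearMap.charpoly_baseChange (Algebra.lmul A B b) (A ⧸ p)
  rw [Algebra.baseChange_lmul] at h1
  have h2 := charpoly_lmul_algEquiv
    (Algebra.TensorProduct.quotIdealMapEquivQuotTensor B p)
    (Ideal.Quotient.mk (p.map (algebraMap A B)) b)
  rw [Algebra.TensorProduct.quotIdealMapEquivQuotTensor_mk] at h2
  rw [← h2, h1]
  rfl

end Reduce

section Dedekind

variable {A : Type*} [CommRing A] (p : Ideal A) [hpmax : p.IsMaximal]
variable {B : Type*} [CommRing B] [IsDedekindDomain B] [Algebra A B] [Module.Finite A B]
  [Module.Free A B]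

/-- Chinese remainder theorem for the characteristic polynomial. -/
theorem charpoly_lmul_quotient_eq_prod (hpB : p.map (algebraMap A B) ≠ ⊥) (b : B)
    [Module.Finite (A ⧸ p) (B ⧸ p.map (algebraMap A B))] :
    (Algebra.lmul (A ⧸ p) (B ⧸ p.map (algebraMap A B))
        (Ideal.Quotient.mk (p.map (algebraMap A B)) b)).charpoly
      = ∏ P : (factors (p.map (algebraMap A B))).toFinset,
          (Algebra.lmul (A ⧸ p) (B ⧸ (P : Ideal B) ^ p.ramificationIdx' (P : Ideal B))
            (Ideal.Quotient.mk ((P : Ideal B) ^ p.ramificationIdx' (P : Ideal B)) b)).charpoly := by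
  rw [← charpoly_pi]
  have h : (Ideal.Factors.piQuotientLinearEquiv B p hpB).conj
      (Algebra.lmul (A ⧸ p) (B ⧸ p.map (algebraMap A B))
        (Ideal.Quotient.mk (p.map (algebraMap A B)) b))
      = piDiag (A ⧸ p) (fun P : (factors (p.map (algebraMap A B))).toFinset =>
          Algebra.lmul (A ⧸ p) (B ⧸ (P : Ideal B) ^ p.ramificationIdx' (P : Ideal B))
            (Ideal.Quotient.mk ((P : Ideal B) ^ p.ramificationIdx' (P : Ideal B)) b)) := by
    apply LinearMap.ext
    intro y
    obtain ⟨x, rfl⟩ := (Ideal.Factors.piQuotientLinearEquiv B p hpB).surjective y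
    rw [LinearEquiv.conj_apply_apply, LinearEquiv.symm_apply_apply]
    show (Ideal.Factors.piQuotientEquiv p hpB) (Ideal.Quotient.mk _ b * x) = _
    rw [map_mul, Ideal.Factors.piQuotientEquiv_mk]
    rfl
  rw [← h, LinearEquiv.charpoly_conj]

/-- the local factor at a prime of inertia degree one. -/
theorem charpoly_lmul_quotient_pow (P : (factors (p.map (algebraMap A B))).toFinset)
    (hf : p.inertiaDeg' (P : Ideal B) = 1) (b : B) (c : A)
    (hc : b - algebraMap A B c ∈ (P : Ideal B)) :
    (Algebra.lmul (A ⧸ p) (B ⧸ (P : Ideal B) ^ p.ramificationIdx' (P : Ideal B))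
        (Ideal.Quotient.mk ((P : Ideal B) ^ p.ramificationIdx' (P : Ideal B)) b)).charpoly
      = (X - C (Ideal.Quotient.mk p c)) ^ p.ramificationIdx' (P : Ideal B) := by
  have hnil : IsNilpotent (Ideal.Quotient.mk ((P : Ideal B) ^ p.ramificationIdx' (P : Ideal B)) b
      - algebraMap (A ⧸ p) (B ⧸ (P : Ideal B) ^ p.ramificationIdx' (P : Ideal B))
          (Ideal.Quotient.mk p c)) := by
    refine ⟨p.ramificationIdx' (P : Ideal B), ?_⟩
    rw [Ideal.Quotient.algebraMap_quotient_pow_ramificationIdx, ← map_sub, ← map_pow,
      Ideal.Quotient.eq_zero_iff_mem]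
    exact Ideal.pow_mem_pow hc _
  rw [charpoly_lmul_of_isNilpotent_sub _ _ hnil, Ideal.Factors.finrank_pow_ramificationIdx, hf,
    mul_one]

/-- **Reduction of the characteristic polynomial.**  `B` a Dedekind domain, finite and free
over `A`, `p` a maximal ideal of `A` with `p B ≠ 0` such that all primes of `B` over `p` have
inertia degree one; `b ∈ B` with `b ≡ c P mod P`.  Then the characteristic polynomial of `b`
over `A` is congruent to `∏_P (X - c P) ^ e(P)` modulo `p`. -/
theorem charpoly_lmul_map_mk_eq_prod (hpB : p.map (algebraMap A B) ≠ ⊥)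
    (hf : ∀ P : (factors (p.map (algebraMap A B))).toFinset, p.inertiaDeg' (P : Ideal B) = 1)
    (b : B) (c : (factors (p.map (algebraMap A B))).toFinset → A)
    (hc : ∀ P : (factors (p.map (algebraMap A B))).toFinset,
      b - algebraMap A B (c P) ∈ (P : Ideal B)) :
    (Algebra.lmul A B b).charpoly.map (Ideal.Quotient.mk p)
      = ∏ P : (factors (p.map (algebraMap A B))).toFinset,
          (X - C (Ideal.Quotient.mk p (c P))) ^ p.ramificationIdx' (P : Ideal B) := by
  have := finite_quotient_map (B := B) p
  have := free_quotient_map (B := B) p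
  rw [charpoly_lmul_map_mk, charpoly_lmul_quotient_eq_prod p hpB]
  exact Finset.prod_congr rfl fun P _ => charpoly_lmul_quotient_pow p P (hf P) b (c P) (hc P)

end Dedekind

section Localization

variable (A : Type*) {B : Type*} [CommRing A] [CommRing B] [Algebra A B]
  [Module.Free A B] [Module.Finite A B]
variable (F F' : Type*) [CommRing F] [CommRing F'] [Algebra A F] [Algebra B F'] [Algebra F F']
  [Algebra A F'] [IsScalarTower A F F'] [IsScalarTower A B F']
  [Module.Free F F'] [Module.Finite F F']

/-- the characteristic polynomial of the multiplication by `b` is compatible with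
localization. -/
theorem charpoly_lmul_localization (M : Submonoid A) [IsLocalization M F]
    [IsLocalization (Algebra.algebraMapSubmonoid B M) F'] (b : B) :
    (Algebra.lmul F F' (algebraMap B F' b)).charpoly
      = (Algebra.lmul A B b).charpoly.map (algebraMap A F) := by
  classical
  let β := Module.Free.chooseBasis A B
  rw [← LinearMap.charpoly_toMatrix (Algebra.lmul A B b) β,
    ← LinearMap.charpoly_toMatrix (Algebra.lmul F F' (algebraMap B F' b))
      (β.localizationLocalization F M F'), ← Matrix.charpoly_map]
  congr 1
  exact (Algebra.map_leftMulMatrix_localization A M β b).symm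

end Localization

end Fermat.Agent.Red.NormLoc
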