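import Mathlib

/-!
# R-NORMLOC, part 1: linear algebra (Mathlib only)

* `charpoly_pi` : the characteristic polynomial of a "diagonal" endomorphism of a finite product
  of finite free modules is the product of the characteristic polynomials.
* `charpoly_lmul_of_isNilpotent_sub` : if `x - c` is nilpotent in a finite free `k`-algebra `R`,
  then the characteristic polynomial of multiplication by `x` is `(X - c) ^ rank`.
* `charpoly_lmul_algEquiv` : invariance of the characteristic polynomial of multiplication under
  algebra isomorphisms.
-/

set_option autoImplicit false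

open Polynomial

namespace Fermat.Agent.Red.NormLoc

universe u v w

section Pi

variable (R : Type u) [CommRing R]

/-- the diagonal endomorphism of a product. -/
def piDiag {ι : Type v} {M : ι → Type w} [∀ i, AddCommGroup (M i)] [∀ i, Module R (M i)]
    (f : ∀ i, M i →ₗ[R] M i) : (∀ i, M i) →ₗ[R] (∀ i, M i) :=
  LinearMap.pi fun i => (f i).comp (LinearMap.proj i)

@[simp]
theorem piDiag_apply {ι : Type v} {M : ι → Type w} [∀ i, AddCommGroup (M i)]
    [∀ i, Module R (M i)] (f : ∀ i, M i →ₗ[R] M i) (x : ∀ i, M i) (i : ι) :
    piDiag R f x i = f i (x i) := rfl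

theorem charpoly_pi_aux (ι : Type v) [Fintype ι] :
    ∀ (M : ι → Type w) [∀ i, AddCommGroup (M i)] [∀ i, Module R (M i)]
      [∀ i, Module.Free R (M i)] [∀ i, Module.Finite R (M i)] (f : ∀ i, M i →ₗ[R] M i),
      (piDiag R f).charpoly = ∏ i, (f i).charpoly := by
  refine Fintype.induction_empty_option
    (P := fun (α : Type v) _ => ∀ (M : α → Type w) [∀ i, AddCommGroup (M i)]
      [∀ i, Module R (M i)] [∀ i, Module.Free R (M i)] [∀ i, Module.Finite R (M i)]
      (f : ∀ i, M i →ₗ[R] M i), (piDiag R f).charpoly = ∏ i, (f i).charpoly) ?_ ?_ ?_ ι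
  · intro α β _ e ih M _ _ _ _ f
    let _ : Fintype α := Fintype.ofEquiv β e.symm
    have h1 := ih (fun a => M (e a)) (fun a => f (e a))
    have h2 : (LinearEquiv.piCongrLeft R M e).conj (piDiag R fun a => f (e a)) = piDiag R f := by
      apply LinearMap.ext
      intro y
      obtain ⟨x, rfl⟩ := (LinearEquiv.piCongrLeft R M e).surjective y
      rw [LinearEquiv.conj_apply_apply, LinearEquiv.symm_apply_apply]
      funext b
      obtain ⟨a, rfl⟩ := e.surjective b
      rw [piDiag_apply]
      show (Equiv.piCongrLeft M e) (piDiag R (fun a => f (e a)) x) (e a)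
        = f (e a) ((Equiv.piCongrLeft M e) x (e a))
      rw [Equiv.piCongrLeft_apply_apply, Equiv.piCongrLeft_apply_apply, piDiag_apply]
    rw [← h2, LinearEquiv.charpoly_conj, h1]
    exact Fintype.prod_equiv e _ _ (fun _ => rfl)
  · intro M _ _ _ _ f
    have : (piDiag R f) = 0 := by
      apply LinearMap.ext
      intro x
      funext i
      exact i.elim
    rcases subsingleton_or_nontrivial R with h | h
    · exact Subsingleton.elim _ _
    · rw [this, LinearMap.charpoly_zero, Module.finrank_zero_of_subsingleton, pow_zero]
      rfl
  · intro α _ ih M _ _ _ _ f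
    have h1 := ih (fun a => M (some a)) (fun a => f (some a))
    have h2 : (LinearEquiv.piOptionEquivProd R (M := M)).symm.conj
        ((f none).prodMap (piDiag R fun a => f (some a))) = piDiag R f := by
      apply LinearMap.ext
      intro y
      rw [LinearEquiv.conj_apply_apply, LinearEquiv.symm_symm]
      apply (LinearEquiv.piOptionEquivProd R (M := M)).injective
      rw [LinearEquiv.apply_symm_apply]
      rfl
    rw [← h2, LinearEquiv.charpoly_conj, LinearMap.charpoly_prodMap, h1, Fintype.prod_option]

/-- The characteristic polynomial of a diagonal endomorphism of a finite product of finite free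
modules is the product of the characteristic polynomials. -/
theorem charpoly_pi {ι : Type v} [Fintype ι] {M : ι → Type w} [∀ i, AddCommGroup (M i)]
    [∀ i, Module R (M i)] [∀ i, Module.Free R (M i)] [∀ i, Module.Finite R (M i)]
    (f : ∀ i, M i →ₗ[R] M i) : (piDiag R f).charpoly = ∏ i, (f i).charpoly :=
  charpoly_pi_aux R ι M f

end Pi

section Lmul

variable {k : Type u} [CommRing k] {R : Type v} [CommRing R] [Algebra k R]
  [Module.Finite k R] [Module.Free k R]

/-- If `x - c` is nilpotent then the characteristic polynomial of multiplication by `x` is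
`(X - c) ^ dim`. -/
theorem charpoly_lmul_of_isNilpotent_sub [IsDomain k] (x : R) (c : k)
    (h : IsNilpotent (x - algebraMap k R c)) :
    (Algebra.lmul k R x).charpoly = (X - C c) ^ Module.finrank k R := by
  have h1 : IsNilpotent (Algebra.lmul k R x - c • (1 : Module.End k R)) := by
    have : Algebra.lmul k R x - c • (1 : Module.End k R)
        = Algebra.lmul k R (x - algebraMap k R c) := by
      apply LinearMap.ext
      intro y
      simp [Algebra.smul_def]
    rw [this]
    exact h.map (Algebra.lmul k R)
  have h2 := IsNilpotent.charpoly_eq_X_pow_finrank h1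
  rw [LinearMap.charpoly_sub_smul] at h2
  have h3 := congrArg (fun q : k[X] => q.comp (X - C c)) h2
  simp only [Polynomial.comp_assoc] at h3
  have h4 : (X + C c : k[X]).comp (X - C c) = X := by simp
  rw [h4, Polynomial.comp_X] at h3
  rw [h3]
  simp

/-- Invariance under algebra isomorphisms. -/
theorem charpoly_lmul_algEquiv {R' : Type w} [CommRing R'] [Algebra k R'] [Module.Finite k R']
    [Module.Free k R'] (e : R ≃ₐ[k] R') (x : R) :
    (Algebra.lmul k R' (e x)).charpoly = (Algebra.lmul k R x).charpoly := by
  have h : e.toLinearEquiv.conj (Algebra.lmul k R x) = Algebra.lmul k R' (e x) := by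
    apply LinearMap.ext
    intro y
    rw [LinearEquiv.conj_apply_apply]
    simp
  rw [← h, LinearEquiv.charpoly_conj]

end Lmul

end Fermat.Agent.Red.NormLoc
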